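import Fermat.Agent.SS.Lower
import Fermat.Agent.Alg.DeligneSerre

/-!
A residual Hecke eigensystem either is killed by a polynomial vanishing at the lower level or lifts
to that level; and it is carried by the torsion of the Jacobian.
-/

set_option autoImplicit false
set_option linter.unusedSectionVars false
set_option linter.style.haveILetI false

noncomputable section

open ModularFormClass
open FLTAgent.Attach (HeckeLattice TFull S2)

namespace FLTAgent.TOR

/-- good primes at which a condition holds -/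
abbrev SubPrime (M p : ℕ) (good : ℕ → Prop) : Type :=
  {x : SS.GoodPrime M p p // good (x.1 : ℕ)}

section Absent

variable {M p : ℕ} [NeZero M] [NeZero p] (a : ℕ → ℤ) (good : ℕ → Prop)

/-- evaluation at a residual eigensystem -/
def evalA : MvPolynomial (SubPrime M p good) ℤ →+* ZMod p :=
  (MvPolynomial.aeval fun x : SubPrime M p good => ((a (x.1.1 : ℕ) : ℤ) : ZMod p)).toRingHom

/-- evaluation in a Hecke algebra -/
def evalSub (N : ℕ) [NeZero N] (hN : N ∣ M * p) :
    MvPolynomial (SubPrime M p good) ℤ →+* TFull N :=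
  (SS.evalT M p p N hN).comp
    (MvPolynomial.rename (Subtype.val : SubPrime M p good → SS.GoodPrime M p p)).toRingHom

theorem evalSub_X (N : ℕ) [NeZero N] (hN : N ∣ M * p) (x : SubPrime M p good) :
    evalSub good N hN (MvPolynomial.X x) =
      CuspForm.heckeAlgebra.T x.1.1.2 (fun h => x.1.2.1 (h.trans hN)) (Set.notMem_empty _) := by
  simp [evalSub, SS.evalT]

/-- either a separating polynomial or an eigenform of the lower level -/
theorem exists_killer_or_form (hp : p.Prime) :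
    (∃ P : MvPolynomial (SubPrime M p good) ℤ,
      evalSub good M (dvd_mul_right M p) P = 0 ∧ evalA a good P ≠ 0) ∨
    ∃ (g : S2 M) (𝔪 : Ideal (integralClosure ℤ ℂ)), g.IsNormalizedEigenform ∧ 𝔪.IsMaximal ∧
      (p : integralClosure ℤ ℂ) ∈ 𝔪 ∧
      ∀ ℓ : ℕ, ℓ.Prime → good ℓ → ¬ ℓ ∣ M → ℓ ≠ p →
        ∃ c : integralClosure ℤ ℂ, (c : ℂ) = qCoeff g ℓ ∧ c - (a ℓ : integralClosure ℤ ℂ) ∈ 𝔪 := by
  classical
  haveI : Fact p.Prime := ⟨hp⟩
  rw [or_iff_not_imp_left]
  intro hcon
  push Not at hcon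
  set e0 := evalSub good M (dvd_mul_right M p) with he0
  have hker : RingHom.ker e0.rangeRestrict ≤ RingHom.ker (evalA a good) := fun P hP => by
    rw [RingHom.mem_ker] at hP ⊢
    exact hcon P (congrArg Subtype.val hP)
  let θ : e0.range →+* ZMod p :=
    RingHom.liftOfSurjective e0.rangeRestrict e0.rangeRestrict_surjective ⟨_, hker⟩
  have hθ : ∀ P, θ (e0.rangeRestrict P) = evalA a good P := fun P =>
    RingHom.liftOfRightInverse_comp_apply _ _ _ ⟨_, hker⟩ P
  haveI := Attach.finite_TFull M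
  haveI : IsNoetherian ℤ (TFull M) := isNoetherian_of_isNoetherianRing_of_finite ℤ _
  haveI : Module.Finite ℤ e0.range := by
    have := (inferInstance : Module.Finite ℤ ↥(AddSubgroup.toIntSubmodule e0.range.toAddSubgroup))
    exact Module.Finite.equiv (LinearEquiv.refl ℤ _ : ↥(AddSubgroup.toIntSubmodule e0.range.toAddSubgroup) ≃ₗ[ℤ] e0.range)
  haveI : Module.IsTorsionFree ℤ (TFull M) := by
    obtain ⟨D⟩ := Attach.exists_heckeLattice M
    exact Function.Injective.moduleIsTorsionFree D.act.toAddMonoidHom.toIntLinearMap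
      D.act_injective (fun _ _ => map_zsmul D.act _ _)
  haveI : Module.IsTorsionFree ℤ e0.range :=
    Function.Injective.moduleIsTorsionFree e0.range.subtype.toAddMonoidHom.toIntLinearMap
      Subtype.val_injective (fun _ _ => map_zsmul e0.range.subtype _ _)
  obtain ⟨χ, 𝔪, hmax, hp𝔪, hχ⟩ := Alg.exists_maximal_lift θ
  obtain ⟨χ0, hχ0⟩ := Attach.exists_extension e0.range.subtype Subtype.val_injective
    ((integralClosure ℤ ℂ).val.toRingHom.comp χ)
  obtain ⟨g, hg, hgc⟩ := SS.exists_eigenform χ0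
  refine ⟨g, 𝔪, hg, hmax, hp𝔪, fun ℓ hℓ hgood hℓM hℓp => ?_⟩
  have hℓN : ¬ ℓ ∣ M * p := fun h => (hℓ.dvd_mul.1 h).elim hℓM
    fun h' => hℓp ((Nat.prime_dvd_prime_iff_eq hℓ hp).1 h')
  let x : SubPrime M p good := ⟨⟨⟨ℓ, hℓ⟩, hℓN, hℓp⟩, hgood⟩
  refine ⟨χ (e0.rangeRestrict (MvPolynomial.X x)), ?_, ?_⟩
  · rw [hgc ℓ hℓ hℓM]
    have h := RingHom.congr_fun hχ0 (e0.rangeRestrict (MvPolynomial.X x))
    rw [RingHom.comp_apply] at h
    refine h.symm.trans ?_
    congr 1
    exact evalSub_X good M (dvd_mul_right M p) x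
  · have h := hχ (e0.rangeRestrict (MvPolynomial.X x - MvPolynomial.C (a ℓ))) (by
      rw [hθ]; simp [evalA, x])
    rwa [map_sub, map_sub, show MvPolynomial.C (a ℓ) = ((a ℓ : ℤ) : MvPolynomial _ ℤ) by simp,
      map_intCast, map_intCast] at h

end Absent

section Torsion

variable {N : ℕ} [NeZero N]

/-- the eigensystem of an eigenform modulo `p` occurs in the `p`-torsion of the Jacobian -/
theorem exists_eigen_torsion (D : HeckeLattice N) {g : S2 N} (hg : g.IsNormalizedEigenform)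
    {p : ℕ} (hp : p.Prime) {𝔪 : Ideal (integralClosure ℤ ℂ)} (h𝔪 : 𝔪.IsMaximal)
    (hp𝔪 : (p : integralClosure ℤ ℂ) ∈ 𝔪) :
    ∃ y : ModularCurve.JZero N, y ≠ 0 ∧ p • y = 0 ∧
      ∀ (ℓ : ℕ) (hℓ : ℓ.Prime), ¬ ℓ ∣ N → ∀ a : ℤ,
        (∃ c : integralClosure ℤ ℂ, (c : ℂ) = qCoeff g ℓ ∧ c - (a : integralClosure ℤ ℂ) ∈ 𝔪) →
          ModularCurve.heckeOperatorBar N ⟨ℓ, hℓ⟩ y = a • y := by
  classical
  haveI : Fact p.Prime := ⟨hp⟩
  obtain ⟨χ, hχ⟩ := Attach.exists_eigenCharacter hg
  let χC : TFull N →+* ℂ := (integralClosure ℤ ℂ).val.toRingHom.comp χ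
  obtain ⟨x, hx, hx0⟩ := (D.eigSub χC).exists_mem_ne_zero_of_ne_bot fun h => by
    have h2 := D.finrank_eigSub_complex χC
    rw [h, finrank_bot] at h2
    norm_num at h2
  -- a valuation ring at the maximal ideal
  obtain ⟨V, hAV, hVI⟩ := Ideal.image_subset_nonunits_valuationSubring
    (A := (integralClosure ℤ ℂ).toSubring) 𝔪 h𝔪.ne_top
  obtain ⟨j0, hj0⟩ : ∃ j, x j ≠ 0 := by
    by_contra hh
    push Not at hh
    exact hx0 (funext hh)
  obtain ⟨i0, -, hmax⟩ := Finset.exists_max_image Finset.univ (fun i => V.valuation (x i))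
    ⟨j0, Finset.mem_univ _⟩
  have hi0 : x i0 ≠ 0 := fun h => by
    have := hmax j0 (Finset.mem_univ _)
    rw [h, map_zero, le_zero_iff, map_eq_zero] at this
    exact hj0 this
  have hint : ∀ i, x i / x i0 ∈ V := fun i => by
    rw [← V.valuation_le_one_iff, map_div₀]
    exact div_le_one_of_le₀ (hmax i (Finset.mem_univ _)) zero_le
  let k := IsLocalRing.ResidueField V
  let x' : D.Idx → V := fun i => ⟨x i / x i0, hint i⟩
  have hpV : IsLocalRing.residue V (p : V) = 0 := by
    rw [IsLocalRing.residue_eq_zero_iff]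
    have h1 : ((p : integralClosure ℤ ℂ) : ℂ) ∈ V.nonunits := hVI ⟨_, hp𝔪, rfl⟩
    obtain ⟨h2, h3⟩ := ValuationSubring.mem_nonunits_iff_exists_mem_maximalIdeal.mp h1
    rw [show (p : V) = ⟨((p : integralClosure ℤ ℂ) : ℂ), h2⟩ from Subtype.ext (by norm_num)]
    exact h3
  haveI : CharP k p := (CharP.charP_iff_prime_eq_zero hp).2 (by rw [← map_natCast (IsLocalRing.residue V)]; exact hpV)
  letI : Algebra (ZMod p) k := ZMod.algebra k p
  obtain ⟨L, hL⟩ : ∃ L : k →ₗ[ZMod p] ZMod p, L 1 = 1 := by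
    obtain ⟨s, hs⟩ := LinearMap.exists_leftInverse_of_injective
      (LinearMap.toSpanSingleton (ZMod p) k 1)
      (LinearMap.ker_eq_bot.mpr fun c c' h => (algebraMap (ZMod p) k).injective (by
        simpa [LinearMap.toSpanSingleton_apply, Algebra.algebraMap_eq_smul_one] using h))
    exact ⟨s, by simpa using LinearMap.congr_fun hs 1⟩
  let z : D.Idx → ZMod p := fun i => L (IsLocalRing.residue V (x' i))
  have hz0 : z i0 = 1 := by
    have : x' i0 = 1 := Subtype.ext (div_self hi0)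
    show L (IsLocalRing.residue V (x' i0)) = 1
    rw [this, map_one, hL]
  let b := Module.Free.chooseBasis ℤ D.Lam
  let v : D.Lam := ∑ i, ((z i).val : ℤ) • b i
  have hrepr : ∀ i, ((b.repr v i : ℤ) : ZMod p) = z i := fun i => by
    rw [show v = ∑ i, ((z i).val : ℤ) • b i from rfl, b.repr_sum_self]
    simp
  have hpp : 0 < p := hp.pos
  refine ⟨D.tors p v, fun h => ?_, D.nsmul_tors hpp v, fun ℓ hℓ hℓN a ⟨c, hc, hca⟩ => ?_⟩
  · obtain ⟨w, hw⟩ := (D.tors_eq_zero_iff p hpp v).1 h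
    have := hrepr i0
    rw [hw, map_zsmul, Finsupp.smul_apply, hz0, smul_eq_mul] at this
    simp at this
  set u : TFull N := CuspForm.heckeAlgebra.T hℓ hℓN (Set.notMem_empty _) - (a : TFull N) with hu
  have hdiff : D.act u = D.T ⟨ℓ, hℓ⟩ - (a : Module.End ℤ D.Lam) := by
    rw [hu, map_sub, map_intCast, D.act_T hℓ hℓN]
  have hχu : IsLocalRing.residue V ⟨χC u, hAV (χ u).2⟩ = 0 := by
    rw [IsLocalRing.residue_eq_zero_iff]
    have hmem : χ u ∈ 𝔪 := by
      rw [hu, map_sub, map_intCast]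
      have : χ (CuspForm.heckeAlgebra.T hℓ hℓN (Set.notMem_empty _)) = c :=
        Subtype.ext ((hχ ℓ hℓ hℓN).trans hc.symm)
      rw [this]; exact hca
    obtain ⟨h2, h3⟩ := ValuationSubring.mem_nonunits_iff_exists_mem_maximalIdeal.mp
      (hVI ⟨_, hmem, rfl⟩)
    exact h3
  have hzero : ∀ i, ((b.repr (D.act u v) i : ℤ) : ZMod p) = 0 := by
    intro i
    have hA : (b.repr (D.act u v) i : ℤ) = ∑ j, LinearMap.toMatrix b b (D.act u) i j * b.repr v j :=
      (congrFun (LinearMap.toMatrix_mulVec_repr b b (D.act u) v) i).symm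
    rw [hA, Int.cast_sum]
    simp only [Int.cast_mul, hrepr]
    have hxV : ∑ j, ((LinearMap.toMatrix b b (D.act u) i j : ℤ) : V) * x' j =
        ⟨χC u, hAV (χ u).2⟩ * x' i := by
      apply Subtype.ext
      have h := congrFun (hx u) i
      simp only [HeckeLattice.mat, Matrix.mulVec, dotProduct, Pi.smul_apply, smul_eq_mul] at h
      push_cast
      simp only [x', mul_div_assoc', ← Finset.sum_div]
      rw [← h]
      rfl
    have h := congrArg (fun w => L (IsLocalRing.residue V w)) hxV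
    simp only [map_sum, map_mul, map_intCast, hχu, zero_mul, map_zero] at h
    rw [← h]
    refine Finset.sum_congr rfl fun j _ => ?_
    rw [← zsmul_eq_mul, ← zsmul_eq_mul, map_zsmul, zsmul_eq_mul]
  have hdvd : D.tors p (D.act u v) = 0 := by
    rw [D.tors_eq_zero_iff p hpp]
    refine ⟨∑ i, (b.repr (D.act u v) i / (p : ℤ)) • b i, ?_⟩
    rw [Finset.smul_sum]
    conv_lhs => rw [← b.sum_repr (D.act u v)]
    refine Finset.sum_congr rfl fun i _ => ?_
    rw [smul_smul, Int.mul_ediv_cancel' ((ZMod.intCast_zmod_eq_zero_iff_dvd _ _).1 (hzero i))]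
  rw [hdiff, LinearMap.sub_apply, map_sub, D.tors_T p hpp, sub_eq_zero,
    Module.End.intCast_apply, map_zsmul] at hdvd
  exact hdvd

end Torsion

end FLTAgent.TOR
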