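import Fermat.Agent.TOR.MazurBLR
import Fermat.Agent.SS2.Transfer
import Fermat.Agent.Attach.HeckeAction
import Fermat.Agent.EllFrob.DetCyc
import Fermat.Prelude.Def_FLTPrelim_ModularRep
import Fermat.Prelude.Def_GaloisRep_ComplexConjugation

/-!
The mod `p` representation of an elliptic curve inside the eigen part of the torsion of `J₀(N)`.
-/

set_option autoImplicit false
set_option linter.unusedSectionVars false
set_option linter.style.haveILetI false

noncomputable section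

open ModularCurve Matrix
open FLTAgent.Attach (GaloisInputs HeckeLattice cyc powerTrace)
open FLTAgent.Torsion (Tors)
open WeierstrassCurve.Affine.Point (galoisTrace galoisRepModuleEnd galoisRepModuleEnd_apply)

namespace FLTAgent.TOR

local notation "GalQ" => AlgebraicClosure ℚ ≃ₐ[ℚ] AlgebraicClosure ℚ

variable {N : ℕ} [NeZero N] {W : WeierstrassCurve ℤ} {p : ℕ}

/-- the torsion classes with the eigenvalues of the curve -/
def eigTors (N : ℕ) [NeZero N] (W : WeierstrassCurve ℤ) (p : ℕ) : AddSubgroup (JZero N) where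
  carrier := {y | p • y = 0 ∧ ∀ (ℓ : ℕ) (hℓ : ℓ.Prime), W.IsGoodPrimeFor ℓ → ¬ ℓ ∣ N → ℓ ≠ p →
    heckeOperatorBar N ⟨ℓ, hℓ⟩ y = W.apOfModel ℓ • y}
  zero_mem' := ⟨smul_zero p, fun ℓ hℓ _ _ _ => by rw [map_zero, zsmul_zero]⟩
  add_mem' := fun {y z} hy hz => ⟨by rw [nsmul_add, hy.1, hz.1, add_zero],
    fun ℓ hℓ h1 h2 h3 => by rw [map_add, hy.2 ℓ hℓ h1 h2 h3, hz.2 ℓ hℓ h1 h2 h3, zsmul_add]⟩
  neg_mem' := fun {y} hy => ⟨by rw [neg_nsmul, hy.1, neg_zero],
    fun ℓ hℓ h1 h2 h3 => by rw [map_neg, hy.2 ℓ hℓ h1 h2 h3, zsmul_neg]⟩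

theorem smul_mem_eigTors (G : GaloisInputs N) (σ : GalQ) {y : JZero N}
    (hy : y ∈ eigTors N W p) : σ • y ∈ eigTors N W p := by
  refine ⟨?_, fun ℓ hℓ h1 h2 h3 => ?_⟩
  · exact (map_nsmul (DistribSMul.toAddMonoidHom (JZero N) σ) p y).symm.trans
      (by rw [hy.1]; exact map_zero _)
  · rw [← G.smul_hecke σ ⟨ℓ, hℓ⟩ y, hy.2 ℓ hℓ h1 h2 h3]
    exact map_zsmul (DistribSMul.toAddMonoidHom (JZero N) σ) _ y

instance eigTorsModule : Module (ZMod p) ↥(eigTors N W p) :=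
  AddCommGroup.zmodModule fun y => Subtype.ext (by simpa using y.2.1)

/-- Galois on the eigen part -/
def eigRep (G : GaloisInputs N) (W : WeierstrassCurve ℤ) (p : ℕ) :
    GalQ →* Module.End (ZMod p) ↥(eigTors N W p) where
  toFun σ := AddMonoidHom.toZModLinearMap p
    { toFun := fun y => ⟨σ • (y : JZero N), smul_mem_eigTors G σ y.2⟩
      map_zero' := Subtype.ext (smul_zero (A := JZero N) σ)
      map_add' := fun y z => Subtype.ext (smul_add σ (y : JZero N) z) }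
  map_one' := LinearMap.ext fun y => Subtype.ext (one_smul GalQ (y : JZero N))
  map_mul' σ τ := LinearMap.ext fun y => Subtype.ext (mul_smul σ τ (y : JZero N))

theorem finrank_Tors (hΔ : W.Δ ≠ 0) [Fact p.Prime] :
    Module.Finite (ZMod p) (Tors W p) ∧ Module.finrank (ZMod p) (Tors W p) = 2 := by
  have hp : p.Prime := Fact.out
  haveI := Torsion.isElliptic_curveBar hΔ
  have hcard : Nat.card (Tors W p) = p ^ 2 :=
    Torsion.natCard_torsionBy (Torsion.curveBar W) p hp.ne_zero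
  haveI : Finite (Tors W p) := Nat.finite_of_card_ne_zero (by rw [hcard]; exact pow_ne_zero _ hp.ne_zero)
  haveI : Module.Finite (ZMod p) (Tors W p) := Module.Finite.of_finite
  refine ⟨inferInstance, ?_⟩
  have h := Module.natCard_eq_pow_finrank (K := ZMod p) (V := Tors W p)
  rw [hcard, Nat.card_zmod] at h
  exact Nat.pow_right_injective hp.two_le h.symm

theorem cyc_conj [Fact p.Prime] (hp2 : p ≠ 2) : cyc p complexConjugation = -1 := by
  refine Attach.cyc_unique _ _ fun z hz => ?_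
  have hp : p.Prime := Fact.out
  have h1 : complexConjugation z = z⁻¹ := by
    refine complexEmbedding.injective ?_
    show complexEmbedding (complexConjugation z) = complexEmbedding z⁻¹
    rw [complexEmbedding_complexConjugation, map_inv₀]
    have hn : ‖complexEmbedding z‖ = 1 := Complex.norm_eq_one_of_pow_eq_one
      (by rw [← map_pow, hz, map_one]) hp.ne_zero
    rw [Complex.inv_def, Complex.normSq_eq_norm_sq, hn]
    simp
  rw [h1]
  refine inv_eq_of_mul_eq_one_right ?_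
  rw [← pow_succ', ZMod.neg_val, if_neg one_ne_zero, ZMod.val_one, Nat.sub_add_cancel hp.one_le, hz]

/-- the representation in a basis where it spans all matrices -/
theorem exists_matrix_rep (hΔ : W.Δ ≠ 0) [Fact p.Prime] (hp2 : p ≠ 2)
    (hirr : W.ModRepIsIrreducible p) :
    ∃ (r : GalQ →* Matrix (Fin 2) (Fin 2) (ZMod p)) (e : Tors W p ≃ₗ[ZMod p] (Fin 2 → ZMod p)),
      Submodule.span (ZMod p) (Set.range r) = ⊤ ∧ (∀ σ x, e (σ • x) = r σ *ᵥ e x) ∧
      (∀ σ, (r σ).trace = galoisTrace ℚ (K := AlgebraicClosure ℚ) (W.map (Int.castRingHom ℚ)) p σ) ∧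
      ∀ σ, (r σ).det = cyc p σ := by
  classical
  obtain ⟨hfin, hrk⟩ := finrank_Tors (p := p) hΔ
  set ρ := galoisRepModuleEnd ℚ (K := AlgebraicClosure ℚ) (W.map (Int.castRingHom ℚ)) p
  have hdet : ∀ σ, LinearMap.det (ρ σ) = cyc p σ := fun σ =>
    congrFun (EllFrob.repDet_eq_cyc hΔ p) σ
  have h2 : (2 : ZMod p) ≠ 0 := by
    intro h
    have h' : p ∣ 2 := (ZMod.natCast_eq_zero_iff 2 p).1 (by exact_mod_cast h)
    exact hp2 ((Nat.prime_dvd_prime_iff_eq Fact.out Nat.prime_two).1 h')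
  obtain ⟨b, hb⟩ := BLR.exists_basis_span_top hrk ρ
    (fun S hS => hirr.2 S (fun σ x hx => hS σ x hx)) h2 (c := complexConjugation)
    (by rw [← map_mul, complexConjugation_mul_self, map_one])
    (by rw [hdet, cyc_conj hp2])
  refine ⟨(LinearMap.toMatrixAlgEquiv b).toMonoidHom.comp ρ, b.equivFun, hb, fun σ x => ?_,
    fun σ => (LinearMap.trace_eq_matrix_trace (ZMod p) b (ρ σ)).symm,
    fun σ => (LinearMap.det_toMatrix b (ρ σ)).trans (hdet σ)⟩
  exact (LinearMap.toMatrix_mulVec_repr b b (ρ σ) x).symm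

/-- the quadratic relations on the eigen part -/
theorem quadratic_eigTors (hΔ : W.Δ ≠ 0) [Fact p.Prime] (D : HeckeLattice N) (G : GaloisInputs N)
    (r : GalQ →* Matrix (Fin 2) (Fin 2) (ZMod p))
    (htr : ∀ σ, (r σ).trace = galoisTrace ℚ (K := AlgebraicClosure ℚ) (W.map (Int.castRingHom ℚ)) p σ)
    (hdet : ∀ σ, (r σ).det = cyc p σ)
    (hker : ∀ σ τ : GalQ, (∀ x : Tors W p, σ • x = τ • x) → r σ = r τ)
    (ρ : GalQ →* Module.End (ZMod p) ↥(eigTors N W p))
    (hρ : ∀ σ y, ((ρ σ y : ↥(eigTors N W p)) : JZero N) = σ • (y : JZero N)) (g : GalQ) :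
    ρ g * ρ g - (r g).trace • ρ g + (r g).det • 1 = 0 := by
  classical
  have hp : p.Prime := Fact.out
  obtain ⟨L1, hL1, h1⟩ := D.exists_tors_level G hp.pos
  obtain ⟨L2, hL2, h2⟩ := EllFrob.exists_torsion_field hΔ p hp.ne_zero
  haveI := hL1; haveI := hL2
  obtain ⟨ℓ, A, τ, k, hℓ, hS, hA, hτ, hagree⟩ := Chebotarev.exists_frobenius_pow (L1 ⊔ L2) g
    (insert p (W.Δ.natAbs.primeFactors ∪ N.primeFactors))
  simp only [Finset.mem_insert, Finset.mem_union, not_or] at hS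
  obtain ⟨hℓp, hℓΔ, hℓN'⟩ := hS
  have hgood : W.IsGoodPrimeFor ℓ := fun h => hℓΔ (Nat.mem_primeFactors.2
    ⟨hℓ, Int.natCast_dvd.1 h, by simpa using hΔ⟩)
  have hℓN : ¬ ℓ ∣ N := fun h => hℓN' (Nat.mem_primeFactors.2 ⟨hℓ, h, NeZero.ne N⟩)
  have hρk : ρ g = ρ τ ^ k := by
    rw [← map_pow]
    refine LinearMap.ext fun y => Subtype.ext ?_
    rw [hρ, hρ]
    obtain ⟨v, hv⟩ := (D.nsmul_eq_zero_iff p hp.pos _).1 y.2.1
    have e := h1 (g⁻¹ * τ ^ k) (fun z hz => by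
      rw [AlgEquiv.mul_apply, hagree z (le_sup_left (b := L2) hz)]
      exact g.symm_apply_apply z) v
    rw [← hv]
    conv_lhs => rw [← e, ← mul_smul, mul_inv_cancel_left]
  have hrk : r g = r τ ^ k := by
    rw [← map_pow]
    exact hker _ _ fun x => h2 g (τ ^ k) (fun z hz => (hagree z (le_sup_right (a := L1) hz)).symm) x
  obtain ⟨e1, e2⟩ := EllFrob.galois_charpoly hℓ hgood hA hτ hp (Ne.symm hℓp)
  have ht : (r τ).trace = (W.apOfModel ℓ : ZMod p) := (htr τ).trans e1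
  have hd : (r τ).det = (ℓ : ZMod p) :=
    (hdet τ).trans (Attach.cyc_frobenius hℓ (fun h => hℓp ((Nat.prime_dvd_prime_iff_eq hℓ hp).1 h)) hA hτ)
  have hfrob : ρ τ * ρ τ - (r τ).trace • ρ τ + (r τ).det • 1 = 0 := by
    refine LinearMap.ext fun y => Subtype.ext ?_
    rw [ht, hd]
    simp only [LinearMap.add_apply, LinearMap.sub_apply, LinearMap.smul_apply,
      Module.End.mul_apply, Module.End.one_apply, LinearMap.zero_apply, AddSubgroup.coe_add,
      AddSubgroup.coe_sub, ZeroMemClass.coe_zero, Int.cast_smul_eq_zsmul, Nat.cast_smul_eq_nsmul,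
      AddSubgroupClass.coe_zsmul, AddSubmonoidClass.coe_nsmul, hρ]
    have hy2 := smul_mem_eigTors G τ y.2
    rw [← hy2.2 ℓ hℓ hgood hℓN hℓp]
    exact G.frobenius_quadratic ℓ hℓ hℓN A hA τ hτ y
      ⟨p, hp.pos, fun h => hℓp ((Nat.prime_dvd_prime_iff_eq hℓ hp).1 h), y.2.1⟩
  rw [hρk, hrk, Matrix.det_pow, SS2.trace_pow_fin_two]
  exact SS2.quadratic_pow hfrob k

/-- the curve's torsion inside the Jacobian -/
theorem exists_embedding (hΔ : W.Δ ≠ 0) (hp : p.Prime) (hp2 : p ≠ 2)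
    (hirr : W.ModRepIsIrreducible p) (D : HeckeLattice N) (G : GaloisInputs N) {y0 : JZero N}
    (hy0 : y0 ≠ 0) (hy0' : y0 ∈ eigTors N W p) :
    ∃ ι : Tors W p →+ JZero N, Function.Injective ι ∧ (∀ (σ : GalQ) x, ι (σ • x) = σ • ι x) ∧
      ∀ x, ι x ∈ eigTors N W p := by
  classical
  haveI : Fact p.Prime := ⟨hp⟩
  haveI : Nontrivial ↥(eigTors N W p) := ⟨⟨⟨y0, hy0'⟩, 0, fun h => hy0 (congrArg Subtype.val h)⟩⟩
  let ρ := eigRep G W p
  obtain ⟨r, e, hspan, he, htr, hdet⟩ := exists_matrix_rep (p := p) hΔ hp2 hirr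
  have hker : ∀ σ τ : GalQ, (∀ x : Tors W p, σ • x = τ • x) → r σ = r τ := fun σ τ h => by
    refine Matrix.ext_of_mulVec_single fun j => ?_
    obtain ⟨x, hx⟩ := e.surjective (Pi.single j 1)
    rw [← hx, ← he, ← he, h]
  have h2 : (2 : ZMod p) ≠ 0 := by
    intro h
    have h' : p ∣ 2 := (ZMod.natCast_eq_zero_iff 2 p).1 (by exact_mod_cast h)
    exact hp2 ((Nat.prime_dvd_prime_iff_eq hp Nat.prime_two).1 h')
  obtain ⟨ι, hι, hιe⟩ := BLR.exists_embedding (ρ := ρ) hspan h2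
    (quadratic_eigTors hΔ D G r htr hdet hker ρ fun _ _ => rfl)
  refine ⟨(eigTors N W p).subtype.comp (ι.toAddMonoidHom.comp e.toLinearMap.toAddMonoidHom),
    fun x y h => e.injective (hι (Subtype.ext h)), fun σ x => ?_, fun x => (ι (e x)).2⟩
  show ((ι (e (σ • x)) : ↥(eigTors N W p)) : JZero N) = σ • ((ι (e x) : ↥(eigTors N W p)) : JZero N)
  rw [he, hιe]
  rfl

/-- infinitely many primes at which the representation is not Eisenstein -/
theorem exists_prime_trace_ne (hΔ : W.Δ ≠ 0) (hp : p.Prime) (hp2 : p ≠ 2)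
    (hirr : W.ModRepIsIrreducible p) (S : Finset ℕ) :
    ∃ ℓ, ℓ.Prime ∧ ℓ ∉ S ∧ W.IsGoodPrimeFor ℓ ∧ ℓ ≠ p ∧
      ¬ (p : ℤ) ∣ W.apOfModel ℓ - (ℓ + 1) := by
  classical
  haveI : Fact p.Prime := ⟨hp⟩
  obtain ⟨r, e, hspan, he, htr, hdet⟩ := exists_matrix_rep (p := p) hΔ hp2 hirr
  have h2 : (2 : ZMod p) ≠ 0 := by
    intro h
    have h' : p ∣ 2 := (ZMod.natCast_eq_zero_iff 2 p).1 (by exact_mod_cast h)
    exact hp2 ((Nat.prime_dvd_prime_iff_eq hp Nat.prime_two).1 h')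
  by_contra hcon
  push Not at hcon
  obtain ⟨g, hg⟩ := BLR.exists_trace_ne hspan h2
  obtain ⟨L2, hL2, hfix⟩ := EllFrob.exists_torsion_field hΔ p hp.ne_zero
  haveI := hL2
  obtain ⟨ℓ, A, τ, k, hℓ, hS, hA, hτ, hagree⟩ := Chebotarev.exists_frobenius_pow L2 g
    (insert p (W.Δ.natAbs.primeFactors ∪ S))
  simp only [Finset.mem_insert, Finset.mem_union, not_or] at hS
  obtain ⟨hℓp, hℓΔ, hℓS⟩ := hS
  have hgood : W.IsGoodPrimeFor ℓ := fun h => hℓΔ (Nat.mem_primeFactors.2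
    ⟨hℓ, Int.natCast_dvd.1 h, by simpa using hΔ⟩)
  have hrk : r g = r τ ^ k := by
    rw [← map_pow]
    refine Matrix.ext_of_mulVec_single fun j => ?_
    obtain ⟨x, hx⟩ := e.surjective (Pi.single j 1)
    rw [← hx, ← he, ← he, hfix g (τ ^ k) (fun z hz => (hagree z hz).symm)]
  obtain ⟨e1, e2⟩ := EllFrob.galois_charpoly hℓ hgood hA hτ hp (Ne.symm hℓp)
  have ht : (r τ).trace = 1 + (ℓ : ZMod p) := by
    rw [htr, e1, add_comm, ← sub_eq_zero]
    have := (ZMod.intCast_zmod_eq_zero_iff_dvd _ p).2 (hcon ℓ hℓ hℓS hgood hℓp)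
    push_cast at this
    exact this
  have hd : (r τ).det = (ℓ : ZMod p) :=
    (hdet τ).trans (Attach.cyc_frobenius hℓ (fun h => hℓp ((Nat.prime_dvd_prime_iff_eq hℓ hp).1 h)) hA hτ)
  refine hg ?_
  rw [hrk, Matrix.det_pow, SS2.trace_pow_fin_two, ht, hd]
  clear hrk hagree
  induction k using Nat.twoStepInduction with
  | zero => simp [powerTrace, one_add_one_eq_two]
  | one => simp [powerTrace]
  | more j ih1 ih2 =>
    rw [powerTrace]
    linear_combination (1 + (ℓ : ZMod p)) * ih2 - (ℓ : ZMod p) * ih1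

end FLTAgent.TOR
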