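import Fermat.Agent.TOR.Toric
import Fermat.Agent.SS.Jump
import Fermat.Agent.SS.Count

/-!
The classes of order `n` with a representative twist form a group; an automorphism inducing the
identity on both components moves a class of order `n` by one of them; and a class of order `p`
among those of level `p ^ (j + 1)` is one of level `p`.
-/

set_option autoImplicit false
set_option linter.unusedSectionVars false
set_option linter.style.haveILetI false

noncomputable section

open AlgebraicCurve IsLocalRing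

namespace FLTAgent.TOR

variable {K : Type*} [Field K] [IsAlgClosed K] [CharZero K] {A : ValuationSubring K}
  {F : Type*} [Field F] [Algebra K F] [RR.FnField K F]
  {Fs : Type*} [Field Fs] [Algebra (ResidueField A) Fs]

local notation "𝕜" => ResidueField A
local notation "ι'" => algebraMap K F

/-- the classes with a representative twist -/
def kerR (C : SS.Core K A F Fs) (n : ℕ) : AddSubgroup (Pic0 K F) where
  carrier := {y | KerR C n y}
  add_mem' := by
    rintro _ _ ⟨R, rfl⟩ ⟨R', rfl⟩
    exact ⟨R.mul R', rfl⟩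
  zero_mem' := ⟨C.trivialRep n, rfl⟩
  neg_mem' := by
    rintro _ ⟨R, rfl⟩
    exact ⟨R.inv, rfl⟩

theorem mem_kerR {C : SS.Core K A F Fs} {n : ℕ} {y : Pic0 K F} : y ∈ kerR C n ↔ KerR C n y :=
  Iff.rfl

/-- a trivialisation of a multiple of a class killed by it -/
theorem exists_trivialisation {n : ℕ} {E : Divisor.degZero (K := K) (F := F)}
    (h : n • (Pic0.mk E : Pic0 K F) = 0) :
    ∃ f : F, f ≠ 0 ∧ ∀ P : Place K F, (n : ℤ) * (E : Divisor K F) P = P.ord f := by
  have hp : (n • E : Divisor.degZero (K := K) (F := F)).1 ∈ Divisor.principal (K := K) (F := F) := by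
    have h' : (QuotientAddGroup.mk' _) (n • E) = (0 : Pic0 K F) := by
      rw [map_nsmul]; exact h
    rwa [QuotientAddGroup.mk'_apply, QuotientAddGroup.eq_zero_iff, AddSubgroup.mem_addSubgroupOf]
      at h'
  obtain ⟨f, hf, hfE⟩ := hp
  exact ⟨f, hf, fun P => by rw [← hfE P]; simp⟩

/-- two functions with the same divisor differ by a constant -/
theorem exists_const_of_ord_eq {f g : F} (hf : f ≠ 0) (hg : g ≠ 0)
    (h : ∀ P : Place K F, P.ord f = P.ord g) : ∃ c : K, c ≠ 0 ∧ f = ι' c * g := by
  rcases RR.exists_const_or_transcendental (K := K) (f * g⁻¹) with ⟨c, hc⟩ | htr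
  · refine ⟨c, fun h0 => ?_, by rw [hc, inv_mul_cancel_right₀ hg]⟩
    rw [h0, map_zero, eq_comm, mul_eq_zero, inv_eq_zero] at hc
    exact hc.elim hf hg
  · exfalso
    have h1 := RR.sum_ord_poles (K := K) htr ∅ fun v => by
      simp [v.ord_mul hf (inv_ne_zero hg), v.ord_inv, h v]
    have h2 := RR.ndeg_pos (K := K) htr
    rw [Finset.sum_empty] at h1
    omega

/-- what induces the identity on both components moves classes of order `n` by such classes -/
theorem smul_sub_mem_kerR (C : SS.Core K A F Fs) {n : ℕ} (hn : n ≠ 0) {y : Pic0 K F}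
    (hy : n • y = 0) {g : SemilinearAut K F} (hg : SS.Compat C g (RingEquiv.refl Fs)) :
    g • y - y ∈ kerR C n := by
  obtain ⟨E, rfl⟩ := Pic0.mk_surjective y
  obtain ⟨f, hf, hord⟩ := exists_trivialisation hy
  choose c hc hu hur using fun b => C.exists_scale b f hf
  choose α hα using fun b =>
    IsAlgClosed.exists_pow_nat_eq (c b / SemilinearAut.baseAut g (c b)) (Nat.pos_of_ne_zero hn)
  have hgc : ∀ b, SemilinearAut.baseAut g (c b) ≠ 0 := fun b => (_root_.map_ne_zero _).mpr (hc b)
  have hgf : g • f ≠ 0 := (smul_ne_zero_iff_ne g).mpr hf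
  have hq : ∀ b, (ι' (α b ^ n))⁻¹ * (g • f / f) = (g • (ι' (c b) * f)) * (ι' (c b) * f)⁻¹ := by
    intro b
    rw [hα, map_div₀, inv_div, smul_mul', SemilinearAut.smul_algebraMap, mul_inv,
      div_eq_mul_inv, div_eq_mul_inv]
    ring
  refine ⟨
    { E := g • (E : Divisor K F) - (E : Divisor K F)
      f := g • f / f
      α := α
      h := 1
      degree_E := by rw [map_sub, SemilinearAut.degree_smul, sub_self]
      f_ne := div_ne_zero hgf hf
      ord_f := fun P => by
        have h1 := SemilinearAut.ord_smul g (g⁻¹ • P) f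
        rw [smul_inv_smul] at h1
        rw [div_eq_mul_inv, P.ord_mul hgf (inv_ne_zero hf), P.ord_inv, h1, ← hord, ← hord P,
          Finsupp.sub_apply, SemilinearAut.divisor_smul_apply]
        ring
      α_ne := fun b h0 => by
        have := hα b
        rw [h0, zero_pow hn, eq_comm, div_eq_zero_iff] at this
        exact this.elim (hc b) (hgc b)
      h_ne := fun b => one_ne_zero
      mem := fun b => by
        rw [hq b]
        exact mul_mem (hg.mem b _ (hu b)) (C.inv_mem b (hu b) (hur b)).1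
      red_eq := fun b => by
        rw [hq b, C.red_mul b _ (hg.mem b _ (hu b)) _ (C.inv_mem b (hu b) (hur b)).1,
          hg.red b _ (hu b), (C.inv_mem b (hu b) (hur b)).2, RingEquiv.refl_apply,
          mul_inv_cancel₀ (hur b), Pi.one_apply, one_pow] }, ?_⟩
  rw [SemilinearAut.pic0_smul_mk]
  rfl

/-- at residue characteristic `p`, classes of order `p` of level `p ^ (j + 1)` are of level `p` -/
theorem kerR_descend [IsAlgClosed 𝕜] {p : ℕ} (hp : p.Prime) [CharP 𝕜 p] (C : SS.Core K A F Fs)
    (j : ℕ) {z : Pic0 K F} (hz : z ∈ kerR C (p ^ (j + 1))) (hpz : p • z = 0) :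
    z ∈ kerR C p := by
  haveI := Fact.mk hp
  haveI : ExpChar Fs p := by
    haveI := charP_of_injective_algebraMap (algebraMap 𝕜 Fs).injective p
    exact ExpChar.prime hp
  obtain ⟨R, rfl⟩ := hz
  obtain ⟨g, hg, hgE⟩ := exists_trivialisation (E := ⟨R.E, Divisor.mem_degZero.mpr R.degree_E⟩) hpz
  obtain ⟨c₀, hc₀, hfg⟩ := exists_const_of_ord_eq (K := K) R.f_ne (pow_ne_zero (p ^ j) hg) fun P => by
    rw [← R.ord_f, RR.ord_pow, ← hgE P]
    show ((p ^ (j + 1) : ℕ) : ℤ) * R.E P = ((p ^ j : ℕ) : ℤ) * ((p : ℤ) * R.E P)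
    push_cast
    ring
  choose c hc hu hur using fun b => C.exists_scale b g hg
  choose α hα using fun b => IsAlgClosed.exists_pow_nat_eq (c b)⁻¹ hp.pos
  have key : ∀ b, ∃ e : 𝕜, C.red b (ι' (c b) * g) = (algebraMap 𝕜 Fs e * R.h b) ^ p := by
    intro b
    set d : K := c₀ / (R.α b ^ p ^ (j + 1) * c b ^ p ^ j) with hd
    have h1 : (ι' (R.α b ^ p ^ (j + 1)))⁻¹ * R.f = ι' d * (ι' (c b) * g) ^ p ^ j := by
      rw [hfg, hd, map_div₀, map_mul, map_pow ι' (c b), mul_pow]
      field_simp [pow_ne_zero (p ^ j) ((_root_.map_ne_zero ι').mpr (hc b))]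
    have hum := pow_mem (hu b) (p ^ j)
    have hur' : C.red b ((ι' (c b) * g) ^ p ^ j) ≠ 0 := by
      rw [C.red_pow b (hu b)]; exact pow_ne_zero _ (hur b)
    have hdA : d ∈ A := C.mem_of_unit_mul b hum hur' (h1 ▸ R.mem b)
    have h2 : algebraMap 𝕜 Fs (residue A ⟨d, hdA⟩) * C.red b (ι' (c b) * g) ^ p ^ j
        = R.h b ^ p ^ (j + 1) := by
      rw [← R.red_eq b, h1, show ι' d = ι' ((⟨d, hdA⟩ : A) : K) from rfl,
        C.red_const_mul b ⟨d, hdA⟩ hum, C.red_pow b (hu b), Algebra.smul_def]
    have hd0 : residue A ⟨d, hdA⟩ ≠ 0 := fun h0 => by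
      rw [h0, map_zero, zero_mul] at h2
      exact pow_ne_zero _ (R.h_ne b) h2.symm
    obtain ⟨e, he⟩ := IsAlgClosed.exists_pow_nat_eq (residue A ⟨d, hdA⟩)⁻¹
      (pow_pos hp.pos (j + 1))
    refine ⟨e, iterateFrobenius_inj Fs p j ?_⟩
    rw [iterateFrobenius_def, iterateFrobenius_def, ← pow_mul, ← pow_succ', mul_pow, ← map_pow,
      he, map_inv₀, ← h2, inv_mul_cancel_left₀ ((_root_.map_ne_zero _).mpr hd0)]
  choose e he using key
  have hq : ∀ b, (ι' (α b ^ p))⁻¹ * g = ι' (c b) * g := fun b => by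
    rw [hα, map_inv₀, inv_inv]
  exact ⟨
    { E := R.E
      f := g
      α := α
      h := fun b => algebraMap 𝕜 Fs (e b) * R.h b
      degree_E := R.degree_E
      f_ne := hg
      ord_f := fun P => hgE P
      α_ne := fun b h0 => by
        have := hα b
        rw [h0, zero_pow hp.ne_zero, eq_comm, inv_eq_zero] at this
        exact hc b this
      h_ne := fun b h0 => by
        have h1 := hur b
        rw [he b, h0, zero_pow hp.ne_zero] at h1
        exact h1 rfl
      mem := fun b => by rw [hq b]; exact hu b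
      red_eq := fun b => by rw [hq b]; exact he b }, rfl⟩

end FLTAgent.TOR

end
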