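import Fermat.Agent.SS2.Hasse
import Fermat.Agent.SS.FibreData
import Fermat.Agent.Reduction.Norm
import Fermat.Agent.Flat.Residual

/-!
The correspondence `T_ℓ` on residual functions: `g ↦ g(q^ℓ) ∏ g(ζ^i q^(1/ℓ))`.
-/

set_option autoImplicit false
set_option linter.unusedSectionVars false
set_option synthInstance.maxHeartbeats 200000
set_option linter.style.haveILetI false

noncomputable section

open ModularCurve AlgebraicCurve IsLocalRing
open FLTAgent.Reduction (Qb kA FB FS Ctx GR GR redS red twist normBeta dn up qExpand_normBeta)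
open FLTAgent.SS2 (theta)

namespace FLTAgent.TOR

/-- the product of the conjugates, after `q ↦ q^ℓ` -/
def tlS {R : Type*} [CommRing R] (ℓ : ℕ) [NeZero ℓ] (u : Rˣ) : LaurentSeries R →* LaurentSeries R where
  toFun g := qExpand R ℓ (qExpand R ℓ g) * ∏ i : Fin ℓ, twist (u ^ (i : ℕ)) g
  map_one' := by simp
  map_mul' x y := by
    simp only [map_mul, Finset.prod_mul_distrib]
    ring

theorem tlS_apply {R : Type*} [CommRing R] (ℓ : ℕ) [NeZero ℓ] (u : Rˣ) (g : LaurentSeries R) :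
    tlS ℓ u g = qExpand R ℓ (qExpand R ℓ g) * ∏ i : Fin ℓ, twist (u ^ (i : ℕ)) g := rfl

theorem coeffMap_tlS {R S : Type*} [CommRing R] [CommRing S] (φ : R →+* S) (ℓ : ℕ) [NeZero ℓ]
    (u : Rˣ) (g : LaurentSeries R) :
    coeffMap φ (tlS ℓ u g) = tlS ℓ (Units.map (φ : R →* S) u) (coeffMap φ g) := by
  rw [tlS_apply, tlS_apply, map_mul, map_prod, coeffMap_qExpand, coeffMap_qExpand]
  refine congrArg _ (Finset.prod_congr rfl fun i _ => ?_)
  rw [Reduction.coeffMap_twist, map_pow]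

theorem twist_injective {R : Type*} [CommRing R] (u : Rˣ) :
    Function.Injective (twist u) := fun x y h => by
  ext n
  have := congrArg (fun s : LaurentSeries R => s.coeff n) h
  simpa [Reduction.twist_coeff] using this

theorem tlS_ne_zero {R : Type*} [CommRing R] [IsDomain R] {ℓ : ℕ} [NeZero ℓ] (u : Rˣ)
    {g : LaurentSeries R} (hg : g ≠ 0) : tlS ℓ u g ≠ 0 := by
  refine mul_ne_zero (fun h => hg ?_) (Finset.prod_ne_zero_iff.mpr fun i _ h => hg ?_)
  · exact qExpand_injective (R := R) (N := ℓ)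
      ((qExpand_injective (R := R) (N := ℓ) (h.trans (map_zero _).symm)).trans (map_zero _).symm)
  · exact twist_injective _ (h.trans (map_zero _).symm)

theorem twist_tlS {R : Type*} [CommRing R] (ℓ : ℕ) [NeZero ℓ] {u : Rˣ} (hu : u ^ ℓ = 1)
    (g : LaurentSeries R) : twist u (tlS ℓ u g) = tlS ℓ u g := by
  obtain ⟨l, rfl⟩ : ∃ l, ℓ = l + 1 := ⟨ℓ - 1, (Nat.sub_add_cancel (NeZero.one_le)).symm⟩
  rw [tlS_apply, map_mul, map_prod, Reduction.twist_qExpand _ _ hu]
  refine congrArg _ ?_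
  have hcomp : ∀ i : ℕ, twist u (twist (u ^ i) g) = twist (u ^ (i + 1)) g := fun i => by
    ext n
    rw [Reduction.twist_coeff, Reduction.twist_coeff, Reduction.twist_coeff, ← mul_assoc,
      ← Units.val_mul, ← mul_zpow, ← pow_succ']
  simp only [hcomp]
  refine Fintype.prod_equiv (finRotate (l + 1)) _ _ fun i => ?_
  rw [coe_finRotate]
  split_ifs with h
  · subst h
    rw [Fin.val_last, hu, pow_zero]
  · rfl

/-- a series with coefficients in an integral domain fixed by a twist of exact order `ℓ` -/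
theorem coeff_eq_zero_of_twist {R : Type*} [CommRing R] [IsDomain R] {ℓ : ℕ} {u : Rˣ}
    (hu : IsPrimitiveRoot u ℓ) {H : LaurentSeries R} (h : twist u H = H) {k : ℤ}
    (hk : ¬ (ℓ : ℤ) ∣ k) : H.coeff k = 0 := by
  have h1 := congrArg (fun s : LaurentSeries R => s.coeff k) h
  simp only [Reduction.twist_coeff] at h1
  by_contra h0
  refine hk ((hu.zpow_eq_one_iff_dvd k).mp (Units.ext ?_))
  exact mul_right_cancel₀ h0 (h1.trans (one_mul _).symm)

section Residue

variable {A : ValuationSubring Qb} {ℓ : ℕ} [NeZero ℓ]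

/-- the residue of a unit -/
abbrev uk (u : Aˣ) : (kA A)ˣ := Units.map (residue A : A →* kA A) u

theorem redS_normBeta {N : ℕ} [NeZero N] (hℓ : ℓ.Prime) (hℓN : ¬ ℓ ∣ N) {u : Aˣ}
    (hu : IsPrimitiveRoot u ℓ) {f : FB N} (hf : f ∈ GR A N) :
    normBeta N ℓ f ∈ GR A N ∧
      qExpand (kA A) ℓ (redS A N (normBeta N ℓ f)) = tlS ℓ (uk u) (redS A N f) := by
  obtain ⟨G, H, hH, h⟩ := hf
  set uQ : Qbˣ := Units.map (A.subtype : A →* Qb) u
  have huQ : IsPrimitiveRoot uQ ℓ :=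
    hu.map_of_injective (Units.map_injective A.subtype_injective)
  have hdiv : ∀ (X : LaurentSeries A), ∀ k : ℤ, ¬ (ℓ : ℤ) ∣ k → (tlS ℓ u X).coeff k = 0 :=
    fun X k hk => coeff_eq_zero_of_twist hu (twist_tlS ℓ hu.pow_eq_one X) hk
  have e : ((normBeta N ℓ f : FB N) : LaurentSeries Qb) * up A (Reduction.deflate ℓ (tlS ℓ u H)) =
      up A (Reduction.deflate ℓ (tlS ℓ u G)) := by
    refine qExpand_injective (R := Qb) (N := ℓ) ?_
    rw [map_mul, up, ← coeffMap_qExpand, ← coeffMap_qExpand, Reduction.qExpand_deflate ℓ _ (hdiv H),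
      Reduction.qExpand_deflate ℓ _ (hdiv G), qExpand_normBeta hℓ hℓN huQ, ← tlS_apply,
      coeffMap_tlS, coeffMap_tlS, ← map_mul, h]
  have hdn : ∀ X : LaurentSeries A, qExpand (kA A) ℓ (dn A (Reduction.deflate ℓ (tlS ℓ u X))) =
      tlS ℓ (uk u) (dn A X) := fun X => by
    rw [dn, ← coeffMap_qExpand, Reduction.qExpand_deflate ℓ _ (hdiv X), coeffMap_tlS]
  have hne : dn A (Reduction.deflate ℓ (tlS ℓ u H)) ≠ 0 := fun h0 =>
    tlS_ne_zero (uk u) hH (by rw [← hdn H, h0, map_zero])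
  refine ⟨⟨_, _, hne, e⟩, ?_⟩
  rw [Reduction.redS_eq hH h, Reduction.redS_eq hne e, map_div₀, hdn, hdn]
  refine div_eq_of_eq_mul (tlS_ne_zero _ hH) ?_
  rw [← map_mul, div_mul_cancel₀ _ hH]

/-- `h` is the image of `g` -/
def IsTl {M : ℕ} [NeZero M] (u : Aˣ) (ℓ : ℕ) [NeZero ℓ] (g h : FS A M) : Prop :=
  qExpand (kA A) ℓ (h : LaurentSeries (kA A)) = tlS ℓ (uk u) (g : LaurentSeries (kA A))

variable {M : ℕ} [NeZero M] {u : Aˣ}

theorem IsTl.unique {g h h' : FS A M} (a : IsTl u ℓ g h) (b : IsTl u ℓ g h') : h = h' :=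
  Subtype.ext (qExpand_injective (R := kA A) (N := ℓ) (a.trans b.symm))

theorem IsTl.mul {g g' h h' : FS A M} (a : IsTl u ℓ g h) (b : IsTl u ℓ g' h') :
    IsTl u ℓ (g * g') (h * h') := by
  rw [IsTl, MulMemClass.coe_mul, MulMemClass.coe_mul, map_mul, map_mul, a, b]

theorem IsTl.one : IsTl u ℓ (1 : FS A M) 1 := by
  rw [IsTl, OneMemClass.coe_one, map_one, map_one]

theorem IsTl.pow {g h : FS A M} (a : IsTl u ℓ g h) : ∀ n : ℕ, IsTl u ℓ (g ^ n) (h ^ n)
  | 0 => by simpa using IsTl.one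
  | n + 1 => by rw [pow_succ, pow_succ]; exact (IsTl.pow a n).mul a

theorem IsTl.inv {g h : FS A M} (hg : g ≠ 0) (a : IsTl u ℓ g h) : IsTl u ℓ g⁻¹ h⁻¹ := by
  rw [IsTl, IntermediateField.coe_inv, IntermediateField.coe_inv, map_inv₀, a]
  refine (eq_inv_of_mul_eq_one_left ?_).symm
  rw [← map_mul, inv_mul_cancel₀ (fun h0 => hg (Subtype.ext (by simpa using h0))), map_one]

theorem IsTl.zpow {g h : FS A M} (hg : g ≠ 0) (a : IsTl u ℓ g h) (n : ℤ) :
    IsTl u ℓ (g ^ n) (h ^ n) := by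
  obtain ⟨m, rfl | rfl⟩ := Int.eq_nat_or_neg n
  · simpa using a.pow m
  · rw [_root_.zpow_neg, _root_.zpow_neg, zpow_natCast, zpow_natCast]
    exact IsTl.inv (pow_ne_zero m hg) (a.pow m)

theorem IsTl.ne_zero {g h : FS A M} (hg : g ≠ 0) (a : IsTl u ℓ g h) : h ≠ 0 := fun h0 => by
  rw [IsTl, h0, ZeroMemClass.coe_zero, map_zero] at a
  exact tlS_ne_zero _ (fun e => hg (Subtype.ext e)) a.symm

/-- the image exists and is the residue of the norm of a lift -/
theorem isTl_red {p : ℕ} [NeZero p] (C : Ctx A M p) (hℓ : ℓ.Prime) (hℓM : ¬ ℓ ∣ M)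
    (hu : IsPrimitiveRoot u ℓ) {x : FB M} (hx : x ∈ GR A M) :
    normBeta M ℓ x ∈ GR A M ∧ IsTl u ℓ (red A M x) (red A M (normBeta M ℓ x)) := by
  obtain ⟨h1, h2⟩ := redS_normBeta hℓ hℓM hu hx
  refine ⟨h1, ?_⟩
  rw [IsTl, Reduction.coe_red C h1, Reduction.coe_red C hx]
  exact h2

theorem exists_isTl {p : ℕ} [NeZero p] (C : Ctx A M p) (hℓ : ℓ.Prime) (hℓM : ¬ ℓ ∣ M)
    (hu : IsPrimitiveRoot u ℓ) (g : FS A M) : ∃ h, IsTl u ℓ g h := by
  rcases eq_or_ne g 0 with rfl | hg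
  · refine ⟨0, ?_⟩
    rw [IsTl, ZeroMemClass.coe_zero, map_zero, tlS_apply, map_zero, map_zero, zero_mul]
  obtain ⟨y, hy, rfl⟩ := Flat.exists_UG_lift C hg
  exact ⟨_, (isTl_red C hℓ hℓM hu hy.1).2⟩

/-- logarithmic derivative of a series -/
def lth {K : Type*} [Field K] (g : LaurentSeries K) : LaurentSeries K := theta g / g

theorem lth_mul {K : Type*} [Field K] {f g : LaurentSeries K} (hf : f ≠ 0) (hg : g ≠ 0) :
    lth (f * g) = lth f + lth g := by
  rw [lth, lth, lth, SS2.theta_mul]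
  field_simp

theorem lth_prod {K : Type*} [Field K] {ι : Type*} (s : Finset ι) (f : ι → LaurentSeries K)
    (hf : ∀ i ∈ s, f i ≠ 0) : lth (∏ i ∈ s, f i) = ∑ i ∈ s, lth (f i) := by
  classical
  induction s using Finset.induction_on with
  | empty =>
    have h1 : theta (1 : LaurentSeries K) = 0 := by
      rw [← map_one (algebraMap K (LaurentSeries K)), SS2.theta_const]
    simp [lth, h1]
  | insert a s ha ih =>
    rw [Finset.prod_insert ha, Finset.sum_insert ha, lth_mul (hf a (by simp))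
      (Finset.prod_ne_zero_iff.mpr fun i hi => hf i (by simp [hi])),
      ih fun i hi => hf i (by simp [hi])]

theorem lth_twist {K : Type*} [Field K] (v : Kˣ) (g : LaurentSeries K) :
    lth (twist v g) = twist v (lth g) := by
  have h : theta (twist v g) = twist v (theta g) := by
    ext n
    simp only [SS2.coeff_theta, Reduction.twist_coeff]
    ring
  rw [lth, lth, h, map_div₀]

theorem lth_qExpand {K : Type*} [Field K] (n : ℕ) [NeZero n] (g : LaurentSeries K) :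
    lth (qExpand K n g) = (n : LaurentSeries K) * qExpand K n (lth g) := by
  rw [lth, lth, SS2.theta_qExpand, map_div₀, mul_div_assoc]

/-- `T_ℓ` on logarithmic derivatives is the usual operator on the coefficients -/
theorem coeff_lth_isTl (hℓk : (ℓ : kA A) ≠ 0) (hℓ : ℓ.Prime) (hu : IsPrimitiveRoot (uk u) ℓ)
    {g h : FS A M} (hg : g ≠ 0) (a : IsTl u ℓ g h) (n : ℤ) :
    (lth (h : LaurentSeries (kA A))).coeff n =
      (lth (g : LaurentSeries (kA A))).coeff (n * ℓ) +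
        if (ℓ : ℤ) ∣ n then (ℓ : kA A) * (lth (g : LaurentSeries (kA A))).coeff (n / ℓ) else 0 := by
  set γ : LaurentSeries (kA A) := (g : LaurentSeries (kA A))
  have hγ : γ ≠ 0 := fun h0 => hg (Subtype.ext h0)
  have hqq : qExpand (kA A) ℓ (qExpand (kA A) ℓ γ) ≠ 0 := fun h0 => hγ
    (qExpand_injective (R := kA A) (N := ℓ)
      ((qExpand_injective (R := kA A) (N := ℓ) (h0.trans (map_zero _).symm)).trans (map_zero _).symm))
  have htw : ∀ i : Fin ℓ, twist (uk u ^ (i : ℕ)) γ ≠ 0 := fun i h0 =>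
    hγ (twist_injective _ (h0.trans (map_zero _).symm))
  have e := congrArg (fun s => (lth s).coeff ((ℓ : ℤ) * n)) a
  simp only [tlS_apply] at e
  rw [lth_mul hqq (Finset.prod_ne_zero_iff.mpr fun i _ => htw i), lth_prod _ _ (fun i _ => htw i),
    lth_qExpand, lth_qExpand, lth_qExpand, map_mul, map_natCast, HahnSeries.coeff_add,
    HahnSeries.coeff_sum] at e
  have hnat : ∀ s : LaurentSeries (kA A), ∀ k : ℤ,
      ((ℓ : LaurentSeries (kA A)) * s).coeff k = (ℓ : kA A) * s.coeff k := fun s k => by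
    rw [← map_natCast (HahnSeries.C : kA A →+* LaurentSeries (kA A)) ℓ, HahnSeries.C_apply,
      HahnSeries.coeff_single_zero_mul]
  simp only [hnat, lth_twist, qExpand_coeff_mul, Reduction.twist_coeff] at e
  have hone : ∀ i : Fin ℓ, (((uk u ^ (i : ℕ)) ^ ((ℓ : ℤ) * n) : (kA A)ˣ) : kA A) = 1 := by
    intro i
    rw [zpow_mul, zpow_natCast, ← pow_mul, mul_comm, pow_mul, hu.pow_eq_one, one_pow, one_zpow,
      Units.val_one]
  simp only [hone, one_mul, Finset.sum_const, Finset.card_univ, Fintype.card_fin, nsmul_eq_mul] at e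
  refine mul_left_cancel₀ hℓk (e.trans ?_)
  rw [mul_add, add_comm, mul_comm n (ℓ : ℤ)]
  refine congrArg _ ?_
  split_ifs with hn
  · obtain ⟨m, rfl⟩ := hn
    rw [qExpand_coeff_mul, Int.mul_ediv_cancel_left _ (Int.natCast_ne_zero.mpr hℓ.ne_zero)]
  · rw [qExpand_coeff_of_not_dvd ℓ _ hn, mul_zero, mul_zero]

/-- primitive roots in the place and in the residue field -/
theorem exists_root {p : ℕ} (hp : p.Prime) (hA : A.LiesOverPrime p) (hℓ : ℓ.Prime) (hℓp : ℓ ≠ p) :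
    ∃ u : Aˣ, IsPrimitiveRoot u ℓ ∧ IsPrimitiveRoot (uk u) ℓ ∧ (ℓ : kA A) ≠ 0 := by
  haveI := Fact.mk hp
  haveI := Reduction.charP_residue A hp hA
  have hℓk : (ℓ : kA A) ≠ 0 := by
    rw [Ne, CharP.cast_eq_zero_iff (kA A) p]
    exact fun h => hℓp ((Nat.prime_dvd_prime_iff_eq hp hℓ).1 h).symm
  haveI : NeZero (ℓ : Qb) := ⟨Nat.cast_ne_zero.mpr hℓ.ne_zero⟩
  haveI : NeZero ((ℓ : ℕ) : kA A) := ⟨hℓk⟩
  obtain ⟨ζ, hζ⟩ := HasEnoughRootsOfUnity.exists_primitiveRoot Qb ℓ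
  have hζA : ζ ∈ A := Reduction.mem_A_of_isIntegral A ⟨Polynomial.X ^ ℓ - 1,
    Polynomial.monic_X_pow_sub_C 1 hℓ.ne_zero, by simp [hζ.pow_eq_one]⟩
  have hζ' : IsPrimitiveRoot (⟨ζ, hζA⟩ : A) ℓ := IsPrimitiveRoot.of_map_of_injective
    (f := A.subtype) (by exact hζ) A.subtype_injective
  obtain ⟨u, hu⟩ := hζ'.isUnit hℓ.ne_zero
  have hu' : IsPrimitiveRoot u ℓ := IsPrimitiveRoot.coe_units_iff.mp (by rw [hu]; exact hζ')
  refine ⟨u, hu', ?_, hℓk⟩
  rw [← IsPrimitiveRoot.coe_units_iff, ← Polynomial.isRoot_cyclotomic_iff]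
  have h0 : (Polynomial.cyclotomic ℓ A).IsRoot (u : A) := by
    rw [hu]; exact hζ'.isRoot_cyclotomic hℓ.pos
  have h1 := h0.map (f := residue A)
  rwa [Polynomial.map_cyclotomic] at h1

end Residue

end FLTAgent.TOR
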