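import Fermat.Agent.SS2.Hasse
import Fermat.Agent.Flat.Residual

/-!
Area TOR, Mazur's principle: the logarithmic derivative of a function on the special fibre all of
whose orders are divisible by the characteristic is a regular differential.
-/

set_option autoImplicit false
set_option linter.style.haveILetI false
set_option linter.unusedSectionVars false
set_option synthInstance.maxHeartbeats 400000
set_option maxHeartbeats 1000000

noncomputable section

open ModularCurve AlgebraicCurve IsLocalRing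
open FLTAgent.RR (Bd KK)
open FLTAgent.Reduction
open FLTAgent.SS2 (theta theta_mul theta_const)

namespace FLTAgent.TOR

variable {A : ValuationSubring Qb} {N q : ℕ} [NeZero N]

/-- the divisor of `dj` -/
abbrev KdB (N : ℕ) [NeZero N] : Divisor Qb (FB N) := RR.Kd (ModFun.transcendental_jBar N)

section Formal

variable {k : Type*} [Field k]

theorem theta_one' : theta (1 : LaurentSeries k) = 0 := by
  rw [← map_one (algebraMap k (LaurentSeries k)), theta_const]

theorem theta_pow' (x : LaurentSeries k) (n : ℕ) :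
    theta (x ^ n) = (n : LaurentSeries k) * x ^ (n - 1) * theta x := by
  induction n with
  | zero => simp [theta_one']
  | succ n ih =>
    rw [pow_succ, theta_mul, ih]
    cases n with
    | zero => simp
    | succ n =>
      simp only [Nat.add_sub_cancel]
      push_cast
      ring

theorem theta_pow_char (x : LaurentSeries k) {n : ℕ} (hn : (n : k) = 0) :
    theta (x ^ n) = 0 := by
  have h : (n : LaurentSeries k) = 0 := by
    rw [← map_natCast (algebraMap k (LaurentSeries k)), hn, map_zero]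
  rw [theta_pow', h, zero_mul, zero_mul]

end Formal

/-- a regular function at a point is a quotient of chart elements -/
theorem exists_frac_regOn {K F : Type*} [Field K] [Field F] [Algebra K F] [IsAlgClosed K] {x : F}
    (hx : Transcendental K x) [FiniteDimensional (KK K x) F]
    [Algebra.IsSeparable (KK K x) F] {v : Place K F} (hv : Bd v x 0) {z : F} (hz : Bd v z 0) :
    ∃ g ∈ regOn K x, g ≠ 0 ∧ v.ord g = 0 ∧ g * z ∈ regOn K x := by
  rcases eq_or_ne z 0 with rfl | hz0
  · exact ⟨1, one_mem _, one_ne_zero, v.ord_one, by simp⟩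
  refine with_sepChart hx ?_
  intro _ _ _ _ _ _ hp hxv _
  have hfin : ∀ u : Place K F, Bd u (RR.Chart.xv K F) 0 ↔ Bd u x 0 := fun u => by rw [hxv]
  obtain ⟨g, hg0, hg1, hg2⟩ := RR.Chart.exists_ord_eq (v := v) ((hfin v).mpr hv)
    (fun w => min (w.ord z) 0)
    ((RR.Chart.finite_ord (K := K) hz0).subset fun w hw => ⟨hw.1, fun h => hw.2 (by simp [h])⟩) 0
  have hgreg : g ∈ regOn K x := fun u hu => by
    rcases eq_or_ne u v with rfl | hne
    · exact (RR.bd_iff_ord hg0).mpr (by omega)
    · exact (hg2 u ((hfin u).mpr hu) hne).mono (by omega)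
  refine ⟨g, hgreg, hg0, hg1, fun u hu => ?_⟩
  rw [RR.bd_iff_ord (mul_ne_zero hg0 hz0), u.ord_mul hg0 hz0]
  rcases eq_or_ne u v with rfl | hne
  · have := (RR.bd_iff_ord hz0).mp hz
    omega
  · have := (RR.bd_iff_ord hg0).mp (hg2 u ((hfin u).mpr hu) hne)
    omega

variable (C : Ctx A N q)
include C

theorem theta_tS_ne (s : Bool) : theta ((tS A N s : FS A N) : LaurentSeries (kA A)) ≠ 0 := by
  cases s
  · exact SS2.theta_jS_ne C
  intro h
  apply SS2.theta_jS_ne C
  have hj : jS A N ≠ 0 := tS_ne_zero A N false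
  have h1 : theta ((tS A N true * jS A N : FS A N) : LaurentSeries (kA A)) = 0 := by
    rw [show tS A N true * jS A N = 1 from inv_mul_cancel₀ hj, OneMemClass.coe_one, theta_one']
  rw [MulMemClass.coe_mul, theta_mul, h, zero_mul, zero_add] at h1
  exact (mul_eq_zero.mp h1).resolve_left
    fun h0 => tS_ne_zero A N true (Subtype.ext (by simpa using h0))

/-- a regular uniformiser whose `θ` does not vanish, in either chart -/
theorem exists_unif_theta {s : Bool} {Q : PS A N} (hQ : Bd Q (tS A N s) 0) :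
    ∃ t : FS A N, t ∈ regOn (kA A) (tS A N s) ∧ Q.ord t = 1 ∧
      theta (t : LaurentSeries (kA A)) ≠ 0 := by
  haveI := finite_tS C s
  haveI := separable_tS C s
  obtain ⟨t, ht, ht0, ht1⟩ := Reduction.exists_unif (transcendental_tS A N s) hQ
  by_cases h : theta (t : LaurentSeries (kA A)) = 0
  swap
  · exact ⟨t, ht, ht1, h⟩
  obtain ⟨c, hc⟩ := val_exists_S C hQ
  set u : FS A N := 1 + tS A N s - algebraMap (kA A) (FS A N) c
  have hu : Val Q u 1 := by
    have := ((Val.one (v := Q)).add hc).sub (Val.const c)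
    simpa using this
  obtain ⟨hu0, hu1⟩ := hu.ord_eq_zero one_ne_zero
  have hut : theta ((t * u : FS A N) : LaurentSeries (kA A)) =
      (t : LaurentSeries (kA A)) * theta ((tS A N s : FS A N) : LaurentSeries (kA A)) := by
    have hcoe : ((u : FS A N) : LaurentSeries (kA A)) =
        1 + ((tS A N s : FS A N) : LaurentSeries (kA A)) - algebraMap (kA A) _ c := rfl
    rw [MulMemClass.coe_mul, theta_mul, h, zero_mul, zero_add, hcoe, map_sub, map_add,
      theta_const, theta_one', zero_add, sub_zero]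
  refine ⟨t * u, mul_mem ht (sub_mem (add_mem (one_mem _) (self_mem_regOn _))
    (Subalgebra.algebraMap_mem _ c)), by rw [Q.ord_mul ht0 hu0, ht1, hu1, add_zero], ?_⟩
  rw [hut]
  exact mul_ne_zero (fun h0 => ht0 (Subtype.ext (by simpa using h0))) (theta_tS_ne C s)

/-- a lift of a uniformiser takes each value exactly once over the point -/
theorem ord_lift {s : Bool} {Q : PS A N} (hQ : Bd Q (tS A N s) 0) {a : FB N} {t : FS A N}
    (ha : BT A N s a) (har : red A N a = t) (ht1 : Q.ord t = 1) {P : PB N} (hP : rP C P = Q)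
    {c : Qb} (hc : Val P a c) : P.ord (a - cB N c) = 1 := by
  classical
  have ht0 : t ≠ 0 := fun h => by simp [h] at ht1
  have haG := BT.mem_GR C ha
  obtain ⟨d, hdA, hd⟩ := (fin_rP_iff C).mp (hP ▸ hQ : Bd (rP C P) (tS A N s) 0)
  obtain ⟨hcA, hcv⟩ := val_rP C ha hd hdA hc
  rw [hP, har] at hcv
  have hc0 : residue A ⟨c, hcA⟩ = 0 := hcv.unique (val_zero_of_ord_pos (by omega))
  have hred : red A N (a - cB N c) = t := by
    rw [red_sub C haG (cB_mem hcA), red_cB C ⟨c, hcA⟩, hc0, map_zero, sub_zero, har]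
  have hU' : UG A N (a - cB N c) := ⟨sub_mem haG (cB_mem hcA), by rw [hred]; exact ht0⟩
  have hne := hU'.ne_zero C
  have hpos : 1 ≤ P.ord (a - cB N c) :=
    Val.ord_pos (by simpa using hc.sub (Val.const c)) hne
  have hsum := SS2.compat_of_UG C hU' Q
  rw [hred, ht1, mapDomain_apply_eq_sum (rP C) (dv (a - cB N c)) Q
    ((dv (a - cB N c)).support) subset_rfl] at hsum
  have hPs : P ∈ (dv (a - cB N c)).support.filter (fun P => rP C P = Q) := by
    rw [Finset.mem_filter, Finsupp.mem_support_iff, dv_apply]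
    exact ⟨by omega, hP⟩
  have hle := Finset.single_le_sum (f := fun P => dv (a - cB N c) P) (fun P' hP' => ?_) hPs
  · rw [hsum, dv_apply] at hle
    omega
  · obtain ⟨d', -, hd'⟩ :=
      (fin_rP_iff C).mp ((Finset.mem_filter.mp hP').2 ▸ hQ : Bd (rP C P') (tS A N s) 0)
    rw [dv_apply]
    have := (RR.bd_iff_ord hne).mp
      (((ha.mem_regOn P' hd'.bd)).sub (RR.Bd.of_algebraMap c))
    simpa using this

/-- `θj/θt`, of order given by the reduced divisor of `dj` -/
theorem exists_beta {s : Bool} {Q : PS A N} (hQ : Bd Q (tS A N s) 0) {t : FS A N}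
    (ht : t ∈ regOn (kA A) (tS A N s)) (ht1 : Q.ord t = 1)
    (hθ : theta (t : LaurentSeries (kA A)) ≠ 0) :
    ∃ β : FS A N, β ≠ 0 ∧
      theta ((jS A N : FS A N) : LaurentSeries (kA A)) =
        (β : LaurentSeries (kA A)) * theta (t : LaurentSeries (kA A)) ∧
      Q.ord β = Flat.rDiv C (KdB N) Q := by
  classical
  haveI := finite_tS C s
  have ht0 : t ≠ 0 := fun h => by simp [h] at ht1
  obtain ⟨a, ha, har⟩ := exists_lift C ((BS_iff C).mpr ht)
  have haG := BT.mem_GR C ha
  have has : redS A N a = (t : LaurentSeries (kA A)) := by rw [← coe_red C haG, har]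
  obtain ⟨hat, hbG, hb⟩ := SS2.exists_deriv (x := a) (y := tB N false) haG (tB_mem false)
    (by rwa [has])
  set b := RR.der hat (tB N false)
  rw [redS_tB, has, ← coe_red C hbG] at hb
  have hb0 : red A N b ≠ 0 := fun h0 => by
    rw [h0, ZeroMemClass.coe_zero, zero_mul] at hb
    exact SS2.theta_jS_ne C hb
  refine ⟨red A N b, hb0, hb, ?_⟩
  have hU : UG A N b := ⟨hbG, hb0⟩
  rw [← SS2.compat_of_UG C hU Q]
  refine mapDomain_congr_fibre (rP C) _ _ Q fun P hP => ?_
  obtain ⟨d, hdA, hd⟩ := (fin_rP_iff C).mp (hP ▸ hQ : Bd (rP C P) (tS A N s) 0)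
  obtain ⟨c, hc⟩ := val_exists_B (ha.mem_regOn P hd.bd)
  have hord : P.ord (a - cB N c) = 1 := ord_lift C hQ ha har ht1 hP hc
  have e := (RR.ordDifferential_D_eq (transcendental_tB N false) P).2
  rw [← RR.der_smul hat (tB N false), RR.ordDifferential_smul_D hat
      (fun h0 => hU.ne_zero C h0) P,
    RR.ordDifferential_D_of_zero hat (show 0 < P.ord (a - algebraMap Qb (FB N) c) by
      rw [show P.ord (a - algebraMap Qb (FB N) c) = 1 from hord]; omega),
    show P.ord (a - algebraMap Qb (FB N) c) = 1 from hord] at e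
  rw [dv_apply]
  change P.ord b + (1 - 1) = _ at e
  simpa [tB] using e

/-- derivative of a chart element with respect to a uniformiser is regular -/
theorem exists_dt {s : Bool} {Q : PS A N} (hQ : Bd Q (tS A N s) 0) {t z : FS A N}
    (ht : t ∈ regOn (kA A) (tS A N s)) (ht1 : Q.ord t = 1)
    (hθ : theta (t : LaurentSeries (kA A)) ≠ 0) (hz : z ∈ regOn (kA A) (tS A N s)) :
    ∃ w : FS A N, Bd Q w 0 ∧
      theta (z : LaurentSeries (kA A)) = (w : LaurentSeries (kA A)) * theta (t : LaurentSeries (kA A)) := by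
  classical
  haveI := finite_tS C s
  obtain ⟨a, ha, har⟩ := exists_lift C ((BS_iff C).mpr ht)
  obtain ⟨y, hy, hyr⟩ := exists_lift C ((BS_iff C).mpr hz)
  have haG := BT.mem_GR C ha
  have hyG := BT.mem_GR C hy
  have has : redS A N a = (t : LaurentSeries (kA A)) := by rw [← coe_red C haG, har]
  obtain ⟨hat, hbG, hb⟩ := SS2.exists_deriv (x := a) (y := y) haG hyG (by rwa [has])
  set b := RR.der hat y
  rw [← coe_red C hyG, hyr, has, ← coe_red C hbG] at hb
  refine ⟨red A N b, ?_, hb⟩
  by_cases hb0 : red A N b = 0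
  · rw [hb0]; exact RR.Bd.zero
  have hU : UG A N b := ⟨hbG, hb0⟩
  rw [RR.bd_iff_ord hb0, ← SS2.compat_of_UG C hU Q,
    mapDomain_apply_eq_sum (rP C) (dv b) Q (dv b).support subset_rfl]
  simp only [neg_zero]
  refine Finset.sum_nonneg fun P hP => ?_
  have hPQ := (Finset.mem_filter.mp hP).2
  obtain ⟨d, -, hd⟩ := (fin_rP_iff C).mp (hPQ ▸ hQ : Bd (rP C P) (tS A N s) 0)
  obtain ⟨c, hc⟩ := val_exists_B (ha.mem_regOn P hd.bd)
  have hord := ord_lift C hQ ha har ht1 hPQ hc
  have htt : Transcendental Qb (a - cB N c) :=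
    RR.transcendental_of_ord_ne_zero (v := P) (by omega)
  have hreg := RR.der_regular P hord y (hy.mem_regOn P hd.bd)
  have hch := RR.der_chain hat htt y
  rw [RR.der_sub, RR.der_self, RR.der_const, sub_zero, mul_one] at hch
  rw [dv_apply]
  have := (RR.bd_iff_ord (hU.ne_zero C)).mp (show Bd P (RR.der hat y) 0 by rw [hch]; exact hreg)
  simpa using this

/-- the logarithmic derivative of a function with orders divisible by the characteristic is a
regular differential -/
theorem theta_log_mem {φ : FS A N} (hφ : φ ≠ 0) (hdvd : ∀ Q : PS A N, (q : ℤ) ∣ Q.ord φ) :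
    ∃ h ∈ riemannRochSpace (Flat.rDiv C (KdB N)),
      theta (φ : LaurentSeries (kA A)) =
        (h : LaurentSeries (kA A)) * theta ((jS A N : FS A N) : LaurentSeries (kA A)) *
          (φ : LaurentSeries (kA A)) := by
  classical
  have hq0 : (q : kA A) = 0 := natCast_residue A C.lies
  have hlocal : ∀ Q : PS A N, ∃ h : FS A N, Bd Q h (Flat.rDiv C (KdB N) Q) ∧
      theta (φ : LaurentSeries (kA A)) =
        (h : LaurentSeries (kA A)) * theta ((jS A N : FS A N) : LaurentSeries (kA A)) *
          (φ : LaurentSeries (kA A)) := by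
    intro Q
    obtain ⟨s, hQ⟩ : ∃ s, Bd Q (tS A N s) 0 := by
      by_cases h : Bd Q (jS A N) 0
      · exact ⟨false, h⟩
      · exact ⟨true, (bd_inv_of_not_bd h).mono (by omega)⟩
    haveI := finite_tS C s
    haveI := separable_tS C s
    obtain ⟨t, ht, ht1, hθ⟩ := exists_unif_theta C hQ
    obtain ⟨β, hβ0, hβ, hβord⟩ := exists_beta C hQ ht ht1 hθ
    obtain ⟨k, hk⟩ := hdvd Q
    have ht0 : t ≠ 0 := fun h => by simp [h] at ht1
    set c : FS A N := t ^ k
    have hc0 : c ≠ 0 := zpow_ne_zero _ ht0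
    set z : FS A N := φ / c ^ q
    have hz0 : z ≠ 0 := div_ne_zero hφ (pow_ne_zero _ hc0)
    have hzord : Q.ord z = 0 := by
      simp only [z, div_eq_mul_inv]
      rw [Q.ord_mul hφ (inv_ne_zero (pow_ne_zero _ hc0)), Q.ord_inv, RR.ord_pow, Q.ord_zpow, ht1,
        hk]
      ring
    obtain ⟨g, hg, hg0, hg1, hgz⟩ :=
      exists_frac_regOn (transcendental_tS A N s) hQ ((RR.bd_iff_ord hz0).mpr (by omega) : Bd Q z 0)
    obtain ⟨w1, hw1, hw1θ⟩ := exists_dt C hQ ht ht1 hθ hgz
    obtain ⟨w2, hw2, hw2θ⟩ := exists_dt C hQ ht ht1 hθ hg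
    refine ⟨(w1 - z * w2) / (g * z) / β, ?_, ?_⟩
    · have h1 : Bd Q (w1 - z * w2) 0 :=
        hw1.sub (by simpa using ((RR.bd_iff_ord hz0).mpr (by omega) : Bd Q z 0).mul hw2)
      refine (RR.bd_div_iff hβ0).mpr ((RR.bd_div_iff (mul_ne_zero hg0 hz0)).mpr (h1.mono ?_))
      rw [Q.ord_mul hg0 hz0, hg1, hzord, hβord]
      omega
    · have hφ' : φ = c ^ q * z := by simp only [z]; field_simp
      have hg0' : ((g : FS A N) : LaurentSeries (kA A)) ≠ 0 :=
        fun h => hg0 (Subtype.ext (by simpa using h))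
      have hz0' : ((z : FS A N) : LaurentSeries (kA A)) ≠ 0 :=
        fun h => hz0 (Subtype.ext (by simpa using h))
      have hβ0' : ((β : FS A N) : LaurentSeries (kA A)) ≠ 0 :=
        fun h => hβ0 (Subtype.ext (by simpa using h))
      have hθz : theta (z : LaurentSeries (kA A)) =
          ((w1 : LaurentSeries (kA A)) - (z : LaurentSeries (kA A)) * (w2 : LaurentSeries (kA A))) /
            (g : LaurentSeries (kA A)) * theta (t : LaurentSeries (kA A)) := by
        rw [MulMemClass.coe_mul, theta_mul, hw2θ] at hw1θ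
        field_simp
        linear_combination hw1θ
      rw [hφ', MulMemClass.coe_mul, theta_mul, SubmonoidClass.coe_pow, theta_pow_char _ hq0,
        zero_mul, zero_add, hθz, hβ]
      push_cast
      field_simp
  choose h hbd heq using hlocal
  obtain ⟨Q₀⟩ := (Flat.curveLike_S C).ne
  refine ⟨h Q₀, mem_riemannRochSpace_iff.mpr fun Q => ?_, heq Q₀⟩
  have hφ0 : ((φ : FS A N) : LaurentSeries (kA A)) ≠ 0 :=
    fun h' => hφ (Subtype.ext (by simpa using h'))
  have hQQ : h Q = h Q₀ := Subtype.ext (mul_right_cancel₀ (SS2.theta_jS_ne C)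
    (mul_right_cancel₀ hφ0 ((heq Q).symm.trans (heq Q₀))))
  rcases eq_or_ne (h Q₀) 0 with h0 | h0
  · exact Or.inl h0
  · exact Or.inr (by simpa using (RR.bd_iff_ord h0).mp (hQQ ▸ hbd Q))

end FLTAgent.TOR
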