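import Fermat.Agent.TOR.MazurDiff
import Fermat.Agent.TOR.MazurLog
import Fermat.Agent.SS.Side
import Fermat.Agent.SS2.Incl
import Fermat.Agent.SS2.KillClass
import Mathlib.RingTheory.Ideal.GoingUp

/-!
The inclusions between the special fibres of two levels: every point has a point above it, and the
ramification is at most `3` when the upper level has no elliptic points.
-/

set_option autoImplicit false
set_option linter.unusedSectionVars false
set_option synthInstance.maxHeartbeats 400000
set_option linter.style.haveILetI false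
set_option maxHeartbeats 1000000

noncomputable section

open ModularCurve AlgebraicCurve IsLocalRing
open FLTAgent.RR (Bd KK)
open FLTAgent.Reduction
open FLTAgent.SS2 (theta NoEll)

namespace FLTAgent.TOR

variable {A : ValuationSubring Qb} {a b p : ℕ} [NeZero a] [NeZero b] [NeZero p]

theorem fullC_mono (k : Type*) [Field k] {a b : ℕ} (h : a ∣ b) :
    modularFunctionFieldFullC k a ≤ modularFunctionFieldFullC k b :=
  IntermediateField.adjoin.mono k _ _ fun _ ⟨d, hd, hda, e⟩ => ⟨d, hd, hda.trans h, e⟩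

/-- the inclusion of special fibres -/
def inclS (A : ValuationSubring Qb) {a b : ℕ} [NeZero a] [NeZero b] (h : a ∣ b) :
    FS A a →ₐ[kA A] FS A b :=
  IntermediateField.inclusion (fullC_mono (kA A) h)

theorem coe_inclS (h : a ∣ b) (x : FS A a) :
    ((inclS A h x : FS A b) : LaurentSeries (kA A)) = x :=
  IntermediateField.coe_inclusion _ x

theorem inclS_jS (h : a ∣ b) : inclS A h (jS A a) = jS A b := Subtype.ext (coe_inclS h _)

theorem redS_incl (h : a ∣ b) {f : FB a} (hf : f ∈ GR A a) :
    SS2.incl h f ∈ GR A b ∧ redS A b (SS2.incl h f) = redS A a f := by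
  obtain ⟨G, H, hH, e⟩ := hf
  have e' : ((SS2.incl h f : FB b) : LaurentSeries Qb) * up A H = up A G := by
    rw [SS2.coe_incl]; exact e
  exact ⟨⟨G, H, hH, e'⟩, by rw [redS_eq hH e', redS_eq hH e]⟩

variable (C : Ctx A a p) (C' : Ctx A b p)
include C C'

/-- a point above, with its ramification -/
theorem exists_above (h : a ∣ b) {Q : PS A a} (hQ : Bd Q (tS A a false) 0) :
    ∃ (Q' : PS A b) (e : ℕ), 0 < e ∧ Bd Q' (tS A b false) 0 ∧
      ∀ x : FS A a, Q'.ord (inclS A h x) = (e : ℤ) * Q.ord x := by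
  classical
  haveI := finite_tS C false
  haveI := separable_tS C false
  haveI := finite_tS C' false
  haveI := separable_tS C' false
  haveI : RR.FnField (kA A) (FS A a) := ⟨tS A a false, transcendental_tS A a false, finite_tS C false⟩
  haveI : RR.FnField (kA A) (FS A b) := ⟨tS A b false, transcendental_tS A b false, finite_tS C' false⟩
  set iS := inclS A h
  -- a valuation ring dominating the image of the local ring
  set R : Subring (FS A b) := Q.toValuationSubring.toSubring.map iS.toRingHom
  let ev : Q.toValuationSubring →+* R :=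
    (iS.toRingHom.comp Q.toValuationSubring.subtype).codRestrict R fun x => ⟨x.1, x.2, rfl⟩
  have hev : Function.Bijective ev :=
    ⟨fun x y e => Subtype.ext (iS.toRingHom.injective (congrArg Subtype.val e)),
      fun ⟨_, x, hx, e⟩ => ⟨⟨x, hx⟩, Subtype.ext e⟩⟩
  set I : Ideal R := (IsLocalRing.maximalIdeal Q.toValuationSubring).map ev
  have hI : I ≠ ⊤ := fun e => by
    have h1 : (IsLocalRing.maximalIdeal Q.toValuationSubring) = ⊤ := by
      rw [← Ideal.comap_map_of_bijective ev hev (I := IsLocalRing.maximalIdeal Q.toValuationSubring)]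
      show I.comap ev = ⊤
      rw [e, Ideal.comap_top]
    exact (IsLocalRing.maximalIdeal.isMaximal _).ne_top h1
  obtain ⟨V, hRV, hIV⟩ := Ideal.image_subset_nonunits_valuationSubring (A := R) I hI
  have hnon : ∀ x : FS A a, Bd Q x (-1) → iS x ∈ V.nonunits := fun x hx => by
    have hxm : x ∈ Q.toValuationSubring := RR.mem_iff_bd.mpr (hx.mono (by norm_num))
    refine hIV ⟨ev ⟨x, hxm⟩, Ideal.mem_map_of_mem _ ?_, rfl⟩
    rw [IsLocalRing.mem_maximalIdeal, mem_nonunits_iff]
    intro hu
    obtain ⟨y, hy⟩ := hu.exists_right_inv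
    have hy' : x * (y : FS A a) = 1 := congrArg Subtype.val hy
    have hx0 : x ≠ 0 := fun e => by rw [e, zero_mul] at hy'; exact zero_ne_one hy'
    have hy0 : (y : FS A a) ≠ 0 := fun e => by rw [e, mul_zero] at hy'; exact zero_ne_one hy'
    have h1 := (RR.bd_iff_ord hx0).mp hx
    have h2 := (RR.bd_iff_ord hy0).mp (RR.mem_iff_bd.mp y.2)
    have h3 := congrArg Q.ord hy'
    rw [Q.ord_mul hx0 hy0, Q.ord_one] at h3
    omega
  have hmemV : ∀ x : FS A a, x ∈ Q.toValuationSubring → iS x ∈ V := fun x hx => hRV ⟨x, hx, rfl⟩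
  have hjV : ∀ q : Polynomial (kA A), Polynomial.aeval (tS A b false) q ∈ V := fun q => by
    have e : iS (Polynomial.aeval (tS A a false) q) = Polynomial.aeval (tS A b false) q := by
      rw [← Polynomial.aeval_algHom_apply]
      exact congrArg (fun x => Polynomial.aeval x q) (inclS_jS h)
    rw [← e]
    refine hmemV _ (RR.mem_iff_bd.mpr ?_)
    obtain ⟨c, hc⟩ := val_exists_S C hQ
    exact (hc.aeval q).bd
  have hreg : ∀ f ∈ regOn (kA A) (tS A b false), f ∈ V := fun f hf => by
    obtain ⟨q, hq, hqf⟩ := isIntegral_of_mem_regOn (transcendental_tS A b false) hf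
    let φ : Polynomial (kA A) →+* V := (Polynomial.aeval (tS A b false)).toRingHom.codRestrict V hjV
    have hint : IsIntegral V f := ⟨q.map φ, hq.map φ, by
      rw [Polynomial.eval₂_map]
      exact hqf⟩
    obtain ⟨v, hv⟩ := IsIntegrallyClosed.isIntegral_iff.mp hint
    exact hv ▸ v.2
  let I' : Ideal (regOn (kA A) (tS A b false)) :=
    { carrier := {f | (f : FS A b) ∈ V.nonunits}
      add_mem' := fun {x y} hx hy => by
        simp only [Set.mem_setOf_eq, ValuationSubring.mem_nonunits_iff] at hx hy ⊢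
        exact lt_of_le_of_lt (V.valuation.map_add _ _) (max_lt hx hy)
      zero_mem' := by simp [ValuationSubring.mem_nonunits_iff]
      smul_mem' := fun c x hx => by
        simp only [Set.mem_setOf_eq, ValuationSubring.mem_nonunits_iff] at hx ⊢
        rw [smul_eq_mul, MulMemClass.coe_mul, map_mul]
        exact mul_lt_one_of_nonneg_of_lt_one_right ((V.valuation_le_one_iff _).mpr (hreg _ c.2)) zero_le hx }
  have hI' : I' ≠ ⊤ := fun e => by
    have h1 : (1 : regOn (kA A) (tS A b false)) ∈ I' := e ▸ Submodule.mem_top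
    change ((1 : regOn (kA A) (tS A b false)) : FS A b) ∈ V.nonunits at h1
    simp [ValuationSubring.mem_nonunits_iff] at h1
  obtain ⟨w, hw, hwI⟩ := exists_place_of_ideal (transcendental_tS A b false) I' hI'
  -- compare with the point below
  letI := algebraAlong iS
  haveI := isScalarTower_along iS
  haveI : Module.Finite (FS A a) (FS A b) := HeckeJ.finite_ext (kA A)
  haveI : Algebra.IsIntegral (FS A a) (FS A b) := Algebra.IsIntegral.of_finite _ _
  have he : (0 : ℤ) < (w.ramificationIndex (F := FS A a) : ℤ) := by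
    exact_mod_cast w.ramificationIndex_pos (F := FS A a)
  have hord : ∀ x, w.ord (iS x) = (w.ramificationIndex (F := FS A a) : ℤ) * (w.restrict (FS A a)).ord x :=
    fun x => w.ord_restrict x
  have hmapR : ∀ f ∈ regOn (kA A) (tS A a false), iS f ∈ regOn (kA A) (tS A b false) := fun f hf => by
    obtain ⟨q, hq, hqf⟩ := isIntegral_of_mem_regOn (transcendental_tS A a false) hf
    refine mem_regOn_of_isIntegral (Polynomial.aeval (R := kA A) (tS A b false)).toRingHom
      (fun r => by
        rw [show (Polynomial.aeval (R := kA A) (tS A b false)).toRingHom r =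
          ((Polynomial.aeval (⟨tS A b false, self_mem_regOn _⟩ : regOn (kA A) (tS A b false)) r :
            regOn (kA A) (tS A b false)) : FS A b) from
          (Polynomial.aeval_subalgebra_coe r _ (⟨tS A b false, self_mem_regOn _⟩ :
            regOn (kA A) (tS A b false))).symm]
        exact Subtype.prop _) ⟨q, hq, ?_⟩
    have e : (Polynomial.aeval (R := kA A) (tS A b false)).toRingHom =
        iS.toRingHom.comp (Polynomial.aeval (R := kA A) (tS A a false)).toRingHom :=
      RingHom.ext fun r => by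
        show Polynomial.aeval (tS A b false) r = iS (Polynomial.aeval (tS A a false) r)
        rw [← Polynomial.aeval_algHom_apply]
        exact congrArg (fun x => Polynomial.aeval x r) (inclS_jS h).symm
    rw [e, show iS f = iS.toRingHom f from rfl, ← Polynomial.hom_eval₂, hqf, map_zero]
  have hfin : Bd (w.restrict (FS A a)) (tS A a false) 0 := by
    have h1 := (RR.bd_iff_ord (tS_ne_zero A b false)).mp hw
    rw [show tS A b false = iS (tS A a false) from (inclS_jS h).symm, hord] at h1
    rw [RR.bd_iff_ord (tS_ne_zero A a false)]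
    nlinarith
  have heq : Q = w.restrict (FS A a) := by
    refine SS2.place_eq_of_val C hQ hfin fun g hg c hc => ?_
    have h1 : Bd w (iS (g - algebraMap (kA A) (FS A a) c)) (-1) :=
      hwI ⟨_, hmapR _ (sub_mem hg (algebraMap_mem _ c))⟩ (hnon _ hc)
    show Bd (w.restrict (FS A a)) (g - algebraMap (kA A) (FS A a) c) (-1)
    rw [RR.bd_iff, map_eq_zero, hord] at h1
    rw [RR.bd_iff]
    exact h1.imp_right fun h2 => by nlinarith
  refine ⟨w, w.ramificationIndex (F := FS A a), w.ramificationIndex_pos (F := FS A a), hw, fun x => ?_⟩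
  rw [hord, ← heq]

omit C in
/-- without elliptic points `j` takes each value with multiplicity at most three -/
theorem ord_sub_le_three (hq : 5 ≤ p) (hN : NoEll b) {Q : PS A b}
    (hQ : Bd Q (tS A b false) 0) (c : kA A) :
    Q.ord (jS A b - algebraMap (kA A) (FS A b) c) ≤ 3 := by
  classical
  haveI := finite_tS C' false
  haveI := separable_tS C' false
  by_contra hlt
  push Not at hlt
  set z := jS A b - algebraMap (kA A) (FS A b) c
  have hz0 : z ≠ 0 := ne_zero_of_transc (RR.transcendental_sub_const (transcendental_jS A b) c)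
  obtain ⟨E, hE⟩ : ∃ E : ℕ, Q.ord z = E := ⟨(Q.ord z).toNat, by omega⟩
  obtain ⟨t, ht, ht1, hθ⟩ := SS2.exists_unif_theta C' hQ
  obtain ⟨β, hβ0, hβ, hord⟩ := SS2.exists_ratio C' hN hQ ht ht1 hθ
  have ht0 : t ≠ 0 := fun e => by simp [e] at ht1
  obtain ⟨k, hk⟩ : ∃ k, E = k + 1 := ⟨E - 1, by omega⟩
  set u := z / t ^ E with hu
  have hu0 : u ≠ 0 := div_ne_zero hz0 (pow_ne_zero _ ht0)
  have hu1 : Q.ord u = 0 := by
    rw [hu, div_eq_mul_inv, Q.ord_mul hz0 (inv_ne_zero (pow_ne_zero _ ht0)), Q.ord_inv, RR.ord_pow,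
      ht1, hE]
    ring
  obtain ⟨g, hg, hg0, hg1, hgu⟩ := exists_frac_regOn (transcendental_tS A b false) hQ
    ((RR.bd_iff_ord hu0).mpr (by omega) : Bd Q u 0)
  obtain ⟨w1, hw1, hw1θ⟩ := SS2.exists_dt C' hQ ht ht1 hθ hgu
  obtain ⟨w2, hw2, hw2θ⟩ := SS2.exists_dt C' hQ ht ht1 hθ hg
  have hgz : g * z = t ^ E * (g * u) := by rw [hu]; field_simp
  have hθz : theta (z : LaurentSeries (kA A)) =
      (β : LaurentSeries (kA A)) * theta (t : LaurentSeries (kA A)) := by
    rw [← hβ]
    show theta (((jS A b : FS A b) : LaurentSeries (kA A)) - algebraMap (kA A) _ c) = _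
    rw [map_sub, SS2.theta_const, sub_zero]
  have key : g * β = algebraMap (kA A) (FS A b) (E : kA A) * t ^ k * (g * u) + t ^ E * w1 - z * w2 := by
    have e := congrArg (fun s : FS A b => theta (s : LaurentSeries (kA A))) hgz
    simp only [MulMemClass.coe_mul, SubmonoidClass.coe_pow] at e
    rw [SS2.theta_mul, hw2θ, hθz, SS2.theta_mul, theta_pow',
      show (g : LaurentSeries (kA A)) * (u : LaurentSeries (kA A)) =
        ((g * u : FS A b) : LaurentSeries (kA A)) from rfl, hw1θ] at e
    rw [show E - 1 = k by omega, show ((g * u : FS A b) : LaurentSeries (kA A)) =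
        (g : LaurentSeries (kA A)) * (u : LaurentSeries (kA A)) from rfl] at e
    refine Subtype.ext (mul_right_cancel₀ hθ ?_)
    rw [map_natCast]
    push_cast
    linear_combination e
  have hb : Bd Q (g * β) (-(k : ℤ)) := by
    rw [key]
    have hzb : Bd Q z (-(E : ℤ)) := (RR.bd_iff_ord hz0).mpr (by omega)
    have htb : ∀ n : ℕ, Bd Q (t ^ n) (-(n : ℤ)) := fun n =>
      (RR.bd_iff_ord (pow_ne_zero _ ht0)).mpr (by rw [RR.ord_pow, ht1]; omega)
    refine ((?_ : Bd Q _ (-(k : ℤ))).add ?_).sub ?_
    · simpa using ((RR.Bd.of_algebraMap (v := Q) (E : kA A)).mul (htb k)).mul (hgu Q hQ)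
    · exact ((htb E).mul hw1).mono (by omega)
    · exact (hzb.mul hw2).mono (by omega)
  rw [RR.bd_iff_ord (mul_ne_zero hg0 hβ0), Q.ord_mul hg0 hβ0, hg1] at hb
  have h1728 := natCast_kA_ne_zero C' hq
  have hcst : (1728 : FS A b) = algebraMap (kA A) (FS A b) ((1728 : ℕ) : kA A) := by
    rw [map_natCast, Nat.cast_ofNat]
  have hval : Val Q (jS A b) c := (RR.bd_iff_ord hz0).mpr (show -(-1 : ℤ) ≤ Q.ord z by omega)
  have hj : c ≠ 0 → Q.ord (jS A b) = 0 := fun hc => (hval.ord_eq_zero hc).2
  have hk' : c ≠ ((1728 : ℕ) : kA A) → Q.ord (jS A b - 1728) = 0 := fun hc => by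
    rw [hcst]
    exact ((hval.sub (Val.const ((1728 : ℕ) : kA A))).ord_eq_zero (sub_ne_zero.mpr hc)).2
  rcases eq_or_ne c 0 with rfl | hc
  · have e : jS A b = z := by simp [z]
    rw [hk' h1728.symm, e, hE] at hord
    omega
  rcases eq_or_ne c ((1728 : ℕ) : kA A) with rfl | hc'
  · rw [hj hc, show jS A b - 1728 = z by rw [hcst], hE] at hord
    omega
  · rw [hj hc, hk' hc'] at hord
    omega

/-- a point above with ramification prime to `p` -/
theorem exists_above_coprime (hq : 5 ≤ p) (hN : NoEll b) (h : a ∣ b) {Q : PS A a}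
    (hQ : Bd Q (tS A a false) 0) :
    ∃ (Q' : PS A b) (e : ℕ), ¬ p ∣ e ∧ 0 < e ∧ Bd Q' (tS A b false) 0 ∧
      ∀ x : FS A a, Q'.ord (inclS A h x) = (e : ℤ) * Q.ord x := by
  obtain ⟨Q', e, he, hQ', hord⟩ := exists_above C C' h hQ
  obtain ⟨c, hc⟩ := val_exists_S C hQ
  have hz0 : jS A a - algebraMap (kA A) (FS A a) c ≠ 0 :=
    ne_zero_of_transc (RR.transcendental_sub_const (transcendental_jS A a) c)
  have h1 : 0 < Q.ord (jS A a - algebraMap (kA A) (FS A a) c) :=
    lt_of_lt_of_le (by norm_num) ((RR.bd_iff_ord hz0).mp hc)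
  have h2 := ord_sub_le_three C' hq hN hQ' c
  rw [show jS A b - algebraMap (kA A) (FS A b) c = inclS A h (jS A a - algebraMap (kA A) (FS A a) c) by
    rw [map_sub, AlgHom.commutes, inclS_jS], hord] at h2
  refine ⟨Q', e, fun hd => ?_, he, hQ', hord⟩
  have := Nat.le_of_dvd he hd
  nlinarith [(by exact_mod_cast le_trans hq this : (5 : ℤ) ≤ e)]

end FLTAgent.TOR
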