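import Fermat.Agent.Torsion.StableLine
import Fermat.Agent.Local.VarChange
import Fermat.Agent.Local.Frey
import Fermat.Prelude.Def_FLTPrelim_ModularRep

/-!
The torsion of two models of the same curve over `ℚ`.
-/

set_option autoImplicit false
set_option linter.unusedSectionVars false

noncomputable section

open WeierstrassCurve
open scoped WeierstrassCurve.Affine

namespace FLTAgent.TOR

local notation "Ω" => AlgebraicClosure ℚ
local notation "GalQ" => AlgebraicClosure ℚ ≃ₐ[ℚ] AlgebraicClosure ℚ

variable {E E' : WeierstrassCurve ℚ} {C : VariableChange ℚ}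

theorem baseChange_vc (h : C • E = E') :
    C.map (algebraMap ℚ Ω) • (E⁄Ω) = (E'⁄Ω) := by
  show C.map (algebraMap ℚ Ω) • E.map (algebraMap ℚ Ω) = E'.map (algebraMap ℚ Ω)
  rw [WeierstrassCurve.map_variableChange, h]

/-- the isomorphism on points -/
def modelPt (h : C • E = E') : (E⁄Ω).Point →+ (E'⁄Ω).Point :=
  Local.vcPt (C.map (algebraMap ℚ Ω)) (baseChange_vc h)

theorem modelPt_injective (h : C • E = E') : Function.Injective (modelPt h) :=
  Local.vcPt_injective _ _

theorem modelPt_smul (h : C • E = E') (σ : GalQ) (P : (E⁄Ω).Point) :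
    modelPt h (σ • P) = σ • modelPt h P := by
  rcases P with _ | ⟨x, y, hxy⟩
  · rfl
  rw [modelPt, Affine.Point.algEquiv_smul_def, Affine.Point.algEquiv_smul_def,
    Affine.Point.map_some, Local.vcPt_some, Local.vcPt_some, Affine.Point.map_some,
    Affine.Point.some.injEq]
  have hu : σ.toAlgHom (((C.map (algebraMap ℚ Ω)).u : Ω)) = (C.map (algebraMap ℚ Ω)).u :=
    σ.toAlgHom.commutes _
  have hr : σ.toAlgHom ((C.map (algebraMap ℚ Ω)).r) = (C.map (algebraMap ℚ Ω)).r :=
    σ.toAlgHom.commutes _
  have hs : σ.toAlgHom ((C.map (algebraMap ℚ Ω)).s) = (C.map (algebraMap ℚ Ω)).s :=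
    σ.toAlgHom.commutes _
  have ht : σ.toAlgHom ((C.map (algebraMap ℚ Ω)).t) = (C.map (algebraMap ℚ Ω)).t :=
    σ.toAlgHom.commutes _
  constructor
  · simp only [Local.vcX, map_mul, map_pow, map_sub, map_inv₀, hu, hr]
  · simp only [Local.vcY, map_mul, map_pow, map_sub, map_inv₀, hu, hr, hs, ht]

/-- irreducibility does not depend on the model -/
theorem galoisRepIsIrreducible_of_vc (h : C • E = E') {p : ℕ} [Fact p.Prime]
    (hirr : Affine.Point.GaloisRepIsIrreducible (K := Ω) ℚ E p) :
    Affine.Point.GaloisRepIsIrreducible (K := Ω) ℚ E' p := by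
  classical
  have h' : C⁻¹ • E' = E := by rw [← h, inv_smul_smul]
  let f : Submodule.torsionBy ℤ (E⁄Ω).Point (p : ℤ) →ₗ[ZMod p]
      Submodule.torsionBy ℤ (E'⁄Ω).Point (p : ℤ) :=
    AddMonoidHom.toZModLinearMap p
      { toFun := fun x => ⟨modelPt h x, by
          rw [Submodule.mem_torsionBy_iff, ← map_zsmul,
            (Submodule.mem_torsionBy_iff _ _).mp x.2, map_zero]⟩
        map_zero' := Subtype.ext (map_zero _)
        map_add' := fun x y => Subtype.ext (map_add _ _ _) }
  have hf : ∀ (σ : GalQ) x, f (σ • x) = σ • f x := fun σ x =>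
    Subtype.ext (modelPt_smul h σ x)
  have hfinj : Function.Injective f := fun x y e =>
    Subtype.ext (modelPt_injective h (congrArg Subtype.val e))
  have hsurj : Function.Surjective f := by
    intro y
    refine ⟨⟨modelPt h' y, by rw [Submodule.mem_torsionBy_iff, ← map_zsmul,
      (Submodule.mem_torsionBy_iff _ _).mp y.2, map_zero]⟩, Subtype.ext ?_⟩
    show modelPt h (modelPt h' (y : (E'⁄Ω).Point)) = y
    obtain ⟨P, hP⟩ := y
    change modelPt h (modelPt h' P) = P
    rcases P with _ | ⟨a, b, hab⟩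
    · rfl
    rw [modelPt, modelPt, Local.vcPt_some, Local.vcPt_some, Affine.Point.some.injEq]
    have hu : ((C.u : ℚ) : Ω) ≠ 0 := by simp
    constructor <;>
      simp only [Local.vcX, Local.vcY, VariableChange.map, VariableChange.inv_def,
        Units.val_inv_eq_inv_val, Units.coe_map, MonoidHom.coe_coe, map_inv₀, map_neg, map_mul,
        map_pow, map_sub, eq_ratCast, inv_inv] <;>
      field_simp <;> ring
  haveI := hirr.1
  refine ⟨hfinj.nontrivial, fun S hS => ?_⟩
  rcases hirr.2 (S.comap f) (fun σ x hx => by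
    rw [Submodule.mem_comap] at hx ⊢
    rw [hf]
    exact hS σ _ hx) with h0 | h0
  · left
    rw [← Submodule.map_comap_eq_of_surjective hsurj S, h0, Submodule.map_bot]
  · right
    rw [← Submodule.map_comap_eq_of_surjective hsurj S, h0, Submodule.map_top,
      LinearMap.range_eq_top.mpr hsurj]

/-- the chosen integral model is irreducible -/
theorem modRepIsIrreducible_model (P : FreyPackage) {W : WeierstrassCurve ℤ}
    (hW : W.IsIntegralModelOf P.freyCurve)
    (hirr : Affine.Point.GaloisRepIsIrreducible (K := Ω) ℚ P.freyCurve P.p) :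
    W.Δ ≠ 0 ∧ W.ModRepIsIrreducible P.p := by
  obtain ⟨C, hC⟩ := hW
  haveI : Fact P.p.Prime := ⟨P.pp⟩
  refine ⟨fun h0 => ?_, galoisRepIsIrreducible_of_vc hC hirr⟩
  have h := congrArg WeierstrassCurve.Δ hC
  rw [variableChange_Δ, map_Δ, h0, map_zero, Local.freyCurve_eq, map_Δ] at h
  rcases mul_eq_zero.mp h with h1 | h1
  · exact pow_ne_zero _ (Units.ne_zero _) h1
  · exact Local.freyCurveInt_Δ_ne_zero P (by simpa using h1)

end FLTAgent.TOR
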