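import Fermat.Agent.SS2.Inertia
import Fermat.Agent.Reduction.Basic

/-!
Valuations of the numbers fixed by the inertia elements that fix a primitive `p`-th root of unity,
at a place over `p`.
-/

set_option autoImplicit false
set_option linter.unusedSectionVars false
set_option linter.style.haveILetI false

noncomputable section

open IsLocalRing

namespace FLTAgent.TOR

open FLTAgent.Reduction (Qb)

local notation "GalQ" => AlgebraicClosure ℚ ≃ₐ[ℚ] AlgebraicClosure ℚ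

variable {A : ValuationSubring Qb} {p : ℕ}

theorem inertia_mem {σ : GalQ} (hσ : σ ∈ A.inertiaSubgroupIn ℚ) {x : Qb} (hx : x ∈ A) : σ x ∈ A := by
  obtain ⟨s, -, rfl⟩ := Subgroup.mem_map.mp hσ
  exact (s • (⟨x, hx⟩ : A)).2

/-- inertia preserves the valuation -/
theorem valuation_inertia_eq (hp : p.Prime) (hA : A.LiesOverPrime p) {σ : GalQ}
    (hσ : σ ∈ A.inertiaSubgroupIn ℚ) (x : Qb) : A.valuation (σ x) = A.valuation x := by
  rcases eq_or_ne x 0 with rfl | hx
  · rw [map_zero]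
  obtain ⟨n, i, hn, hi⟩ := Reduction.exists_valuation_pow (A := A) (hℓ := hp) (hA := hA) hx
  have hp0 : (p : Qb) ^ i ≠ 0 := zpow_ne_zero _ (Nat.cast_ne_zero.mpr hp.ne_zero)
  have h1 : A.valuation (x ^ n / (p : Qb) ^ i) = 1 := by
    rw [map_div₀, map_pow, map_zpow₀, hi]
    exact div_self (zpow_ne_zero _ ((Valuation.ne_zero_iff _).mpr (Nat.cast_ne_zero.mpr hp.ne_zero)))
  have hu : x ^ n / (p : Qb) ^ i ∈ A := (A.valuation_le_one_iff _).mp h1.le
  have hu' : (x ^ n / (p : Qb) ^ i)⁻¹ ∈ A :=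
    (A.valuation_le_one_iff _).mp (by rw [map_inv₀, h1, inv_one])
  have h2 := (A.valuation_le_one_iff _).mpr (inertia_mem hσ hu)
  have h3 := (A.valuation_le_one_iff _).mpr (inertia_mem hσ hu')
  rw [map_inv₀ σ, map_inv₀] at h3
  have h4 : A.valuation (σ (x ^ n / (p : Qb) ^ i)) = 1 :=
    le_antisymm h2 ((inv_le_one₀ (zero_lt_iff.mpr ((Valuation.ne_zero_iff _).mpr
      ((_root_.map_ne_zero σ).mpr (div_ne_zero (pow_ne_zero _ hx) hp0))))).mp h3)
  rw [map_div₀ σ, map_pow, map_zpow₀, map_natCast, map_div₀, map_pow, map_zpow₀,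
    div_eq_one_iff_eq (zpow_ne_zero _ ((Valuation.ne_zero_iff _).mpr
      (Nat.cast_ne_zero.mpr hp.ne_zero)))] at h4
  exact (pow_left_inj₀ zero_le zero_le hn.ne').mp (h4.trans hi.symm)

/-- inertia moves integers by non-units -/
theorem inertia_sub_lt {σ : GalQ} (hσ : σ ∈ A.inertiaSubgroupIn ℚ) {x : Qb} (hx : x ∈ A) :
    A.valuation (σ x - x) < 1 := by
  obtain ⟨s, hs, rfl⟩ := Subgroup.mem_map.mp hσ
  have h0 : MulSemiringAction.toRingAut (A.decompositionSubgroup ℚ) (ResidueField A) s = 1 :=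
    MonoidHom.mem_ker.mp hs
  have h1 : s • residue A ⟨x, hx⟩ = residue A ⟨x, hx⟩ :=
    congrArg (fun e : RingAut (ResidueField A) => e (residue A ⟨x, hx⟩)) h0
  rw [← IsLocalRing.ResidueField.residue_smul, ← sub_eq_zero, ← map_sub, residue_eq_zero_iff] at h1
  exact (A.valuation_lt_one_iff _).mp h1

theorem valuation_one_sub_pow {ζ : Qb} (hζ : IsPrimitiveRoot ζ p) (hp : p.Prime) {i : ℕ}
    (hi : ¬ p ∣ i) : A.valuation (ζ ^ i - 1) = A.valuation (ζ - 1) := by
  have hζA : ∀ j, ζ ^ j ∈ A := fun j =>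
    Reduction.mem_A_of_isIntegral A (((hζ.isIntegral hp.pos).pow j).tower_top)
  have key : ∀ (z : Qb), (∀ j, z ^ j ∈ A) → ∀ j : ℕ, A.valuation (z ^ j - 1) ≤ A.valuation (z - 1) := by
    intro z hz j
    rw [← geom_sum_mul z j, map_mul]
    exact mul_le_of_le_one_left zero_le ((A.valuation_le_one_iff _).mpr (sum_mem fun k _ => hz k))
  refine le_antisymm (key ζ hζA i) ?_
  haveI : NeZero p := ⟨hp.ne_zero⟩
  obtain ⟨j, -, hj⟩ := (hζ.pow_of_coprime i (hp.coprime_iff_not_dvd.mpr hi).symm).eq_pow_of_pow_eq_one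
    hζ.pow_eq_one
  calc A.valuation (ζ - 1) = A.valuation ((ζ ^ i) ^ j - 1) := by rw [hj]
    _ ≤ A.valuation (ζ ^ i - 1) := key _ (fun k => by rw [← pow_mul]; exact hζA _) j

theorem valuation_zeta_sub_one {ζ : Qb} (hζ : IsPrimitiveRoot ζ p) (hp : p.Prime) :
    A.valuation (ζ - 1) ^ (p - 1) = A.valuation (p : Qb) := by
  haveI := Fact.mk hp
  haveI : NeZero p := ⟨hp.ne_zero⟩
  have h := Polynomial.eval_one_cyclotomic_prime (R := Qb) (p := p)
  rw [Polynomial.cyclotomic_eq_prod_X_sub_primitiveRoots hζ, Polynomial.eval_prod] at h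
  rw [← h, map_prod, Finset.prod_congr rfl fun z hz => ?_, Finset.prod_const,
    hζ.card_primitiveRoots, Nat.totient_prime hp]
  obtain ⟨i, hi, rfl⟩ := hζ.eq_pow_of_pow_eq_one ((mem_primitiveRoots hp.pos).mp hz).pow_eq_one
  have hpi : ¬ p ∣ i := fun hd => ((mem_primitiveRoots hp.pos).mp hz).ne_one hp.one_lt
    ((hζ.pow_eq_one_iff_dvd i).mpr hd)
  rw [Polynomial.eval_sub, Polynomial.eval_X, Polynomial.eval_C, Valuation.map_sub_swap,
    valuation_one_sub_pow hζ hp hpi]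

variable (hp : p.Prime) (hA : A.LiesOverPrime p)
include hp hA

/-- a number fixed by the inertia elements fixing `ζ` and of valuation below one is at most `ζ - 1` -/
theorem valuation_le_of_fixed {ζ : Qb} (hζ : IsPrimitiveRoot ζ p) {x : Qb}
    (hfix : ∀ σ ∈ A.inertiaSubgroupIn ℚ, σ ζ = ζ → σ x = x) (hx : A.valuation x < 1) :
    A.valuation x ^ (p - 1) ≤ A.valuation (p : Qb) := by
  classical
  rcases eq_or_ne x 0 with rfl | hx0
  · rw [map_zero, zero_pow (by have := hp.two_le; omega)]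
    exact zero_le
  set I := A.inertiaSubgroupIn ℚ
  have hfin : Set.Finite {z : Qb | ∃ σ ∈ I, σ x = z} :=
    ((minpoly ℚ x).rootSet_finite Qb).subset fun z ⟨σ, _, hz⟩ => by
      rw [Polynomial.mem_rootSet]
      refine ⟨minpoly.ne_zero ((AlgebraicClosure.isAlgebraic ℚ).isAlgebraic x).isIntegral, ?_⟩
      rw [← hz, Polynomial.aeval_algHom_apply, minpoly.aeval, map_zero]
  set O := hfin.toFinset
  have hmem : ∀ {z}, z ∈ O ↔ ∃ σ ∈ I, σ x = z := fun {z} => hfin.mem_toFinset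
  have hstab : ∀ σ ∈ I, ∀ z ∈ O, σ z ∈ O := fun σ hσ z hz => by
    obtain ⟨τ, hτ, rfl⟩ := hmem.mp hz
    exact hmem.mpr ⟨σ * τ, mul_mem hσ hτ, rfl⟩
  have hT : ∏ z ∈ O, z ∈ SS2.inertiaFixed A := by
    rw [SS2.mem_inertiaFixed]
    intro σ hσ
    rw [map_prod]
    refine Finset.prod_nbij' (fun z => σ z) (fun z => σ⁻¹ z) (fun z hz => hstab σ hσ z hz)
      (fun z hz => hstab _ (inv_mem hσ) z hz) (fun z _ => σ.symm_apply_apply z)
      (fun z _ => σ.apply_symm_apply z) fun z _ => rfl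
  have hne : ∏ z ∈ O, z ≠ 0 := Finset.prod_ne_zero_iff.mpr fun z hz => by
    obtain ⟨σ, -, rfl⟩ := hmem.mp hz
    exact (_root_.map_ne_zero σ).mpr hx0
  obtain ⟨i, hi⟩ := SS2.exists_zpow_valuation_T hp hA hT hne
  rw [map_prod, Finset.prod_congr rfl (g := fun _ => A.valuation x) fun z hz => by
    obtain ⟨σ, hσ, rfl⟩ := hmem.mp hz
    exact valuation_inertia_eq hp hA hσ x, Finset.prod_const] at hi
  have hcard : O.card ≤ p - 1 := by
    rw [← Nat.totient_prime hp, ← hζ.card_primitiveRoots]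
    choose! g hg hgx using fun z (hz : z ∈ O) => hmem.mp hz
    refine Finset.card_le_card_of_injOn (fun z => g z ζ) (fun z _ => ?_) fun y hy z hz h => ?_
    · exact (mem_primitiveRoots hp.pos).mpr (hζ.map_of_injective (g z).injective)
    · rw [← hgx y hy, ← hgx z hz]
      have h2 := hfix ((g z)⁻¹ * g y) (mul_mem (inv_mem (hg z hz)) (hg y hy))
        (by show (g z).symm (g y ζ) = ζ; rw [show g y ζ = g z ζ from h]; exact (g z).symm_apply_apply ζ)
      exact ((g z).apply_symm_apply (g y x)).symm.trans (congrArg (g z) h2)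
  have h1 : x ∈ O := hmem.mpr ⟨1, one_mem _, rfl⟩
  have hlt : A.valuation x ^ O.card < 1 :=
    pow_lt_one₀ zero_le hx (Finset.card_ne_zero.mpr ⟨x, h1⟩)
  have hi0 : 0 < i := (zpow_lt_one_iff_right_of_lt_one₀ ((zero_lt_iff.mpr ((Valuation.ne_zero_iff _).mpr (Nat.cast_ne_zero.mpr hp.ne_zero)))) hA).mp (hi ▸ hlt)
  calc A.valuation x ^ (p - 1) ≤ A.valuation x ^ O.card :=
        pow_le_pow_right_of_le_one' hx.le hcard
    _ = A.valuation (p : Qb) ^ i := hi
    _ ≤ A.valuation (p : Qb) ^ (1 : ℤ) := zpow_le_zpow_right_of_le_one₀ ((zero_lt_iff.mpr ((Valuation.ne_zero_iff _).mpr (Nat.cast_ne_zero.mpr hp.ne_zero)))) hA.le hi0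
    _ = A.valuation (p : Qb) := zpow_one _

/-- some inertia element moves the `p`-th roots of unity, `p` odd -/
theorem exists_inertia_moves (hp2 : p ≠ 2) {ζ : Qb} (hζ : IsPrimitiveRoot ζ p) :
    ∃ σ ∈ A.inertiaSubgroupIn ℚ, σ ζ ≠ ζ := by
  by_contra hno
  push Not at hno
  have hne : ζ - 1 ≠ 0 := sub_ne_zero.mpr (hζ.ne_one hp.one_lt)
  obtain ⟨i, hi⟩ := SS2.exists_zpow_valuation_T hp hA
    (SS2.mem_inertiaFixed.mpr fun σ hσ => by rw [map_sub, hno σ hσ, map_one]) hne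
  have h := valuation_zeta_sub_one (A := A) hζ hp
  rw [hi, ← zpow_natCast, ← zpow_mul] at h
  have h2 := (zpow_right_inj₀ ((zero_lt_iff.mpr ((Valuation.ne_zero_iff _).mpr (Nat.cast_ne_zero.mpr hp.ne_zero)))) (ne_of_lt hA)).mp (h.trans (zpow_one _).symm)
  have h3 : ((p - 1 : ℕ) : ℤ) = 1 := Int.eq_one_of_mul_eq_one_left (by positivity) h2
  have := hp.two_le
  omega

end FLTAgent.TOR

end
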