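import Fermat.Agent.TOR.Level
import Fermat.Agent.SS.Unipotent
import Fermat.Agent.Attach.Interface
import Fermat.Prelude.Def_GaloisRep_LocalConditions

/-!
The ordinary identity `(ρ σ - det ρ σ) (ρ τ - 1) = 0` for inertia at `p` exactly dividing the level,
for a Hecke–Galois datum whose residual representation is ordinary at `p`.
-/

set_option autoImplicit false
set_option linter.unusedSectionVars false
set_option linter.style.haveILetI false

noncomputable section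

open IsLocalRing ModularCurve Polynomial

namespace FLTAgent.TOR

open FLTAgent.Attach (HeckeLattice GaloisInputs cyc)
open FLTAgent.FlatDatum (torJ)

local notation "GalQ" => AlgebraicClosure ℚ ≃ₐ[ℚ] AlgebraicClosure ℚ

/-- residually ordinary: the trace on inertia is `1 + det` -/
theorem residue_trace_inertia {T : Type} [CommRing T] [IsLocalRing T] (ρ : GaloisRepAdic T) {p : ℕ}
    (hres : (GaloisRepAdic.ofResidualGaloisRep ρ.residual).IsOrdinaryAt p)
    {P : ValuationSubring (AlgebraicClosure ℚ)} (hP : P.LiesOverPrime p) {σ : GalQ}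
    (hσ : σ ∈ P.inertiaSubgroupIn ℚ) :
    residue T (LinearMap.trace T ρ.V (ρ.ρ σ)) = 1 + residue T (LinearMap.det (ρ.ρ σ)) := by
  obtain ⟨L, ⟨b, hL⟩, hstab, hquot⟩ := hres P hP
  let f : Module.End (ResidueField T) (GaloisRepAdic.ofResidualGaloisRep ρ.residual).V :=
    (GaloisRepAdic.ofResidualGaloisRep ρ.residual).ρ σ
  have hσd : σ ∈ P.decompositionSubgroup ℚ := (Attach.inertia_smul_residue hσ).1
  have h0 : b 0 ∈ L := hL ▸ Submodule.mem_span_singleton_self _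
  obtain ⟨x, hx⟩ : ∃ x : ResidueField T, x • b 0 = f (b 0) :=
    Submodule.mem_span_singleton.mp (hL ▸ hstab σ hσd (b 0) h0)
  obtain ⟨y, hy⟩ : ∃ y : ResidueField T, y • b 0 = f (b 1) - b 1 :=
    Submodule.mem_span_singleton.mp (hL ▸ hquot σ hσ (b 1))
  have hy' : f (b 1) = y • b 0 + b 1 := by rw [hy, sub_add_cancel]
  have e00 : b.repr (f (b 0)) 0 = x := by simp [← hx]
  have e10 : b.repr (f (b 0)) 1 = 0 := by simp [← hx]
  have e11 : b.repr (f (b 1)) 1 = 1 := by simp [hy']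
  have htr : LinearMap.trace (ResidueField T) _ f = x + 1 := by
    rw [LinearMap.trace_eq_matrix_trace _ b, Matrix.trace_fin_two, LinearMap.toMatrix_apply,
      LinearMap.toMatrix_apply, e00, e11]
  have hdet : LinearMap.det f = x := by
    rw [← LinearMap.det_toMatrix b f, Matrix.det_fin_two, LinearMap.toMatrix_apply,
      LinearMap.toMatrix_apply, LinearMap.toMatrix_apply, LinearMap.toMatrix_apply, e00, e10, e11,
      mul_one, mul_zero, sub_zero]
  have h1 : residue T (LinearMap.trace T ρ.V (ρ.ρ σ)) = x + 1 :=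
    (LinearMap.trace_baseChange (ρ.ρ σ) (ResidueField T)).symm.trans htr
  have h2 : residue T (LinearMap.det (ρ.ρ σ)) = x :=
    (LinearMap.det_baseChange (A := ResidueField T) (ρ.ρ σ)).symm.trans hdet
  rw [h1, h2, add_comm]

/-- evaluation of `ℤ[Γ]` as a sum over the support -/
theorem lift_apply_sum {Γ : Type} [Group Γ] {W : Type*} [AddCommGroup W] {R : Type*} [CommRing R]
    [Module R W] (F : Γ →* Module.End R W) (c : MonoidAlgebra ℤ Γ) (x : W) :
    MonoidAlgebra.lift ℤ (Module.End R W) Γ F c x =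
      ∑ g : c.coeff.support, c.coeff g.1 • F g.1 x := by
  rw [MonoidAlgebra.lift_apply, Finsupp.sum, LinearMap.sum_apply, ← Finset.sum_coe_sort]
  rfl

/-- equivariant maps carry the evaluation of `ℤ[Γ]` to the sums -/
theorem map_lift_toModuleEnd {Γ : Type} [Group Γ] {Y J : Type*} [AddCommGroup Y]
    [DistribMulAction Γ Y] [AddCommGroup J] [DistribMulAction Γ J] (f : Y →+ J)
    (hf : ∀ (γ : Γ) y, f (γ • y) = γ • f y) (c : MonoidAlgebra ℤ Γ) (y : Y) :
    f (MonoidAlgebra.lift ℤ (Module.End ℤ Y) Γ (DistribMulAction.toModuleEnd ℤ Y) c y) =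
      ∑ g : c.coeff.support, c.coeff g.1 • g.1 • f y := by
  rw [lift_apply_sum, map_sum]
  refine Finset.sum_congr rfl fun g _ => ?_
  rw [map_zsmul, ← hf]
  rfl

/-- `(σ - a) (τ - 1) c` on a vector -/
theorem lift_relation_apply {Γ : Type} [Group Γ] {W : Type*} [AddCommGroup W] {R : Type*}
    [CommRing R] [Module R W] (F : Γ →* Module.End R W) {c : MonoidAlgebra ℤ Γ}
    {E : Module.End R W} (hc : MonoidAlgebra.lift ℤ (Module.End R W) Γ F c = E) (σ τ : Γ) (a : ℕ)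
    (w : W) :
    MonoidAlgebra.lift ℤ (Module.End R W) Γ F
        ((MonoidAlgebra.of ℤ Γ σ - (a : MonoidAlgebra ℤ Γ)) * (MonoidAlgebra.of ℤ Γ τ - 1) * c) w =
      F σ (F τ (E w) - E w) - a • (F τ (E w) - E w) := by
  rw [map_mul, map_mul, map_sub, map_sub, map_natCast, map_one, MonoidAlgebra.lift_of,
    MonoidAlgebra.lift_of, hc, Module.End.mul_apply, Module.End.mul_apply, LinearMap.sub_apply,
    LinearMap.sub_apply, Module.End.natCast_apply, Module.End.one_apply]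

/-- an element of `ℤ[Γ]` made from a relation kills -/
theorem sum_eq_zero_of_relation {Γ : Type} [Group Γ] {Y J : Type*} [AddCommGroup Y]
    [DistribMulAction Γ Y] [AddCommGroup J] [DistribMulAction Γ J] (f : Y →+ J)
    (hf : ∀ (γ : Γ) y, f (γ • y) = γ • f y) {c : MonoidAlgebra ℤ Γ} {E : Module.End ℤ Y}
    (hc : MonoidAlgebra.lift ℤ (Module.End ℤ Y) Γ (DistribMulAction.toModuleEnd ℤ Y) c = E)
    (σ τ : Γ) (a : ℕ) (h : ∀ y, σ • (τ • E y - E y) = a • (τ • E y - E y))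
    {c' : MonoidAlgebra ℤ Γ}
    (hc' : c' = (MonoidAlgebra.of ℤ Γ σ - (a : MonoidAlgebra ℤ Γ)) *
      (MonoidAlgebra.of ℤ Γ τ - 1) * c) (y : Y) :
    ∑ g : c'.coeff.support, c'.coeff g.1 • g.1 • f y = 0 := by
  subst hc'
  rw [← map_lift_toModuleEnd f hf, lift_relation_apply _ hc]
  exact (congrArg f (sub_eq_zero.mpr (h y))).trans (map_zero f)

/-- two actions of a Hecke algebra given on the `T_ℓ` by elements of `ℤ[Γ]` are so everywhere -/
theorem exists_groupRing {N : ℕ} [NeZero N] {S : Set ℕ} (hNS : ∀ q : ℕ, q.Prime → q ∣ N → q ∈ S)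
    {Γ : Type} [Group Γ] {A₁ A₂ : Type*} [Ring A₁] [Ring A₂] (F₁ : Γ →* A₁) (F₂ : Γ →* A₂)
    (f₁ : CuspForm.heckeAlgebra N 2 S →+* A₁) (f₂ : CuspForm.heckeAlgebra N 2 S →+* A₂)
    (hgen : ∀ (ℓ : ℕ) (hℓ : ℓ.Prime) (hℓN : ¬ ℓ ∣ N) (hℓS : ℓ ∉ S), ∃ φ : Γ,
      F₁ φ + (ℓ : A₁) * F₁ φ⁻¹ = f₁ (CuspForm.heckeAlgebra.T hℓ hℓN hℓS) ∧
      F₂ φ + (ℓ : A₂) * F₂ φ⁻¹ = f₂ (CuspForm.heckeAlgebra.T hℓ hℓN hℓS))
    (t : CuspForm.heckeAlgebra N 2 S) :
    ∃ c : MonoidAlgebra ℤ Γ, MonoidAlgebra.lift ℤ A₁ Γ F₁ c = f₁ t ∧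
      MonoidAlgebra.lift ℤ A₂ Γ F₂ c = f₂ t := by
  obtain ⟨t, ht⟩ := t
  refine Algebra.adjoin_induction
    (p := fun x hx => ∃ c : MonoidAlgebra ℤ Γ, MonoidAlgebra.lift ℤ A₁ Γ F₁ c = f₁ ⟨x, hx⟩ ∧
      MonoidAlgebra.lift ℤ A₂ Γ F₂ c = f₂ ⟨x, hx⟩) ?_ ?_ ?_ ?_ ht
  · rintro x (⟨ℓ, hℓ, hℓN, hℓS, rfl⟩ | ⟨q, hqN, hq, hqS, rfl⟩)
    · obtain ⟨φ, h₁, h₂⟩ := hgen ℓ hℓ hℓN hℓS
      refine ⟨MonoidAlgebra.of ℤ Γ φ + (ℓ : MonoidAlgebra ℤ Γ) * MonoidAlgebra.of ℤ Γ φ⁻¹, ?_, ?_⟩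
      · rw [map_add, map_mul, map_natCast, MonoidAlgebra.lift_of, MonoidAlgebra.lift_of]
        exact h₁
      · rw [map_add, map_mul, map_natCast, MonoidAlgebra.lift_of, MonoidAlgebra.lift_of]
        exact h₂
    · exact absurd (hNS q hq hqN) hqS
  · intro z
    exact ⟨(z : MonoidAlgebra ℤ Γ), (map_intCast _ z).trans (map_intCast f₁ z).symm,
      (map_intCast _ z).trans (map_intCast f₂ z).symm⟩
  · rintro x y hx hy ⟨c, hc, hc'⟩ ⟨d, hd, hd'⟩
    refine ⟨c + d, ?_, ?_⟩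
    · rw [map_add, hc, hd, ← map_add]; rfl
    · rw [map_add, hc', hd', ← map_add]; rfl
  · rintro x y hx hy ⟨c, hc, hc'⟩ ⟨d, hd, hd'⟩
    refine ⟨c * d, ?_, ?_⟩
    · rw [map_mul, hc, hd, ← map_mul]; rfl
    · rw [map_mul, hc', hd', ← map_mul]; rfl

/-- `T_ℓ = φ + ℓ φ⁻¹` on the torsion -/
theorem heckeT_T_apply {N : ℕ} [NeZero N] (D : HeckeLattice N) (G : GaloisInputs N) {n : ℕ}
    [NeZero n] (S : Set ℕ) {ℓ : ℕ} (hℓ : ℓ.Prime) (hℓN : ¬ ℓ ∣ N) (hℓS : ℓ ∉ S) (hℓn : ¬ ℓ ∣ n)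
    {B : ValuationSubring (AlgebraicClosure ℚ)} (hB : B.LiesOverPrime ℓ) {φ : GalQ}
    (hφ : B.IsFrobeniusAt φ ℓ) (y : torJ N n) :
    φ • y + ℓ • (φ⁻¹ • y) = heckeT D n S (CuspForm.heckeAlgebra.T hℓ hℓN hℓS) y := by
  obtain ⟨w, hw⟩ := exists_lift_torJ D n y
  have h1 := heckeT_apply D n S (CuspForm.heckeAlgebra.T hℓ hℓN hℓS) hw
  rw [D.actS_T] at h1
  have h2 := D.frobenius_relation G (Nat.pos_of_ne_zero (NeZero.ne n)) hℓ hℓN hℓn hB hφ w
  rw [hw] at h2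
  exact Subtype.ext (h2.trans h1.symm)

/-- a root of `X² - aX + c` is related to its inverse -/
theorem add_inv_eq {R : Type*} [Ring R] {P Q a c : R} (hQP : Q * P = 1)
    (hQa : Commute Q a) (hQc : Commute Q c) (h : P * P - a * P + c = 0) : P + c * Q = a := by
  have h1 : Q * (P * P - a * P + c) = P + c * Q - a := by
    rw [mul_add, mul_sub, ← mul_assoc, hQP, one_mul, ← mul_assoc, hQa.eq, mul_assoc, hQP, mul_one,
      hQc.eq]
    abel
  rw [h, mul_zero] at h1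
  exact sub_eq_zero.mp h1.symm

variable {M p : ℕ} [NeZero M] [NeZero p] {S : Finset ℕ} {𝒪 : Type} [CommRing 𝒪] [IsDomain 𝒪]
  [IsDiscreteValuationRing 𝒪] [IsAdicComplete (maximalIdeal 𝒪) 𝒪]
  {θ : CuspForm.heckeAlgebra (M * p) 2 (↑S : Set ℕ) →+* ResidueField 𝒪}
  {T : Type} [CommRing T] [IsLocalRing T] [IsNoetherianRing T]
  [IsAdicComplete (maximalIdeal T) T] [Algebra 𝒪 T] [IsLocalHom (algebraMap 𝒪 T)]
  [Module.Finite 𝒪 T] [Module.Free 𝒪 T]

set_option maxHeartbeats 3000000 in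
/-- the ordinary identity -/
theorem ordinary_relation [Finite (ResidueField 𝒪)] (hp : p.Prime) (hp2 : p ≠ 2)
    (hpM : ¬ p ∣ M) (hp𝒪 : (p : 𝒪) ∈ maximalIdeal 𝒪)
    (hNS : ∀ q : ℕ, q.Prime → q ∣ M * p → q ∈ S)
    (H : CuspForm.HeckeGaloisRepDatum (M * p) (↑S : Set ℕ) 𝒪 θ T)
    (hres : (GaloisRepAdic.ofResidualGaloisRep H.ρ.residual).IsOrdinaryAt p)
    {A : ValuationSubring (AlgebraicClosure ℚ)} (hA : A.LiesOverPrime p) {σ τ : GalQ}
    (hσ : σ ∈ A.inertiaSubgroupIn ℚ) (hτ : τ ∈ A.inertiaSubgroupIn ℚ) (v : H.ρ.V) :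
    H.ρ.ρ σ (H.ρ.ρ τ v - v) = LinearMap.det (H.ρ.ρ σ) • (H.ρ.ρ τ v - v) := by
  classical
  have hpS : p ∈ S := hNS p hp (dvd_mul_left p M)
  obtain ⟨D⟩ := Attach.exists_heckeLattice (M * p)
  have G := Attach.galoisInputs (M * p)
  obtain ⟨e, c, hpc, hsat⟩ := D.exists_saturation (↑S : Set ℕ) hp
  have hpT : (p : T) ∈ maximalIdeal T := by
    rw [← map_natCast (algebraMap 𝒪 T)]
    exact map_nonunit (algebraMap 𝒪 T) _ hp𝒪
  have hcT : IsUnit (c : T) := by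
    by_contra hcu
    obtain ⟨a, b, hab⟩ := (hp.coprime_iff_not_dvd.2 hpc).isCoprime
    apply (maximalIdeal.isMaximal T).ne_top
    rw [Ideal.eq_top_iff_one]
    have h1 : (a : T) * p + (b : T) * c = 1 := by exact_mod_cast congrArg (fun z : ℤ => (z : T)) hab
    rw [← h1]
    exact add_mem (Ideal.mul_mem_left _ _ hpT) (Ideal.mul_mem_left _ _ hcu)
  suffices key : ∀ m : ℕ, H.ρ.ρ σ (H.ρ.ρ τ v - v) - LinearMap.det (H.ρ.ρ σ) • (H.ρ.ρ τ v - v) ∈
      maximalIdeal T ^ m • (⊤ : Submodule T H.ρ.V) by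
    set b := Module.finBasisOfFinrankEq T H.ρ.V H.ρ.finrank_eq
    refine sub_eq_zero.mp (b.ext_elem fun i => ?_)
    rw [map_zero, Finsupp.zero_apply]
    refine Attach.eq_zero_of_forall_mem_pow fun m => ?_
    refine Submodule.smul_induction_on (key m) (fun r hr w _ => ?_) fun x y hx hy => ?_
    · rw [map_smul, Finsupp.smul_apply, smul_eq_mul]
      exact Ideal.mul_mem_right _ _ hr
    · rw [map_add, Finsupp.add_apply]
      exact add_mem hx hy
  intro m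
  rcases Nat.eq_zero_or_pos m with rfl | hm
  · rw [pow_zero, Ideal.one_eq_top, Submodule.top_smul]; trivial
  set j := m + e - 1 with hj_def
  have hj : j + 1 = m + e := by omega
  obtain ⟨n, hn_def⟩ : ∃ n, n = p ^ (j + 1) := ⟨_, rfl⟩
  have hn : 0 < n := hn_def ▸ pow_pos hp.pos _
  haveI : NeZero n := ⟨hn.ne'⟩
  choose t ht htr hdet using fun γ : GalQ =>
    SS.exists_model D G hp hpS hNS hpT H m (n := n) hn_def (by omega) γ
  obtain ⟨a, ha⟩ : ∃ a : GalQ → ℕ, ∀ γ, a γ = (cyc n γ).val := ⟨_, fun γ => rfl⟩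
  have hmle : maximalIdeal T ^ m ≤ maximalIdeal T := Ideal.pow_le_self hm.ne'
  have hsat' : ∀ s : CuspForm.heckeAlgebra (M * p) 2 (↑S : Set ℕ),
      (∀ v, D.tors n (D.actS _ s v) = 0) → H.π s ∈ maximalIdeal T ^ m := by
    intro s hs
    obtain ⟨u, hu⟩ := hsat m s (by rw [← hj, ← hn_def]; exact hs)
    have h := congrArg H.π hu
    rw [map_zsmul, map_zsmul, zsmul_eq_mul, zsmul_eq_mul, Int.cast_natCast, Int.cast_natCast,
      Nat.cast_pow] at h
    refine ((maximalIdeal T ^ m).unit_mul_mem_iff_mem hcT).1 ?_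
    rw [h]
    exact Ideal.mul_mem_right _ _ (Ideal.pow_mem_pow hpT m)
  set Φ := heckeT D n (↑S : Set ℕ) with hΦ
  have htw : ∀ (γ : GalQ) (y : torJ (M * p) n), γ • y + a γ • (γ⁻¹ • y) = Φ (t γ) y := fun γ y => by
    obtain ⟨w, hw⟩ := exists_lift_torJ D n y
    refine Subtype.ext ?_
    rw [heckeT_apply D n _ (t γ) hw, ← ht, HeckeLattice.twist, hw, ha]
    rfl
  set f := IsLocalRing.ResidueField.map (algebraMap 𝒪 T)
  have hf : Function.Injective f := f.injective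
  have hres_t : ∀ γ, f (θ (t γ)) = residue T (LinearMap.trace T H.ρ.V (H.ρ.ρ γ)) := fun γ => by
    rw [← H.residue_π, eq_comm, ← sub_eq_zero, ← map_sub, residue_eq_zero_iff]
    exact hmle (htr γ)
  have hθI : ∀ γ ∈ A.inertiaSubgroupIn ℚ, θ (t γ) = 1 + (a γ : ResidueField 𝒪) := fun γ hγ => hf (by
    rw [hres_t, residue_trace_inertia H.ρ hres hA hγ, map_add, map_one, map_natCast]
    congr 1
    rw [← map_natCast (residue T), ← sub_eq_zero, ← map_sub, residue_eq_zero_iff, ha]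
    exact hmle (hdet γ))
  obtain ⟨α, μ, ν, hunit⟩ := FlatDatum.exists_trace_commutator_unit H.ρ H.residual_absIrr
  have hd : θ (t (α * (μ * ν))) ≠ θ (t (α * (ν * μ))) := fun h => by
    have h' := congrArg f h
    rw [hres_t, hres_t, ← sub_eq_zero, ← map_sub, residue_eq_zero_iff] at h'
    exact (mem_maximalIdeal _).1 h' hunit
  have hΦσ : ∀ (γ : GalQ) (s : CuspForm.heckeAlgebra (M * p) 2 (↑S : Set ℕ)) (y : torJ (M * p) n),
      Φ s (γ • y) = γ • Φ s y := fun γ s y => heckeT_smul D G n _ γ s y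
  have hid := torsion_identity hp hp2 hpM hA j hn_def Φ hΦσ θ t a ha htw hθI hd σ hσ τ hτ
  haveI : Finite (torJ (M * p) n) :=
    ((Flat.finite_torsion (N := M * p) n hn).subset fun x hx => hx).to_subtype
  haveI : Finite (Module.End ℤ (torJ (M * p) n)) := Finite.of_injective _ DFunLike.coe_injective
  obtain ⟨u, hu, hnilu⟩ := exists_proj Φ θ
  obtain ⟨cu, hcT', hcV⟩ := exists_groupRing (fun q hq hqN => Finset.mem_coe.mpr (hNS q hq hqN))
    (DistribMulAction.toModuleEnd ℤ (torJ (M * p) n)) H.ρ.ρ Φ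
    ((algebraMap T (Module.End T H.ρ.V)).comp H.π) (fun ℓ hℓ hℓN hℓS => by
      obtain ⟨B, φ, hB, hφ⟩ := FLTAgent.Alg.exists_place_frobenius ℓ hℓ
      have hℓn : ¬ ℓ ∣ n := fun h => hℓS ((Nat.prime_dvd_prime_iff_eq hℓ hp).1
        (hℓ.dvd_of_dvd_pow (hn_def ▸ h)) ▸ hpS)
      refine ⟨φ, LinearMap.ext fun y => Subtype.ext ?_, ?_⟩
      · exact congrArg Subtype.val (heckeT_T_apply D G (↑S : Set ℕ) hℓ hℓN hℓS hℓn hB hφ y)
      · refine add_inv_eq (by rw [← map_mul, inv_mul_cancel, map_one])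
          (Algebra.commutes (H.π (CuspForm.heckeAlgebra.T hℓ hℓN hℓS)) (H.ρ.ρ φ⁻¹)).symm
          (Nat.cast_commute ℓ _).symm ?_
        have h := Attach.quadratic_of_charpoly (H.charpoly_frob ℓ hℓ hℓN hℓS B hB φ hφ)
        rw [RingHom.comp_apply, ← Algebra.smul_def]
        convert h using 2
        rw [Nat.cast_smul_eq_nsmul, nsmul_eq_mul, mul_one]) u
  have hloc : ∀ y : torJ (M * p) n, Φ u y ∈ locPart Φ θ := fun y b hb => by
    obtain ⟨i, hi⟩ := hnilu b hb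
    refine ⟨i, ?_⟩
    rw [← map_pow, ← Module.End.mul_apply, ← map_mul, mul_comm (b ^ i) u, hi, LinearMap.zero_apply]
  set c' : MonoidAlgebra ℤ GalQ := (MonoidAlgebra.of ℤ GalQ σ - (a σ : MonoidAlgebra ℤ GalQ)) *
    (MonoidAlgebra.of ℤ GalQ τ - 1) * cu with hc'
  have hkill : ∀ x : JZero (M * p), n • x = 0 →
      ∑ g : c'.coeff.support, c'.coeff g.1 • g.1 • x = 0 := by
    intro x hx
    exact sum_eq_zero_of_relation (torJ (M * p) n).subtype (fun γ y => rfl) hcT' σ τ (a σ)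
      (fun y => hid _ (hloc y)) hc' ⟨x, (FlatDatum.mem_torJ n).mpr hx⟩
  have hbound : ∀ w : H.ρ.V,
      ∑ g : c'.coeff.support, c'.coeff g.1 • H.ρ.ρ g.1 w ∈
        maximalIdeal T ^ m • (⊤ : Submodule T H.ρ.V) := by
    intro w
    have hX : (∑ g : c'.coeff.support, c'.coeff g.1 • H.ρ.ρ g.1) w =
        ∑ g : c'.coeff.support, c'.coeff g.1 • H.ρ.ρ g.1 w := by rw [LinearMap.sum_apply]; rfl
    rw [← hX]
    refine FlatDatum.mem_smul_top_of_trace_mem H.ρ H.residual_absIrr _ _ (fun γ => ?_) w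
    have h := FlatDatum.trace_sum_mem D G H hm hn t ht htr hsat'
      (fun g : c'.coeff.support => c'.coeff g.1) (fun g => γ * g.1) fun x hx => by
        simp only [mul_smul]
        rw [← FlatDatum.smul_sum_zsmul, hkill x hx, smul_zero]
    convert h using 1
    rw [Finset.mul_sum, map_sum]
    refine Finset.sum_congr rfl fun g _ => ?_
    rw [mul_smul_comm, map_zsmul, zsmul_eq_mul, ← map_mul]
  have hπu : IsUnit (H.π u) := by
    rw [← residue_ne_zero_iff_isUnit, H.residue_π, hu, map_one]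
    exact one_ne_zero
  obtain ⟨r, hr⟩ := hπu.exists_left_inv
  have hV := hbound (r • v)
  rw [← lift_apply_sum, hc', lift_relation_apply H.ρ.ρ hcV, RingHom.comp_apply,
    Module.algebraMap_end_apply, smul_smul, mul_comm (H.π u) r, hr, one_smul,
    ← Nat.cast_smul_eq_nsmul T, ha] at hV
  set w := H.ρ.ρ τ v - v
  have h2 := sub_mem hV (Submodule.smul_mem_smul (hdet σ) (Submodule.mem_top (x := w)))
  convert h2 using 1
  rw [sub_smul]
  abel

end FLTAgent.TOR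

end
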