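import Fermat.Agent.TOR.InertiaVal
import Fermat.Agent.Attach.Cyclotomic
import Fermat.Prelude.Def_GaloisRep_LocalConditions

/-!
From the identity `(ρ σ - det ρ σ) (ρ τ - 1) = 0` on inertia to the ordinary line.
-/

set_option autoImplicit false
set_option linter.unusedSectionVars false
set_option linter.style.haveILetI false

noncomputable section

open IsLocalRing

namespace FLTAgent.TOR

local notation "GalQ" => AlgebraicClosure ℚ ≃ₐ[ℚ] AlgebraicClosure ℚ

/-- the range of an idempotent of trace one is a line spanned by a basis vector -/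
theorem exists_basis_of_idem {T : Type*} [CommRing T] [IsLocalRing T] {V : Type*} [AddCommGroup V]
    [Module T V] [Module.Free T V] [Module.Finite T V] (hrk : Module.finrank T V = 2)
    {e : Module.End T V} (he : ∀ v, e (e v) = e v) (htr : LinearMap.trace T V e = 1) :
    ∃ b : Module.Basis (Fin 2) T V, LinearMap.range e = T ∙ b 0 := by
  set bb := Module.finBasisOfFinrankEq T V hrk
  have hsum : bb.repr (e (bb 0)) 0 + bb.repr (e (bb 1)) 1 = 1 := by
    rw [← htr, LinearMap.trace_eq_matrix_trace T bb, Matrix.trace_fin_two, LinearMap.toMatrix_apply,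
      LinearMap.toMatrix_apply]
  obtain ⟨i, j, hne, hij, hunit⟩ : ∃ i j : Fin 2, i ≠ j ∧
      bb.repr (e (bb i)) i + bb.repr (e (bb j)) j = 1 ∧ IsUnit (bb.repr (e (bb i)) i) := by
    rcases IsLocalRing.isUnit_or_isUnit_of_isUnit_add (hsum ▸ isUnit_one) with h | h
    · exact ⟨0, 1, by decide, hsum, h⟩
    · exact ⟨1, 0, by decide, (add_comm _ _).trans hsum, h⟩
  have hcases : ∀ k : Fin 2, k = i ∨ k = j := by
    intro k; omega
  have hexp : ∀ w : V, w = bb.repr w i • bb i + bb.repr w j • bb j := fun w => by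
    conv_lhs => rw [← bb.sum_repr w]
    rw [Fintype.sum_eq_add i j hne fun k hk => (hcases k).elim (fun h => absurd h hk.1)
      fun h => absurd h hk.2]
  let v : Fin 2 → V := ![e (bb i), bb j]
  have h0 : e (bb i) ∈ Submodule.span T (Set.range v) := Submodule.subset_span ⟨0, rfl⟩
  have h1 : bb j ∈ Submodule.span T (Set.range v) := Submodule.subset_span ⟨1, rfl⟩
  obtain ⟨d, hd⟩ := hunit.exists_left_inv
  have hi : bb i ∈ Submodule.span T (Set.range v) := by
    have h := congrArg (d • ·) (hexp (e (bb i)))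
    simp only [smul_add, smul_smul, hd, one_smul] at h
    rw [← sub_eq_iff_eq_add] at h
    rw [← h]
    exact sub_mem (Submodule.smul_mem _ d h0) (Submodule.smul_mem _ _ h1)
  have htop : ⊤ ≤ Submodule.span T (Set.range v) := fun w _ => by
    rw [hexp w]
    exact add_mem (Submodule.smul_mem _ _ hi) (Submodule.smul_mem _ _ h1)
  refine ⟨basisOfTopLeSpanOfCardEqFinrank v htop (by rw [Fintype.card_fin, hrk]), ?_⟩
  rw [show basisOfTopLeSpanOfCardEqFinrank v htop (by rw [Fintype.card_fin, hrk]) 0 = e (bb i) by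
    rw [coe_basisOfTopLeSpanOfCardEqFinrank]; rfl]
  refine le_antisymm ?_ ((Submodule.span_singleton_le_iff_mem _ _).mpr (LinearMap.mem_range_self e _))
  rintro _ ⟨w, rfl⟩
  obtain ⟨c, hc⟩ := (Submodule.mem_span_range_iff_exists_fun T).mp (htop (Submodule.mem_top (x := e w)))
  rw [Fin.sum_univ_two, show v 0 = e (bb i) from rfl, show v 1 = bb j from rfl] at hc
  have h2 : c 1 • (bb j - e (bb j)) = 0 := by
    have h := congrArg e hc
    rw [map_add, map_smul, map_smul, he, he] at h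
    rw [smul_sub, sub_eq_zero]
    exact add_left_cancel (hc.trans h.symm)
  have h3 : c 1 * bb.repr (e (bb i)) i = 0 := by
    have h := congrArg (fun x => bb.repr x j) h2
    simp only [map_smul, map_sub, map_zero, Finsupp.smul_apply, Finsupp.sub_apply,
      Module.Basis.repr_self, Finsupp.single_eq_same, Finsupp.zero_apply, smul_eq_mul] at h
    rwa [show (1 : T) - bb.repr (e (bb j)) j = bb.repr (e (bb i)) i by rw [← hij]; abel] at h
  rw [hunit.mul_left_eq_zero] at h3
  rw [h3, zero_smul, add_zero] at hc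
  exact Submodule.mem_span_singleton.mpr ⟨c 0, hc⟩

/-- inertia is normal in the decomposition group -/
theorem inertia_conj_deco {P : ValuationSubring (AlgebraicClosure ℚ)} {σ τ : GalQ}
    (hσ : σ ∈ P.decompositionSubgroup ℚ) (hτ : τ ∈ P.inertiaSubgroupIn ℚ) :
    σ⁻¹ * τ * σ ∈ P.inertiaSubgroupIn ℚ := by
  obtain ⟨δ, hδ, rfl⟩ := Subgroup.mem_map.mp hτ
  let s : P.decompositionSubgroup ℚ := ⟨σ, hσ⟩
  haveI : (P.inertiaSubgroup ℚ).Normal := MonoidHom.normal_ker _
  exact Subgroup.mem_map.mpr ⟨s⁻¹ * δ * s, Subgroup.Normal.conj_mem' ‹_› δ hδ s, rfl⟩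

/-- the identity gives ordinarity -/
theorem isOrdinaryAt_of_relation {T : Type} [CommRing T] [IsLocalRing T] (ρ : GaloisRepAdic T)
    {p : ℕ}
    (hmove : ∀ P : ValuationSubring (AlgebraicClosure ℚ), P.LiesOverPrime p →
      ∃ τ ∈ P.inertiaSubgroupIn ℚ, IsUnit (LinearMap.det (ρ.ρ τ) - 1))
    (hrel : ∀ P : ValuationSubring (AlgebraicClosure ℚ), P.LiesOverPrime p →
      ∀ σ ∈ P.inertiaSubgroupIn ℚ, ∀ τ ∈ P.inertiaSubgroupIn ℚ, ∀ v : ρ.V,
        ρ.ρ σ (ρ.ρ τ v - v) = LinearMap.det (ρ.ρ σ) • (ρ.ρ τ v - v)) :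
    ρ.IsOrdinaryAt p := by
  intro P hP
  obtain ⟨τ₀, hτ₀, hu⟩ := hmove P hP
  have hrel' := hrel P hP
  set f := ρ.ρ τ₀
  set d := LinearMap.det f with hd
  obtain ⟨r, hr⟩ := hu.exists_left_inv
  have hff : ∀ v, f (f v - v) = d • (f v - v) := hrel' τ₀ hτ₀ τ₀ hτ₀
  have htr : LinearMap.trace T ρ.V f = 1 + d := by
    let b := Module.finBasisOfFinrankEq T ρ.V ρ.finrank_eq
    have hch : LinearMap.charpoly f =
        Polynomial.X ^ 2 - Polynomial.C (LinearMap.trace T ρ.V f) * Polynomial.X + Polynomial.C d := by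
      rw [← LinearMap.charpoly_toMatrix f b, Matrix.charpoly_fin_two, hd,
        LinearMap.trace_eq_matrix_trace T b, LinearMap.det_toMatrix b]
    have hq := LinearMap.aeval_self_charpoly f
    rw [hch] at hq
    have hz : ∀ v, ((1 + d) - LinearMap.trace T ρ.V f) • f v = 0 := fun v => by
      have h1 : f (f v) - LinearMap.trace T ρ.V f • f v + d • v = 0 := by
        have := LinearMap.congr_fun hq v
        simpa [sq] using this
      have h2 := hff v
      rw [map_sub, smul_sub, sub_eq_iff_eq_add] at h2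
      rw [h2] at h1
      rw [← h1]
      module
    have hsurj : ∀ w : ρ.V, f (ρ.ρ τ₀⁻¹ w) = w := fun w => by
      rw [← Module.End.mul_apply, ← map_mul, mul_inv_cancel, map_one]; rfl
    have h := congrArg (fun x => b.repr x 0) (hz (ρ.ρ τ₀⁻¹ (b 0)))
    simp only [hsurj, map_smul, Module.Basis.repr_self, Finsupp.smul_apply, Finsupp.single_eq_same,
      smul_eq_mul, mul_one, map_zero, Finsupp.zero_apply] at h
    exact (sub_eq_zero.mp h).symm
  set e : Module.End T ρ.V := r • (f - 1) with he_def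
  have he_apply : ∀ v, e v = r • (f v - v) := fun v => rfl
  have heL : ∀ w : ρ.V, f w = d • w → e w = w := fun w hw => by
    rw [he_apply, hw, show d • w - w = (d - 1) • w by rw [sub_smul, one_smul], smul_smul, hr,
      one_smul]
  have hLe : ∀ v, f (e v) = d • e v := fun v => by
    rw [he_apply, map_smul, hff, smul_comm]
  have hidem : ∀ v, e (e v) = e v := fun v => heL _ (hLe v)
  have htre : LinearMap.trace T ρ.V e = 1 := by
    rw [he_def, map_smul, map_sub, htr, LinearMap.trace_one, ρ.finrank_eq, smul_eq_mul]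
    linear_combination hr
  obtain ⟨b, hb⟩ := exists_basis_of_idem ρ.finrank_eq hidem htre
  refine ⟨LinearMap.range e, ⟨b, hb⟩, ?_, fun σ hσ v => ⟨_, heL _ (hrel' τ₀ hτ₀ σ hσ v)⟩⟩
  rintro σ hσ _ ⟨v, rfl⟩
  refine ⟨ρ.ρ σ (e v), heL _ ?_⟩
  have hc : σ⁻¹ * τ₀ * σ ∈ P.inertiaSubgroupIn ℚ := inertia_conj_deco hσ hτ₀
  have hdet : LinearMap.det (ρ.ρ (σ⁻¹ * τ₀ * σ)) = d := by
    calc LinearMap.det (ρ.ρ (σ⁻¹ * τ₀ * σ))
        = LinearMap.det (ρ.ρ σ⁻¹) * d * LinearMap.det (ρ.ρ σ) := by simp only [map_mul, hd, f]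
      _ = d * (LinearMap.det (ρ.ρ σ⁻¹) * LinearMap.det (ρ.ρ σ)) := by ring
      _ = d := by
        rw [← map_mul LinearMap.det (ρ.ρ σ⁻¹), ← map_mul ρ.ρ σ⁻¹, inv_mul_cancel, map_one, map_one,
          mul_one]
  have hσσ : ∀ x, ρ.ρ σ (ρ.ρ σ⁻¹ x) = x := fun x => by
    rw [← Module.End.mul_apply, ← map_mul, mul_inv_cancel, map_one, Module.End.one_apply]
  have h1 := congrArg (ρ.ρ σ) (hrel' _ hc τ₀ hτ₀ v)
  rw [hdet, map_mul, map_mul, Module.End.mul_apply, Module.End.mul_apply, hσσ, map_smul] at h1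
  rw [he_apply, map_smul, map_smul, smul_comm d r]
  exact congrArg (r • ·) h1

end FLTAgent.TOR

end
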