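import Fermat.Agent.TOR.ToricLevel
import Fermat.Agent.SS.FibreCore
import Fermat.Agent.SS.Galois
import Fermat.Agent.SS2.BranchesGauss
import Fermat.Agent.SS2.Incl
import Fermat.Agent.SS2.Rational
import Fermat.Agent.Flat.Lattice

/-!
The norms to level `M` of functions close to one, to first order, and the input `PushInput` from the
vanishing of the two pushforwards.
-/

set_option autoImplicit false
set_option linter.unusedSectionVars false
set_option synthInstance.maxHeartbeats 200000
set_option linter.style.haveILetI false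

noncomputable section

open ModularCurve AlgebraicCurve IsLocalRing
open FLTAgent.Reduction (Qb kA FB FS Ctx GR redS red qExpand_normBeta twist)
open FLTAgent.SS2 (LS cL GG redL normAlong)

namespace FLTAgent.TOR

open FLTAgent.SS

variable {M p : ℕ} [NeZero M] [NeZero p] {A : ValuationSubring Qb}

theorem mem_GG_iff {N : ℕ} [NeZero N] {x : FB N} : (x : LS) ∈ GG A ↔ x ∈ GR A N := Iff.rfl

theorem redL_coe {N : ℕ} [NeZero N] {x : FB N} (hx : x ∈ GR A N) : redL A (x : LS) = redS A N x := by
  obtain ⟨G, H, hH, h⟩ := hx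
  rw [SS2.redL_eq hH h, Reduction.redS_eq hH h]

theorem exists_prod_one_add {R : Type*} [CommRing R] (S : Subring R) {c : R} (hc : c ∈ S)
    {ι : Type*} (s : Finset ι) (Z : ι → R) (hZ : ∀ i ∈ s, Z i ∈ S) :
    ∃ r ∈ S, ∏ i ∈ s, (1 + c * Z i) = 1 + c * (∑ i ∈ s, Z i) + c ^ 2 * r := by
  classical
  induction s using Finset.induction with
  | empty => exact ⟨0, zero_mem _, by simp⟩
  | insert a s ha ih =>
    obtain ⟨r, hr, h⟩ := ih fun i hi => hZ i (Finset.mem_insert_of_mem hi)
    have hs : ∑ i ∈ s, Z i ∈ S := sum_mem fun i hi => hZ i (Finset.mem_insert_of_mem hi)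
    refine ⟨r + Z a * (∑ i ∈ s, Z i) + c * Z a * r, add_mem (add_mem hr
      (mul_mem (hZ a (by simp)) hs)) (mul_mem (mul_mem hc (hZ a (by simp))) hr), ?_⟩
    rw [Finset.prod_insert ha, Finset.sum_insert ha, h]
    ring

set_option maxHeartbeats 1600000 in
/-- the norm along the first degeneracy map as a product over the conjugates -/
theorem qExpand_normAlong (C : Ctx A M p) {u : Qbˣ} (hu : IsPrimitiveRoot u p) (y : FB (M * p)) :
    qExpand Qb p ((normAlong (i1 M p) y : FB M) : LS) =
      qExpand Qb p (y : LS) *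
        ∏ i : Fin p, twist (u ^ (i : ℕ)) ((atkinW M p y : FB (M * p)) : LS) := by
  classical
  letI := algebraAlong (i1 M p)
  haveI := isScalarTower_along (i1 M p)
  haveI hfin : Module.Finite (FB M) (FB (M * p)) := HeckeJ.finiteAlong (i1 M p)
  haveI : CharZero (FB M) := charZero_of_injective_algebraMap (algebraMap Qb (FB M)).injective
  haveI : Algebra.IsIntegral (FB M) (FB (M * p)) := Algebra.IsIntegral.of_finite _ _
  haveI : Algebra.IsSeparable (FB M) (FB (M * p)) := Algebra.IsSeparable.of_integral _ _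
  let vN : FB M →+* LS := (modularFunctionFieldBar M).val.toRingHom
  let vM : FB (M * p) →+* LS := (modularFunctionFieldBar (M * p)).val.toRingHom
  have hvN : ∀ g, vN g = (g : LS) := fun g => rfl
  have hα : ∀ g : FB M, algebraMap (FB M) (FB (M * p)) g = i1 M p g := fun g => rfl
  let e : Option (Fin p) → (FB (M * p) →+* LS) := fun o =>
    o.elim ((qExpand Qb p).comp vM) fun i =>
      (twist (u ^ (i : ℕ))).comp (vM.comp (atkinW M p).toRingHom)
  have he₀ : ∀ x, e none x = qExpand Qb p (x : LS) := fun x => rfl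
  have he₁ : ∀ i x, e (some i) x = twist (u ^ (i : ℕ)) ((atkinW M p x : FB (M * p)) : LS) :=
    fun i x => rfl
  have he : ∀ o g, e o (algebraMap (FB M) (FB (M * p)) g) = ((qExpand Qb p).comp vN) g := by
    rintro (_ | i) g
    · rw [he₀, hα, coe_heckeAlphaBar, RingHom.comp_apply, hvN]
    · rw [he₁, hα, SS.atkinW_i1 C, coe_heckeBetaBar, RingHom.comp_apply, hvN,
        Reduction.twist_qExpand _ _ (by rw [← pow_mul, mul_comm, pow_mul, hu.pow_eq_one, one_pow])]
  have hj : ((ModFun.jBar M : FB M) : LS) = jqModC Qb := by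
    rw [Reduction.jqModC_eq_coeffEmb]; rfl
  have hE0 : e none (i2 M p (ModFun.jBar M)) = qExpand Qb p (qExpand Qb p (jqModC Qb)) := by
    rw [he₀, coe_heckeBetaBar, hj]
  have hE1 : ∀ i, e (some i) (i2 M p (ModFun.jBar M)) = twist (u ^ (i : ℕ)) (jqModC Qb) := fun i => by
    rw [he₁, SS.atkinW_i2 C, coe_heckeAlphaBar, hj]
  have hnd : ¬ (p : ℤ) ∣ -1 := fun h => C.prime.one_lt.ne' (Nat.eq_one_of_dvd_one
    (by exact_mod_cast (dvd_neg.mp h)))
  have hinj : Function.Injective e := by
    have hne : ∀ i, e none ≠ e (some i) := fun i h => by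
      have h1 := congrArg (fun s : LS => s.coeff (-1))
        ((hE0.symm.trans (DFunLike.congr_fun h _)).trans (hE1 i))
      simp only [Reduction.coe_jqModC_neg_one, qExpand_coeff_of_not_dvd p _ hnd] at h1
      exact ((u ^ (i : ℕ)) ^ (-1 : ℤ)).ne_zero h1.symm
    rintro (_ | i) (_ | j) h
    · rfl
    · exact absurd h (hne j)
    · exact absurd h.symm (hne i)
    · have h1 := congrArg (fun s : LS => s.coeff (-1))
        (((hE1 i).symm.trans (DFunLike.congr_fun h _)).trans (hE1 j))
      simp only [Reduction.coe_jqModC_neg_one] at h1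
      have h2 : u ^ (i : ℕ) = u ^ (j : ℕ) := by simpa using Units.ext h1
      rw [Fin.ext (hu.pow_inj i.2 j.2 h2)]
  have hcard : Fintype.card (Option (Fin p)) = Module.finrank (FB M) (FB (M * p)) := by
    rw [Fintype.card_option, Fintype.card_fin]
    exact (Reduction.finrankAlong_alpha C.prime C.not_dvd).symm
  have hn := Reduction.norm_eq_prod_homs ((qExpand Qb p).comp vN) e he hinj hcard y
  rw [RingHom.comp_apply, hvN] at hn
  refine hn.trans ?_
  rw [Fintype.prod_option]
  rfl

/-- Gauss integrality can be tested after substituting `q ↦ q ^ p` -/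
theorem mem_GR_of_qExpand (C : Ctx A M p) {x : FB M} (h : qExpand Qb p (x : LS) ∈ GG A) :
    x ∈ GR A M := by
  rcases eq_or_ne x 0 with rfl | hx
  · exact zero_mem _
  obtain ⟨c, u, hc, hu, hu0, -, rfl⟩ := Reduction.exists_scale C hx
  obtain ⟨h1, h2⟩ := SS2.qExpand_mem p (mem_GG_iff.mpr hu)
  refine mul_mem (Reduction.cB_mem ?_) hu
  refine SS2.mem_A_of_cL_mul h1 ?_ ?_
  · rw [h2, redL_coe hu]; exact (map_ne_zero _).mpr hu0
  · convert h using 1
    rw [MulMemClass.coe_mul, map_mul]
    congr 1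
    show _ = qExpand Qb p (algebraMap Qb LS c)
    rw [cL, algebraMap_laurentSeries_eq_single, qExpand_single, mul_zero]

set_option maxHeartbeats 800000 in
/-- first order expansion of the norm -/
theorem norm_first_order (C : Ctx A M p) {y : FB (M * p)} (hy : ∀ b, y ∈ GS M p A b) {c : Qb}
    (hc : A.valuation c < 1) (hc0 : c ≠ 0) :
    ∃ u ∈ GR A M, normAlong (i1 M p) (1 + algebraMap Qb (FB (M * p)) c * y)
        = 1 + algebraMap Qb (FB M) c * u ∧ red A M u = redM M p A false y := by
  classical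
  haveI := Fact.mk C.prime
  haveI := Reduction.charP_residue A C.prime C.lies
  haveI : NeZero (p : Qb) := ⟨Nat.cast_ne_zero.mpr C.prime.ne_zero⟩
  obtain ⟨ζ, hζ⟩ := HasEnoughRootsOfUnity.exists_primitiveRoot Qb p
  have hζA : ζ ∈ A := Reduction.mem_A_of_isIntegral A ⟨Polynomial.X ^ p - 1,
    Polynomial.monic_X_pow_sub_C 1 C.prime.ne_zero, by simp [hζ.pow_eq_one]⟩
  have hζ' : (⟨ζ, hζA⟩ : A) ^ p = 1 := Subtype.ext hζ.pow_eq_one
  set uA : Aˣ := Units.ofPowEqOne ⟨ζ, hζA⟩ p hζ' C.prime.ne_zero with huA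
  have hu : IsPrimitiveRoot (SS2.unitQ uA) p :=
    IsPrimitiveRoot.coe_units_iff.mp (by simpa [huA] using hζ)
  have hu1 : residue A (uA : A) = 1 := by
    have h1 : (residue A ⟨ζ, hζA⟩ - 1) ^ p = 0 := by
      rw [sub_pow_char, ← map_pow, hζ', map_one, one_pow, sub_self]
    simpa [huA, sub_eq_zero] using eq_zero_of_pow_eq_zero h1
  have hpowu : ∀ i : ℕ, SS2.unitQ uA ^ i = SS2.unitQ (uA ^ i) ∧ residue A ((uA ^ i : Aˣ) : A) = 1 :=
    fun i => ⟨(map_pow _ _ _).symm, by rw [Units.val_pow_eq_pow_val, map_pow, hu1, one_pow]⟩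
  have hyf : y ∈ GR A (M * p) := hy false
  have hyt : atkinW M p y ∈ GR A (M * p) := hy true
  set Y : LS := qExpand Qb p (y : LS)
  set Z : Fin p → LS := fun i => twist (SS2.unitQ uA ^ (i : ℕ)) ((atkinW M p y : FB (M * p)) : LS)
  obtain ⟨hY, hYr⟩ := SS2.qExpand_mem p (mem_GG_iff.mpr hyf)
  have hZ : ∀ i, Z i ∈ GG A ∧ redL A (Z i) = redS A (M * p) (atkinW M p y) := fun i => by
    obtain ⟨h1, h2⟩ := SS2.twist_mem_of_residue_one (uA ^ (i : ℕ)) (hpowu i).2 (mem_GG_iff.mpr hyt)
    simp only [Z, (hpowu i).1]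
    exact ⟨h1, h2.trans (redL_coe hyt)⟩
  have hcA : c ∈ A := mem_of_val_le hc.le
  have hcG : cL c ∈ GG A := SS2.cL_mem hcA
  obtain ⟨r, hr, hprod⟩ := exists_prod_one_add (GG A) hcG Finset.univ Z fun i _ => (hZ i).1
  have hS : ∑ i, Z i ∈ GG A := sum_mem fun i _ => (hZ i).1
  set R : LS := r + Y * (∑ i, Z i) + cL c * Y * r
  have hR : R ∈ GG A := add_mem (add_mem hr (mul_mem hY hS)) (mul_mem (mul_mem hcG hY) hr)
  set u : FB M := algebraMap Qb (FB M) c⁻¹ *
    (normAlong (i1 M p) (1 + algebraMap Qb (FB (M * p)) c * y) - 1) with hudef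
  have hk : algebraMap Qb (FB M) c ≠ 0 := (map_ne_zero _).mpr hc0
  have hq : ∀ x : Qb, qExpand Qb p (cL x) = cL x := fun x => by
    rw [cL, algebraMap_laurentSeries_eq_single, qExpand_single, mul_zero]
  have hcoe : ∀ (N : ℕ) [NeZero N] (x : Qb), ((algebraMap Qb (FB N) x : FB N) : LS) = cL x :=
    fun N _ x => rfl
  have htw : ∀ i : ℕ, twist (SS2.unitQ uA ^ i) (cL c) = cL c := fun i => by
    rw [cL, algebraMap_laurentSeries_eq_single, Reduction.twist_single_zero]
  have hexp : qExpand Qb p (u : LS) = Y + (∑ i, Z i) + cL c * R := by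
    rw [hudef, MulMemClass.coe_mul, AddSubgroupClass.coe_sub, OneMemClass.coe_one, hcoe, map_mul,
      map_sub, map_one, hq, qExpand_normAlong C hu]
    simp only [map_add, map_one, map_mul, AlgHom.commutes, AddMemClass.coe_add,
      MulMemClass.coe_mul, OneMemClass.coe_one, hcoe, hq, htw]
    have hck : cL c⁻¹ * cL c = 1 := by rw [← SS2.cL_mul, inv_mul_cancel₀ hc0, SS2.cL_one]
    rw [hprod]
    linear_combination (Y + (∑ i, Z i) + cL c * R) * hck
  have hu' : u ∈ GR A M := mem_GR_of_qExpand C (hexp ▸ add_mem (add_mem hY hS) (mul_mem hcG hR))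
  refine ⟨u, hu', ?_, ?_⟩
  · rw [hudef, ← mul_assoc, ← map_mul, mul_inv_cancel₀ hc0, map_one, one_mul, add_sub_cancel]
  refine Subtype.ext ?_
  rw [Reduction.coe_red C hu']
  refine qExpand_injective (R := kA A) (N := p) ?_
  have h1 := congrArg (redL A) hexp
  rw [(SS2.qExpand_mem p (mem_GG_iff.mpr hu')).2, redL_coe hu', SS2.redL_add (add_mem hY hS)
    (mul_mem hcG hR), SS2.redL_add hY hS, hYr, redL_coe hyf, SS2.redL_mul hcG hR,
    SS2.redL_cL ⟨c, hcA⟩, residue_eq_zero_of_lt (c := ⟨c, hcA⟩) hc, map_zero, zero_mul, add_zero,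
    SS2.redL_sum _ _ fun i _ => (hZ i).1, Finset.sum_congr rfl fun i _ => (hZ i).2,
    Finset.sum_const, Finset.card_univ, Fintype.card_fin] at h1
  rw [h1]
  haveI : CharP (LaurentSeries (kA A)) p :=
    charP_of_injective_algebraMap (algebraMap (kA A) (LaurentSeries (kA A))).injective p
  rw [nsmul_eq_mul, CharP.cast_eq_zero, zero_mul, add_zero]
  exact congrArg _ (isRed_redM C (hy false)).2

/-- the norm along the second degeneracy map -/
theorem normAlong_i2 (C : Ctx A M p) (x : FB (M * p)) :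
    normAlong (i2 M p) x = normAlong (i1 M p) (atkinW M p x) := by
  let W : FB (M * p) ≃+* FB (M * p) :=
    { (atkinW M p).toRingHom with
      invFun := atkinW M p
      left_inv := SS.atkinW_atkinW C
      right_inv := SS.atkinW_atkinW C }
  exact @Algebra.norm_eq_of_equiv_equiv (FB M) (FB (M * p)) (FB M) (FB (M * p)) _ _ _ _
    (algebraAlong (i2 M p)) (algebraAlong (i1 M p)) (RingEquiv.refl _) W
    (RingHom.ext fun g => (SS.atkinW_i2 C g).symm) x

set_option maxHeartbeats 1600000 in
/-- norms of linear combinations are polynomial in the coefficients -/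
theorem exists_norm_poly (φ : FB M →ₐ[Qb] FB (M * p)) {d : ℕ} (v : Fin d → FB (M * p)) :
    ∃ (r : ℕ) (g : Fin r → FB M) (t : Fin r → MvPolynomial (Fin d) Qb), ∀ a : Fin d → Qb,
      normAlong φ (∑ i, algebraMap Qb (FB (M * p)) (a i) * v i)
        = ∑ k, algebraMap Qb (FB M) (MvPolynomial.eval a (t k)) * g k := by
  classical
  letI := algebraAlong φ
  haveI := isScalarTower_along φ
  haveI : Module.Finite (FB M) (FB (M * p)) := HeckeJ.finiteAlong φ
  let bas := Module.finBasis (FB M) (FB (M * p))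
  let Mx : Matrix (Fin (Module.finrank (FB M) (FB (M * p)))) (Fin (Module.finrank (FB M) (FB (M * p))))
      (MvPolynomial (Fin d) (FB M)) := Matrix.of fun r s =>
    ∑ i, MvPolynomial.C (Algebra.leftMulMatrix bas (v i) r s) * MvPolynomial.X i
  set P := Mx.det with hP
  refine ⟨P.support.card, fun k => P.coeff (P.support.equivFin.symm k),
    fun k => MvPolynomial.monomial (P.support.equivFin.symm k : Fin d →₀ ℕ) 1, fun a => ?_⟩
  have h1 : normAlong φ (∑ i, algebraMap Qb (FB (M * p)) (a i) * v i)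
      = MvPolynomial.eval (fun i => algebraMap Qb (FB M) (a i)) P := by
    show Algebra.norm (FB M) _ = _
    rw [Algebra.norm_eq_matrix_det bas, hP, RingHom.map_det]
    congr 1
    refine Matrix.ext fun r s => ?_
    have e : ∀ i, algebraMap Qb (FB (M * p)) (a i) * v i = algebraMap Qb (FB M) (a i) • v i :=
      fun i => by rw [Algebra.smul_def, ← IsScalarTower.algebraMap_apply]
    simp only [e, map_sum, map_smul, Matrix.sum_apply, Matrix.smul_apply, RingHom.mapMatrix_apply,
      Matrix.map_apply, Mx, Matrix.of_apply, map_mul, MvPolynomial.eval_C, MvPolynomial.eval_X,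
      smul_eq_mul]
    exact Finset.sum_congr rfl fun i _ => mul_comm _ _
  rw [h1, MvPolynomial.eval_eq, ← Finset.sum_coe_sort P.support,
    ← P.support.equivFin.symm.sum_comp (fun n : P.support =>
      P.coeff (n : Fin d →₀ ℕ) * ∏ i ∈ (n : Fin d →₀ ℕ).support,
        algebraMap Qb (FB M) (a i) ^ (n : Fin d →₀ ℕ) i)]
  refine Finset.sum_congr rfl fun k _ => ?_
  rw [MvPolynomial.eval_monomial, one_mul, Finsupp.prod, map_prod, mul_comm]
  simp only [map_pow]

/-- the pushforward of a principal divisor -/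
theorem pushforward_dv (φ : FB M →ₐ[Qb] FB (M * p)) (hφ : φ.toRingHom.IsIntegral) {f : FB (M * p)}
    (hf : f ≠ 0) (D : Divisor Qb (FB (M * p))) (hD : ∀ w, D w = w.ord f)
    (v : Place Qb (FB M)) :
    Divisor.pushforwardAlong φ hφ D v = v.ord (normAlong φ f) := by
  have hN : NormFormulaAlong Qb φ (HeckeJ.finiteAlong φ) := HeckeJ.normFormulaAlong _ _
  letI := algebraAlong φ
  haveI := isScalarTower_along φ
  haveI := isIntegral_along φ hφ
  haveI : Module.Finite (FB M) (FB (M * p)) := HeckeJ.finiteAlong φ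
  exact hN f hf D hD v

/-- the degeneracy map of a side -/
def sideMap : Bool → (FB M →ₐ[Qb] FB (M * p))
  | false => i1 M p
  | true => i2 M p

/-- the norm to level `M` of a side, as a norm along the first degeneracy map -/
def normSide (b : Bool) (x : FB (M * p)) : FB M := normAlong (i1 M p) (side M p b x)

theorem normAlong_sideMap (C : Ctx A M p) (b : Bool) (x : FB (M * p)) :
    normAlong (sideMap b) x = normSide b x := by
  cases b
  · rfl
  · exact normAlong_i2 C x

theorem side_mem (C : Ctx A M p) (b b' : Bool) {x : FB (M * p)} (hx : ∀ b, x ∈ GS M p A b) :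
    side M p b x ∈ GS M p A b' := by
  cases b
  · exact hx b'
  cases b'
  · exact hx true
  · show atkinW M p (atkinW M p x) ∈ GR A (M * p)
    rw [SS.atkinW_atkinW C]; exact hx false

theorem isRed_lift (C : Ctx A M p) (b : Bool) {g : FB M} (hg : g ∈ GR A M) :
    IsRed A b (side M p b (i1 M p g)) (red A M g) :=
  (isRed_i1 C hg).1.transport C (b' := b)

/-- functions of finite level from level `M`, in an orthogonal family -/
theorem exists_expansion (C : Ctx A M p) {r d : ℕ} (g : Fin r → FB M)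
    (t : Fin r → MvPolynomial (Fin d) Qb) :
    ∃ (n : ℕ) (w : Fin n → FB M) (s : Fin n → MvPolynomial (Fin d) Qb), (∀ l, w l ∈ GR A M) ∧
      LinearIndependent (kA A) (fun l => red A M (w l)) ∧
      ∀ a : Fin d → Qb, ∑ k, algebraMap Qb (FB M) (MvPolynomial.eval a (t k)) * g k
        = ∑ l, algebraMap Qb (FB M) (MvPolynomial.eval a (s l)) * w l := by
  classical
  set V := Submodule.span Qb (Set.range g)
  haveI : FiniteDimensional Qb V := FiniteDimensional.span_of_finite Qb (Set.finite_range g)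
  obtain ⟨L⟩ := Flat.exists_latBasis C V
  have hg : ∀ k, g k ∈ Submodule.span Qb (Set.range L.b) := fun k =>
    L.span (Submodule.subset_span ⟨k, rfl⟩)
  simp only [Submodule.mem_span_range_iff_exists_fun] at hg
  choose c hc using hg
  refine ⟨_, L.b, fun l => ∑ k, MvPolynomial.C (c k l) * t k, L.int, L.indep, fun a => ?_⟩
  simp only [map_sum, map_mul, MvPolynomial.eval_C, Finset.sum_mul]
  rw [Finset.sum_comm]
  refine Finset.sum_congr rfl fun k _ => ?_
  rw [← hc k, Finset.mul_sum]
  refine Finset.sum_congr rfl fun l _ => ?_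
  rw [Algebra.smul_def]
  ring

set_option maxHeartbeats 1600000 in
/-- classes killed by both pushforwards have `PushInput` -/
theorem pushInput (C : Ctx A M p) (R : SS.Rep (fibreCore C) p) (h : ∀ b, ∀ hφ : (sideMap (M := M) (p := p) b).toRingHom.IsIntegral,
      (Divisor.pushforwardAlong (sideMap b) hφ R.E).IsPrincipal) : PushInput R := by
  classical
  haveI := Fact.mk C.prime
  intro d v b
  obtain ⟨G, hG0, hG⟩ := h b (HeckeJ.isIntegralAlong _)
  -- the norm of `f` is a constant times a `p`-th power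
  obtain ⟨lam, hN⟩ : ∃ lam : Qb, normSide b R.f = algebraMap Qb (FB M) lam ^ p * G ^ p := by
    have hne : normAlong (sideMap (M := M) (p := p) b) R.f ≠ 0 := by
      letI := algebraAlong (sideMap (M := M) (p := p) b)
      haveI : Module.Finite (FB M) (FB (M * p)) := HeckeJ.finiteAlong _
      exact Algebra.norm_ne_zero_iff.mpr R.f_ne
    have hord : ∀ v : Place Qb (FB M),
        v.ord (normAlong (sideMap b) R.f * (G ^ p)⁻¹) = 0 := fun v => by
      rw [v.ord_mul hne (inv_ne_zero (pow_ne_zero _ hG0)), v.ord_inv, RR.ord_pow,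
        ← pushforward_dv (sideMap b) (HeckeJ.isIntegralAlong _) R.f_ne (p • R.E)
          (fun w => by rw [Finsupp.smul_apply, ← R.ord_f w, nsmul_eq_mul]) v,
        map_nsmul, Finsupp.smul_apply, ← hG v, nsmul_eq_mul]
      ring
    obtain ⟨κ, hκ⟩ := SS2.exists_const_of_ord hord
    obtain ⟨lam, hlam⟩ := IsAlgClosed.exists_pow_nat_eq κ C.prime.pos
    refine ⟨lam, ?_⟩
    rw [← normAlong_sideMap C, ← map_pow, hlam, ← hκ, inv_mul_cancel_right₀ (pow_ne_zero _ hG0)]
  obtain ⟨r, g, t, hgt⟩ := exists_norm_poly (i1 M p) (fun i => side M p b (v i))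
  obtain ⟨n, w, s, hw, hwi, hws⟩ := exists_expansion C
    (Fin.snoc (fun k => algebraMap Qb (FB M) lam * G * g k) 1 : Fin (r + 1) → FB M)
    (Fin.snoc t (-1) : Fin (r + 1) → MvPolynomial (Fin d) Qb)
  refine ⟨n, fun l => side M p b (i1 M p (w l)), s, fun l => (isRed_lift C b (hw l)).mem, ?_,
    fun a c z hc0 hc hz he => ?_⟩
  · show LinearIndependent (kA A) fun l => redM M p A b _
    simp only [(isRed_lift C b (hw _)).eq]
    exact hwi
  have hz' : ∀ b', side M p b z ∈ GS M p A b' := fun b' => side_mem C b b' hz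
  obtain ⟨u, hu, hue, hur⟩ := norm_first_order C hz' hc hc0
  set N := normAlong (i1 M p) (∑ i, algebraMap Qb (FB (M * p)) (a i) * side M p b (v i)) with hNdef
  have hT : (1 : FB M) + ∑ l, algebraMap Qb (FB M) (MvPolynomial.eval a (s l)) * w l
      = algebraMap Qb (FB M) lam * G * N := by
    rw [← hws a, Fin.sum_univ_castSucc]
    simp only [Fin.snoc_castSucc, Fin.snoc_last, map_neg, map_one, hgt a, hNdef, Finset.mul_sum,
      mul_one]
    rw [add_comm, add_assoc, neg_add_cancel, add_zero]
    exact Finset.sum_congr rfl fun k _ => by ring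
  have hpow : (algebraMap Qb (FB M) lam * G * N) ^ p = 1 + algebraMap Qb (FB M) c * u := by
    rw [← hue, mul_pow, mul_pow, ← hN, normSide, hNdef, ← map_pow (normAlong (i1 M p)), ← map_mul]
    have hside := congrArg (side M p b) he
    simp only [map_mul, map_pow, map_sum, map_add, map_one, AlgHom.commutes] at hside
    rw [← hside]
    exact congrArg _ (mul_comm _ _)
  refine ⟨side M p b (i1 M p u), (isRed_lift C b hu).mem, ?_, ?_⟩
  · have h1 := congrArg (fun x => side M p b (i1 M p x)) hpow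
    rw [← hT] at h1
    simpa only [map_add, map_one, map_mul, map_pow, map_sum, AlgHom.commutes] using h1
  · show redM M p A b _ = redM M p A b z
    rw [(isRed_lift C b hu).eq, hur]
    rfl

end FLTAgent.TOR
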