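import Fermat.Agent.SS.FibreData
import Fermat.Agent.SS.FibreNorm
import Fermat.Agent.SS2.CrossingSide
import Fermat.Agent.SS2.PointValBase
import Fermat.Agent.SS2.PointVal
import Fermat.Agent.TOR.ToricPush

/-!
The residue disc of a double point: the places of `X₀(Mp)` over the branch of the double point on the
first component. The crossing function identifies it with an annulus; functions without poles on it
have compatible scales and values on the two sides.
-/

set_option autoImplicit false
set_option linter.unusedSectionVars false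
set_option linter.style.haveILetI false
set_option synthInstance.maxHeartbeats 400000
set_option maxHeartbeats 800000

noncomputable section

open ModularCurve AlgebraicCurve IsLocalRing
open FLTAgent.RR (Bd)
open FLTAgent.Reduction (Qb kA FB FS PB PS Ctx GR BT tB tS rP dv Val)
open FLTAgent.SS2 (galFn rationalFn FinReg)

namespace FLTAgent.TOR

open FLTAgent.SS

variable {M p : ℕ} [NeZero M] [NeZero p] {A : ValuationSubring Qb} (C : Ctx A M p)

local notation "κ" => algebraMap Qb (FB (M * p))

/-- the hypotheses of the crossing theorems -/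
def levelData : SS2.LevelData (fibreData C) :=
  SS2.LevelData.ofSide C _ rfl rfl rfl rfl fun y hy => by
    have h := (SS.isRed_redM C (b := false) (y := y) hy).2
    have h' : Reduction.redS A (M * p) y = (redM M p A false y : LaurentSeries (kA A)) := h
    rw [h']
    exact (redM M p A false y).2

/-- over the branch of a double point on the first component -/
def InDisc (s : (fibreData C).ι) (P : PB (M * p)) : Prop :=
  rP C (P.restrictAlong (i1 M p) (HeckeJ.isIntegralAlong _)) = (fibreData C).pt false s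

include C

/-- the branch on the first component is the Frobenius image of the one on the second -/
theorem pt_false_eq (s : (fibreData C).ι) :
    (fibreData C).pt false s = Reduction.frobS C • (fibreData C).pt true s := by
  by_contra hne
  haveI := Reduction.finite_tS C false
  haveI := Reduction.separable_tS C false
  obtain ⟨g, hg, hg1, hg0, hg2⟩ := Reduction.exists_separate (Reduction.transcendental_tS A M false)
    ((levelData C).fin_pt false s)
    (SS2.PV.fin_frobS C ((levelData C).fin_pt true s)) hne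
  obtain ⟨c, hc⟩ := Reduction.val_exists_S C (hg _ (SS2.PV.fin_frobS C ((levelData C).fin_pt true s)))
  have hc0 : c ≠ 0 := by
    rintro rfl
    have := hc.ord_pos hg0
    omega
  have h2 : Val ((fibreData C).pt false s) g c :=
    val_branch C ⟨s.1, s.2.1⟩ hg (SS2.PV.val_Fr C hc)
  exact hc0 (h2.unique (Reduction.Val.zero_iff.mpr (Or.inr (by
    have := (RR.bd_iff_ord hg0).mp hg1
    omega))))

theorem ord_frobS (s : (fibreData C).ι) (z : FS A M) :
    ((fibreData C).pt false s).ord (Reduction.frobS C • z) = ((fibreData C).pt true s).ord z := by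
  rw [pt_false_eq C s, SemilinearAut.ord_smul]

theorem InDisc.fin {s : (fibreData C).ι} {P : PB (M * p)} (h : InDisc C s P) :
    0 ≤ P.ord (fibreData C).J := by
  obtain ⟨d, -, hd⟩ := (Reduction.fin_rP_iff C).mp
    (show Bd (rP C (P.restrictAlong (i1 M p) (HeckeJ.isIntegralAlong _))) (tS A M false) 0 by
      rw [h]; exact (levelData C).fin_pt false s)
  have h1 : Bd P (SS2.j1 M p) 0 := (SS2.PV.bd_restrict_iff (i1 M p) _ 0 (Or.inl rfl)).mp hd.bd
  have h2 := h1.mul (SS2.j2_mem_regOn M p P h1)
  have h3 : Bd P (Jfn M p) 0 := by simp only [add_zero] at h2; exact h2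
  rw [RR.bd_iff_ord (Jfn_ne_zero C), neg_zero] at h3
  exact h3

theorem InDisc.smul {s : (fibreData C).ι} {P : PB (M * p)} (h : InDisc C s P)
    {σ : AlgebraicClosure ℚ ≃ₐ[ℚ] AlgebraicClosure ℚ} (hσ : σ ∈ A.inertiaSubgroupIn ℚ) :
    InDisc C s (galFn (M * p) σ • P) := by
  unfold InDisc at h ⊢
  rw [HeckeJ.restrictAlong_smul (i1 M p) _ (g := galFn M σ)
    (HeckeJ.intertwines_heckeAlphaBar M p σ), show galFn M σ = Flat.gal M σ from rfl,
    Flat.rP_inertia C hσ, h]

theorem pushforward_eq_mapDomain (φ : FB M →ₐ[Qb] FB (M * p)) (hφ : φ.toRingHom.IsIntegral)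
    (D : Divisor Qb (FB (M * p))) :
    Divisor.pushforwardAlong φ hφ D = Finsupp.mapDomain (fun w => w.restrictAlong φ hφ) D := by
  induction D using Finsupp.induction with
  | zero => simp
  | single_add w n D _ _ ih =>
    rw [map_add, ih, Finsupp.mapDomain_add, Finsupp.mapDomain_single,
      Divisor.pushforwardAlong_single, HeckeJ.inertiaDegAlong_eq_one]
    simp

/-- the number of zeros on the disc is read off the two residues -/
theorem sum_disc {s : (fibreData C).ι} {x : FB (M * p)} (hx : x ≠ 0) {a : Bool → Qb}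
    (ha : ∀ b, a b ≠ 0) (hmem : ∀ b, κ (a b) * x ∈ (fibreData C).G b)
    (hne : ∀ b, (fibreData C).red b (κ (a b) * x) ≠ 0) (S : Finset (PB (M * p)))
    (hS : ∀ P ∈ S, InDisc C s P) (hS' : ∀ P, InDisc C s P → P.ord x ≠ 0 → P ∈ S) :
    ∑ P ∈ S, P.ord x =
      ((fibreData C).pt false s).ord ((fibreData C).red false (κ (a false) * x)) +
        ((fibreData C).pt true s).ord ((fibreData C).red true (κ (a true) * x)) := by
  classical
  set gs : FS A M ≃+* FS A M :=
    MulSemiringAction.toRingEquiv _ (FS A M) (Reduction.frobS C) with hgsdef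
  have hxe : ∀ b, x = κ (a b)⁻¹ * (κ (a b) * x) := fun b => by
    rw [← mul_assoc, ← map_mul, inv_mul_cancel₀ (ha b), map_one, one_mul]
  obtain ⟨w, hw, hwe, hwr⟩ := norm_residue C (gs := gs) (fun z => SS2.PV.Fr_frobS C z)
    (isRed_redM C (hmem false)) (isRed_redM C (hmem true)) (inv_ne_zero (ha false))
    (inv_ne_zero (ha true)) (hxe false) (hxe true)
  have hgs : gs (redM M p A true (κ (a true) * x)) ≠ 0 := (map_ne_zero gs).mpr (hne true)
  have hU : Reduction.UG A M w := ⟨hw, by rw [hwr]; exact mul_ne_zero (hne false) hgs⟩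
  have hk : Reduction.cB M ((a false)⁻¹ * (a true)⁻¹ ^ p) ≠ 0 :=
    (_root_.map_ne_zero _).mpr (mul_ne_zero (inv_ne_zero (ha false))
      (pow_ne_zero _ (inv_ne_zero (ha true))))
  have hdv : dv w = Divisor.pushforwardAlong (i1 M p) (HeckeJ.isIntegralAlong _) (dv x) :=
    Finsupp.ext fun v => by
      rw [Reduction.dv_apply, pushforward_dv (i1 M p) (HeckeJ.isIntegralAlong _) hx (dv x)
        (Reduction.dv_apply x) v, show SS2.normAlong (i1 M p) x = normA M p x from rfl, hwe,
        v.ord_mul hk (hU.ne_zero C), RR.ord_algebraMap, zero_add]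
  have hne0 : redM M p A false (κ (a false) * x) ≠ 0 := hne false
  have h := Reduction.defect_eq_zero C hU ((fibreData C).pt false s)
  rw [Reduction.defect, hdv, pushforward_eq_mapDomain C, ← Finsupp.mapDomain_comp, hwr,
    Place.ord_mul _ hne0 hgs, sub_eq_zero,
    Reduction.mapDomain_apply_eq_sum _ _ _ ((dv x).support ∪ S) Finset.subset_union_left] at h
  have e : ((fibreData C).pt false s).ord (gs (redM M p A true (κ (a true) * x))) =
      ((fibreData C).pt true s).ord ((fibreData C).red true (κ (a true) * x)) :=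
    ord_frobS C s _
  rw [e] at h
  refine Eq.trans ?_ h
  refine (Finset.sum_congr rfl fun P _ => (Reduction.dv_apply x P).symm).trans ?_
  refine Finset.sum_subset (fun P hP => Finset.mem_filter.mpr
    ⟨Finset.mem_union_right _ hP, hS P hP⟩) fun P hP hPS => ?_
  rw [Reduction.dv_apply]
  by_contra h0
  exact hPS (hS' P (Finset.mem_filter.mp hP).2 h0)

/-! ### the crossing function -/

omit C in
/-- a function vanishing simply on the first branch, divisible by `p` with a pole on the second -/
structure CrossFn (C : Ctx A M p) (s : (fibreData C).ι) where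
  /-- the function -/
  Z : FB (M * p)
  rat : Z ∈ rationalFn A (M * p)
  fin : FinReg (fibreData C) Z
  mem : ∀ b, Z ∈ (fibreData C).G b
  red_true : (fibreData C).red true Z = 0
  ord_false : ((fibreData C).pt false s).ord ((fibreData C).red false Z) = 1
  div_mem : κ (p : Qb)⁻¹ * Z ∈ (fibreData C).G true
  ord_true_neg :
    ((fibreData C).pt true s).ord ((fibreData C).red true (κ (p : Qb)⁻¹ * Z)) < 0

theorem exists_crossFn {r : ℕ} (hr : r.Prime) (h11 : r % 12 = 11) (hrM : r ∣ M)
    (s : (fibreData C).ι) : Nonempty (CrossFn C s) := by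
  haveI := Fact.mk C.prime
  haveI := Reduction.charP_residue A C.prime C.lies
  set L := levelData C
  obtain ⟨t, ht, ht1, hθ⟩ := SS2.exists_unif_theta C (L.fin_pt false s)
  obtain ⟨T⟩ := SS2.exists_twistQuot C L ht
  obtain ⟨h1, -, c, hc0, hc⟩ := SS2.exists_crossing C L hr h11 hrM s ht ht1 hθ T
  have hz1 : (fibreData C).red true T.Z1 ≠ 0 := fun h0 => by
    rw [T.red_true_Z1, sub_eq_zero] at h0
    have e : (Fr C T.g1 : LaurentSeries (kA A)) ^ p = (t : LaurentSeries (kA A)) ^ p := by
      rw [← T.t1_qExpand, h0, coe_Fr, SubmonoidClass.coe_pow, map_pow]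
    haveI : CharP (LaurentSeries (kA A)) p :=
      charP_of_injective_algebraMap (algebraMap (kA A) (LaurentSeries (kA A))).injective p
    have e1 : Fr C T.g1 = t := Subtype.ext (frobenius_inj (LaurentSeries (kA A)) p e)
    rw [← e1, show T.g1 = Reduction.frobS C • ((Reduction.frobS C)⁻¹ • T.g1) from
      (smul_inv_smul _ _).symm, SS2.PV.Fr_frobS, RR.ord_pow] at ht1
    exact C.prime.one_lt.ne' (by exact_mod_cast Int.eq_one_of_mul_eq_one_right (by positivity) ht1)
  obtain ⟨hi, hir⟩ := (fibreData C).toCore.inv_mem true (T.Z1_mem true) hz1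
  have hZ1 : T.Z1 ≠ 0 := fun h0 => hz1 (by rw [h0]; exact (fibreData C).toCore.red_zero true)
  have hp : (p : Qb) ≠ 0 := Nat.cast_ne_zero.mpr C.prime.ne_zero
  have e : κ (p : Qb)⁻¹ * T.Z2 = T.h * T.Z2 * T.Z1⁻¹ := by
    have hk : κ (p : Qb) ≠ 0 := (_root_.map_ne_zero _).mpr hp
    have hh : T.h ≠ 0 := fun h0 => hZ1 (by rw [← T.q_mul, h0, mul_zero])
    rw [map_inv₀, ← T.q_mul]
    field_simp
  refine ⟨⟨T.Z2, T.Z2_T, T.Z2_fin, T.Z2_mem, T.red_true_Z2, h1,
    e ▸ mul_mem (T.u_mem true) hi, ?_⟩⟩
  obtain ⟨hu0, hu1⟩ := (hc true).ord_eq_zero hc0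
  rw [e, (fibreData C).red_mul true _ (T.u_mem true) _ hi, hir,
    Place.ord_mul _ hu0 (inv_ne_zero hz1), hu1, Place.ord_inv]
  have := (SS2.glue_zero T.Z1_mem T.Z1_fin false T.red_false_Z1 s true).ord_pos hz1
  omega

namespace CrossFn

variable {C} {s : (fibreData C).ι} (Z : CrossFn C s)
include Z

theorem red_false_ne : (fibreData C).red false Z.Z ≠ 0 := fun h => by
  have := Z.ord_false
  rw [h] at this
  simp at this

theorem val_false : Val ((fibreData C).pt false s) ((fibreData C).red false Z.Z) 0 :=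
  Reduction.val_zero_of_ord_pos (by rw [Z.ord_false]; norm_num)

theorem ne_zero : Z.Z ≠ 0 := fun h => Z.red_false_ne (by rw [h]; exact (fibreData C).toCore.red_zero _)

theorem red_div_ne : (fibreData C).red true (κ (p : Qb)⁻¹ * Z.Z) ≠ 0 := fun h => by
  have := Z.ord_true_neg
  rw [h] at this
  simp at this

theorem bd_disc {P : PB (M * p)} (hP : InDisc C s P) (c : Qb) : Bd P (Z.Z - κ c) 0 :=
  (Z.fin P hP.fin).sub (RR.Bd.of_algebraMap c)

/-- the residues of `Z - c` for `c` outside the annulus of the inner side -/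
theorem ord_div_sub {c : Qb} (hc : A.valuation c ≤ A.valuation (p : Qb)) :
    κ (p : Qb)⁻¹ * (Z.Z - κ c) ∈ (fibreData C).G true ∧
      (fibreData C).red true (κ (p : Qb)⁻¹ * (Z.Z - κ c)) ≠ 0 ∧
      ((fibreData C).pt true s).ord ((fibreData C).red true (κ (p : Qb)⁻¹ * (Z.Z - κ c))) =
        ((fibreData C).pt true s).ord ((fibreData C).red true (κ (p : Qb)⁻¹ * Z.Z)) := by
  have hd : (p : Qb)⁻¹ * c ∈ A := mem_of_val_le (by
    rw [map_mul, map_inv₀]
    exact inv_mul_le_one_of_le₀ hc zero_le)
  set w := (fibreData C).red true (κ (p : Qb)⁻¹ * Z.Z)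
  have hm := Z.div_mem
  have hk := (fibreData C).const_mem true ⟨_, hd⟩
  rw [mul_sub, ← map_mul]
  refine ⟨sub_mem hm hk, ?_⟩
  rw [(fibreData C).toCore.red_sub true hm hk, (fibreData C).red_const true ⟨_, hd⟩]
  set d := residue A ⟨(p : Qb)⁻¹ * c, hd⟩
  have hlt : ((fibreData C).pt true s).ord w < 0 := Z.ord_true_neg
  have hnb : ¬ Bd ((fibreData C).pt true s) (w - algebraMap (kA A) (FS A M) d) (-((fibreData C).pt true s).ord w - 1) := by
    intro hb
    have h := hb.add ((RR.Bd.of_algebraMap (v := (fibreData C).pt true s) d).mono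
      (show (0 : ℤ) ≤ -((fibreData C).pt true s).ord w - 1 by omega))
    rw [sub_add_cancel, RR.bd_iff_ord Z.red_div_ne] at h
    simp only [w] at *
    omega
  obtain ⟨h1, h2⟩ := RR.ord_eq_of_bd ((RR.bd_self (f := w) (v := (fibreData C).pt true s)).sub
    ((RR.Bd.of_algebraMap (v := (fibreData C).pt true s) d).mono (by omega))) hnb
  exact ⟨h1, by rw [h2, neg_neg]⟩

theorem mem_disc_scale (c : Qb) : Z.Z - κ c ≠ 0 := fun h => by
  rw [sub_eq_zero] at h
  have h1 := Z.mem false
  have hcA : c ∈ A := (fibreData C).toCore.mem_of_unit_mul false (one_mem _)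
    (by rw [(fibreData C).red_one]; exact one_ne_zero) (by rw [mul_one, ← h]; exact h1)
  have h2 := Z.ord_false
  rw [h, (fibreData C).red_const false ⟨c, hcA⟩, RR.ord_algebraMap] at h2
  exact zero_ne_one h2

open scoped Classical in
/-- the number of points of the disc where `Z` takes the value `c` -/
theorem sum_sub (c : Qb) (S : Finset (PB (M * p))) (hS : ∀ P ∈ S, InDisc C s P)
    (hS' : ∀ P, InDisc C s P → P.ord (Z.Z - κ c) ≠ 0 → P ∈ S) :
    ∑ P ∈ S, P.ord (Z.Z - κ c) =
      if A.valuation c ≤ A.valuation (p : Qb) then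
        1 + ((fibreData C).pt true s).ord ((fibreData C).red true (κ (p : Qb)⁻¹ * Z.Z))
      else if A.valuation c < 1 then 1 else 0 := by
  have hx := Z.mem_disc_scale c
  have hp : (p : Qb) ≠ 0 := Nat.cast_ne_zero.mpr C.prime.ne_zero
  have hone : ∀ (x : FB (M * p)), κ (1 : Qb) * x = x := fun x => by
    rw [map_one, one_mul]
  have hsmall : A.valuation c < 1 → (Z.Z - κ c ∈ (fibreData C).G false ∧
      (fibreData C).red false (Z.Z - κ c) = (fibreData C).red false Z.Z) := fun hc1 => by
    have hk := (fibreData C).const_mem false ⟨c, mem_of_val_le hc1.le⟩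
    refine ⟨sub_mem (Z.mem false) hk, ?_⟩
    rw [(fibreData C).toCore.red_sub false (Z.mem false) hk, (fibreData C).red_const false ⟨c, mem_of_val_le hc1.le⟩,
      residue_eq_zero_of_lt (c := ⟨c, mem_of_val_le hc1.le⟩) hc1, map_zero, sub_zero]
  split_ifs with h1 h2
  · obtain ⟨m1, r1⟩ := hsmall (h1.trans_lt (Reduction.valuation_ell_lt_one A C.lies))
    obtain ⟨m2, n2, o2⟩ := Z.ord_div_sub h1
    rw [sum_disc C hx (a := fun b => if b then (p : Qb)⁻¹ else 1)
      (fun b => by cases b <;> simp [hp])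
      (fun b => by
        cases b
        · simp only [Bool.false_eq_true, if_false, hone]; exact m1
        · simp only [if_true]; exact m2)
      (fun b => by
        cases b
        · simp only [Bool.false_eq_true, if_false, hone]; rw [r1]; exact Z.red_false_ne
        · simp only [if_true]; exact n2) S hS hS']
    simp only [Bool.false_eq_true, if_false, if_true, hone]
    rw [r1, o2]
    rw [Z.ord_false]
  · obtain ⟨m1, r1⟩ := hsmall h2
    push Not at h1
    have hc0 : c ≠ 0 := (Valuation.ne_zero_iff _).mp (ne_zero_of_lt h1)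
    have hq : (p : Qb) / c ∈ A := mem_of_val_le (by
      rw [map_div₀]; exact div_le_one_of_le₀ h1.le zero_le)
    have hq1 : A.valuation ((p : Qb) / c) < 1 := by
      rw [map_div₀, div_lt_one₀ (zero_lt_iff.mpr (ne_zero_of_lt h1))]; exact h1
    have e : κ c⁻¹ * (Z.Z - κ c) = κ ((p : Qb) / c) * (κ (p : Qb)⁻¹ * Z.Z) - 1 := by
      rw [mul_sub, ← map_mul, inv_mul_cancel₀ hc0, map_one, ← mul_assoc, ← map_mul]
      congr 3
      field_simp
    have m2 : κ c⁻¹ * (Z.Z - κ c) ∈ (fibreData C).G true :=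
      e ▸ sub_mem ((fibreData C).toCore.const_mul_mem true hq Z.div_mem) (one_mem _)
    have r2 : (fibreData C).red true (κ c⁻¹ * (Z.Z - κ c)) = -1 := by
      rw [e, (fibreData C).toCore.red_sub true ((fibreData C).toCore.const_mul_mem true hq Z.div_mem) (one_mem _),
        red_const_mul_lt true hq1 Z.div_mem, (fibreData C).red_one, zero_sub]
    rw [sum_disc C hx (a := fun b => if b then c⁻¹ else 1)
      (fun b => by cases b <;> simp [hc0])
      (fun b => by
        cases b
        · simp only [Bool.false_eq_true, if_false, hone]; exact m1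
        · simp only [if_true]; exact m2)
      (fun b => by
        cases b
        · simp only [Bool.false_eq_true, if_false, hone]; rw [r1]; exact Z.red_false_ne
        · simp only [if_true]; rw [r2]; exact neg_ne_zero.mpr one_ne_zero) S hS hS']
    simp only [Bool.false_eq_true, if_false, if_true, hone]
    rw [r1, r2]
    rw [Z.ord_false, RR.ord_neg, Place.ord_one, add_zero]
  · push Not at h2
    have hc0 : c ≠ 0 := (Valuation.ne_zero_iff _).mp (ne_of_gt (lt_of_lt_of_le zero_lt_one h2))
    have hi : c⁻¹ ∈ A := mem_of_val_le (by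
      rw [map_inv₀]; exact inv_le_one_of_one_le₀ h2)
    have e : κ c⁻¹ * (Z.Z - κ c) = κ c⁻¹ * Z.Z - 1 := by
      rw [mul_sub, ← map_mul, inv_mul_cancel₀ hc0, map_one]
    have m : ∀ b, κ c⁻¹ * (Z.Z - κ c) ∈ (fibreData C).G b := fun b =>
      e ▸ sub_mem ((fibreData C).toCore.const_mul_mem b hi (Z.mem b)) (one_mem _)
    have r : ∀ b, (fibreData C).red b (κ c⁻¹ * (Z.Z - κ c)) = residue A ⟨c⁻¹, hi⟩ • (fibreData C).red b Z.Z - 1 :=
      fun b => by
        rw [e, (fibreData C).toCore.red_sub b ((fibreData C).toCore.const_mul_mem b hi (Z.mem b)) (one_mem _),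
          (fibreData C).toCore.red_const_mul b ⟨_, hi⟩ (Z.mem b), (fibreData C).red_one]
    have v : ∀ b, Val ((fibreData C).pt b s) ((fibreData C).red b (κ c⁻¹ * (Z.Z - κ c))) (-1) := fun b => by
      rw [r b, Algebra.smul_def]
      have hz : Val ((fibreData C).pt b s) ((fibreData C).red b Z.Z) 0 := by
        cases b
        · exact Z.val_false
        · rw [Z.red_true]; exact Reduction.Val.zero
      simpa using ((Reduction.Val.const (residue A ⟨c⁻¹, hi⟩)).mul hz).sub Reduction.Val.one
    rw [sum_disc C hx (a := fun _ => c⁻¹) (fun _ => inv_ne_zero hc0) m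
      (fun b => ((v b).ord_eq_zero (neg_ne_zero.mpr one_ne_zero)).1) S hS hS',
      ((v false).ord_eq_zero (neg_ne_zero.mpr one_ne_zero)).2,
      ((v true).ord_eq_zero (neg_ne_zero.mpr one_ne_zero)).2, add_zero]

theorem ord_sub_nonneg {P : PB (M * p)} (hP : InDisc C s P) (c : Qb) : 0 ≤ P.ord (Z.Z - κ c) := by
  have := (RR.bd_iff_ord (Z.mem_disc_scale c)).mp (Z.bd_disc hP c)
  omega

open scoped Classical in
theorem sum_supp (c : Qb) :
    ∑ P ∈ (dv (Z.Z - κ c)).support.filter (InDisc C s), P.ord (Z.Z - κ c) =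
      if A.valuation c ≤ A.valuation (p : Qb) then
        1 + ((fibreData C).pt true s).ord ((fibreData C).red true (κ (p : Qb)⁻¹ * Z.Z))
      else if A.valuation c < 1 then 1 else 0 :=
  Z.sum_sub c _ (fun P hP => (Finset.mem_filter.mp hP).2) fun P hP hne => Finset.mem_filter.mpr
    ⟨Finsupp.mem_support_iff.mpr (by rwa [Reduction.dv_apply]), hP⟩

theorem ord_true : ((fibreData C).pt true s).ord ((fibreData C).red true (κ (p : Qb)⁻¹ * Z.Z)) = -1 := by
  classical
  have h := Z.sum_supp 0
  rw [if_pos (by rw [map_zero]; exact zero_le)] at h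
  have h2 : 0 ≤ ∑ P ∈ (dv (Z.Z - κ 0)).support.filter (InDisc C s), P.ord (Z.Z - κ 0) :=
    Finset.sum_nonneg fun P hP => Z.ord_sub_nonneg (Finset.mem_filter.mp hP).2 0
  have := Z.ord_true_neg
  omega

/-- the value of `Z` at a point -/
def val (Z : CrossFn C s) (P : PB (M * p)) : Qb := SS2.PV.valAt P Z.Z

theorem val_spec {P : PB (M * p)} (hP : InDisc C s P) : Val P Z.Z (Z.val P) :=
  SS2.PV.val_valAt (Z.fin P hP.fin)

theorem val_smul {P : PB (M * p)} (hP : InDisc C s P)
    {σ : AlgebraicClosure ℚ ≃ₐ[ℚ] AlgebraicClosure ℚ} (hσ : σ ∈ A.inertiaSubgroupIn ℚ) :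
    Z.val (galFn (M * p) σ • P) = σ (Z.val P) :=
  SS2.PV.valAt_gal Z.rat hσ (Z.fin P hP.fin)

/-- the disc is an annulus: the value of `Z` is a coordinate -/
theorem annulus {P : PB (M * p)} (hP : InDisc C s P) :
    A.valuation (p : Qb) < A.valuation (Z.val P) ∧ A.valuation (Z.val P) < 1 ∧
      P.ord (Z.Z - κ (Z.val P)) = 1 ∧
      ∀ P', InDisc C s P' → P' ≠ P → P'.ord (Z.Z - κ (Z.val P)) = 0 := by
  classical
  set c := Z.val P
  have h1 : 1 ≤ P.ord (Z.Z - κ c) := by
    refine Reduction.Val.ord_pos ?_ (Z.mem_disc_scale c)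
    have h0 := (Z.val_spec hP).sub (Reduction.Val.const (v := P) c)
    rwa [sub_self] at h0
  set S := (dv (Z.Z - κ c)).support.filter (InDisc C s)
  have hPS : P ∈ S := Finset.mem_filter.mpr
    ⟨Finsupp.mem_support_iff.mpr (by rw [Reduction.dv_apply]; omega), hP⟩
  have hnn : ∀ Q ∈ S, 0 ≤ Q.ord (Z.Z - κ c) := fun Q hQ =>
    Z.ord_sub_nonneg (Finset.mem_filter.mp hQ).2 c
  have hle := Finset.single_le_sum hnn hPS
  have h : ∑ Q ∈ S, Q.ord (Z.Z - κ c) = _ := Z.sum_supp c
  rw [Z.ord_true] at h
  have hc : A.valuation (p : Qb) < A.valuation c ∧ A.valuation c < 1 ∧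
      ∑ Q ∈ S, Q.ord (Z.Z - κ c) = 1 := by
    split_ifs at h with ha hb
    · omega
    · exact ⟨not_le.mp ha, hb, h⟩
    · omega
  refine ⟨hc.1, hc.2.1, by omega, fun P' hP' hne => ?_⟩
  by_contra h0
  have hP'S : P' ∈ S := Finset.mem_filter.mpr
    ⟨Finsupp.mem_support_iff.mpr (by rwa [Reduction.dv_apply]), hP'⟩
  have h2 := Finset.sum_le_sum_of_subset_of_nonneg (f := fun Q => Q.ord (Z.Z - κ c))
    (show {P, P'} ⊆ S by simp [Finset.insert_subset_iff, hPS, hP'S]) fun Q hQ _ => hnn Q hQ
  rw [Finset.sum_pair (Ne.symm hne)] at h2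
  have := hnn P' hP'S
  omega

end CrossFn

/-! ### gluing -/

include C

/-- clear the finite poles away from a disc by a function with one value on the two branches -/
theorem exists_clear_disc (s : (fibreData C).ι) {x : FB (M * p)}
    (hreg : ∀ P, InDisc C s P → Bd P x 0) :
    ∃ (Y : FB (M * p)) (e : kA A), e ≠ 0 ∧ (∀ b, Y ∈ (fibreData C).G b) ∧
      (∀ b, Val ((fibreData C).pt b s) ((fibreData C).red b Y) e) ∧
      FinReg (fibreData C) Y ∧ FinReg (fibreData C) (x * Y) := by
  classical
  set L := levelData C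
  have hφ := HeckeJ.isIntegralAlong (i1 M p)
  let res : PB (M * p) → PB M := fun P => P.restrictAlong (i1 M p) hφ
  set S := (dv x).support.filter (fun P => Bd P (SS2.j1 M p) 0 ∧ ¬ Bd P x 0)
  have hQ := L.fin_pt false s
  obtain ⟨y, hy, hyU, hyo, hyQ⟩ := Reduction.exists_prod_elem C hQ (S.image res)
    (fun v hv => by
      obtain ⟨P, hP, rfl⟩ := Finset.mem_image.mp hv
      exact (SS2.PV.bd_restrict_iff (i1 M p) hφ 0 (Or.inl rfl)).mpr (Finset.mem_filter.mp hP).2.1)
    (fun v => ∑ P ∈ S.filter (fun P => res P = v), (P.ord x).natAbs)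
  have hyQ0 : ((fibreData C).pt false s).ord (Reduction.red A M y) = 0 := by
    rw [hyQ, Finset.filter_false_of_mem, Finset.sum_empty]
    intro v hv h
    obtain ⟨P, hP, rfl⟩ := Finset.mem_image.mp hv
    exact (Finset.mem_filter.mp hP).2.2 (hreg P h)
  have hyGR : y ∈ GR A M := hyU.1
  obtain ⟨e, he⟩ := Reduction.val_exists_S C
    ((RR.bd_iff_ord hyU.2).mpr (by rw [hyQ0]; norm_num) :
      Bd ((fibreData C).pt false s) (Reduction.red A M y) 0)
  have he0 : e ≠ 0 := by
    rintro rfl
    have := he.ord_pos hyU.2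
    omega
  obtain ⟨h1, h2⟩ := isRed_i1 C hyGR
  have hfinY : FinReg (fibreData C) (i1 M p y) := L.finReg_alpha hy
  refine ⟨i1 M p y, e, he0, fun b => ?_, fun b => ?_, hfinY, fun P hP => ?_⟩
  · cases b
    exacts [h1.1, h2.1]
  · cases b
    · show Val _ (redM M p A false (i1 M p y)) e
      rw [h1.eq]; exact he
    · show Val _ (redM M p A true (i1 M p y)) e
      rw [h2.eq]
      exact SS2.PV.val_Fr C (by rw [← pt_false_eq C s]; exact he)
  · by_cases hb : Bd P x 0
    · simpa using hb.mul (hfinY P hP)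
    obtain ⟨hx0, hlt⟩ := RR.not_bd_iff.mp hb
    have hPS : P ∈ S := Finset.mem_filter.mpr ⟨Finsupp.mem_support_iff.mpr (by
      rw [Reduction.dv_apply]; omega), (SS2.fin_of_J L.w L.w_alpha L.w_beta (L.J_eq ▸ hP)).1, hb⟩
    have hv : (P.ord x).natAbs ≤ ∑ Q ∈ S.filter (fun Q => res Q = res P), (Q.ord x).natAbs :=
      Finset.single_le_sum (f := fun Q : PB (M * p) => (Q.ord x).natAbs)
        (fun Q _ => Nat.zero_le _) (show P ∈ S.filter (fun Q => res Q = res P) from
          Finset.mem_filter.mpr ⟨hPS, rfl⟩)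
    have h3 := hyo (res P) (Finset.mem_image_of_mem res hPS)
    have hy0 := hyU.ne_zero C
    have hY0 : i1 M p y ≠ 0 := (_root_.map_ne_zero _).mpr hy0
    have he1 : 1 ≤ Place.ramificationIndexAlong (i1 M p) P := by
      letI := algebraAlong (i1 M p)
      haveI := isIntegral_along (i1 M p) hφ
      exact P.ramificationIndex_pos (F := FB M)
    rw [RR.bd_iff_ord (mul_ne_zero hx0 hY0), P.ord_mul hx0 hY0, P.ord_restrictAlong (i1 M p) hφ]
    have hv' : ((P.ord x).natAbs : ℤ) ≤ (res P).ord y := le_trans (by exact_mod_cast hv) h3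
    have h4 : (res P).ord y ≤ (Place.ramificationIndexAlong (i1 M p) P : ℤ) * (res P).ord y :=
      le_mul_of_one_le_left (le_trans (Int.natCast_nonneg _) hv') (by exact_mod_cast he1)
    change -0 ≤ P.ord x + (Place.ramificationIndexAlong (i1 M p) P : ℤ) * (res P).ord y
    omega

/-- functions without poles on a disc and units at a branch are not smaller on that side -/
theorem glue_le (s : (fibreData C).ι) {x : FB (M * p)}
    (hreg : ∀ P, InDisc C s P → Bd P x 0) {a : Bool → Qb} (ha : ∀ b, a b ≠ 0)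
    (hmem : ∀ b, κ (a b) * x ∈ (fibreData C).G b) {b : Bool}
    (hne : (fibreData C).red b (κ (a b) * x) ≠ 0)
    (hord : ((fibreData C).pt b s).ord ((fibreData C).red b (κ (a b) * x)) = 0) :
    A.valuation (a (!b)) ≤ A.valuation (a b) := by
  by_contra hlt
  push Not at hlt
  obtain ⟨Y, e, he, hY, hYv, hYf, hxY⟩ := exists_clear_disc C s hreg
  have hlt' : A.valuation (a b / a (!b)) < 1 := by
    rwa [map_div₀, div_lt_one₀ (zero_lt_iff.mpr ((Valuation.ne_zero_iff _).mpr (ha _)))]
  have e1 : κ (a b) * x = κ (a b / a (!b)) * (κ (a (!b)) * x) := by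
    rw [← mul_assoc, ← map_mul, div_mul_cancel₀ _ (ha _)]
  have hm : ∀ b', κ (a b) * x ∈ (fibreData C).G b' := fun b' => by
    rcases Bool.eq_or_eq_not b' b with h | h
    · rw [h]; exact hmem b
    · rw [h, e1]
      exact (fibreData C).toCore.const_mul_mem _ (mem_of_val_le hlt'.le) (hmem (!b))
  have h0 : (fibreData C).red (!b) (κ (a b) * x * Y) = 0 := by
    rw [(fibreData C).red_mul _ _ (hm _) _ (hY _), e1, red_const_mul_lt _ hlt' (hmem _), zero_mul]
  have hfin : FinReg (fibreData C) (κ (a b) * x * Y) := by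
    rw [mul_assoc]; exact (SS2.FinReg.const _).mul hxY
  have hg := SS2.glue_zero (fun b' => mul_mem (hm b') (hY b')) hfin (!b) h0 s b
  obtain ⟨hye, hyo⟩ := (hYv b).ord_eq_zero he
  rw [(fibreData C).red_mul _ _ (hm _) _ (hY _)] at hg
  have := hg.ord_pos (mul_ne_zero hne hye)
  rw [Place.ord_mul _ hne hye, hord, hyo] at this
  omega

/-- the constants congruent to a function without poles on a disc agree -/
theorem glue_const (s : (fibreData C).ι) {x : FB (M * p)}
    (hreg : ∀ P, InDisc C s P → Bd P x 0) {δ : Qb} (hδ : δ ≠ 0) {l : Bool → Qb}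
    (hl : ∀ b, κ δ⁻¹ * (x - κ (l b)) ∈ (fibreData C).G b) :
    A.valuation (l false - l true) ≤ A.valuation δ := by
  by_contra hlt
  push Not at hlt
  obtain ⟨Y, e, he, hY, hYv, hYf, hxY⟩ := exists_clear_disc C s hreg
  have he0 : l false - l true ≠ 0 := (Valuation.ne_zero_iff _).mp (ne_zero_of_lt hlt)
  set η := l false - l true with hη
  have hq : A.valuation (δ / η) < 1 := by
    rw [map_div₀, div_lt_one₀ (zero_lt_iff.mpr ((Valuation.ne_zero_iff _).mpr he0))]; exact hlt
  have ef : κ η⁻¹ * (x - κ (l false)) = κ (δ / η) * (κ δ⁻¹ * (x - κ (l false))) := by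
    rw [← mul_assoc, ← map_mul, div_mul_eq_mul_div, mul_inv_cancel₀ hδ, one_div]
  have et : κ η⁻¹ * (x - κ (l false)) = κ (δ / η) * (κ δ⁻¹ * (x - κ (l true))) - 1 := by
    have h1 : κ η⁻¹ * κ η = 1 := by rw [← map_mul, inv_mul_cancel₀ he0, map_one]
    rw [← mul_assoc, ← map_mul, div_mul_eq_mul_div, mul_inv_cancel₀ hδ, one_div]
    rw [hη, map_sub] at h1
    linear_combination -h1
  have hm : ∀ b, κ η⁻¹ * (x - κ (l false)) ∈ (fibreData C).G b := fun b => by
    cases b
    · rw [ef]; exact (fibreData C).toCore.const_mul_mem _ (mem_of_val_le hq.le) (hl _)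
    · rw [et]; exact sub_mem ((fibreData C).toCore.const_mul_mem _ (mem_of_val_le hq.le) (hl _)) (one_mem _)
  have h0 : (fibreData C).red false (κ η⁻¹ * (x - κ (l false)) * Y) = 0 := by
    rw [(fibreData C).red_mul _ _ (hm _) _ (hY _), ef, red_const_mul_lt _ hq (hl _), zero_mul]
  have hfin : FinReg (fibreData C) (κ η⁻¹ * (x - κ (l false)) * Y) := by
    rw [mul_assoc, sub_mul]
    exact (SS2.FinReg.const _).mul (hxY.sub ((SS2.FinReg.const _).mul hYf))
  have hg := SS2.glue_zero (fun b => mul_mem (hm b) (hY b)) hfin false h0 s true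
  rw [(fibreData C).red_mul _ _ (hm _) _ (hY _), et,
    (fibreData C).toCore.red_sub true ((fibreData C).toCore.const_mul_mem _ (mem_of_val_le hq.le) (hl _)) (one_mem _),
    red_const_mul_lt _ hq (hl _), (fibreData C).red_one, zero_sub, neg_one_mul] at hg
  obtain ⟨hye, hyo⟩ := (hYv true).ord_eq_zero he
  have := hg.ord_pos (neg_ne_zero.mpr hye)
  rw [RR.ord_neg, hyo] at this
  omega

end FLTAgent.TOR
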