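import Fermat.Agent.TOR.InertiaVal
import Fermat.Agent.Flat.Model

/-!
A connected finite flat model at a place over an odd prime `p` has no inertia-invariant homomorphism
onto `ℤ/p`.

If `φ` is one, `u = ζ ^ φ` is multiplicative, so its coordinates in a basis of invariant functions of
the model are integral, and they are fixed by the inertia elements fixing `ζ`. For `τ` moving `ζ`
their differences under `τ` are divisible by `ζ - 1`, while all functions of the model are constant
modulo the maximal ideal: `(τ ζ - ζ) / (ζ - 1)` would be a non-unit.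
-/

set_option autoImplicit false
set_option linter.unusedSectionVars false
set_option linter.style.haveILetI false

noncomputable section

open IsLocalRing

namespace FLTAgent.TOR

open FLTAgent.Reduction (Qb)
open FLTAgent.Flat (tensorSet)

local notation "GalQ" => AlgebraicClosure ℚ ≃ₐ[ℚ] AlgebraicClosure ℚ

variable {A : ValuationSubring Qb} {K : Type} [AddCommGroup K]

/-- the functions commuting with the sum decompose along products -/
theorem comul_adjoin {gens : Set (K → Qb)}
    (hcomul : ∀ f ∈ gens, (fun x : K × K => f (x.1 + x.2)) ∈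
      Submodule.span A (tensorSet ((Algebra.adjoin A gens : Subalgebra A (K → Qb)) : Set (K → Qb))))
    {f : K → Qb} (hf : f ∈ Algebra.adjoin A gens) : (fun x : K × K => f (x.1 + x.2)) ∈
      Submodule.span A (tensorSet ((Algebra.adjoin A gens : Subalgebra A (K → Qb)) : Set (K → Qb))) := by
  set B := Algebra.adjoin A gens
  induction hf using Algebra.adjoin_induction with
  | mem f hf => exact hcomul f hf
  | algebraMap r =>
    exact Submodule.subset_span ⟨algebraMap A (K → Qb) r, B.algebraMap_mem r, 1, B.one_mem,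
      funext fun x => (mul_one _).symm⟩
  | add f g _ _ hf hg => exact add_mem hf hg
  | mul f g _ _ hf hg =>
    have hfg := Submodule.mul_mem_mul hf hg
    rw [Submodule.span_mul_span] at hfg
    refine Submodule.span_mono ?_ hfg
    rintro _ ⟨_, ⟨a, ha, b, hb, rfl⟩, _, ⟨a', ha', b', hb', rfl⟩, rfl⟩
    exact ⟨a * a', B.mul_mem ha ha', b * b', B.mul_mem hb hb',
      funext fun x => mul_mul_mul_comm _ _ _ _⟩

variable [Finite K]

theorem isIntegral_fun {f : K → Qb} (hf : ∀ c, f c ∈ A) : IsIntegral A f := by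
  classical
  haveI := Fintype.ofFinite K
  refine ⟨∏ c : K, (Polynomial.X - Polynomial.C ⟨f c, hf c⟩),
    Polynomial.monic_prod_of_monic _ _ fun c _ => Polynomial.monic_X_sub_C _, ?_⟩
  rw [← Polynomial.aeval_def, map_prod]
  funext d
  rw [Finset.prod_apply]
  refine Finset.prod_eq_zero (Finset.mem_univ d) ?_
  simp only [map_sub, Polynomial.aeval_X, Polynomial.aeval_C, Pi.sub_apply]
  exact sub_self _

theorem span_Qb_eq_top {gens : Set (K → Qb)} (hsep : ∀ c d : K, (∀ f ∈ gens, f c = f d) → c = d) :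
    Submodule.span Qb (Submonoid.closure gens : Set (K → Qb)) = ⊤ := by
  classical
  haveI := Fintype.ofFinite K
  rw [← Algebra.adjoin_eq_span, eq_top_iff]
  intro u _
  rw [Subalgebra.mem_toSubmodule, show u = ∑ c : K, u c • Pi.single c (1 : Qb) by
    funext d; simp [Pi.single_apply]]
  refine sum_mem fun c _ => Subalgebra.smul_mem _ ?_ _
  have h : ∀ d : K, d ≠ c → ∃ f ∈ gens, f d ≠ f c := fun d hd => by
    by_contra hno
    push Not at hno
    exact hd (hsep d c hno)
  choose! F hF hFne using h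
  rw [show Pi.single c (1 : Qb) = ∏ d ∈ Finset.univ.erase c,
      ((F d c - F d d)⁻¹ • (F d - algebraMap Qb (K → Qb) (F d d))) from ?_]
  · exact prod_mem fun d hd => Subalgebra.smul_mem _ (sub_mem
      (Algebra.subset_adjoin (hF d (Finset.ne_of_mem_erase hd))) (Subalgebra.algebraMap_mem _ _)) _
  funext e
  rw [Finset.prod_apply]
  rcases eq_or_ne e c with rfl | hec
  · rw [Pi.single_eq_same, Finset.prod_eq_one fun d hd => ?_]
    show (F d e - F d d)⁻¹ * (F d e - F d d) = 1
    exact inv_mul_cancel₀ (sub_ne_zero.mpr (hFne d (Finset.ne_of_mem_erase hd)).symm)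
  · rw [Pi.single_eq_of_ne hec, Finset.prod_eq_zero (Finset.mem_erase.mpr ⟨hec, Finset.mem_univ e⟩)]
    show (F e c - F e e)⁻¹ * (F e e - F e e) = 0
    rw [sub_self, mul_zero]

/-- an invariant basis of the model -/
theorem exists_invariant_basis {gens : Set (K → Qb)} (hfin : gens.Finite)
    (hval : ∀ f ∈ gens, ∀ c, f c ∈ A) (hsep : ∀ c d : K, (∀ f ∈ gens, f c = f d) → c = d) :
    ∃ T : Finset (K → Qb), (T : Set (K → Qb)) ⊆ (Submonoid.closure gens : Set (K → Qb)) ∧
      Submodule.span A (T : Set (K → Qb)) = (Algebra.adjoin A gens).toSubmodule ∧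
      Submodule.span Qb (T : Set (K → Qb)) = ⊤ ∧
      LinearIndependent Qb (fun i : T => (i : K → Qb)) := by
  classical
  set B := Algebra.adjoin A gens
  have hex : ∃ T : Finset (K → Qb), (T : Set (K → Qb)) ⊆ (Submonoid.closure gens : Set (K → Qb)) ∧
      Submodule.span A (T : Set (K → Qb)) = B.toSubmodule := by
    have hfg : B.toSubmodule.FG := fg_adjoin_of_finite hfin fun f hf => isIntegral_fun (hval f hf)
    rw [Algebra.adjoin_eq_span] at hfg ⊢
    obtain ⟨T, hT, hspan⟩ := (Submodule.fg_span_iff_fg_span_finset_subset _).mp hfg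
    exact ⟨T, hT, hspan.symm⟩
  have hcard : ∃ k, ∃ T : Finset (K → Qb), T.card = k ∧
      (T : Set (K → Qb)) ⊆ (Submonoid.closure gens : Set (K → Qb)) ∧
      Submodule.span A (T : Set (K → Qb)) = B.toSubmodule :=
    let ⟨T, h⟩ := hex; ⟨T.card, T, rfl, h⟩
  obtain ⟨T, hTk, hTc, hTs⟩ := Nat.find_spec hcard
  refine ⟨T, hTc, hTs, eq_top_iff.mpr ?_, ?_⟩
  · rw [← span_Qb_eq_top hsep, Submodule.span_le]
    intro f hf
    have h1 : f ∈ B.toSubmodule := by
      rw [Algebra.adjoin_eq_span]
      exact Submodule.subset_span hf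
    rw [← hTs] at h1
    exact Submodule.span_le_restrictScalars A Qb _ h1
  rw [Fintype.linearIndependent_iff]
  intro c hc
  by_contra hne
  push Not at hne
  obtain ⟨i, hi⟩ := hne
  obtain ⟨j, -, hmax⟩ := Finset.exists_max_image Finset.univ (fun k : T => A.valuation (c k))
    ⟨i, Finset.mem_univ i⟩
  have hj : c j ≠ 0 := fun h0 => hi (by
    have := hmax i (Finset.mem_univ i)
    rwa [h0, map_zero, le_zero_iff, map_eq_zero] at this)
  have hle : ∀ k, c k / c j ∈ A := fun k => (A.valuation_le_one_iff _).mp (by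
    rw [map_div₀]; exact div_le_one_of_le₀ (hmax k (Finset.mem_univ k)) zero_le)
  have hjs : (j : K → Qb) ∈ Submodule.span A ((T.erase j : Finset (K → Qb)) : Set (K → Qb)) := by
    have e : (j : K → Qb) = -∑ k ∈ Finset.univ.erase j, (⟨c k / c j, hle k⟩ : A) • (k : K → Qb) := by
      rw [eq_neg_iff_add_eq_zero]
      funext x
      have h := congrFun hc x
      rw [← Finset.add_sum_erase _ _ (Finset.mem_univ j)] at h
      simp only [Pi.add_apply, Finset.sum_apply, Pi.smul_apply, smul_eq_mul, Pi.zero_apply] at h ⊢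
      change (j : K → Qb) x + ∑ k ∈ Finset.univ.erase j, c k / c j * (k : K → Qb) x = 0
      rw [Finset.sum_congr rfl (g := fun k => (c j)⁻¹ * (c k * (k : K → Qb) x))
        fun k _ => by ring, ← Finset.mul_sum]
      linear_combination (c j)⁻¹ * h - (j : K → Qb) x * inv_mul_cancel₀ hj
    refine (congrArg (· ∈ Submodule.span A ((T.erase j : Finset (K → Qb)) : Set (K → Qb))) e).mpr ?_
    refine neg_mem (sum_mem fun k hk => Submodule.smul_mem _ _ (Submodule.subset_span ?_))
    exact Finset.mem_coe.mpr (Finset.mem_erase.mpr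
      ⟨fun h => Finset.ne_of_mem_erase hk (Subtype.ext h), k.2⟩)
  refine Nat.find_min hcard (m := (T.erase j).card) ?_ ⟨T.erase j, rfl, ?_, ?_⟩
  · rw [← hTk, Finset.card_erase_of_mem j.2]
    have := Finset.card_pos.mpr ⟨_, j.2⟩
    omega
  · exact fun f hf => hTc (Finset.mem_of_mem_erase hf)
  · refine le_antisymm ?_ ?_
    · rw [← hTs]
      exact Submodule.span_mono (Finset.coe_subset.mpr (Finset.erase_subset _ _))
    · rw [← hTs, Submodule.span_le]
      intro f hf
      rcases eq_or_ne f (j : K → Qb) with rfl | h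
      · exact hjs
      · exact Submodule.subset_span (Finset.mem_coe.mpr (Finset.mem_erase.mpr ⟨h, hf⟩))

variable {p : ℕ}

/-- no invariant homomorphism onto `ℤ/p` -/
theorem no_invariant_hom (hp : p.Prime) (hA : A.LiesOverPrime p) (hp2 : p ≠ 2)
    {gens : Set (K → Qb)} (hfin : gens.Finite) (hval : ∀ f ∈ gens, ∀ c, f c ∈ A)
    (hsep : ∀ c d : K, (∀ f ∈ gens, f c = f d) → c = d)
    (g : GalQ → K → K) (hinv : ∀ σ ∈ A.inertiaSubgroupIn ℚ, ∀ f ∈ gens, ∀ c, f (g σ c) = σ (f c))
    (hcomul : ∀ f ∈ gens, (fun x : K × K => f (x.1 + x.2)) ∈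
      Submodule.span A (tensorSet ((Algebra.adjoin A gens : Subalgebra A (K → Qb)) : Set (K → Qb))))
    (hconn : ∀ f ∈ gens, ∀ c, A.valuation (f c - f 0) < 1)
    (φ : K →+ ZMod p) {c₁ : K} (hc₁ : φ c₁ = 1)
    (hφ : ∀ σ ∈ A.inertiaSubgroupIn ℚ, ∀ c, φ (g σ c) = φ c) : False := by
  classical
  haveI := Fintype.ofFinite K
  haveI := Fact.mk hp
  haveI : NeZero p := ⟨hp.ne_zero⟩
  haveI : NeZero (p : Qb) := ⟨Nat.cast_ne_zero.mpr hp.ne_zero⟩
  obtain ⟨ζ, hζ⟩ := HasEnoughRootsOfUnity.exists_primitiveRoot Qb p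
  obtain ⟨T, hTc, hTs, hTtop, hind⟩ := exists_invariant_basis hfin hval hsep
  let e : T → K → Qb := fun i => (i : K → Qb)
  have hclos : ∀ f ∈ Submonoid.closure gens, (∀ c, f c ∈ A) ∧
      (∀ c, A.valuation (f c - f 0) < 1) ∧
      ∀ σ ∈ A.inertiaSubgroupIn ℚ, ∀ c, f (g σ c) = σ (f c) := by
    intro f hf
    induction hf using Submonoid.closure_induction with
    | mem f hf => exact ⟨hval f hf, hconn f hf, fun σ hσ => hinv σ hσ f hf⟩
    | one => exact ⟨fun _ => A.one_mem, fun _ => by simp, fun σ _ _ => (map_one σ).symm⟩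
    | mul f f' _ _ h h' =>
      refine ⟨fun c => A.mul_mem _ _ (h.1 c) (h'.1 c), fun c => ?_, fun σ hσ c => ?_⟩
      · rw [Pi.mul_apply, Pi.mul_apply, show f c * f' c - f 0 * f' 0 =
          (f c - f 0) * f' c + f 0 * (f' c - f' 0) by ring]
        refine Valuation.map_add_lt _ ?_ ?_
        · rw [map_mul]
          exact mul_lt_one_of_nonneg_of_lt_one_left zero_le (h.2.1 c)
            ((A.valuation_le_one_iff _).mpr (h'.1 c))
        · rw [map_mul]
          exact mul_lt_one_of_nonneg_of_lt_one_right ((A.valuation_le_one_iff _).mpr (h.1 0))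
            zero_le (h'.2.1 c)
      · rw [Pi.mul_apply, Pi.mul_apply, map_mul, h.2.2 σ hσ, h'.2.2 σ hσ]
  have he : ∀ i : T, (∀ c, e i c ∈ A) ∧ (∀ c, A.valuation (e i c - e i 0) < 1) ∧
      ∀ σ ∈ A.inertiaSubgroupIn ℚ, ∀ c, e i (g σ c) = σ (e i c) := fun i => hclos _ (hTc i.2)
  -- coordinates are unique
  have huniq : ∀ a a' : T → Qb, (∀ x, ∑ i, a i * e i x = ∑ i, a' i * e i x) → a = a' := by
    intro a a' h
    funext i
    refine sub_eq_zero.mp (Fintype.linearIndependent_iff.mp hind (fun i => a i - a' i) ?_ i)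
    funext x
    simp only [Finset.sum_apply, Pi.smul_apply, smul_eq_mul, Pi.zero_apply, sub_mul,
      Finset.sum_sub_distrib]
    exact sub_eq_zero.mpr (h x)
  -- the multiplicative function
  set u : K → Qb := fun c => ζ ^ (φ c).val with hu
  obtain ⟨lam, hlam⟩ : ∃ lam : T → Qb, ∀ x, u x = ∑ i, lam i * e i x := by
    have h1 : u ∈ Submodule.span Qb (Set.range e) := by
      rw [show Set.range e = (T : Set (K → Qb)) from Subtype.range_coe, hTtop]
      trivial
    obtain ⟨a, ha⟩ := Submodule.mem_span_range_iff_exists_fun Qb |>.mp h1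
    exact ⟨a, fun x => by rw [← ha]; simp [Finset.sum_apply]⟩
  have humul : ∀ x y, u (x + y) = u x * u y := fun x y => by
    simp only [hu, map_add, ZMod.val_add, ← pow_add]
    exact (pow_eq_pow_mod _ hζ.pow_eq_one).symm
  have hcomulT : ∀ i : T, ∃ a : T × T → A, ∀ x y,
      e i (x + y) = ∑ q : T × T, (a q : Qb) * (e q.1 x * e q.2 y) := by
    intro i
    have h1 := comul_adjoin hcomul (f := e i) (by
      rw [← Subalgebra.mem_toSubmodule, ← hTs]; exact Submodule.subset_span i.2)
    have hsub : Submodule.span A (tensorSet ((Algebra.adjoin A gens : Subalgebra A (K → Qb)) :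
        Set (K → Qb))) ≤ Submodule.span A (Set.range fun q : T × T =>
          fun x : K × K => e q.1 x.1 * e q.2 x.2) := by
      rw [Submodule.span_le]
      rintro _ ⟨a, ha, b, hb, rfl⟩
      rw [SetLike.mem_coe, ← Subalgebra.mem_toSubmodule, ← hTs,
        show (T : Set (K → Qb)) = Set.range e from Subtype.range_coe.symm,
        Submodule.mem_span_range_iff_exists_fun] at ha hb
      obtain ⟨α, rfl⟩ := ha
      obtain ⟨β, rfl⟩ := hb
      refine (Submodule.mem_span_range_iff_exists_fun A).mpr ⟨fun q => α q.1 * β q.2, funext fun x => ?_⟩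
      simp only [Finset.sum_apply, Pi.smul_apply, Fintype.sum_prod_type]
      rw [Finset.sum_mul_sum]
      exact Finset.sum_congr rfl fun j _ => Finset.sum_congr rfl fun l _ => by
        change ((α j : Qb) * (β l : Qb)) * _ = ((α j : Qb) * _) * ((β l : Qb) * _)
        ring
    obtain ⟨a, ha⟩ := (Submodule.mem_span_range_iff_exists_fun A).mp (hsub h1)
    refine ⟨a, fun x y => ?_⟩
    have h2 := congrFun ha (x, y)
    rw [Finset.sum_apply] at h2
    exact h2.symm
  choose a ha using hcomulT
  have hmul : ∀ j l : T, lam j * lam l = ∑ i, (a i (j, l) : Qb) * lam i := by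
    have h1 : ∀ y : K, (fun j : T => lam j * u y) =
        fun j => ∑ l, (∑ i, (a i (j, l) : Qb) * lam i) * e l y := by
      intro y
      refine huniq _ _ fun x => ?_
      calc ∑ j, lam j * u y * e j x = u (x + y) := by
            rw [humul, hlam x, Finset.sum_mul]
            exact Finset.sum_congr rfl fun j _ => by ring
        _ = ∑ i, lam i * ∑ q : T × T, (a i q : Qb) * (e q.1 x * e q.2 y) := by
            rw [hlam]; simp only [ha]
        _ = ∑ j, (∑ l, (∑ i, (a i (j, l) : Qb) * lam i) * e l y) * e j x := by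
            simp only [Fintype.sum_prod_type, Finset.mul_sum, Finset.sum_mul]
            rw [Finset.sum_comm]
            refine Finset.sum_congr rfl fun j _ => ?_
            rw [Finset.sum_comm]
            exact Finset.sum_congr rfl fun l _ => Finset.sum_congr rfl fun i _ => by ring
    intro j
    have h2 : (fun l => lam j * lam l) = fun l => ∑ i, (a i (j, l) : Qb) * lam i := by
      refine huniq _ _ fun y => ?_
      have h3 := congrFun (h1 y) j
      rw [← h3, hlam y, Finset.mul_sum]
      exact Finset.sum_congr rfl fun l _ => by ring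
    exact congrFun h2
  have hlamA : ∀ j, lam j ∈ A := by
    intro j
    refine Reduction.mem_A_of_isIntegral A (isIntegral_of_smul_mem_submodule
      (Submodule.span A (Set.range lam)) ?_ (Submodule.fg_span (Set.finite_range lam)) _ ?_)
    · intro hbot
      have h0 : ∀ i, lam i = 0 := fun i => by
        simpa [hbot] using Submodule.subset_span (R := A) (Set.mem_range_self (f := lam) i)
      have := hlam 0
      simp [h0, hu] at this
    · intro n hn
      induction hn using Submodule.span_induction with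
      | mem n hn =>
        obtain ⟨l, rfl⟩ := hn
        rw [smul_eq_mul, hmul]
        exact sum_mem fun i _ => Submodule.smul_mem _ (a i (j, l))
          (Submodule.subset_span (Set.mem_range_self i))
      | zero => rw [smul_zero]; exact zero_mem _
      | add x y _ _ hx hy => rw [smul_add]; exact add_mem hx hy
      | smul r x _ hx => rw [smul_comm]; exact Submodule.smul_mem _ r hx
  have hconj : ∀ σ ∈ A.inertiaSubgroupIn ℚ, ∀ c, σ (u c) = ∑ i, σ (lam i) * e i (g σ c) := by
    intro σ hσ c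
    rw [hlam, map_sum]
    exact Finset.sum_congr rfl fun i _ => by rw [map_mul, (he i).2.2 σ hσ]
  have hfix : ∀ σ ∈ A.inertiaSubgroupIn ℚ, σ ζ = ζ → ∀ i, σ (lam i) = lam i := by
    intro σ hσ hσζ
    have h1 : (fun i => σ⁻¹ (lam i)) = lam := huniq _ _ fun x => by
      have h2 : σ (∑ i, σ⁻¹ (lam i) * e i x) = σ (u x) := by
        rw [map_sum, show σ (u x) = u x by rw [hu]; simp [hσζ]]
        calc ∑ i, σ (σ⁻¹ (lam i) * e i x) = ∑ i, lam i * e i (g σ x) :=
              Finset.sum_congr rfl fun i _ => by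
                rw [map_mul, (he i).2.2 σ hσ, show σ (σ⁻¹ (lam i)) = lam i from σ.apply_symm_apply _]
          _ = u (g σ x) := (hlam _).symm
          _ = u x := by simp only [hu, hφ σ hσ x]
      rw [σ.injective h2, hlam]
    intro i
    conv_lhs => rw [← congrFun h1 i]
    exact σ.apply_symm_apply _
  obtain ⟨τ, hτ, hτζ⟩ := exists_inertia_moves hp hA hp2 hζ
  set μ : T → Qb := fun i => τ (lam i) - lam i with hμ
  have hμfix : ∀ i, ∀ σ ∈ A.inertiaSubgroupIn ℚ, σ ζ = ζ → σ (μ i) = μ i := by
    intro i σ hσ hσζ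
    have h2 : (τ⁻¹ * (σ * τ)) ζ = ζ := by
      obtain ⟨j, -, hj⟩ := hζ.eq_pow_of_pow_eq_one (show (τ ζ) ^ p = 1 by
        rw [← map_pow, hζ.pow_eq_one, map_one])
      show τ.symm (σ (τ ζ)) = ζ
      rw [← hj, map_pow, hσζ, hj, AlgEquiv.symm_apply_apply]
    have h3 := congrArg τ (hfix _ (mul_mem (inv_mem hτ) (mul_mem hσ hτ)) h2 i)
    rw [show τ ((τ⁻¹ * (σ * τ)) (lam i)) = σ (τ (lam i)) from τ.apply_symm_apply _] at h3
    rw [hμ, map_sub, h3, hfix σ hσ hσζ i]
  have hsum : ∀ c, τ (u c) - u c = ∑ i, μ i * e i (g τ c) := by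
    intro c
    rw [hconj τ hτ c, show u c = u (g τ c) by simp only [hu, hφ τ hτ c], hlam (g τ c),
      ← Finset.sum_sub_distrib]
    exact Finset.sum_congr rfl fun i _ => by rw [hμ]; ring
  have hμlt : ∀ i, A.valuation (μ i) ^ (p - 1) ≤ A.valuation (p : Qb) := fun i =>
    valuation_le_of_fixed hp hA hζ (hμfix i) (inertia_sub_lt hτ (hlamA i))
  -- the values at `0` and `c₁`
  have key : τ ζ - ζ = ∑ i, μ i * (e i (g τ c₁) - e i (g τ 0)) := by
    have h1 := hsum c₁
    have h0 := hsum 0
    rw [show u c₁ = ζ by simp only [hu, hc₁, ZMod.val_one, pow_one]] at h1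
    rw [show u 0 = 1 by simp [hu], map_one, sub_self] at h0
    simp only [mul_sub, Finset.sum_sub_distrib, ← h1, ← h0, sub_zero]
  obtain ⟨k, hk, hkζ⟩ := hζ.eq_pow_of_pow_eq_one (show (τ ζ) ^ p = 1 by
    rw [← map_pow, hζ.pow_eq_one, map_one])
  have hkp : ¬ p ∣ (k + (p - 1)) := by
    intro hd
    refine hτζ ?_
    have h1 : ζ ^ (k + (p - 1)) = 1 := (hζ.pow_eq_one_iff_dvd _).mpr hd
    calc τ ζ = ζ ^ k * ζ ^ p := by rw [hζ.pow_eq_one, mul_one, hkζ]
      _ = ζ ^ (k + (p - 1)) * ζ := by
        rw [← pow_add, ← pow_succ, show k + (p - 1) + 1 = k + p by have := hp.two_le; omega]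
      _ = ζ := by rw [h1, one_mul]
  have hval' : A.valuation (τ ζ - ζ) = A.valuation (ζ - 1) := by
    have hζv : A.valuation ζ = 1 := by
      have h1 : A.valuation ζ ^ p = 1 := by rw [← map_pow, hζ.pow_eq_one, map_one]
      exact (pow_eq_one_iff_of_nonneg zero_le hp.ne_zero).mp h1
    rw [← hkζ, show ζ ^ k - ζ = (ζ ^ (k + (p - 1)) - 1) * ζ by
      rw [sub_mul, one_mul, ← pow_succ, show k + (p - 1) + 1 = k + p by have := hp.two_le; omega,
        pow_add, hζ.pow_eq_one, mul_one], map_mul, hζv, mul_one, valuation_one_sub_pow hζ hp hkp]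
  have hpos : 0 < A.valuation (ζ - 1) :=
    zero_lt_iff.mpr ((Valuation.ne_zero_iff _).mpr (sub_ne_zero.mpr (hζ.ne_one hp.one_lt)))
  refine (lt_irrefl (A.valuation (ζ - 1))) ?_
  conv_lhs => rw [← hval', key]
  refine Valuation.map_sum_lt _ hpos.ne' fun i _ => ?_
  have h2 : A.valuation (e i (g τ c₁) - e i (g τ 0)) < 1 := by
    rw [← sub_sub_sub_cancel_right _ _ (e i 0)]
    exact Valuation.map_sub_lt _ ((he i).2.1 _) ((he i).2.1 _)
  rw [map_mul]
  have h3 : A.valuation (μ i) ≤ A.valuation (ζ - 1) := by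
    refine le_of_pow_le_pow_left₀ (show p - 1 ≠ 0 by have := hp.two_le; omega) zero_le ?_
    rw [valuation_zeta_sub_one hζ hp]
    exact hμlt i
  calc A.valuation (μ i) * A.valuation (e i (g τ c₁) - e i (g τ 0))
      ≤ A.valuation (ζ - 1) * A.valuation (e i (g τ c₁) - e i (g τ 0)) :=
        mul_le_mul_of_nonneg_right h3 zero_le
    _ < A.valuation (ζ - 1) * 1 := mul_lt_mul_of_pos_left h2 hpos
    _ = A.valuation (ζ - 1) := mul_one _

end FLTAgent.TOR

end
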