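import Fermat.Agent.RR.Fibre

/-!
Regularity of the trace at a tamely bounded pole, in any characteristic: the chart lemmas of
`RR.Fibre` without the hypothesis of characteristic zero.
-/

set_option autoImplicit false
set_option linter.unusedSectionVars false

noncomputable section

open AlgebraicCurve IsDedekindDomain Polynomial
open scoped nonZeroDivisors
open FLTAgent.RR (Bd bd_mul_iff bd_iff_ord bd_iff bd_self ord_add_eq ord_algebraMap)
open FLTAgent.RR.Chart (A xv zset Idx bA red mem_zset fin_of_mem xv_ne_zero exists_eq_X_mul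
  finite_ord exists_xv_sub bd_poly mem_A_of_bd algebraMap_C)

namespace FLTAgent.TOR.Tame

variable {K F : Type*} [Field K] [Field F] [Algebra K F] [Algebra K[X] F]
  [IsScalarTower K K[X] F] [IsAlgClosed K] [Algebra (RatFunc K) F]
  [IsScalarTower K[X] (RatFunc K) F] [FiniteDimensional (RatFunc K) F]
  [Algebra.IsSeparable (RatFunc K) F]

open scoped Classical in
/-- multiplication matrix mod `x` -/
def psi : A K F →+* Matrix (Idx K F) (Idx K F) K :=
  (Polynomial.evalRingHom (0 : K)).mapMatrix.comp (Algebra.leftMulMatrix (bA K F)).toRingHom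

open scoped Classical in
theorem psi_X_mul (b : A K F) : psi (algebraMap K[X] (A K F) Polynomial.X * b) = 0 := by
  have : psi (algebraMap K[X] (A K F) Polynomial.X) = 0 := by
    simp [psi, Matrix.algebraMap_eq_diagonal]
  rw [map_mul, this, zero_mul]

open scoped Classical in
theorem psi_mulVec (a b : A K F) : Matrix.mulVec (psi a) (red b) = red (a * b) := by
  funext i
  have := congrArg (Polynomial.evalRingHom (0 : K))
    (congrFun (Algebra.leftMulMatrix_mulVec_repr (bA K F) a b) i)
  rw [Matrix.mulVec, dotProduct, map_sum] at this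
  simpa [psi, red, Matrix.mulVec, dotProduct] using this

open scoped Classical in
theorem eval_trace (a : A K F) :
    (Algebra.trace K[X] (A K F) a).eval 0 = (psi a).trace := by
  rw [Algebra.trace_eq_matrix_trace (bA K F)]
  simp [psi, Matrix.trace, Polynomial.eval_finset_sum]

theorem eval_trace_eq_zero {a : A K F} (h : ∀ v ∈ zset K F, Bd v (a : F) (-1)) :
    (Algebra.trace K[X] (A K F) a).eval 0 = 0 := by
  classical
  set N := ∑ v ∈ zset K F, (v.ord (xv K F)).toNat
  obtain ⟨b, hb⟩ := exists_eq_X_mul (a := a ^ N) fun v hv => by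
    push_cast
    refine ((h v hv).pow N).mono ?_
    have h2 : (v.ord (xv K F)).toNat ≤ N :=
      Finset.single_le_sum (f := fun v => (v.ord (xv K F)).toNat)
        (fun i _ => Nat.zero_le _) hv
    have := Int.self_le_toNat (v.ord (xv K F))
    omega
  rw [eval_trace]
  exact (Matrix.isNilpotent_trace_of_isNilpotent
    ⟨N, by rw [← map_pow, hb, psi_X_mul]⟩).eq_zero

/-- trace, with values in `F` -/
def trR (f : F) : F := algebraMap (RatFunc K) F (Algebra.trace (RatFunc K) F f)

theorem trR_coe (a : A K F) :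
    trR (K := K) (a : F) = algebraMap K[X] F (Algebra.trace K[X] (A K F) a) := by
  have : IsLocalization (Algebra.algebraMapSubmonoid (A K F) (K[X]⁰)) F :=
    IsIntegralClosure.isLocalization K[X] (RatFunc K) F (A K F)
  rw [trR, show (a : F) = algebraMap (A K F) F a from rfl,
    Algebra.trace_localization K[X] K[X]⁰ a, ← IsScalarTower.algebraMap_apply]

theorem trR_algebraMap_mul (p : K[X]) (f : F) :
    trR (K := K) (algebraMap K[X] F p * f) = algebraMap K[X] F p * trR (K := K) f := by
  rw [IsScalarTower.algebraMap_apply K[X] (RatFunc K) F p, ← Algebra.smul_def, trR, trR,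
    map_smul, smul_eq_mul, map_mul]

theorem ord_poly_eq_zero {v : Place K F} (hv : v ∈ zset K F) {p : K[X]} (hp : p.eval 0 ≠ 0) :
    algebraMap K[X] F p ≠ 0 ∧ v.ord (algebraMap K[X] F p) = 0 := by
  obtain ⟨q, hq⟩ := Polynomial.X_sub_C_dvd_sub_C_eval (a := (0 : K)) (p := p)
  rw [Polynomial.C_0, sub_zero] at hq
  have e : algebraMap K[X] F p = algebraMap K F (p.eval 0) + xv K F * algebraMap K[X] F q := by
    rw [← algebraMap_C (F := F), ← map_mul, ← map_add, ← hq]; congr 1; ring
  have hb : Bd v (xv K F * algebraMap K[X] F q) (-1) := by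
    simpa using (mem_zset.mp hv).2.mul (bd_poly (fin_of_mem hv) q)
  rw [bd_iff] at hb
  have := ord_add_eq v ((map_ne_zero (algebraMap K F)).mpr hp) (g := xv K F * algebraMap K[X] F q)
    (hb.imp id fun h => by rw [ord_algebraMap]; omega)
  rw [← e, ord_algebraMap] at this
  exact this

/-- regularity of the trace -/
theorem trR_regular {f : F} (hf : ∀ v ∈ zset K F, Bd v f (v.ord (xv K F) - 1)) :
    ∀ v ∈ zset K F, Bd v (trR (K := K) f) 0 := by
  classical
  have hx := xv_ne_zero K F
  have hh1 : ∀ v ∈ zset K F, Bd v (f * xv K F) (-1) := fun v hv =>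
    (bd_mul_iff hx).mpr ((hf v hv).mono (by omega))
  rcases eq_or_ne f 0 with rfl | hf0
  · intro v _; simp [trR, Bd.zero]
  have hf' : f * xv K F ≠ 0 := mul_ne_zero hf0 hx
  have hfin := (finite_ord (K := K) hf').inter_of_left {v | v.ord (f * xv K F) < 0}
  set P := hfin.toFinset with hP
  have hc : ∀ w : Place K F, ∃ c : K, c ≠ 0 ∧
      (w ∈ P → Bd w (xv K F - algebraMap K F c) (-1)) := by
    intro w
    by_cases hw : w ∈ P
    · have hw' := (Set.Finite.mem_toFinset hfin).mp hw
      obtain ⟨c, hc⟩ := exists_xv_sub hw'.1.1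
      refine ⟨c, ?_, fun _ => hc⟩
      rintro rfl
      have hz : w ∈ zset K F := mem_zset.mpr ⟨hw'.1.1, by simpa using hc⟩
      have := (bd_iff_ord hf').mp (hh1 w hz)
      have := hw'.2
      simp only [Set.mem_setOf_eq] at this
      omega
    · exact ⟨1, one_ne_zero, fun h => absurd h hw⟩
  choose c hc0 hc1 using hc
  set p : K[X] := ∏ w ∈ P, (Polynomial.X - Polynomial.C (c w)) ^ (-w.ord (f * xv K F)).toNat
    with hp
  have hp0 : p.eval 0 ≠ 0 := by
    rw [hp, Polynomial.eval_prod]
    exact Finset.prod_ne_zero_iff.mpr fun w _ => by simp [hc0 w]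
  have hint : IsIntegral K[X] (algebraMap K[X] F p * (f * xv K F)) := mem_A_of_bd fun v hv => by
    by_cases hvP : v ∈ P
    · rw [hp, ← Finset.mul_prod_erase _ _ hvP, map_mul, map_pow, map_sub, algebraMap_C]
      have h1 := (((hc1 v hvP).pow (-v.ord (f * xv K F)).toNat).mul
        (bd_poly hv (∏ w ∈ P.erase v, (Polynomial.X - Polynomial.C (c w))
          ^ (-w.ord (f * xv K F)).toNat))).mul (bd_self (v := v) (f := f * xv K F))
      exact h1.mono (by have := Int.self_le_toNat (-v.ord (f * xv K F)); omega)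
    · have h1 : Bd v (f * xv K F) 0 := by
        rw [bd_iff_ord hf']
        by_contra hneg
        exact hvP ((Set.Finite.mem_toFinset hfin).mpr ⟨⟨hv, by omega⟩, show _ < (0 : ℤ) by omega⟩)
      simpa using (bd_poly hv p).mul h1
  set a : A K F := ⟨_, hint⟩
  have ha : ∀ v ∈ zset K F, Bd v (a : F) (-1) := fun v hv => by
    simpa using (bd_poly (fin_of_mem hv) p).mul (hh1 v hv)
  obtain ⟨r, hr⟩ : ∃ r, Algebra.trace K[X] (A K F) a = Polynomial.X * r := by
    rw [← dvd_def, Polynomial.X_dvd_iff, Polynomial.coeff_zero_eq_eval_zero]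
    exact eval_trace_eq_zero ha
  have key : algebraMap K[X] F p * trR (K := K) f = algebraMap K[X] F r := by
    have h := trR_coe a
    rw [show (a : F) = algebraMap K[X] F (p * Polynomial.X) * f by
      show algebraMap K[X] F p * (f * xv K F) = _
      rw [map_mul]; ring, trR_algebraMap_mul, hr, map_mul, map_mul] at h
    exact mul_left_cancel₀ hx (by linear_combination h)
  intro v hv
  obtain ⟨hp0', hp1⟩ := ord_poly_eq_zero hv hp0
  have := bd_poly (fin_of_mem hv) r
  rw [← key, mul_comm, bd_mul_iff hp0', hp1] at this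
  simpa using this


end FLTAgent.TOR.Tame
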