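import Fermat.Agent.Flat.Residual
import Fermat.Agent.TOR.TameTrace

/-!
Area TOR, Mazur's principle: an upper bound for the space of differentials of a function field in
any characteristic, through traces to `K(x)`; only the tame bounds on the divisor of `dx` are used.
-/

set_option autoImplicit false
set_option linter.unusedSectionVars false
set_option linter.style.haveILetI false

noncomputable section

open AlgebraicCurve Polynomial
open FLTAgent.RR (Bd KK trF)
open FLTAgent.Reduction (Val regOn)
open FLTAgent.Flat (CurveLike)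

namespace FLTAgent.TOR

variable {K F : Type*} [Field K] [Field F] [Algebra K F] [IsAlgClosed K]

theorem finite_of_KK_eq {x y : F} (h : KK K x = KK K y) [FiniteDimensional (KK K y) F] :
    FiniteDimensional (KK K x) F := by
  have key : ∀ L L' : IntermediateField K F, L = L' → FiniteDimensional L' F →
      FiniteDimensional L F := by rintro L _ rfl h; exact h
  exact key _ _ h inferInstance

theorem separable_of_KK_eq {x y : F} (h : KK K x = KK K y) [Algebra.IsSeparable (KK K y) F] :
    Algebra.IsSeparable (KK K x) F := by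
  have key : ∀ L L' : IntermediateField K F, L = L' → Algebra.IsSeparable L' F →
      Algebra.IsSeparable L F := by rintro L _ rfl h; exact h
  exact key _ _ h inferInstance

/-- the trace is regular at a tame bound -/
theorem trF_regular {x f : F} (hx : Transcendental K x) [FiniteDimensional (KK K x) F]
    [Algebra.IsSeparable (KK K x) F]
    (hf : ∀ v : Place K F, 0 < v.ord x → Bd v f (v.ord x - 1)) :
    ∀ v : Place K F, 0 < v.ord x → Bd v (trF K x f) 0 := by
  letI := RR.polyAlg (K := K) x
  letI := RR.ratAlg hx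
  haveI := RR.chart_tower_K (K := K) x
  haveI := RR.chart_tower_rat hx
  haveI := RR.chart_finite hx
  haveI : Algebra.IsSeparable (RatFunc K) F :=
    Algebra.IsSeparable.of_equiv_equiv
      (RatFunc.algEquivOfTranscendental x hx).toRingEquiv.symm (RingEquiv.refl F) (by
        ext a
        show ((RatFunc.algEquivOfTranscendental x hx
          ((RatFunc.algEquivOfTranscendental x hx).symm a) : KK K x) : F) = (a : F)
        simp)
  have hxv : RR.Chart.xv K F = x := by
    show Polynomial.aeval x Polynomial.X = x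
    simp
  intro v hv
  rw [← RR.chart_trace hx]
  refine Tame.trR_regular (fun w hw => ?_) v (by rwa [RR.Chart.mem_zset_iff_ord, hxv])
  rw [RR.Chart.mem_zset_iff_ord, hxv] at hw
  rw [hxv]; exact hf w hw

theorem exists_zero {x : F} (hx : Transcendental K x) [FiniteDimensional (KK K x) F]
    [Algebra.IsSeparable (KK K x) F] : ∃ v : Place K F, 0 < v.ord x := by
  obtain ⟨s, hs, hsum⟩ := Reduction.exists_zeros (K := K) hx
  have hpos : 0 < RR.ndeg K x := Module.finrank_pos
  obtain ⟨v, hv, -⟩ := Finset.exists_ne_zero_of_sum_ne_zero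
    (s := s) (f := fun v => v.ord x) (by rw [hsum]; omega)
  exact ⟨v, (hs v).mp hv⟩

theorem val_of_ord_sub_pos {x : F} {v : Place K F} {c : K} (h : 0 < v.ord (x - algebraMap K F c)) :
    Val v x c := by
  have := (Reduction.val_zero_of_ord_pos h).add (Val.const c)
  simpa using this

variable (H : CurveLike K F) {x : F} (hx : Transcendental K x) [FiniteDimensional (KK K x) F]
  [Algebra.IsSeparable (KK K x) F]

theorem ord_nonneg_of_bd {v : Place K F} {y : F} (hy : y ≠ 0) (h : Bd v y 0) : 0 ≤ v.ord y := by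
  have := (RR.bd_iff_ord hy).mp h
  omega

include H hx in
theorem exists_val_of_bd {v : Place K F} (h : Bd v x 0) :
    ∃ c : K, 0 < v.ord (x - algebraMap K F c) := by
  obtain ⟨c, hc⟩ := Reduction.exists_val (H.res v) h
  refine ⟨c, ?_⟩
  have := Val.ord_pos (v := v) (x := x - algebraMap K F c)
    (by simpa using hc.sub (Val.const c))
    (Reduction.ne_zero_of_transc (RR.transcendental_sub_const hx c))
  omega

include H hx in
/-- an element of `K(x)` regular at all finite places is a polynomial -/
theorem exists_aeval_eq {f : F} (hf : f ∈ KK K x)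
    (hb : ∀ (c : K) (v : Place K F), 0 < v.ord (x - algebraMap K F c) → Bd v f 0) :
    ∃ p : K[X], f = Polynomial.aeval x p := by
  set r := (RatFunc.algEquivOfTranscendental x hx).symm ⟨f, hf⟩ with hr
  have hq : Polynomial.aeval x r.denom ≠ 0 := fun h0 =>
    r.denom_ne_zero ((transcendental_iff.mp hx) _ h0)
  have h1 := RatFunc.algEquivOfTranscendental_apply x hx r
  rw [hr, AlgEquiv.apply_symm_apply] at h1
  rw [← hr] at h1
  have he : f * Polynomial.aeval x r.denom = Polynomial.aeval x r.num := by
    rw [show f = Polynomial.aeval x r.num / Polynomial.aeval x r.denom from h1,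
      div_mul_cancel₀ _ hq]
  by_cases hdeg : r.denom.natDegree = 0
  · obtain ⟨a, ha⟩ := Polynomial.natDegree_eq_zero.mp hdeg
    rw [← ha] at he hq
    have ha0 : a ≠ 0 := fun h0 => hq (by simp [h0])
    refine ⟨Polynomial.C a⁻¹ * r.num, ?_⟩
    rw [map_mul, ← he, Polynomial.aeval_C, Polynomial.aeval_C, mul_left_comm, ← map_mul,
      inv_mul_cancel₀ ha0, map_one, mul_one]
  exfalso
  obtain ⟨c, hc⟩ := IsAlgClosed.exists_root r.denom
    (fun h0 => hdeg (Polynomial.natDegree_eq_of_degree_eq_some h0))
  haveI := finite_of_KK_eq (RR.KK_sub_const (K := K) x c)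
  haveI := separable_of_KK_eq (RR.KK_sub_const (K := K) x c)
  obtain ⟨v, hv⟩ := exists_zero (RR.transcendental_sub_const hx c)
  have hxv := val_of_ord_sub_pos hv
  obtain ⟨w, hw⟩ := Reduction.exists_val (H.res v) (hb c v hv)
  have h2 := hw.mul (hxv.aeval r.denom)
  rw [he, hc.eq_zero, mul_zero] at h2
  have hnum := h2.unique (hxv.aeval r.num)
  obtain ⟨u, w', huw⟩ := r.isCoprime_num_denom
  have := congrArg (Polynomial.eval c) huw
  simp [← hnum, hc.eq_zero] at this

theorem ord_aeval_at_pole {v : Place K F} (hv : v.ord x < 0) {p : K[X]} (hp : p ≠ 0) :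
    Polynomial.aeval x p ≠ 0 ∧ v.ord (Polynomial.aeval x p) = p.natDegree * v.ord x := by
  have hx0 : x ≠ 0 := fun h => by simp [h] at hv
  letI : Invertible x := invertibleOfNonzero hx0
  have hu : Val v x⁻¹ 0 := Reduction.val_zero_of_ord_pos (by rw [v.ord_inv]; omega)
  have h1 := hu.aeval p.reverse
  rw [← Polynomial.coeff_zero_eq_eval_zero, Polynomial.coeff_zero_reverse] at h1
  obtain ⟨h0, h00⟩ := h1.ord_eq_zero (Polynomial.leadingCoeff_ne_zero.mpr hp)
  have e := Polynomial.eval₂_reverse_mul_pow (algebraMap K F) x p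
  rw [invOf_eq_inv, ← Polynomial.aeval_def, ← Polynomial.aeval_def] at e
  rw [← e]
  refine ⟨mul_ne_zero h0 (pow_ne_zero _ hx0), ?_⟩
  rw [v.ord_mul h0 (pow_ne_zero _ hx0), h00, RR.ord_pow, zero_add]

variable (E P : Divisor K F)
  (hfin : ∀ (c : K) (v : Place K F), 0 < v.ord (x - algebraMap K F c) →
    E v ≤ v.ord (x - algebraMap K F c) - 1)
  (hpole : ∀ v : Place K F, v.ord x < 0 → E v ≤ v.ord x - 1)
  (hP : ∀ v : Place K F, P v = max 0 (-v.ord x))

include hx hP in
theorem regular_of_mem {m : ℕ} {w : F} (hw : w ∈ riemannRochSpace (m • P)) :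
    w ∈ regOn K x := fun v hv => by
  rcases eq_or_ne w 0 with rfl | hw0
  · exact RR.Bd.zero
  have h1 := ((mem_riemannRochSpace_iff.mp hw) v).resolve_left hw0
  have hx0 := ord_nonneg_of_bd (Reduction.ne_zero_of_transc hx) hv
  rw [Finsupp.smul_apply, hP, show max 0 (-v.ord x) = 0 by omega, smul_zero, neg_zero] at h1
  exact (RR.bd_iff_ord hw0).mpr (by omega)

include H hx hfin hpole hP in
/-- the trace pairing with a differential: a polynomial of bounded degree -/
theorem exists_trace_poly {m : ℕ} {h w : F} (hh : h ∈ riemannRochSpace E)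
    (hw : w ∈ riemannRochSpace (m • P)) :
    ∃ p : K[X], trF K x (h * w) = Polynomial.aeval x p ∧ p ∈ Polynomial.degreeLT K (m - 1) := by
  rcases eq_or_ne h 0 with rfl | hh0
  · exact ⟨0, by simp [trF], zero_mem _⟩
  rcases eq_or_ne w 0 with rfl | hw0
  · exact ⟨0, by simp [trF], zero_mem _⟩
  have hE : ∀ v : Place K F, -E v ≤ v.ord h := fun v =>
    ((mem_riemannRochSpace_iff.mp hh) v).resolve_left hh0
  have hV : ∀ v : Place K F, -((m : ℤ) * max 0 (-v.ord x)) ≤ v.ord w := fun v => by
    have := ((mem_riemannRochSpace_iff.mp hw) v).resolve_left hw0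
    rwa [Finsupp.smul_apply, hP, nsmul_eq_mul] at this
  obtain ⟨p, hp⟩ := exists_aeval_eq H hx (RR.trF_mem x (h * w)) fun c v hv => by
    haveI := finite_of_KK_eq (RR.KK_sub_const (K := K) x c)
    haveI := separable_of_KK_eq (RR.KK_sub_const (K := K) x c)
    rw [← RR.trF_congr (RR.KK_sub_const (K := K) x c)]
    refine trF_regular (RR.transcendental_sub_const hx c) (fun u hu => ?_) v hv
    have hu0 := ord_nonneg_of_bd (Reduction.ne_zero_of_transc hx) (val_of_ord_sub_pos hu).bd
    rw [RR.bd_iff_ord (mul_ne_zero hh0 hw0), u.ord_mul hh0 hw0]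
    have h1 := hE u
    have h2 := hV u
    have h3 := hfin c u hu
    rw [show max 0 (-u.ord x) = 0 by omega, mul_zero, neg_zero] at h2
    omega
  refine ⟨p, hp, ?_⟩
  rcases eq_or_ne p 0 with rfl | hp0
  · exact zero_mem _
  haveI := finite_of_KK_eq (RR.KK_inv (K := K) x)
  haveI := separable_of_KK_eq (RR.KK_inv (K := K) x)
  have hx0 : x ≠ 0 := Reduction.ne_zero_of_transc hx
  obtain ⟨v, hv⟩ := exists_zero (RR.transcendental_inv hx)
  have hreg : Bd v (trF K x⁻¹ (x ^ (2 - (m : ℤ)) * (h * w))) 0 := by
    refine trF_regular (RR.transcendental_inv hx) (fun u hu => ?_) v hv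
    rw [u.ord_inv] at hu
    rw [RR.bd_iff_ord (mul_ne_zero (zpow_ne_zero _ hx0) (mul_ne_zero hh0 hw0)),
      u.ord_mul (zpow_ne_zero _ hx0) (mul_ne_zero hh0 hw0), u.ord_zpow, u.ord_mul hh0 hw0,
      u.ord_inv]
    have h1 := hE u
    have h2 := hV u
    have h3 := hpole u (by omega)
    rw [show max 0 (-u.ord x) = -u.ord x by omega] at h2
    linarith
  rw [RR.trF_congr (RR.KK_inv (K := K) x), RR.trF_mul (zpow_mem (RR.self_mem_KK x) _), hp] at hreg
  rw [v.ord_inv] at hv
  obtain ⟨hne, hord⟩ := ord_aeval_at_pole (by omega : v.ord x < 0) hp0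
  rw [RR.bd_iff_ord (mul_ne_zero (zpow_ne_zero _ hx0) hne),
    v.ord_mul (zpow_ne_zero _ hx0) hne, v.ord_zpow, hord] at hreg
  have hle : (p.natDegree : ℤ) + 2 ≤ m := by
    by_contra hlt
    push Not at hlt
    have : ((2 : ℤ) - m + p.natDegree) * v.ord x < 0 := mul_neg_of_pos_of_neg (by omega) (by omega)
    linarith
  rw [Polynomial.mem_degreeLT]
  exact lt_of_le_of_lt Polynomial.degree_le_natDegree (by exact_mod_cast (by omega : p.natDegree < m - 1))

/-- the pairing `(h, w) ↦ Tr(h w)` -/
def pairing (x : F) (m : ℕ) :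
    riemannRochSpace E →ₗ[K] riemannRochSpace (m • P) →ₗ[K] F :=
  LinearMap.mk₂ K (fun h w => trF K x ((h : F) * (w : F)))
    (fun a b w => by simp [trF, add_mul])
    (fun c a w => by
      show trF K x ((c • (a : F)) * (w : F)) = c • trF K x ((a : F) * (w : F))
      rw [smul_mul_assoc, Algebra.smul_def, RR.trF_mul (IntermediateField.algebraMap_mem _ c),
        ← Algebra.smul_def])
    (fun a w w' => by simp [trF, mul_add])
    (fun c a w => by
      show trF K x ((a : F) * (c • (w : F))) = c • trF K x ((a : F) * (w : F))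
      rw [mul_smul_comm, Algebra.smul_def, RR.trF_mul (IntermediateField.algebraMap_mem _ c),
        ← Algebra.smul_def])

theorem pairing_apply (m : ℕ) (h : riemannRochSpace E) (w : riemannRochSpace (m • P)) :
    pairing E P x m h w = trF K x ((h : F) * (w : F)) := rfl

include H hx hfin hpole hP in
theorem pairing_one : LinearMap.ker (pairing E P x 1) = ⊤ := by
  refine eq_top_iff.mpr fun h _ => LinearMap.ext fun w => ?_
  obtain ⟨p, hp, hdeg⟩ := exists_trace_poly H hx E P hfin hpole hP h.2 w.2
  rw [Polynomial.mem_degreeLT] at hdeg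
  obtain rfl : p = 0 :=
    Polynomial.degree_eq_bot.mp (Nat.WithBot.lt_zero_iff.mp (by simpa using hdeg))
  rw [pairing_apply, hp, map_zero]
  rfl

/-- dimensions of the spaces `L(m P)` -/
def dimP (m : ℕ) : ℕ := Module.finrank K (riemannRochSpace (m • P))

include H hx hfin hpole hP in
theorem finrank_step (m : ℕ) :
    (Module.finrank K (LinearMap.ker (pairing E P x (m + 1))) : ℤ) ≤
      Module.finrank K (LinearMap.ker (pairing E P x (m + 2))) +
        (m + 1) * ((dimP P (m + 2) : ℤ) - 2 * dimP P (m + 1) + dimP P m) := by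
  classical
  have := (H.finite_finrank E).1
  have := fun k : ℕ => (H.finite_finrank (k • P)).1
  have hx0 : x ≠ 0 := Reduction.ne_zero_of_transc hx
  set V := fun k : ℕ => riemannRochSpace (k • P) with hV
  have hmono : V (m + 1) ≤ V (m + 2) := Flat.rr_mono fun v => by
    have := le_max_left (0 : ℤ) (-v.ord x)
    simp only [Finsupp.smul_apply, hP, nsmul_eq_mul]
    push_cast
    nlinarith
  have hshift : (V (m + 1)).map (LinearMap.mulLeft K x) ≤ V (m + 2) := by
    rintro _ ⟨w, hw, rfl⟩
    rw [mem_riemannRochSpace_iff]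
    intro v
    rcases eq_or_ne w 0 with rfl | hw0
    · exact Or.inl (by simp)
    right
    have h1 := ((mem_riemannRochSpace_iff.mp hw) v).resolve_left hw0
    simp only [Finsupp.smul_apply, hP, nsmul_eq_mul, LinearMap.mulLeft_apply, v.ord_mul hx0 hw0]
      at h1 ⊢
    have := le_max_left (0 : ℤ) (-v.ord x)
    have := le_max_right (0 : ℤ) (-v.ord x)
    push_cast at h1 ⊢
    nlinarith
  have eV : ∀ k, Module.finrank K (V k) = dimP P k := fun _ => rfl
  set W := V (m + 1) ⊔ (V (m + 1)).map (LinearMap.mulLeft K x) with hW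
  have hWle : W ≤ V (m + 2) := sup_le hmono hshift
  have hinter : V (m + 1) ⊓ (V (m + 1)).map (LinearMap.mulLeft K x) ≤
      (V m).map (LinearMap.mulLeft K x) := by
    rintro _ ⟨hy, w, hw, rfl⟩
    refine ⟨w, ?_, rfl⟩
    show w ∈ riemannRochSpace (m • P)
    rw [mem_riemannRochSpace_iff]
    intro v
    rcases eq_or_ne w 0 with rfl | hw0
    · exact Or.inl rfl
    right
    have h1 := ((mem_riemannRochSpace_iff.mp hw) v).resolve_left hw0
    have h2 := ((mem_riemannRochSpace_iff.mp hy) v).resolve_left (mul_ne_zero hx0 hw0)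
    simp only [Finsupp.smul_apply, hP, nsmul_eq_mul, LinearMap.mulLeft_apply, v.ord_mul hx0 hw0]
      at h1 h2 ⊢
    rcases le_or_gt 0 (v.ord x) with hx' | hx'
    · rw [show max 0 (-v.ord x) = 0 by omega] at h1 ⊢
      simpa using h1
    · rw [show max 0 (-v.ord x) = -v.ord x by omega] at h2 ⊢
      push_cast at h2 ⊢
      linarith
  have hWdim : (2 * dimP P (m + 1) : ℤ) ≤ Module.finrank K W + dimP P m := by
    have h1 := Submodule.finrank_sup_add_finrank_inf_eq (V (m + 1))
      ((V (m + 1)).map (LinearMap.mulLeft K x))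
    have h2 : Module.finrank K ((V (m + 1)).map (LinearMap.mulLeft K x)) = dimP P (m + 1) :=
      (Submodule.equivMapOfInjective _ (mul_right_injective₀ hx0) _).finrank_eq.symm
    have h3 := Submodule.finrank_mono hinter
    have h4 : Module.finrank K ((V m).map (LinearMap.mulLeft K x)) = dimP P m :=
      (Submodule.equivMapOfInjective _ (mul_right_injective₀ hx0) _).finrank_eq.symm

    have h5 := eV (m + 1)
    have h7 : Module.finrank K W =
        Module.finrank K ↥(V (m + 1) ⊔ (V (m + 1)).map (LinearMap.mulLeft K x)) := rfl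
    have h6 : Module.finrank K W + dimP P m ≥ 2 * dimP P (m + 1) := by omega
    exact_mod_cast h6
  set U := W.comap (V (m + 2)).subtype
  have hUdim : Module.finrank K U = Module.finrank K W :=
    (Submodule.comapSubtypeEquivOfLe hWle).finrank_eq
  have hquot : (Module.finrank K (V (m + 2) ⧸ U) : ℤ) ≤
      (dimP P (m + 2) : ℤ) - 2 * dimP P (m + 1) + dimP P m := by
    have := Submodule.finrank_quotient_add_finrank U
    rw [eV] at this
    omega
  set S := (Polynomial.degreeLT K (m + 1)).map (Polynomial.aeval x).toLinearMap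
  haveI : FiniteDimensional K (Polynomial.degreeLT K (m + 1)) :=
    (Polynomial.degreeLTEquiv K (m + 1)).symm.finiteDimensional
  have hS : Module.finrank K S ≤ m + 1 := (Submodule.finrank_map_le _ _).trans
    (by rw [(Polynomial.degreeLTEquiv K (m + 1)).finrank_eq, Module.finrank_fin_fun])
  set Ω1 := LinearMap.ker (pairing E P x (m + 1))
  set Ω2 := LinearMap.ker (pairing E P x (m + 2))
  have hS' : ∀ (h : Ω1) (w : V (m + 2)),
      pairing E P x (m + 2) (h : riemannRochSpace E) w ∈ S := fun h w => by
    obtain ⟨p, hp, hdeg⟩ := exists_trace_poly H hx E P hfin hpole hP (h : riemannRochSpace E).2 w.2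
    exact ⟨p, hdeg, hp.symm⟩
  let L : Ω1 → (V (m + 2) →ₗ[K] S) := fun h =>
    (pairing E P x (m + 2) (h : riemannRochSpace E)).codRestrict S (hS' h)
  have hLU : ∀ h : Ω1, U ≤ LinearMap.ker (L h) := by
    intro h w hw
    have hz : ∀ u ∈ V (m + 1), trF K x (((h : riemannRochSpace E) : F) * u) = 0 := fun u hu => by
      have := LinearMap.congr_fun (LinearMap.mem_ker.mp h.2) ⟨u, hu⟩
      exact this
    obtain ⟨u, hu, _, ⟨u', hu', rfl⟩, e⟩ := Submodule.mem_sup.mp hw
    refine LinearMap.mem_ker.mpr (Subtype.ext ?_)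
    show trF K x (((h : riemannRochSpace E) : F) * (w : F)) = 0
    rw [show (w : F) = u + x * u' from e.symm, mul_add, RR.trF_add, hz u hu, zero_add,
      mul_left_comm, RR.trF_mul (RR.self_mem_KK x), hz u' hu', mul_zero]
  let Ψ : Ω1 →ₗ[K] ((V (m + 2) ⧸ U) →ₗ[K] S) :=
    { toFun := fun h => U.liftQ (L h) (hLU h)
      map_add' := fun a b => Submodule.linearMap_qext _ (LinearMap.ext fun w => Subtype.ext (by
        simp [L]))
      map_smul' := fun c a => Submodule.linearMap_qext _ (LinearMap.ext fun w => Subtype.ext (by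
        simp [L])) }
  have hker : (LinearMap.ker Ψ).map Ω1.subtype ≤ Ω2 := by
    rintro _ ⟨h, hh, rfl⟩
    refine LinearMap.mem_ker.mpr (LinearMap.ext fun w => ?_)
    have := congrArg Subtype.val (LinearMap.congr_fun (LinearMap.mem_ker.mp hh) (U.mkQ w))
    simpa [Ψ, L] using this
  haveI : FiniteDimensional K S := Module.Finite.map _ _
  have h1 := LinearMap.finrank_range_add_finrank_ker (K := K) (V := Ω1) (V₂ := (V (m + 2) ⧸ U) →ₗ[K] S) Ψ
  have h2 := Submodule.finrank_le (LinearMap.range Ψ)
  rw [Module.finrank_linearMap] at h2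
  have h3 := Submodule.finrank_mono hker
  rw [(Submodule.equivMapOfInjective _ (Submodule.injective_subtype _) _).finrank_eq.symm] at h3
  have h4 : Module.finrank K (V (m + 2) ⧸ U) * Module.finrank K S ≤
      Module.finrank K (V (m + 2) ⧸ U) * (m + 1) := Nat.mul_le_mul_left _ hS
  have h5 : (Module.finrank K (V (m + 2) ⧸ U) : ℤ) * (m + 1) ≤
      ((dimP P (m + 2) : ℤ) - 2 * dimP P (m + 1) + dimP P m) * (m + 1) :=
    mul_le_mul_of_nonneg_right hquot (by positivity)
  have h6 : (Module.finrank K Ω1 : ℤ) ≤ Module.finrank K Ω2 +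
      (Module.finrank K (V (m + 2) ⧸ U) : ℤ) * (m + 1) := by
    have : Module.finrank K Ω1 ≤ Module.finrank K Ω2 +
        Module.finrank K (V (m + 2) ⧸ U) * (m + 1) := by omega
    exact_mod_cast this
  rw [mul_comm] at h5
  linarith

include H hx hfin hpole hP in
theorem finrank_le_invariant (m : ℕ) :
    (Module.finrank K (riemannRochSpace E) : ℤ) ≤
      Module.finrank K (LinearMap.ker (pairing E P x (m + 1))) +
        m * (dimP P (m + 1) : ℤ) - (m + 1) * dimP P m + 1 := by
  induction m with
  | zero =>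
    rw [pairing_one H hx E P hfin hpole hP, finrank_top]
    have h1 : dimP P 0 ≤ 1 := by
      obtain ⟨v⟩ := H.ne
      have h := H.finrank_add_single (-Finsupp.single v 1) v
      have hb := H.eq_bot (D := -Finsupp.single v (1 : ℤ))
        (by rw [map_neg, H.degree_single]; norm_num)
      rw [neg_add_cancel, hb, finrank_bot] at h
      unfold dimP
      rwa [zero_smul, zero_add] at *
    push_cast
    omega
  | succ m ih =>
    have h := finrank_step H hx E P hfin hpole hP m
    push_cast at ih h ⊢
    linarith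

include H hx hP in
theorem exists_ker_eq_bot : ∃ M : ℕ, ∀ m, M ≤ m → LinearMap.ker (pairing E P x m) = ⊥ := by
  classical
  set b := Module.finBasis (KK K x) F
  have hmul : ∀ f : F, ∃ (u : F) (M : ℕ), u ∈ KK K x ∧ u ≠ 0 ∧
      u * f ∈ riemannRochSpace (M • P) := by
    intro f
    rcases eq_or_ne f 0 with rfl | hf
    · exact ⟨1, 0, one_mem _, one_ne_zero, by simp⟩
    set T := (Reduction.finite_ord_of_finite (K := K) hx hf).toFinset
    have hT : ∀ v ∈ T, ∃ c, 0 < v.ord (x - algebraMap K F c) := fun v hv =>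
      exists_val_of_bd H hx ((Set.Finite.mem_toFinset _).mp hv).1
    choose! c hc using hT
    have hne : ∀ v : Place K F, x - algebraMap K F (c v) ≠ 0 := fun v =>
      Reduction.ne_zero_of_transc (RR.transcendental_sub_const hx _)
    set u := ∏ v ∈ T, (x - algebraMap K F (c v)) ^ (v.ord f).natAbs
    have hu : u ≠ 0 := Finset.prod_ne_zero_iff.mpr fun v _ => pow_ne_zero _ (hne v)
    obtain ⟨D, hD, -⟩ := H.div (u * f) (mul_ne_zero hu hf)
    refine ⟨u, ∑ v ∈ D.support, (D v).natAbs,
      prod_mem fun v _ => pow_mem (sub_mem (RR.self_mem_KK x)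
        (IntermediateField.algebraMap_mem _ _)) _, hu, mem_riemannRochSpace_iff.mpr fun v => ?_⟩
    right
    rw [Finsupp.smul_apply, hP, nsmul_eq_mul]
    by_cases hv : Bd v x 0
    · have hx0 := ord_nonneg_of_bd (Reduction.ne_zero_of_transc hx) hv
      rw [show max 0 (-v.ord x) = 0 by omega, mul_zero, neg_zero, v.ord_mul hu hf,
        RR.ord_prod v _ _ fun w _ => pow_ne_zero _ (hne w)]
      simp only [RR.ord_pow]
      have hterm : ∀ w ∈ T, 0 ≤ ((w.ord f).natAbs : ℤ) * v.ord (x - algebraMap K F (c w)) :=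
        fun w _ => mul_nonneg (by positivity) (ord_nonneg_of_bd (hne w)
          (hv.sub (RR.Bd.of_algebraMap _)))
      have hnn := Finset.sum_nonneg hterm
      by_cases hf' : v.ord f = 0
      · omega
      · have hvT : v ∈ T := (Set.Finite.mem_toFinset _).mpr ⟨hv, hf'⟩
        have h2 := Finset.single_le_sum hterm hvT
        have h3 : ((v.ord f).natAbs : ℤ) ≤
            ((v.ord f).natAbs : ℤ) * v.ord (x - algebraMap K F (c v)) :=
          le_mul_of_one_le_right (by positivity) (by have := hc v hvT; omega)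
        omega
    · have hneg := (RR.not_bd_iff.mp hv).2
      rw [neg_zero] at hneg
      rw [show max 0 (-v.ord x) = -v.ord x by omega]
      have h1 : ((∑ w ∈ D.support, (D w).natAbs : ℕ) : ℤ) * 1 ≤
          ((∑ w ∈ D.support, (D w).natAbs : ℕ) : ℤ) * (-v.ord x) :=
        mul_le_mul_of_nonneg_left (by omega) (by positivity)
      rw [← hD v]
      by_cases hDv : D v = 0
      · have : (0 : ℤ) ≤ ((∑ w ∈ D.support, (D w).natAbs : ℕ) : ℤ) := by positivity
        omega
      · have h2 : ((D v).natAbs : ℤ) ≤ ((∑ w ∈ D.support, (D w).natAbs : ℕ) : ℤ) := by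
          exact_mod_cast Finset.single_le_sum (f := fun w => (D w).natAbs)
            (fun w _ => Nat.zero_le _) (Finsupp.mem_support_iff.mpr hDv)
        omega
  choose u M hu hu0 huM using fun i => hmul (b i)
  refine ⟨Finset.univ.sup M, fun m hm => (Submodule.eq_bot_iff _).mpr fun h hh => ?_⟩
  have hzero : ∀ i, Algebra.trace (KK K x) F ((h : F) * b i) = 0 := by
    intro i
    have hle : riemannRochSpace (M i • P) ≤ riemannRochSpace (m • P) := Flat.rr_mono fun v => by
      have := le_max_left (0 : ℤ) (-v.ord x)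
      have : M i ≤ m := (Finset.le_sup (Finset.mem_univ i)).trans hm
      simp only [Finsupp.smul_apply, hP, nsmul_eq_mul]
      exact mul_le_mul_of_nonneg_right (by exact_mod_cast this) (by positivity)
    have h1 := LinearMap.congr_fun (LinearMap.mem_ker.mp hh) ⟨u i * b i, hle (huM i)⟩
    rw [pairing_apply] at h1
    change trF K x ((h : F) * (u i * b i)) = 0 at h1
    rw [mul_left_comm, RR.trF_mul (hu i)] at h1
    exact (algebraMap (KK K x) F).injective
      (((mul_eq_zero.mp h1).resolve_left (hu0 i)).trans (map_zero _).symm)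
  have h2 : Algebra.traceForm (KK K x) F (h : F) = 0 := b.ext fun i => by
    rw [Algebra.traceForm_apply, hzero i]
    rfl
  exact Subtype.ext ((traceForm_nondegenerate (KK K x) F).1 _ fun y => by rw [h2]; rfl)

include H hx hfin hpole hP in
/-- the bound -/
theorem finrank_le_genus {ψ g : ℤ} {M₀ : ℕ}
    (hlarge : ∀ m, M₀ ≤ m → (dimP P m : ℤ) = m * ψ + 1 - g) :
    (Module.finrank K (riemannRochSpace E) : ℤ) ≤ g := by
  obtain ⟨M, hM⟩ := exists_ker_eq_bot H hx E P hP
  have h := finrank_le_invariant H hx E P hfin hpole hP (max M M₀)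
  rw [hM _ (by omega), finrank_bot, hlarge _ (by omega), hlarge _ (le_max_right _ _)] at h
  push_cast at h
  linarith

end FLTAgent.TOR
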