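import Fermat.Agent.TOR.MazurLog
import Fermat.Agent.TOR.MazurBound
import Fermat.Agent.Genus.Places
import Fermat.Agent.Flat.Coord

/-!
Area TOR, Mazur's principle: on the special fibre at a prime `q ≥ 5` the differentials without poles
are the reductions of those of the generic fibre.
-/

set_option autoImplicit false
set_option linter.unusedSectionVars false
set_option linter.style.haveILetI false
set_option synthInstance.maxHeartbeats 400000
set_option maxHeartbeats 1000000

noncomputable section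

open ModularCurve AlgebraicCurve IsLocalRing
open FLTAgent.RR (Bd KK)
open FLTAgent.Reduction

namespace FLTAgent.TOR

variable {A : ValuationSubring Qb} {N q : ℕ} [NeZero N]

/-- on the generic fibre `j` ramifies only over `0` and `1728` -/
theorem ord_sub_eq_one {P : PB N} {d : Qb} (h0 : d ≠ 0) (h1 : d ≠ 1728)
    (hd : 0 < P.ord (ModFun.jBar N - cB N d)) : P.ord (ModFun.jBar N - cB N d) = 1 := by
  obtain ⟨s, hs, hcard⟩ := Genus.fibre_generic N d h0 h1
  have hsum := RR.sum_ord_sub_const (ModFun.transcendental_jBar N) d s hs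
  rw [ndeg_jBar_eq, ← hcard] at hsum
  have h1' : ∀ w ∈ s, (1 : ℤ) ≤ w.ord (ModFun.jBar N - cB N d) := fun w hw => (hs w).mp hw
  exact ((Finset.sum_eq_sum_iff_of_le h1').mp
    (by rw [Finset.sum_const, nsmul_eq_mul, mul_one]; exact hsum.symm) P ((hs P).mpr hd)).symm

variable (C : Ctx A N q)
include C

/-- summing a pointwise bound which is strict somewhere over a fibre -/
theorem mapDomain_lt {D D' : Divisor Qb (FB N)} {Q : PS A N}
    (hle : ∀ P, rP C P = Q → D P ≤ D' P) {P : PB N} (hP : rP C P = Q) (hlt : D P < D' P) :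
    Finsupp.mapDomain (rP C) D Q + 1 ≤ Finsupp.mapDomain (rP C) D' Q := by
  classical
  set S := D.support ∪ D'.support
  have hPS : P ∈ S.filter (fun P => rP C P = Q) := by
    refine Finset.mem_filter.mpr ⟨?_, hP⟩
    by_contra h
    simp only [S, Finset.mem_union, Finsupp.mem_support_iff, not_or, not_not] at h
    omega
  rw [mapDomain_apply_eq_sum (rP C) D Q S Finset.subset_union_left,
    mapDomain_apply_eq_sum (rP C) D' Q S Finset.subset_union_right]
  have := Finset.sum_lt_sum (fun P hP => hle P (Finset.mem_filter.mp hP).2) ⟨P, hPS, hlt⟩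
  omega

theorem natCast_kA_ne_zero (hq : 5 ≤ q) : ((1728 : ℕ) : kA A) ≠ 0 := by
  refine natCast_residue_ne_zero A C.prime C.lies fun h => ?_
  rw [show (1728 : ℕ) = 2 ^ 6 * 3 ^ 3 by norm_num] at h
  rcases C.prime.dvd_mul.mp h with h | h <;>
  · have := Nat.le_of_dvd (by norm_num) (C.prime.dvd_of_dvd_pow h)
    omega

/-- the bound at finite points -/
theorem rDiv_KdB_fin (hq : 5 ≤ q) (c : kA A) (Q : PS A N)
    (hQ : 0 < Q.ord (jS A N - algebraMap (kA A) (FS A N) c)) :
    Flat.rDiv C (KdB N) Q ≤ Q.ord (jS A N - algebraMap (kA A) (FS A N) c) - 1 := by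
  classical
  have hA1728 : ((1728 : ℕ) : Qb) ∈ A := natCast_mem A 1728
  have hres1728 : residue A ⟨_, hA1728⟩ = ((1728 : ℕ) : kA A) := map_natCast (residue A) 1728
  obtain ⟨c', hcA, hc', hc0, hc1⟩ : ∃ (c' : Qb) (h : c' ∈ A), residue A ⟨c', h⟩ = c ∧
      (c = 0 → c' = 0) ∧ (c = ((1728 : ℕ) : kA A) → c' = ((1728 : ℕ) : Qb)) := by
    by_cases h0 : c = 0
    · refine ⟨0, A.zero_mem, ?_, fun _ => rfl, fun h1 => ?_⟩
      · rw [h0]; exact map_zero _
      · exact absurd (h1.symm.trans h0) (natCast_kA_ne_zero C hq)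
    by_cases h1 : c = ((1728 : ℕ) : kA A)
    · exact ⟨_, hA1728, hres1728.trans h1.symm, fun h => absurd h h0, fun _ => rfl⟩
    · obtain ⟨⟨z, hz⟩, hzc⟩ := residue_surjective (R := A) c
      exact ⟨z, hz, hzc, fun h => absurd h h0, fun h => absurd h h1⟩
  have hU := UG_sub_const C false hcA
  have hcomp := SS2.compat_of_UG C hU.1 Q
  rw [hU.2, hc'] at hcomp
  have hne := hU.1.ne_zero C
  have hQval : Val Q (tS A N false) c := val_of_ord_sub_pos hQ
  -- data at a place over the point
  have hdata : ∀ P, rP C P = Q → ∃ d : Qb, ∃ hdA : d ∈ A,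
      Val P (tB N false) d ∧ residue A ⟨d, hdA⟩ = c ∧
      0 < P.ord (ModFun.jBar N - cB N d) := by
    intro P hP
    obtain ⟨d, hdA, hd⟩ := (fin_rP_iff C).mp (hP ▸ hQval.bd : Bd (rP C P) (tS A N false) 0)
    obtain ⟨hdA', hdv⟩ := val_rP C (BT_tB false) hd hdA hd
    rw [hP, red_tB C] at hdv
    refine ⟨d, hdA, hd, hdv.unique hQval, ?_⟩
    have := Val.ord_pos (v := P) (x := tB N false - cB N d)
      (by simpa using hd.sub (Val.const d))
      (ne_zero_of_transc (RR.transcendental_sub_const (transcendental_tB N false) d))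
    exact this
  have hle : ∀ P, rP C P = Q →
      KdB N P ≤ dv (tB N false - cB N c') P ∧
        (dv (tB N false - cB N c') P ≠ 0 → KdB N P < dv (tB N false - cB N c') P) := by
    intro P hP
    obtain ⟨d, hdA, hd, hdc, hdpos⟩ := hdata P hP
    rw [dv_apply, RR.Kd_apply, RR.kd_of_zero hdpos]
    by_cases hdc' : d = c'
    · subst hdc'
      exact ⟨sub_le_self _ zero_le_one, fun _ => sub_one_lt _⟩
    · have h0 : d ≠ 0 := fun h => hdc' (h.trans (hc0 (by
        rw [← hdc, ← map_zero (residue A)]; congr 1; exact Subtype.ext h)).symm)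
      have h1 : d ≠ 1728 := fun h => hdc' (by
        rw [hc1 (hdc.symm.trans ((congrArg (residue A) (Subtype.ext (h.trans Nat.cast_ofNat.symm)
          : (⟨d, hdA⟩ : A) = ⟨_, hA1728⟩)).trans hres1728)), h, Nat.cast_ofNat])
      have h2 : Val P (tB N false - cB N c') (d - c') := hd.sub (Val.const c')
      obtain ⟨-, h3⟩ := h2.ord_eq_zero (sub_ne_zero.mpr hdc')
      rw [show tB N false - cB N c' = tB N false - algebraMap Qb (FB N) c' from rfl] at h3 ⊢
      rw [show P.ord (ModFun.jBar N - algebraMap Qb (FB N) d) = 1 from ord_sub_eq_one h0 h1 hdpos,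
        h3]
      exact ⟨by omega, fun h => absurd rfl h⟩
  obtain ⟨P, hP, hPne⟩ : ∃ P, rP C P = Q ∧ dv (tB N false - cB N c') P ≠ 0 := by
    by_contra hcon
    push Not at hcon
    rw [mapDomain_congr_fibre (rP C) (dv (tB N false - cB N c')) 0 Q (fun P hP => by
      rw [hcon P hP]; rfl), Finsupp.mapDomain_zero] at hcomp
    change (0 : ℤ) = Q.ord (jS A N - algebraMap (kA A) (FS A N) c) at hcomp
    omega
  have := mapDomain_lt C (fun P hP => (hle P hP).1) hP ((hle P hP).2 hPne)
  rw [hcomp] at this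
  change Flat.rDiv C (KdB N) Q + 1 ≤ Q.ord (jS A N - algebraMap (kA A) (FS A N) c) at this
  omega

/-- the bound at the cusps -/
theorem rDiv_KdB_pole (Q : PS A N) (hQ : Q.ord (jS A N) < 0) :
    Flat.rDiv C (KdB N) Q ≤ Q.ord (jS A N) - 1 := by
  classical
  have hcomp := SS2.compat_of_UG C (UG_tB C false) Q
  rw [red_tB C] at hcomp
  have hA1728 : (1728 : Qb) ∈ A := by
    simpa using natCast_mem A 1728
  have hle : ∀ P, rP C P = Q → KdB N P ≤ dv (tB N false) P ∧
      (dv (tB N false) P ≠ 0 → KdB N P < dv (tB N false) P) := by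
    intro P hP
    rw [dv_apply, RR.Kd_apply]
    by_cases hb : Bd P (ModFun.jBar N) 0
    · obtain ⟨d, hd⟩ := val_exists_B hb
      have hdA : d ∉ A := fun hdA => by
        have h' : Bd (rP C P) (tS A N false) 0 := (fin_rP_iff C).mpr ⟨d, hdA, hd⟩
        rw [hP] at h'
        have h'' := (RR.bd_iff_ord (tS_ne_zero A N false)).mp h'
        change -(0 : ℤ) ≤ Q.ord (jS A N) at h''
        omega
      have hd0 : d ≠ 0 := fun h => hdA (h ▸ A.zero_mem)
      have hd1 : d ≠ 1728 := fun h => hdA (h ▸ hA1728)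
      have hdpos : 0 < P.ord (ModFun.jBar N - algebraMap Qb (FB N) d) := by
        have := Val.ord_pos (v := P) (x := ModFun.jBar N - algebraMap Qb (FB N) d)
          (by simpa using hd.sub (Val.const d))
          (ne_zero_of_transc (RR.transcendental_sub_const (transcendental_tB N false) d))
        omega
      rw [RR.kd_of_zero hdpos,
        show P.ord (ModFun.jBar N - algebraMap Qb (FB N) d) = 1 from ord_sub_eq_one hd0 hd1 hdpos,
        show P.ord (tB N false) = 0 from (hd.ord_eq_zero hd0).2]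
      exact ⟨by omega, fun h => absurd rfl h⟩
    · have hneg := RR.ord_neg_of_not_bd hb
      rw [RR.kd_of_pole hneg]
      exact ⟨sub_le_self _ zero_le_one, fun _ => sub_one_lt _⟩
  obtain ⟨P, hP, hPne⟩ : ∃ P, rP C P = Q ∧ dv (tB N false) P ≠ 0 := by
    by_contra hcon
    push Not at hcon
    rw [mapDomain_congr_fibre (rP C) (dv (tB N false)) 0 Q (fun P hP => by
      rw [hcon P hP]; rfl), Finsupp.mapDomain_zero] at hcomp
    change (0 : ℤ) = Q.ord (jS A N) at hcomp
    omega
  have := mapDomain_lt C (fun P hP => (hle P hP).1) hP ((hle P hP).2 hPne)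
  rw [hcomp] at this
  change Flat.rDiv C (KdB N) Q + 1 ≤ Q.ord (jS A N) at this
  omega

/-- the differentials without poles of the special fibre are at most `g` -/
theorem finrank_omega_le (hq : 5 ≤ q) :
    Module.finrank (kA A) (riemannRochSpace (Flat.rDiv C (KdB N))) ≤ genusFF Qb (FB N) := by
  haveI := finite_tS C false
  haveI := separable_tS C false
  haveI : FiniteDimensional (KK (kA A) (jS A N)) (FS A N) := finite_tS C false
  haveI : Algebra.IsSeparable (KK (kA A) (jS A N)) (FS A N) := separable_tS C false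
  obtain ⟨d0, -, hd⟩ := Flat.exists_highDeg C
  have h := finrank_le_genus (Flat.curveLike_S C) (transcendental_jS A N)
    (Flat.rDiv C (KdB N)) (Flat.rDiv C (Flat.poleJ N)) (rDiv_KdB_fin C hq) (rDiv_KdB_pole C)
    (Flat.rDiv_poleJ_apply C) (ψ := dedekindPsi N) (g := genusFF Qb (FB N)) (M₀ := d0)
    fun m hm => by
      have hψ := dedekindPsi_pos C
      have hle : (d0 : ℤ) ≤ Divisor.degree (m • Flat.poleJ N) := by
        rw [map_nsmul, Flat.degree_poleJ, nsmul_eq_mul]
        have : d0 ≤ m * dedekindPsi N := hm.trans (Nat.le_mul_of_pos_right m hψ)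
        exact_mod_cast this
      have := (hd _ hle).2.1
      rw [Flat.rDiv_nsmul, map_nsmul, Flat.degree_poleJ, nsmul_eq_mul] at this
      exact this
  exact_mod_cast h

/-- every differential without poles of the special fibre lifts -/
theorem exists_red_eq (hq : 5 ≤ q) {h : FS A N}
    (hh : h ∈ riemannRochSpace (Flat.rDiv C (KdB N))) :
    ∃ x ∈ riemannRochSpace (KdB N), x ∈ GR A N ∧ red A N x = h := by
  classical
  haveI := Flat.finiteDimensional_S C (Flat.rDiv C (KdB N))
  haveI := (Flat.curveLike_B.finite_finrank (KdB N)).1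
  obtain ⟨L⟩ := Flat.exists_latBasis C (riemannRochSpace (KdB N))
  have hg : Module.finrank Qb (riemannRochSpace (KdB N)) = genusFF Qb (FB N) :=
    (RR.genusFF_eq (ModFun.transcendental_jBar N)).symm
  set W := Submodule.span (kA A) (Set.range fun i => red A N (L.b i))
  have hW : W ≤ riemannRochSpace (Flat.rDiv C (KdB N)) := Submodule.span_le.mpr (by
    rintro _ ⟨i, rfl⟩
    exact Flat.red_mem_rr C _ (L.mem i) (L.int i))
  have hWdim : Module.finrank (kA A) W = genusFF Qb (FB N) := by
    rw [finrank_span_eq_card L.indep, Fintype.card_fin, hg]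
  have heq : W = riemannRochSpace (Flat.rDiv C (KdB N)) :=
    Submodule.eq_of_le_of_finrank_le hW ((finrank_omega_le C hq).trans hWdim.ge)
  rw [← heq, Submodule.mem_span_range_iff_exists_fun] at hh
  obtain ⟨a, rfl⟩ := hh
  choose a' ha' using fun i => residue_surjective (R := A) (a i)
  refine ⟨∑ i, (a' i : Qb) • L.b i, Submodule.sum_mem _ fun i _ => Submodule.smul_mem _ _ (L.mem i),
    Subring.sum_mem _ fun i _ => ?_, ?_⟩
  · rw [Algebra.smul_def]
    exact mul_mem (cB_mem (a' i).2) (L.int i)
  · rw [L.red_sum C a']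
    simp only [ha']

end FLTAgent.TOR
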