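import Fermat.Agent.TOR.MazurForms
import Fermat.Agent.TOR.MazurDiff
import Fermat.Prelude.Def_FLTPrelim_Modularity

/-!
Area TOR, Mazur's principle: the logarithmic derivative of a function on the special fibre with all
orders divisible by the characteristic is the reduction of an integral cusp form of weight two.
-/

set_option autoImplicit false
set_option linter.unusedSectionVars false
set_option linter.style.haveILetI false
set_option synthInstance.maxHeartbeats 400000
set_option maxHeartbeats 1000000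

noncomputable section

open ModularCurve AlgebraicCurve IsLocalRing
open FLTAgent.RR (Bd)
open FLTAgent.Reduction
open FLTAgent.SS2 (theta deltaC e4C)

namespace FLTAgent.TOR

variable {A : ValuationSubring Qb} {N q : ℕ} [NeZero N]

theorem isUnit_jqModC_sub (R : Type*) [CommRing R] : IsUnit (jqModC R - 1728) := by
  refine isUnit_of_mul_isUnit_left (y := deltaC R) ?_
  rw [sub_mul, SS2.jqModC_mul_deltaC, deltaC, e4C, ← map_pow,
    ← HahnSeries.ofPowerSeries_X, ← map_mul,
    show (1728 : LaurentSeries R) = HahnSeries.ofPowerSeries ℤ R 1728 from (map_ofNat _ _).symm,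
    ← map_mul, ← map_sub]
  refine IsUnit.map _ (PowerSeries.isUnit_iff_constantCoeff.mpr ?_)
  have h4 : PowerSeries.constantCoeff eisenstein4 = 1 := by
    simp [eisenstein4, ← PowerSeries.coeff_zero_eq_constantCoeff]
  simp only [map_sub, map_pow, map_mul, PowerSeries.constantCoeff_X, zero_mul, mul_zero, sub_zero]
  rw [← PowerSeries.coeff_zero_eq_constantCoeff_apply, PowerSeries.coeff_map,
    PowerSeries.coeff_zero_eq_constantCoeff_apply, h4, map_one, one_pow]
  exact isUnit_one

/-- a differential without poles becomes regular after `j (j - 1728)` -/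
theorem mul_mem_regOn {x : FB N} (hx : x ∈ riemannRochSpace (KdB N)) :
    x * (tB N false * (tB N false - cB N 1728)) ∈ regOn Qb (tB N false) := by
  intro P hP
  obtain ⟨d, hd⟩ := val_exists_B hP
  have htr := transcendental_tB N false
  have hne := ne_zero_of_transc (RR.transcendental_sub_const htr (1728 : Qb))
  have hne' := ne_zero_of_transc (RR.transcendental_sub_const htr d)
  rcases eq_or_ne x 0 with rfl | hx0
  · simp [RR.Bd.zero]
  have h1 : -(KdB N P) ≤ P.ord x := ((mem_riemannRochSpace_iff.mp hx) P).resolve_left hx0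
  have hdpos : 0 < P.ord (ModFun.jBar N - algebraMap Qb (FB N) d) := by
    have := Val.ord_pos (v := P) (x := ModFun.jBar N - algebraMap Qb (FB N) d)
      (by simpa [tB] using hd.sub (Val.const d)) hne'
    omega
  rw [RR.Kd_apply, RR.kd_of_zero hdpos] at h1
  have hj : 0 ≤ P.ord (tB N false) := by
    have := (RR.bd_iff_ord (tB_ne_zero N false)).mp hP
    omega
  have hj' : 0 ≤ P.ord (tB N false - cB N 1728) := by
    have := (RR.bd_iff_ord hne).mp (hP.sub (RR.Bd.of_algebraMap (1728 : Qb)))
    simp only [neg_zero] at this ⊢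
    exact this
  rw [RR.bd_iff_ord (mul_ne_zero hx0 (mul_ne_zero (tB_ne_zero N false) hne)),
    P.ord_mul hx0 (mul_ne_zero (tB_ne_zero N false) hne), P.ord_mul (tB_ne_zero N false) hne,
    neg_zero]
  show 0 ≤ P.ord x + (P.ord (tB N false) + P.ord (tB N false - cB N 1728))
  rcases eq_or_ne d 0 with rfl | h0
  · rw [map_zero, sub_zero] at h1
    change -(P.ord (tB N false) - 1) ≤ P.ord x at h1
    omega
  rcases eq_or_ne d 1728 with rfl | h1728
  · change -(P.ord (tB N false - cB N 1728) - 1) ≤ P.ord x at h1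
    omega
  rw [show P.ord (ModFun.jBar N - algebraMap Qb (FB N) d) = 1 from
    ord_sub_eq_one h0 h1728 hdpos] at h1
  omega

variable (C : Ctx A N q)
include C

/-- a differential without poles which is Gauss integral has integral coefficients -/
theorem exists_series_diff {x : FB N} (hx : x ∈ riemannRochSpace (KdB N)) (hxG : x ∈ GR A N) :
    ∃ S : LaurentSeries A, up A S = (x : LaurentSeries Qb) := by
  set u : FB N := tB N false * (tB N false - cB N 1728)
  have hu : up A (jqModC A * (jqModC A - 1728)) = (u : LaurentSeries Qb) := by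
    rw [map_mul, map_sub, map_ofNat, up_jqModC]
    simp only [u, MulMemClass.coe_mul, AddSubgroupClass.coe_sub]
    have h1728 : ((cB N 1728 : FB N) : LaurentSeries Qb) = 1728 := by
      rw [show cB N (1728 : Qb) = (1728 : FB N) from map_ofNat _ _]
      rfl
    rw [h1728]
    rfl
  have huG : u ∈ GR A N := mem_GR_of_series hu
  obtain ⟨G, hG⟩ := Reduction.exists_series A
    (f := ((x * u : FB N) : LaurentSeries Qb))
    (fun n => Flat.series_of_regOn C (mul_mem_regOn hx) (mul_mem hxG huG) n)
  obtain ⟨w, hw⟩ := (isUnit_jqModC A).mul (isUnit_jqModC_sub A)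
  refine ⟨G * ↑w⁻¹, ?_⟩
  have h1 : up A ((w⁻¹ : (LaurentSeries A)ˣ) : LaurentSeries A) * (u : LaurentSeries Qb) = 1 := by
    rw [← hu, ← map_mul, ← hw, Units.inv_mul, map_one]
  rw [map_mul, hG, MulMemClass.coe_mul, mul_assoc, mul_comm (u : LaurentSeries Qb), h1, mul_one]

/-- the logarithmic derivative is the reduction of an integral cusp form -/
theorem theta_log_eq_cuspForm (hq : 5 ≤ q) {φ : FS A N} (hφ : φ ≠ 0)
    (h : ∀ Q : PS A N, (q : ℤ) ∣ Q.ord φ) :
    ∃ (e : Qb →+* ℂ) (f : CuspForm (CongruenceSubgroup.Gamma0 N) 2) (c : ℕ → A)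
      (ψ : LaurentSeries (kA A)),
      (∀ n, ModularFormClass.qCoeff f n = e (c n : Qb)) ∧
      theta (φ : LaurentSeries (kA A)) = ψ * (φ : LaurentSeries (kA A)) ∧
      (∀ n : ℕ, ψ.coeff (n : ℤ) = residue A (c n)) ∧ (∀ n : ℤ, n < 0 → ψ.coeff n = 0) := by
  obtain ⟨g, hg, hθ⟩ := theta_log_mem C hφ h
  obtain ⟨x, hx, hxG, hxg⟩ := exists_red_eq C hq hg
  obtain ⟨S, hS⟩ := exists_series_diff C hx hxG
  haveI : Algebra.IsAlgebraic ℚ Qb := AlgebraicClosure.isAlgebraic ℚ
  let e : Qb →+* ℂ := (IsAlgClosed.lift : Qb →ₐ[ℚ] ℂ).toRingHom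
  obtain ⟨f, hf⟩ := exists_form_series e hx
  set D := S * theta (jqModC A) with hD
  have hupD : up A D = (x : LaurentSeries Qb) *
      theta ((ModFun.jBar N : FB N) : LaurentSeries Qb) := by
    rw [hD, map_mul, hS, up, ← SS2.theta_coeffMap]
    rw [show coeffMap A.subtype (jqModC A) = up A (jqModC A) from rfl, up_jqModC, coe_jBar]
  have hdnD : dn A D = (g : LaurentSeries (kA A)) *
      theta ((jS A N : FS A N) : LaurentSeries (kA A)) := by
    rw [hD, map_mul, ← redS_series (y := x) hS, ← coe_red C hxG, hxg, dn, ← SS2.theta_coeffMap,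
      coeffMap_jqModC]
    rfl
  rw [← hupD] at hf
  have hcoe : ∀ n : ℤ, (coeffMap e (up A D)).coeff n = e (D.coeff n : Qb) := fun n => by
    rw [coeffMap_coeff, coeffMap_coeff]
    rfl
  refine ⟨e, f, fun n => D.coeff (n : ℤ), dn A D, fun n => ?_, ?_, fun n => ?_, fun n hn => ?_⟩
  · rw [← hcoe, ← hf, HahnSeries.ofPowerSeries_apply_coeff]
    rfl
  · rw [hdnD, hθ]
  · rw [coeffMap_coeff]
  · have h2 : (coeffMap e (up A D)).coeff n = 0 := by
      rw [← hf]
      exact ModularCurve.ofPowerSeries_coeff_of_neg _ hn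
    rw [hcoe, map_eq_zero] at h2
    rw [coeffMap_coeff, show D.coeff n = 0 from Subtype.ext h2, map_zero]

end FLTAgent.TOR
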