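import Fermat.Agent.TOR.MazurPhi
import Fermat.Agent.TOR.MazurCusp
import Fermat.Agent.TOR.MazurAbsent
import Fermat.Agent.TOR.MazurW

/-!
Mazur's principle: the logarithmic derivative of the residue of an eigenclass is an eigen series; it
vanishes when the eigensystem is absent from the lower level, and then the residue is a `p`-th power.
-/

set_option autoImplicit false
set_option linter.unusedSectionVars false
set_option synthInstance.maxHeartbeats 200000
set_option linter.style.haveILetI false
set_option maxHeartbeats 800000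

noncomputable section

open ModularCurve AlgebraicCurve IsLocalRing
open FLTAgent.Reduction (Qb kA FB FS PS Ctx jS)
open FLTAgent.SS2 (theta)
open FLTAgent.RR (KK)
open FLTAgent.Attach (TFull S2)

namespace FLTAgent.TOR

section PthPower

variable {k F W : Type*} [Field k] [Field F] [Algebra k F] [Field W] (i : F →+* W) (δ : F →+ W)

/-- in a separable extension of `k(j)` the kernel of a derivation not killing `j` consists of the
`p`-th powers -/
theorem exists_pow_eq_of_der_eq_zero {p : ℕ} (hp : p.Prime) [CharP F p] [IsAlgClosed k]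
    (hmul : ∀ x y, δ (x * y) = δ x * i y + i x * δ y) {j : F} (hj : δ j ≠ 0)
    [Algebra.IsSeparable (KK k j) F] {z : F} (hz : δ z = 0) : ∃ w, z = w ^ p := by
  classical
  haveI : Fact p.Prime := ⟨hp⟩
  haveI : ExpChar F p := ExpChar.prime hp
  have hWp : (p : W) = 0 := by rw [← map_natCast i, CharP.cast_eq_zero, map_zero]
  have hone : δ 1 = 0 := by
    have h := hmul 1 1
    rw [mul_one, map_one i, mul_one, one_mul] at h
    exact add_eq_left.mp h.symm
  have hpow : ∀ (x : F) (n : ℕ), δ (x ^ n) = (n : W) * i x ^ (n - 1) * δ x := fun x n => by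
    induction n with
    | zero => simp [hone]
    | succ n ih =>
      rw [pow_succ, hmul, ih, map_pow]
      cases n with
      | zero => simp
      | succ n =>
        simp only [Nat.add_sub_cancel]
        push_cast
        ring
  set S : Subfield F := (frobenius F p).fieldRange with hS
  have hδS : ∀ s : S, δ s = 0 := by
    rintro ⟨_, b, rfl⟩
    show δ (b ^ p) = 0
    rw [hpow, hWp, zero_mul, zero_mul]
  haveI : CharP S p := (RingHom.charP_iff S.subtype Subtype.val_injective p).mpr inferInstance
  haveI : ExpChar S p := ExpChar.prime hp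
  have hjS : j ∉ S := fun h => hj (hδS ⟨j, h⟩)
  set s : S := ⟨j ^ p, ⟨j, rfl⟩⟩ with hs
  have hirr : Irreducible (Polynomial.X ^ p - Polynomial.C s) :=
    X_pow_sub_C_irreducible_of_prime hp fun b hb => hjS (by
      have h1 : (b : F) ^ p = j ^ p := congrArg Subtype.val hb
      exact (frobenius_inj F p h1) ▸ b.2)
  set m : Polynomial S := Polynomial.X ^ p - Polynomial.C s
  have hmj : Polynomial.aeval j m = 0 := by
    simp [m, show algebraMap S F s = j ^ p from rfl]
  have hm : m.Monic := Polynomial.monic_X_pow_sub_C s hp.ne_zero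
  have hint : IsIntegral S j := ⟨m, hm, hmj⟩
  have hmdeg : m.natDegree = p := Polynomial.natDegree_X_pow_sub_C
  have hmin : minpoly S j = m := (minpoly.eq_of_irreducible_of_monic hirr hmj hm).symm
  -- everything lies in `S(j)`
  set L : IntermediateField S F := IntermediateField.adjoin S {j}
  haveI : CharP L p := (RingHom.charP_iff L.val.toRingHom Subtype.val_injective p).mpr inferInstance
  haveI : ExpChar L p := ExpChar.prime hp
  have hkL : ∀ c : k, algebraMap k F c ∈ L := fun c => by
    obtain ⟨d, hd⟩ := IsAlgClosed.exists_pow_nat_eq c hp.pos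
    exact L.algebraMap_mem (⟨algebraMap k F c, algebraMap k F d, by
      show algebraMap k F d ^ p = _; rw [← map_pow, hd]⟩ : S)
  let L' : IntermediateField k F := L.toSubfield.toIntermediateField hkL
  have hle : KK k j ≤ L' := IntermediateField.adjoin_le_iff.mpr fun x hx => by
    rw [Set.mem_singleton_iff] at hx
    subst hx
    exact IntermediateField.mem_adjoin_simple_self S _
  let e : KK k j →+* L :=
    { toFun := fun x => ⟨x.1, hle x.2⟩
      map_one' := rfl
      map_mul' := fun _ _ => rfl
      map_zero' := rfl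
      map_add' := fun _ _ => rfl }
  have hzL : z ∈ L := by
    have hsep : IsSeparable L z := by
      refine Polynomial.Separable.of_dvd
        (Polynomial.Separable.map (f := e) (Algebra.IsSeparable.isSeparable (KK k j) z)) (minpoly.dvd L z ?_)
      rw [Polynomial.aeval_def, Polynomial.eval₂_map]
      exact minpoly.aeval (KK k j) z
    have h1 : z ∈ separableClosure L F ⊓ perfectClosure L F :=
      ⟨mem_separableClosure_iff.mpr hsep, (mem_perfectClosure_iff_pow_mem p).mpr
        ⟨1, ⟨algebraMap S L ⟨z ^ p, z, rfl⟩, by rw [pow_one]; rfl⟩⟩⟩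
    rw [separableClosure_inf_perfectClosure] at h1
    obtain ⟨x, hx⟩ := IntermediateField.mem_bot.mp h1
    exact hx ▸ x.2
  have hzA : z ∈ Algebra.adjoin S {j} := by
    rw [← IntermediateField.adjoin_simple_toSubalgebra_of_isAlgebraic hint.isAlgebraic]
    exact hzL
  rw [Algebra.adjoin_singleton_eq_range_aeval] at hzA
  obtain ⟨g, hg⟩ := hzA
  set g0 := g %ₘ m
  have hg0 : Polynomial.aeval j g0 = z := by
    rw [Polynomial.aeval_modByMonic_eq_self_of_root hmj]
    exact hg
  have hdeg : g0.natDegree < p := by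
    have h := Polynomial.natDegree_modByMonic_lt g hm (fun h1 => hp.ne_zero (by
      rw [← hmdeg, h1, Polynomial.natDegree_one]))
    rwa [hmdeg] at h
  have hder : ∀ P : Polynomial S, δ (Polynomial.aeval j P) =
      δ j * i (Polynomial.aeval j (Polynomial.derivative P)) := fun P => by
    induction P using Polynomial.induction_on' with
    | add P Q hP hQ => rw [map_add, map_add, hP, hQ, map_add, map_add, map_add, mul_add]
    | monomial n c =>
      rw [Polynomial.aeval_monomial, Polynomial.derivative_monomial, Polynomial.aeval_monomial,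
        hmul, show δ (algebraMap S F c) = 0 from hδS c, hpow]
      simp only [map_mul, map_natCast, map_pow]
      ring
  have hd0 : Polynomial.derivative g0 = 0 := by
    by_contra hne
    have h1 : Polynomial.aeval j (Polynomial.derivative g0) = 0 := by
      have h2 := hder g0
      rw [hg0, hz] at h2
      exact i.injective (((mul_eq_zero.mp h2.symm).resolve_left hj).trans (map_zero i).symm)
    have h4 := Polynomial.natDegree_le_of_dvd (minpoly.dvd S j h1) hne
    rw [hmin, hmdeg] at h4
    have := Polynomial.natDegree_derivative_le g0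
    omega
  have hC : g0 = Polynomial.C (g0.coeff 0) := by
    refine Polynomial.ext fun n => ?_
    rcases n with _ | n
    · simp
    rw [Polynomial.coeff_C, if_neg (Nat.succ_ne_zero n)]
    rcases lt_or_ge g0.natDegree (n + 1) with h | h
    · exact Polynomial.coeff_eq_zero_of_natDegree_lt h
    have h5 := congrArg (fun P : Polynomial S => P.coeff n) hd0
    simp only [Polynomial.coeff_derivative, Polynomial.coeff_zero] at h5
    refine (mul_eq_zero.mp h5).resolve_right ?_
    rw [← Nat.cast_one, ← Nat.cast_add, CharP.cast_eq_zero_iff S p]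
    exact fun hd => absurd (Nat.le_of_dvd (Nat.succ_pos n) hd) (by omega)
  obtain ⟨w, hw⟩ := (g0.coeff 0).2
  refine ⟨w, ?_⟩
  rw [← hg0, hC, Polynomial.aeval_C]
  exact hw.symm

end PthPower

variable {M p : ℕ} [NeZero M] [NeZero p] {A : ValuationSubring Qb}

theorem lth_one {K : Type*} [Field K] : lth (1 : LaurentSeries K) = 0 := by
  rw [lth, theta_one', zero_div]

theorem lth_pow {K : Type*} [Field K] {g : LaurentSeries K} (hg : g ≠ 0) :
    ∀ n : ℕ, lth (g ^ n) = (n : LaurentSeries K) * lth g
  | 0 => by simp [lth_one]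
  | n + 1 => by
    rw [pow_succ, lth_mul (pow_ne_zero n hg) hg, lth_pow hg n]
    push_cast
    ring

variable (C : Ctx A M p)
include C

theorem coe_ne_zero_FS {φ : FS A M} (hφ : φ ≠ 0) : (φ : LaurentSeries (kA A)) ≠ 0 :=
  fun h => hφ (Subtype.ext h)

/-- functions killed by `θ` are `p`-th powers -/
theorem exists_pow_eq_of_theta {φ : FS A M} (h : theta (φ : LaurentSeries (kA A)) = 0) :
    ∃ w, φ = w ^ p := by
  haveI := Fact.mk C.prime
  haveI := Reduction.charP_residue A C.prime C.lies
  haveI : CharP (FS A M) p := charP_of_injective_algebraMap (algebraMap (kA A) (FS A M)).injective p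
  haveI : Algebra.IsSeparable (KK (kA A) (jS A M)) (FS A M) := Reduction.separable_tS C false
  let δ : FS A M →+ LaurentSeries (kA A) :=
    theta.comp (modularFunctionFieldFullC (kA A) M).toSubfield.subtype.toAddMonoidHom
  exact exists_pow_eq_of_der_eq_zero (k := kA A)
    ((modularFunctionFieldFullC (kA A) M).val.toRingHom) δ C.prime
    (fun x y => SS2.theta_mul (x : LaurentSeries (kA A)) y) (j := jS A M) (SS2.theta_jS_ne C) h

/-- the logarithmic derivative of the residue of an eigenclass is an eigen series -/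
theorem lth_eigen {ℓ : ℕ} (hℓ : ℓ.Prime) (hℓN : ¬ ℓ ∣ M * p) {y : JZero (M * p)}
    (hy : p • y = 0) {a : ℤ} (ha : heckeOperatorBar (M * p) ⟨ℓ, hℓ⟩ y = a • y) {φ : FS A M}
    (hφ : IsPhi A y φ) (n : ℤ) :
    (lth (φ : LaurentSeries (kA A))).coeff (n * ℓ) +
        (if (ℓ : ℤ) ∣ n then (ℓ : kA A) * (lth (φ : LaurentSeries (kA A))).coeff (n / ℓ) else 0) =
      (a : kA A) * (lth (φ : LaurentSeries (kA A))).coeff n := by
  haveI := Fact.mk C.prime
  haveI := Reduction.charP_residue A C.prime C.lies
  haveI : NeZero ℓ := ⟨hℓ.ne_zero⟩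
  have hℓp : ℓ ≠ p := fun e => hℓN (e ▸ dvd_mul_left p M)
  obtain ⟨u, hu, huk, hℓk⟩ := exists_root C.prime C.lies hℓ hℓp
  obtain ⟨ψ, hψ, hψy⟩ := hφ.hecke C hℓ hℓN hu
  set m : ℕ := (a : ZMod p).val
  obtain ⟨d, hd⟩ : (p : ℤ) ∣ a - m := by
    rw [← ZMod.intCast_zmod_eq_zero_iff_dvd]
    push_cast
    rw [ZMod.natCast_zmod_val, sub_self]
  have hay : a • y = m • y := by
    rw [show a = (m : ℤ) + d * (p : ℤ) by linarith, add_zsmul, natCast_zsmul, mul_zsmul,
      natCast_zsmul, hy, zsmul_zero, add_zero]
  rw [ha, hay] at hψy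
  obtain ⟨h, hh, hh'⟩ := IsPhi.samePow C hψy (hφ.nsmul m)
  have hp0 : (p : kA A) = 0 := CharP.cast_eq_zero _ p
  have hp0' : (p : LaurentSeries (kA A)) = 0 := by
    rw [← map_natCast (algebraMap (kA A) (LaurentSeries (kA A))), hp0, map_zero]
  have e : lth (ψ : LaurentSeries (kA A)) = (m : LaurentSeries (kA A)) * lth (φ : LaurentSeries (kA A)) := by
    have h1 := congrArg (fun x : FS A M => lth (x : LaurentSeries (kA A))) hh'
    simp only [MulMemClass.coe_mul, SubmonoidClass.coe_pow] at h1
    rw [lth_pow (coe_ne_zero_FS C hφ.ne_zero), lth_mul (coe_ne_zero_FS C hψy.ne_zero)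
      (pow_ne_zero _ (coe_ne_zero_FS C hh)), lth_pow (coe_ne_zero_FS C hh), hp0', zero_mul,
      add_zero] at h1
    exact h1.symm
  rw [← coeff_lth_isTl hℓk hℓ huk hφ.ne_zero hψ n, e,
    ← map_natCast (HahnSeries.C : kA A →+* LaurentSeries (kA A)) m, HahnSeries.C_apply,
    HahnSeries.coeff_single_zero_mul]
  refine congrArg (· * _) ?_
  rw [show a = (m : ℤ) + d * (p : ℤ) by linarith]
  push_cast
  rw [hp0, mul_zero, add_zero]

/-- an eigensystem killed at level `M` by a polynomial not vanishing on it has no residue with all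
orders divisible by `p` except the `p`-th powers -/
theorem exists_pow_of_orders (hp5 : 5 ≤ p) (a : ℕ → ℤ) (good : ℕ → Prop)
    {P : MvPolynomial (SubPrime M p good) ℤ} (hP : evalSub good M (dvd_mul_right M p) P = 0)
    (hPa : evalA a good P ≠ 0) {φ : FS A M} (hφ : φ ≠ 0) (hord : ∀ Q : PS A M, (p : ℤ) ∣ Q.ord φ)
    (heig : ∀ (ℓ : ℕ), ℓ.Prime → good ℓ → ¬ ℓ ∣ M * p → ∀ n : ℤ,
      (lth (φ : LaurentSeries (kA A))).coeff (n * ℓ) +
        (if (ℓ : ℤ) ∣ n then (ℓ : kA A) * (lth (φ : LaurentSeries (kA A))).coeff (n / ℓ) else 0) =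
      (a ℓ : kA A) * (lth (φ : LaurentSeries (kA A))).coeff n) :
    ∃ w, φ = w ^ p := by
  classical
  haveI := Fact.mk C.prime
  haveI := Reduction.charP_residue A C.prime C.lies
  obtain ⟨e, f, c, ψ, hf, hθ, hψc, hψn⟩ := theta_log_eq_cuspForm C hp5 hφ hord
  have hφ0 := coe_ne_zero_FS C hφ
  have hl : lth (φ : LaurentSeries (kA A)) = ψ := by rw [lth, hθ, mul_div_assoc, div_self hφ0, mul_one]
  simp only [hl] at heig
  refine exists_pow_eq_of_theta C ?_
  rw [hθ]
  suffices h0 : ψ = 0 by rw [h0, zero_mul]
  ext n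
  rcases lt_or_ge n 0 with hn | hn
  · exact hψn n hn
  lift n to ℕ using hn
  let ev : MvPolynomial (SubPrime M p good) ℤ →+* kA A :=
    (ZMod.castHom (dvd_refl p) (kA A)).comp (evalA a good)
  have key : ∀ (R : MvPolynomial (SubPrime M p good) ℤ) (g : CuspForm (CongruenceSubgroup.Gamma0 M) 2)
      (c : ℕ → A) (k : kA A), (∀ m, Alg.coeffSeq M g m = e (c m : Qb)) →
      (∀ m : ℕ, residue A (c m) = k * ψ.coeff (m : ℤ)) →
      ∃ c' : ℕ → A, (∀ m, Alg.coeffSeq M ((evalSub good M (dvd_mul_right M p) R) • g) m =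
          e (c' m : Qb)) ∧ ∀ m : ℕ, residue A (c' m) = ev R * k * ψ.coeff (m : ℤ) := by
    intro R
    induction R using MvPolynomial.induction_on with
    | C r =>
      intro g c k hc hk
      refine ⟨fun m => (r : A) * c m, fun m => ?_, fun m => ?_⟩
      · rw [show (MvPolynomial.C r : MvPolynomial (SubPrime M p good) ℤ) = (r : MvPolynomial _ ℤ) by simp,
          map_intCast, Int.cast_smul_eq_zsmul, map_zsmul, Pi.smul_apply, hc, zsmul_eq_mul]
        simp
      · rw [show (MvPolynomial.C r : MvPolynomial (SubPrime M p good) ℤ) = (r : MvPolynomial _ ℤ) by simp,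
          map_intCast, map_mul, map_intCast, hk, mul_assoc]
    | add R S hR hS =>
      intro g c k hc hk
      obtain ⟨c1, h1, h1'⟩ := hR g c k hc hk
      obtain ⟨c2, h2, h2'⟩ := hS g c k hc hk
      refine ⟨fun m => c1 m + c2 m, fun m => ?_, fun m => ?_⟩
      · rw [map_add, add_smul, map_add, Pi.add_apply, h1, h2]
        simp
      · rw [map_add, map_add, h1', h2']
        ring
    | mul_X R x ih =>
      intro g c k hc hk
      have hℓ : (x.1.1 : ℕ).Prime := x.1.1.2
      have hℓM : ¬ (x.1.1 : ℕ) ∣ M := fun h => x.1.2.1 (h.trans (dvd_mul_right M p))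
      obtain ⟨c', h1, h1'⟩ := ih ((evalSub good M (dvd_mul_right M p) (MvPolynomial.X x)) • g)
        (fun m => c (m * (x.1.1 : ℕ)) +
          if (x.1.1 : ℕ) ∣ m then ((x.1.1 : ℕ) : A) * c (m / (x.1.1 : ℕ)) else 0)
        ((a (x.1.1 : ℕ) : kA A) * k) (fun m => by
          rw [evalSub_X]
          show Alg.coeffSeq M (CuspForm.heckeTLin 2 hℓ hℓM g) m = _
          rw [Alg.coeff_heckeT, hc, hc]
          split_ifs <;> simp)
        (fun m => by
          rw [map_add, hk, mul_comm ((a _ : kA A)) k, mul_assoc, ← heig _ hℓ x.2 x.1.2.1 (m : ℤ),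
            mul_add, Nat.cast_mul]
          refine congrArg (k * ψ.coeff _ + ·) ?_
          by_cases hd : (x.1.1 : ℕ) ∣ m
          · rw [if_pos hd, if_pos (Int.natCast_dvd_natCast.mpr hd), map_mul, map_natCast, hk,
              ← Int.natCast_div]
            ring
          · rw [if_neg hd, if_neg (fun h => hd (Int.natCast_dvd_natCast.mp h)), map_zero, mul_zero])
      refine ⟨c', fun m => by rw [map_mul, mul_smul]; exact h1 m, fun m => ?_⟩
      rw [h1', map_mul, show ev (MvPolynomial.X x) = (a (x.1.1 : ℕ) : kA A) by simp [ev, evalA]]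
      ring
  obtain ⟨c', h1, h2⟩ := key P f c 1 hf fun m => by rw [one_mul, hψc]
  have h0 : c' n = 0 := by
    have h3 := h1 n
    rw [hP, zero_smul, map_zero, Pi.zero_apply] at h3
    exact Subtype.ext (e.injective (h3.symm.trans (map_zero e).symm))
  have h4 := h2 n
  rw [h0, map_zero, mul_one] at h4
  exact (mul_eq_zero.mp h4.symm).resolve_left fun h => hPa
    ((ZMod.castHom (dvd_refl p) (kA A)).injective (h.trans (map_zero _).symm))

end FLTAgent.TOR
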