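import Fermat.Agent.TOR.MazurEigen
import Fermat.Agent.SS2.Delta
import Fermat.Agent.ModFun.EtaProd
import Mathlib.NumberTheory.ArithmeticFunction.Misc

/-!
The logarithmic derivative of `Δ` is an eigen series of `T_ℓ` with eigenvalue `ℓ + 1`; so the Hasse
polynomial in `j` is one, up to `p`-th powers.
-/

set_option autoImplicit false
set_option linter.unusedSectionVars false
set_option synthInstance.maxHeartbeats 200000
set_option linter.style.haveILetI false

noncomputable section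

open ModularCurve AlgebraicCurve IsLocalRing Filter
open FLTAgent.Reduction (Qb kA FB FS PS Ctx jS)
open FLTAgent.SS2 (theta thetaP deltaC)
open scoped PowerSeries.WithPiTopology ArithmeticFunction.sigma

namespace FLTAgent.TOR

/-- the series of divisor sums -/
def sigS : PowerSeries ℤ := PowerSeries.mk fun n => (σ 1 n : ℤ)

/-- the part of the divisor sums coming from the multiples of `k` -/
def sigPart (k : ℕ) : PowerSeries ℤ :=
  PowerSeries.mk fun n => if k ∣ n ∧ n ≠ 0 then (k : ℤ) else 0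

theorem thetaP_mul' (f g : PowerSeries ℤ) :
    thetaP (f * g) = thetaP f * g + f * thetaP g := by
  refine PowerSeries.ext fun n => ?_
  rw [SS2.coeff_thetaP, map_add, PowerSeries.coeff_mul, PowerSeries.coeff_mul, PowerSeries.coeff_mul,
    Finset.mul_sum, ← Finset.sum_add_distrib]
  refine Finset.sum_congr rfl fun x hx => ?_
  rw [Finset.HasAntidiagonal.mem_antidiagonal] at hx
  rw [SS2.coeff_thetaP, SS2.coeff_thetaP, ← hx]
  push_cast
  ring

theorem thetaP_one' : thetaP (1 : PowerSeries ℤ) = 0 := by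
  ext n; rw [SS2.coeff_thetaP, PowerSeries.coeff_one]; split_ifs with h <;> simp [h]

theorem thetaP_factor {k : ℕ} (hk : k ≠ 0) :
    thetaP (1 - PowerSeries.X ^ k : PowerSeries ℤ) = (1 - PowerSeries.X ^ k) * (-sigPart k) := by
  refine PowerSeries.ext fun n => ?_
  rw [SS2.coeff_thetaP, sub_mul, one_mul, map_sub, map_sub, PowerSeries.coeff_one,
    PowerSeries.coeff_X_pow, PowerSeries.coeff_X_pow_mul', map_neg, sigPart, PowerSeries.coeff_mk]
  rcases lt_trichotomy n k with h | h | h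
  · rw [if_neg (show n ≠ k by omega), if_neg (show ¬ k ≤ n by omega)]
    by_cases h0 : n = 0
    · subst h0; simp
    · rw [if_neg h0, if_neg (fun hd => by have := Nat.le_of_dvd (Nat.pos_of_ne_zero h0) hd.1; omega)]
      simp
  · subst h
    simp [hk]
  · rw [if_neg (show n ≠ k by omega), if_pos h.le, if_neg (show n ≠ 0 by omega)]
    have e : (k ∣ n - k ∧ n - k ≠ 0) ↔ (k ∣ n ∧ n ≠ 0) := by
      rw [Nat.dvd_sub_iff_left h.le (dvd_refl k)]
      exact and_congr_right fun _ => ⟨fun _ => by omega, fun _ => by omega⟩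
    rw [map_neg, PowerSeries.coeff_mk, if_congr e rfl rfl]
    simp

theorem thetaP_prod (M : ℕ) :
    thetaP (∏ i ∈ Finset.range M, (1 - PowerSeries.X ^ (i + 1) : PowerSeries ℤ)) =
      (∏ i ∈ Finset.range M, (1 - PowerSeries.X ^ (i + 1) : PowerSeries ℤ)) *
        -(∑ i ∈ Finset.range M, sigPart (i + 1)) := by
  induction M with
  | zero => simp [thetaP_one']
  | succ M ih =>
    rw [Finset.prod_range_succ, thetaP_mul', ih, thetaP_factor (k := M + 1) (by omega),
      Finset.sum_range_succ]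
    ring

theorem thetaP_etaProd : thetaP etaProd = etaProd * -sigS := by
  refine PowerSeries.ext fun n => ?_
  have h := ((PowerSeries.WithPiTopology.multipliable_one_sub_X_pow ℤ).hasProd.tendsto_prod_nat)
  rw [PowerSeries.WithPiTopology.tendsto_iff_coeff_tendsto] at h
  have hev : ∀ m, ∀ᶠ M in atTop,
      PowerSeries.coeff m (∏ i ∈ Finset.range M, (1 - PowerSeries.X ^ (i + 1) : PowerSeries ℤ)) =
        etaProd.coeff m := fun m => by
    have h2 := h m
    rw [nhds_discrete, tendsto_pure] at h2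
    exact h2
  obtain ⟨M, hM, hMn⟩ := ((Filter.eventually_all_finset (Finset.range (n + 1))).mpr
    (fun m _ => hev m)).and (eventually_ge_atTop n) |>.exists
  have hc : ∀ m ≤ n, etaProd.coeff m =
      PowerSeries.coeff m (∏ i ∈ Finset.range M, (1 - PowerSeries.X ^ (i + 1) : PowerSeries ℤ)) :=
    fun m hm => (hM m (Finset.mem_range.mpr (by omega))).symm
  rw [SS2.coeff_thetaP, hc n le_rfl, ← SS2.coeff_thetaP, thetaP_prod, PowerSeries.coeff_mul,
    PowerSeries.coeff_mul]
  refine Finset.sum_congr rfl fun x hx => ?_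
  rw [Finset.HasAntidiagonal.mem_antidiagonal] at hx
  rw [hc x.1 (by omega), map_neg, map_neg, map_sum, sigS, PowerSeries.coeff_mk,
    ArithmeticFunction.sigma_one_apply]
  refine congrArg (fun t => _ * -t) ?_
  simp only [sigPart, PowerSeries.coeff_mk]
  push_cast
  rw [← Finset.sum_filter]
  refine Finset.sum_bij' (fun i _ => i + 1) (fun d _ => d - 1) ?_ ?_ ?_ ?_ ?_
  · intro i hi
    simp only [Finset.mem_filter] at hi
    exact Nat.mem_divisors.mpr hi.2
  · intro d hd
    have h1 := Nat.pos_of_mem_divisors hd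
    have h2 := Nat.divisor_le hd
    rw [Nat.mem_divisors] at hd
    simp only [Finset.mem_filter, Finset.mem_range]
    exact ⟨by omega, by rwa [Nat.sub_add_cancel h1]⟩
  · intro i _; omega
  · intro d hd
    exact Nat.sub_add_cancel (Nat.pos_of_mem_divisors hd)
  · intro i _; push_cast; ring

/-- the coefficients of `E₂` -/
def e2c (n : ℤ) : ℤ := if n < 0 then 0 else if n = 0 then 1 else -24 * (σ 1 n.toNat : ℤ)

theorem sigma_one_hecke {ℓ n : ℕ} (hℓ : ℓ.Prime) (hn : n ≠ 0) :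
    (σ 1 (n * ℓ)) + (if ℓ ∣ n then ℓ * σ 1 (n / ℓ) else 0) = (ℓ + 1) * σ 1 n := by
  obtain ⟨a, m, hm, rfl⟩ := Nat.exists_eq_pow_mul_and_not_dvd hn ℓ hℓ.ne_one
  have hcop : ∀ i : ℕ, (ℓ ^ i).Coprime m := fun i =>
    Nat.Coprime.pow_left _ (hℓ.coprime_iff_not_dvd.mpr hm)
  have hmul : ∀ i : ℕ, σ 1 (ℓ ^ i * m) = σ 1 (ℓ ^ i) * σ 1 m := fun i =>
    ArithmeticFunction.isMultiplicative_sigma.map_mul_of_coprime (hcop i)
  have hp : ∀ i : ℕ, σ 1 (ℓ ^ (i + 1)) = σ 1 (ℓ ^ i) + ℓ ^ (i + 1) := fun i => by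
    rw [ArithmeticFunction.sigma_one_apply, ArithmeticFunction.sigma_one_apply,
      Nat.sum_divisors_prime_pow hℓ, Nat.sum_divisors_prime_pow hℓ, Finset.sum_range_succ]
  have hq : ∀ i : ℕ, σ 1 (ℓ ^ (i + 1)) = ℓ * σ 1 (ℓ ^ i) + 1 := fun i => by
    rw [ArithmeticFunction.sigma_one_apply, ArithmeticFunction.sigma_one_apply,
      Nat.sum_divisors_prime_pow hℓ, Nat.sum_divisors_prime_pow hℓ,
      Finset.sum_range_succ' (fun k => ℓ ^ k) (i + 1), Finset.mul_sum]
    simp [pow_succ']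
  rw [mul_comm (ℓ ^ a * m) ℓ, ← mul_assoc, ← pow_succ', hmul, hmul]
  rcases a with _ | b
  · have h1 : σ 1 (ℓ ^ (0 + 1)) = ℓ + 1 := by
      rw [hq 0]; simp
    rw [if_neg (by simpa using hm), h1]
    simp
  · rw [if_pos (Dvd.dvd.mul_right (dvd_pow_self ℓ (Nat.succ_ne_zero b)) m),
      show ℓ ^ (b + 1) * m / ℓ = ℓ ^ b * m by
        rw [pow_succ', mul_assoc, Nat.mul_div_cancel_left _ hℓ.pos], hmul, hq (b + 1), hq b]
    ring

theorem e2c_hecke {ℓ : ℕ} (hℓ : ℓ.Prime) (n : ℤ) :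
    e2c (n * ℓ) + (if (ℓ : ℤ) ∣ n then (ℓ : ℤ) * e2c (n / ℓ) else 0) = (ℓ + 1) * e2c n := by
  have hℓ0 : (0 : ℤ) < ℓ := by exact_mod_cast hℓ.pos
  rcases lt_trichotomy n 0 with hn | rfl | hn
  · have h1 : e2c n = 0 := if_pos hn
    have h2 : e2c (n * ℓ) = 0 := if_pos (mul_neg_of_neg_of_pos hn hℓ0)
    rw [h1, h2]
    split_ifs with hd
    · rw [show e2c (n / ℓ) = 0 from if_pos (Int.ediv_neg_of_neg_of_pos hn hℓ0)]
      simp
    · simp
  · simp [e2c]
    ring
  · obtain ⟨k, rfl⟩ := Int.eq_ofNat_of_zero_le hn.le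
    have hk : k ≠ 0 := by omega
    have h := congrArg (Nat.cast : ℕ → ℤ) (sigma_one_hecke hℓ hk)
    have hval : ∀ j : ℕ, j ≠ 0 → e2c (j : ℤ) = -24 * (σ 1 j : ℤ) := fun j hj => by
      rw [e2c, if_neg (by omega), if_neg (by exact_mod_cast hj), Int.toNat_natCast]
    rw [← Nat.cast_mul, hval _ (Nat.mul_ne_zero hk hℓ.ne_zero), hval k hk]
    by_cases hd : ℓ ∣ k
    · rw [if_pos hd] at h
      rw [if_pos (Int.natCast_dvd_natCast.mpr hd), ← Int.natCast_div,
        hval _ (by
          rw [Nat.ne_zero_iff_zero_lt]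
          exact Nat.div_pos (Nat.le_of_dvd (Nat.pos_of_ne_zero hk) hd) hℓ.pos)]
      push_cast at h
      linear_combination -24 * h
    · rw [if_neg hd] at h
      rw [if_neg (fun hh => hd (Int.natCast_dvd_natCast.mp hh))]
      push_cast at h
      linear_combination -24 * h

variable {K : Type*} [Field K]

/-- the logarithmic derivative of `Δ` -/
theorem coeff_lth_deltaC (n : ℤ) : (lth (deltaC K)).coeff n = (e2c n : K) := by
  set φ := Int.castRingHom K
  have h24 : thetaP (dedekindEtaUnit) = dedekindEtaUnit * (-24 * sigS) := by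
    have hpow : ∀ k : ℕ, thetaP (etaProd ^ k) = etaProd ^ k * (-(k : PowerSeries ℤ) * sigS) := by
      intro k
      induction k with
      | zero => simp [thetaP_one']
      | succ k ih =>
        rw [pow_succ, thetaP_mul', ih, thetaP_etaProd]
        push_cast
        ring
    rw [dedekindEtaUnit]
    exact hpow 24
  have hmap : thetaP (dedekindEtaUnit.map φ) = dedekindEtaUnit.map φ * (-24 * sigS.map φ) := by
    rw [SS2.thetaP_map, h24, map_mul, map_mul, map_neg, map_ofNat]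
  have hθ : theta (deltaC K) = deltaC K *
      (1 + HahnSeries.ofPowerSeries ℤ K (-24 * sigS.map φ)) := by
    rw [deltaC, SS2.theta_mul, SS2.theta_single, SS2.theta_ofPowerSeries, hmap,
      map_mul (HahnSeries.ofPowerSeries ℤ K)]
    simp only [Int.cast_one, mul_one]
    ring
  have hne : deltaC K ≠ 0 := (SS2.isUnit_deltaC K).ne_zero
  rw [lth, hθ, mul_div_cancel_left₀ _ hne, HahnSeries.coeff_add, HahnSeries.coeff_one]
  rcases lt_trichotomy n 0 with hn | rfl | hn
  · rw [if_neg hn.ne, ModularCurve.ofPowerSeries_coeff_of_neg _ hn, e2c, if_pos hn]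
    simp
  · rw [if_pos rfl, show (0 : ℤ) = ((0 : ℕ) : ℤ) from rfl, HahnSeries.ofPowerSeries_apply_coeff]
    rw [show (-24 : PowerSeries K) = PowerSeries.C (-24 : K) by rw [map_neg, map_ofNat],
      PowerSeries.coeff_C_mul, PowerSeries.coeff_map, sigS, PowerSeries.coeff_mk]
    simp [e2c]
  · obtain ⟨k, rfl⟩ := Int.eq_ofNat_of_zero_le hn.le
    rw [if_neg (by omega), HahnSeries.ofPowerSeries_apply_coeff,
      show (-24 : PowerSeries K) = PowerSeries.C (-24 : K) by rw [map_neg, map_ofNat],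
      PowerSeries.coeff_C_mul, PowerSeries.coeff_map, sigS, PowerSeries.coeff_mk, e2c,
      if_neg (by omega), if_neg (by omega), Int.toNat_natCast]
    simp [φ]

variable {M p : ℕ} [NeZero M] [NeZero p] {A : ValuationSubring Qb} (C : Ctx A M p)
include C

/-- `T_ℓ` multiplies the orders of the Hasse polynomial by `ℓ + 1`, modulo `p` -/
theorem ord_isTl_hasse {P : Polynomial (kA A)} (hP0 : P ≠ 0)
    (hP : Polynomial.aeval (jqModC (kA A)) P * deltaC (kA A) ^ (p - 1) = 1) {ℓ : ℕ} [NeZero ℓ]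
    (hℓ : ℓ.Prime) {u : Aˣ} (hu : IsPrimitiveRoot (uk u) ℓ) (hℓk : (ℓ : kA A) ≠ 0) {h : FS A M}
    (hh : IsTl u ℓ (Polynomial.aeval (jS A M) P) h) (Q : PS A M) :
    (p : ℤ) ∣ Q.ord h - ((ℓ : ℤ) + 1) * Q.ord (Polynomial.aeval (jS A M) P) := by
  haveI := Fact.mk C.prime
  haveI := Reduction.charP_residue A C.prime C.lies
  set Ψ := Polynomial.aeval (jS A M) P
  have hΨ0 : Ψ ≠ 0 := SS2.aeval_ne_zero (N := M) hP0
  have hp0 : (p : LaurentSeries (kA A)) = 0 := by
    rw [← map_natCast (algebraMap (kA A) (LaurentSeries (kA A))), CharP.cast_eq_zero, map_zero]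
  have hc : ((Ψ : FS A M) : LaurentSeries (kA A)) = Polynomial.aeval (jqModC (kA A)) P :=
    (Polynomial.aeval_algHom_apply (modularFunctionFieldFullC (kA A) M).val (jS A M) P).symm
  have hne : Polynomial.aeval (jqModC (kA A)) P ≠ 0 := left_ne_zero_of_mul_eq_one hP
  have hΔ : deltaC (kA A) ≠ 0 := (SS2.isUnit_deltaC _).ne_zero
  have hl : lth ((Ψ : FS A M) : LaurentSeries (kA A)) = lth (deltaC (kA A)) := by
    have e := congrArg lth hP
    rw [lth_mul hne (pow_ne_zero _ hΔ), lth_pow hΔ, lth_one, Nat.cast_sub C.prime.one_le,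
      hp0, Nat.cast_one, zero_sub] at e
    rw [hc]
    linear_combination e
  have hT : lth ((h : FS A M) : LaurentSeries (kA A)) =
      ((ℓ + 1 : ℕ) : LaurentSeries (kA A)) * lth ((Ψ : FS A M) : LaurentSeries (kA A)) := by
    ext n
    rw [coeff_lth_isTl hℓk hℓ hu hΨ0 hh n, hl,
      ← map_natCast (HahnSeries.C : kA A →+* LaurentSeries (kA A)) (ℓ + 1), HahnSeries.C_apply,
      HahnSeries.coeff_single_zero_mul]
    simp only [coeff_lth_deltaC]
    have h2 := congrArg (fun z : ℤ => (z : kA A)) (e2c_hecke hℓ n)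
    push_cast at h2 ⊢
    exact h2
  have hh0 : h ≠ 0 := hh.ne_zero hΨ0
  have hq0 : h / Ψ ^ (ℓ + 1) ≠ 0 := div_ne_zero hh0 (pow_ne_zero _ hΨ0)
  obtain ⟨w, hw⟩ := exists_pow_eq_of_theta C (φ := h / Ψ ^ (ℓ + 1)) (by
    have e := lth_mul (f := ((h / Ψ ^ (ℓ + 1) : FS A M) : LaurentSeries (kA A)))
      (g := ((Ψ ^ (ℓ + 1) : FS A M) : LaurentSeries (kA A))) (coe_ne_zero_FS C hq0)
      (coe_ne_zero_FS C (pow_ne_zero _ hΨ0))
    rw [← MulMemClass.coe_mul, div_mul_cancel₀ _ (pow_ne_zero _ hΨ0), hT, SubmonoidClass.coe_pow,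
      lth_pow (coe_ne_zero_FS C hΨ0)] at e
    have h0 : lth ((h / Ψ ^ (ℓ + 1) : FS A M) : LaurentSeries (kA A)) = 0 := by
      linear_combination -e
    rw [lth, div_eq_zero_iff] at h0
    exact h0.resolve_right (coe_ne_zero_FS C hq0))
  refine ⟨Q.ord w, ?_⟩
  have hw0 : w ≠ 0 := fun e => hq0 (by rw [hw, e, zero_pow C.prime.ne_zero])
  have e2 := congrArg Q.ord hw
  rw [div_eq_mul_inv, Q.ord_mul hh0 (inv_ne_zero (pow_ne_zero _ hΨ0)), Q.ord_inv, RR.ord_pow,
    RR.ord_pow] at e2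
  push_cast at e2
  linarith

end FLTAgent.TOR
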