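import Fermat.Agent.TOR.SlopeMove

/-!
The slopes of a point of order `p` killed by both pushforwards are the same at all double
points, modulo `p`, when it is defined over a slope field.
-/

set_option autoImplicit false
set_option linter.unusedSectionVars false
set_option synthInstance.maxHeartbeats 200000

noncomputable section

open ModularCurve AlgebraicCurve IsLocalRing
open FLTAgent.RR (Bd)
open FLTAgent.Reduction (Qb kA FB FS Ctx)

namespace FLTAgent.TOR

open FLTAgent.SS
open FLTAgent.SS2 (galFn)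

variable {M p : ℕ} [NeZero M] [NeZero p] {A : ValuationSubring Qb}

section Scale

variable {K : Type*} [Field K] [IsAlgClosed K] [CharZero K] {A' : ValuationSubring K}
  {F : Type*} [Field F] [Algebra K F] [RR.FnField K F]
  {Fs : Type*} [Field Fs] [Algebra (ResidueField A') Fs]

/-- two normalisations of one function have residues differing by a constant -/
theorem ord_red_scale (D : Core K A' F Fs) (b : Bool) {k : K} {u v : F} (hu : u ∈ D.G b)
    (hv : v ∈ D.G b) (hur : D.red b u ≠ 0) (hvr : D.red b v ≠ 0) (e : u = algebraMap K F k * v)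
    (Q : Place (ResidueField A') Fs) : Q.ord (D.red b u) = Q.ord (D.red b v) := by
  have hk : k ∈ A' := D.mem_of_unit_mul b hv hvr (e ▸ hu)
  have h := D.red_const_mul b ⟨k, hk⟩ hv
  rw [← show u = algebraMap K F ((⟨k, hk⟩ : A') : K) * v from e, Algebra.smul_def] at h
  have hk0 : algebraMap (ResidueField A') Fs (residue A' ⟨k, hk⟩) ≠ 0 := fun h0 =>
    hur (by rw [h, h0, zero_mul])
  rw [h, Q.ord_mul hk0 hvr, RR.ord_algebraMap, zero_add]

theorem SideCong.mem {C : Core K A' F Fs} {b : Bool} {δ : K} {x y : F} (hδ : δ ≠ 0)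
    (hδ1 : A'.valuation δ ≤ 1) (h : SideCong C b δ x y) (hy : y ∈ C.G b) : x ∈ C.G b := by
  have e : x = algebraMap K F δ * (algebraMap K F δ⁻¹ * (x - y)) + y := by
    rw [← mul_assoc, ← map_mul, mul_inv_cancel₀ hδ, map_one, one_mul, sub_add_cancel]
  rw [e]
  exact add_mem (C.const_mul_mem b (mem_of_val_le hδ1) h) hy

end Scale

set_option maxHeartbeats 1600000 in
/-- the valuation of the ratio of the local sizes has order prime to `p` -/
theorem primeVal_ratio (hp3 : 3 ≤ p) (C : Ctx A M p) {r : ℕ} (hr : r.Prime) (h11 : r % 12 = 11)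
    (hrM : r ∣ M) {L : IntermediateField ℚ Qb} (hL : SlopeField A p L)
    {E : Divisor Qb (FB (M * p))} (hdeg : Divisor.degree E = 0)
    (hE : ∀ τ : AlgebraicClosure ℚ ≃ₐ[ℚ] AlgebraicClosure ℚ, (∀ a ∈ L, τ a = a) →
      galFn (M * p) τ • E = E)
    {f : FB (M * p)} (hf : f ≠ 0)
    (hord : ∀ P : Place Qb (FB (M * p)), (p : ℤ) * E P = P.ord f)
    (hffix : ∀ τ : AlgebraicClosure ℚ ≃ₐ[ℚ] AlgebraicClosure ℚ, (∀ a ∈ L, τ a = a) →
      galFn (M * p) τ • f = f)
    (hpush : ∀ b, ∀ hφ : (sideMap (M := M) (p := p) b).toRingHom.IsIntegral,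
      (Divisor.pushforwardAlong (sideMap b) hφ E).IsPrincipal)
    {a : Bool → Qb} (ha : ∀ b, a b ≠ 0)
    (hmem : ∀ b, algebraMap Qb (FB (M * p)) (a b) * f ∈ (fibreData C).G b)
    (hne : ∀ b, (fibreData C).red b (algebraMap Qb (FB (M * p)) (a b) * f) ≠ 0)
    (s s' : (fibreData C).ι) :
    (p : ℤ) ∣ ((fibreData C).pt false s).ord
        ((fibreData C).red false (algebraMap Qb (FB (M * p)) (a false) * f)) -
      ((fibreData C).pt false s').ord
        ((fibreData C).red false (algebraMap Qb (FB (M * p)) (a false) * f)) := by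
  classical
  obtain ⟨g, Γ, hg0, hΓ0, hΓL, hgord, -, hv, hmove⟩ :=
    exists_local hr h11 hrM hL s hE hf hord ha hmem hne
  obtain ⟨g', Γ', hg0', hΓ0', hΓL', hgord', -, hv', hmove'⟩ :=
    exists_local hr h11 hrM hL s' hE hf hord ha hmem hne
  set d := ((fibreData C).pt false s).ord
    ((fibreData C).red false (algebraMap Qb (FB (M * p)) (a false) * f))
  set d' := ((fibreData C).pt false s').ord
    ((fibreData C).red false (algebraMap Qb (FB (M * p)) (a false) * f))
  set x := Γ' / Γ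
  have hxL : x ∈ L := L.div_mem hΓL' hΓL
  have hx0 : x ≠ 0 := div_ne_zero hΓ0' hΓ0
  have hP : PrimeVal A p x := by
    rcases hL.cases with hall | ⟨σ, δ, hM⟩
    · exact hall x hxL hx0
    refine hM.sep x hxL hx0 ?_
    obtain ⟨z, l, hl, hzord, hzc⟩ := exists_root_const hp3 C hL hM hdeg hf hord hffix hpush
    have hp0 : (p : Qb) ≠ 0 := Nat.cast_ne_zero.mpr C.prime.ne_zero
    have hδ : δ ≠ 0 := fun h => by
      have h1 := hM.level
      rw [h, map_zero, zero_pow (by omega)] at h1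
      exact hp0 ((Valuation.zero_iff _).mp (le_zero_iff.mp h1))
    have hval : ∀ c : Qb, c ≠ 0 → A.valuation (σ c / c) = 1 := fun c hc => by
      rw [map_div₀, valuation_inertia_eq C.prime C.lies hM.inertia,
        div_self ((Valuation.ne_zero_iff _).mpr hc)]
    -- at every disc the constants differ by the move of its size
    have key : ∀ (t : (fibreData C).ι) (h : FB (M * p)) (γ : Qb), h ≠ 0 → γ ≠ 0 →
        (∀ P, InDisc C t P → P.ord h = E P) →
        (∀ b, SideCong (fibreData C).toCore b δ (galFn (M * p) σ • h / h)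
          (algebraMap Qb (FB (M * p)) (if b then σ γ / γ else 1))) →
        A.valuation (l false - l true * (σ γ / γ)) ≤ A.valuation δ := by
      intro t h γ hh hγ hhord hhc
      have hσh : galFn (M * p) σ • h ≠ 0 := (smul_ne_zero_iff_ne _).mpr hh
      have hnu : ∀ b : Bool, (if b then σ γ / γ else (1 : Qb)) ∈ A := fun b => by
        cases b
        · exact A.one_mem
        · exact mem_of_val_le (hval γ hγ).le
      have hreg : ∀ P, InDisc C t P → Bd P (z * (galFn (M * p) σ • h / h)) 0 := by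
        intro P hP
        have hP' : InDisc C t ((galFn (M * p) σ)⁻¹ • P) := by
          rw [← show galFn (M * p) σ⁻¹ = (galFn (M * p) σ)⁻¹ from map_inv _ σ]
          exact hP.smul (C := C) (inv_mem hM.inertia)
        refine ((hzord P hP.fin).mul RR.bd_self).mono (le_of_eq ?_)
        rw [div_eq_mul_inv, P.ord_mul hσh (inv_ne_zero hh), P.ord_inv, SS2.ord_galFn,
          hhord _ hP', hhord _ hP, SemilinearAut.divisor_smul_apply]
        ring
      have hcong : ∀ b, algebraMap Qb (FB (M * p)) δ⁻¹ * (z * (galFn (M * p) σ • h / h) -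
          algebraMap Qb (FB (M * p)) (l b * if b then σ γ / γ else 1)) ∈ (fibreData C).G b :=
        fun b => by
          rw [map_mul]
          exact (hzc b).mul (hhc b)
            ((hhc b).mem hδ hM.lt.le ((fibreData C).const_mem b ⟨_, hnu b⟩))
            ((fibreData C).const_mem b ⟨l b, mem_of_val_le (hl b).le⟩)
      have h1 := glue_const C t hreg hδ hcong
      simpa using h1
    have h1 := key s g Γ hg0 hΓ0 hgord (hmove σ δ hM)
    have h2 := key s' g' Γ' hg0' hΓ0' hgord' (hmove' σ δ hM)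
    set ν := σ Γ / Γ with hν
    set ν' := σ Γ' / Γ' with hν'
    have h3 : A.valuation (ν' - ν) ≤ A.valuation δ := by
      have h4 := (A.valuation.map_sub _ _).trans (max_le h1 h2)
      rw [show l false - l true * ν - (l false - l true * ν') = l true * (ν' - ν) by ring,
        map_mul, hl, one_mul] at h4
      exact h4
    have hν1 : A.valuation ν = 1 := hval Γ hΓ0
    have hν0 : ν ≠ 0 := (Valuation.ne_zero_iff _).mp (hν1 ▸ one_ne_zero)
    have e : σ x - x = (ν' - ν) * (x / ν) := by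
      have : σ Γ ≠ 0 := (_root_.map_ne_zero σ).mpr hΓ0
      simp only [x, hν, hν', map_div₀]
      field_simp
    rw [e, map_mul, map_div₀ A.valuation x ν, hν1, div_one]
    exact mul_le_mul_of_nonneg_right h3 zero_le
  obtain ⟨e, i, he, hei⟩ := hP
  have hw : A.valuation (p : Qb) ≠ 0 :=
    (Valuation.ne_zero_iff _).mpr (Nat.cast_ne_zero.mpr C.prime.ne_zero)
  have hxp : A.valuation x ^ p = A.valuation (p : Qb) ^ (d - d') := by
    have hat : A.valuation (a true) ≠ 0 := (Valuation.ne_zero_iff _).mpr (ha true)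
    have h := hv.symm.trans hv'
    rw [mul_assoc, mul_assoc] at h
    have h' := mul_left_cancel₀ hat h
    have hΓv : A.valuation Γ ^ p ≠ 0 := pow_ne_zero _ ((Valuation.ne_zero_iff _).mpr hΓ0)
    rw [map_div₀, div_pow, zpow_sub₀ hw, div_eq_div_iff hΓv (zpow_ne_zero _ hw), h', mul_comm]
  have h5 : (d - d') * (e : ℤ) = i * (p : ℤ) := by
    refine zpow_right_injective₀ (zero_lt_iff.mpr hw) (ne_of_lt (Reduction.valuation_ell_lt_one A C.lies)) ?_
    show A.valuation (p : Qb) ^ ((d - d') * (e : ℤ)) = A.valuation (p : Qb) ^ (i * (p : ℤ))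
    rw [zpow_mul, zpow_mul, zpow_natCast, zpow_natCast, ← hxp, ← hei, ← pow_mul, ← pow_mul,
      mul_comm]
  exact ((Nat.prime_iff_prime_int.mp C.prime).dvd_or_dvd ⟨i, by rw [h5]; ring⟩).resolve_right
    fun h => he (Int.natCast_dvd_natCast.mp h)


set_option maxHeartbeats 3200000 in
theorem slope_dvd (hp3 : 3 ≤ p) (C : Ctx A M p) {r : ℕ} (hr : r.Prime) (h11 : r % 12 = 11)
    (hrM : r ∣ M) {L : IntermediateField ℚ Qb} (hL : SlopeField A p L)
    (E : Divisor.degZero (K := Qb) (F := FB (M * p))) {f : FB (M * p)} (hf : f ≠ 0)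
    (hord : ∀ P : Place Qb (FB (M * p)),
      (p : ℤ) * (E : Divisor Qb (FB (M * p))) P = P.ord f)
    (hfix : ∀ τ : AlgebraicClosure ℚ ≃ₐ[ℚ] AlgebraicClosure ℚ, (∀ a ∈ L, τ a = a) →
      τ • (Pic0.mk E : JZero (M * p)) = Pic0.mk E)
    (hpush : KilledByPush M p (Pic0.mk E)) (b : Bool) {c : Qb} (hc : c ≠ 0)
    (hmem : algebraMap Qb (FB (M * p)) c * f ∈ (fibreData C).G b)
    (hne : (fibreData C).red b (algebraMap Qb (FB (M * p)) c * f) ≠ 0)
    (s s' : (fibreData C).ι) :
    (p : ℤ) ∣ ((fibreData C).pt b s).ord ((fibreData C).red b (algebraMap Qb (FB (M * p)) c * f)) -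
      ((fibreData C).pt b s').ord ((fibreData C).red b (algebraMap Qb (FB (M * p)) c * f)) := by
  classical
  haveI := Fact.mk C.prime
  obtain ⟨E₀, hE₀⟩ := E
  change ∀ P, (p : ℤ) * E₀ P = P.ord f at hord
  haveI := HeckeJ.hasPrincipalDivisors_bar (M * p)
  obtain ⟨S, hS, hSinv⟩ := SS2.exists_rat_divisor (N := M * p) L E₀ fun τ hτ => by
    have h1 : τ • (Pic0.mk ⟨E₀, hE₀⟩ : JZero (M * p)) - Pic0.mk ⟨E₀, hE₀⟩ = 0 :=
      sub_eq_zero.mpr (hfix τ hτ)
    rw [galois_smul_pic0_def, SemilinearAut.pic0_smul_mk] at h1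
    exact (SS2.pic0_mk_eq_zero_iff _).mp h1
  obtain ⟨T, hT, hT0⟩ := HasPrincipalDivisors.exists_divisor (K := Qb) (F := FB (M * p)) S hS
  set E₁ := E₀ + T with hE₁
  have hdeg : E₁ ∈ Divisor.degZero (K := Qb) (F := FB (M * p)) :=
    add_mem hE₀ (Divisor.mem_degZero.mpr hT0)
  have hcls : (Pic0.mk ⟨E₁, hdeg⟩ : JZero (M * p)) = Pic0.mk ⟨E₀, hE₀⟩ := by
    rw [show (⟨E₁, hdeg⟩ : Divisor.degZero (K := Qb) (F := FB (M * p))) =
      ⟨E₀, hE₀⟩ + ⟨T, Divisor.mem_degZero.mpr hT0⟩ from rfl, Pic0.mk_add,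
      (SS2.pic0_mk_eq_zero_iff ⟨T, Divisor.mem_degZero.mpr hT0⟩).mpr ⟨S, hS, hT⟩, add_zero]
  have hE : ∀ τ : AlgebraicClosure ℚ ≃ₐ[ℚ] AlgebraicClosure ℚ, (∀ a ∈ L, τ a = a) →
      galFn (M * p) τ • E₁ = E₁ := by
    intro τ hτ
    refine Finsupp.ext fun v => ?_
    rw [hE₁, smul_add, Finsupp.add_apply, Finsupp.add_apply,
      SemilinearAut.divisor_smul_apply _ T, hT, hT, ← SS2.ord_galFn]
    exact hSinv τ hτ v
  -- the normalised trivialisation
  set f₁ := f * S ^ p
  have hf₁ : f₁ ≠ 0 := mul_ne_zero hf (pow_ne_zero _ hS)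
  set k := (SS2.lead (M * p) f₁)⁻¹
  have hk : k ≠ 0 := inv_ne_zero (SS2.lead_ne_zero hf₁)
  set f₂ := algebraMap Qb (FB (M * p)) k * f₁
  have hk' : algebraMap Qb (FB (M * p)) k ≠ 0 := (_root_.map_ne_zero _).mpr hk
  have hf₂ : f₂ ≠ 0 := mul_ne_zero hk' hf₁
  have hord₂ : ∀ P : Place Qb (FB (M * p)), (p : ℤ) * E₁ P = P.ord f₂ := fun P => by
    rw [P.ord_mul hk' hf₁, RR.ord_algebraMap, zero_add, P.ord_mul hf (pow_ne_zero _ hS), RR.ord_pow,
      ← hord, hE₁, Finsupp.add_apply, hT]
    ring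
  have hlead : SS2.lead (M * p) f₂ = 1 := by
    rw [SS2.lead_mul, SS2.lead_const, inv_mul_cancel₀ (SS2.lead_ne_zero hf₁)]
  have hffix : ∀ τ : AlgebraicClosure ℚ ≃ₐ[ℚ] AlgebraicClosure ℚ, (∀ a ∈ L, τ a = a) →
      galFn (M * p) τ • f₂ = f₂ := fun τ hτ =>
    SS2.eq_of_ord_lead ((smul_ne_zero_iff_ne _).mpr hf₂) hf₂ (fun v => by
      rw [SS2.ord_galFn, ← hord₂, ← hord₂, ← SemilinearAut.divisor_smul_apply, hE τ hτ])
      (by rw [SS2.lead_smul, hlead, map_one])
  have hpush₂ : ∀ b, ∀ hφ : (sideMap (M := M) (p := p) b).toRingHom.IsIntegral,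
      (Divisor.pushforwardAlong (sideMap b) hφ E₁).IsPrincipal := fun b hφ => by
    have h := hpush (HeckeJ.heckeAlphaBarIntegral M p) (HeckeJ.heckeBetaBarIntegral M p)
      ⟨E₁, hdeg⟩ hcls
    cases b
    exacts [h.1, h.2]
  choose a ha hmem₂ hne₂ using fun b => (fibreData C).exists_scale b f₂ hf₂
  -- compare with the given scale
  obtain ⟨cS, hcS, hmS, hnS⟩ := (fibreData C).exists_scale b S hS
  have hmS' := pow_mem hmS p
  have hprod := mul_mem hmem hmS'
  have hpr : (fibreData C).red b (algebraMap Qb (FB (M * p)) c * f *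
      (algebraMap Qb (FB (M * p)) cS * S) ^ p) =
      (fibreData C).red b (algebraMap Qb (FB (M * p)) c * f) *
        (fibreData C).red b (algebraMap Qb (FB (M * p)) cS * S) ^ p := by
    rw [(fibreData C).red_mul b _ hmem _ hmS', (fibreData C).toCore.red_pow b hmS]
  have hd : ∀ t, ((fibreData C).pt b t).ord ((fibreData C).red b (algebraMap Qb _ (a b) * f₂)) =
      ((fibreData C).pt b t).ord ((fibreData C).red b (algebraMap Qb _ c * f)) +
        (p : ℤ) * ((fibreData C).pt b t).ord ((fibreData C).red b (algebraMap Qb _ cS * S)) :=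
    fun t => by
      rw [ord_red_scale (fibreData C).toCore b (k := a b * k / (c * cS ^ p)) (hmem₂ b) hprod
        (hne₂ b) (by rw [hpr]; exact mul_ne_zero hne (pow_ne_zero _ hnS)) ?_, hpr,
        Place.ord_mul _ hne (pow_ne_zero _ hnS), RR.ord_pow]
      show algebraMap Qb (FB (M * p)) (a b) * (algebraMap Qb (FB (M * p)) k * (f * S ^ p)) = _
      rw [mul_pow, ← map_pow]
      have e : algebraMap Qb (FB (M * p)) (a b) * algebraMap Qb (FB (M * p)) k =
          algebraMap Qb (FB (M * p)) (a b * k / (c * cS ^ p)) * algebraMap Qb (FB (M * p)) c *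
            algebraMap Qb (FB (M * p)) (cS ^ p) := by
        rw [← map_mul, ← map_mul, ← map_mul]
        congr 1
        field_simp
      linear_combination (f * S ^ p) * e
  have hmain : ∀ t t', (p : ℤ) ∣
      ((fibreData C).pt b t).ord ((fibreData C).red b (algebraMap Qb _ (a b) * f₂)) -
      ((fibreData C).pt b t').ord ((fibreData C).red b (algebraMap Qb _ (a b) * f₂)) := by
    intro t t'
    have hF := primeVal_ratio hp3 C hr h11 hrM hL (Divisor.mem_degZero.mp hdeg) hE hf₂ hord₂ hffix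
      hpush₂ ha hmem₂ hne₂ t t'
    cases b
    · exact hF
    · obtain ⟨_, _, _, _, _, _, h1, _⟩ := exists_local hr h11 hrM hL t hE hf₂ hord₂ ha hmem₂ hne₂
      obtain ⟨_, _, _, _, _, _, h2, _⟩ := exists_local hr h11 hrM hL t' hE hf₂ hord₂ ha hmem₂ hne₂
      have h3 := dvd_sub (dvd_sub h1 h2) hF
      obtain ⟨w, hw⟩ := h3
      exact ⟨w, by linarith⟩
  have h := hmain s s'
  rw [hd s, hd s'] at h
  refine (Int.dvd_add_left (dvd_mul_right (p : ℤ)
    (((fibreData C).pt b s).ord ((fibreData C).red b (algebraMap Qb _ cS * S)) -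
      ((fibreData C).pt b s').ord ((fibreData C).red b (algebraMap Qb _ cS * S))))).mp ?_
  convert h using 1
  ring

end FLTAgent.TOR
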