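import Fermat.Agent.TOR.MazurRam
import Fermat.Agent.TOR.MazurOrd
import Fermat.Agent.TOR.MazurPhi
import Fermat.Agent.TOR.Slope
import Fermat.Agent.SS2.KillTop

/-!
Mazur's principle: over a slope field the residue of a class killed by both pushforwards has orders
proportional, modulo `p`, to those of the Hasse polynomial in `j`. An auxiliary prime removes the
elliptic points.
-/

set_option autoImplicit false
set_option linter.unusedSectionVars false
set_option synthInstance.maxHeartbeats 400000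
set_option linter.style.haveILetI false
set_option maxHeartbeats 1000000

noncomputable section

open ModularCurve AlgebraicCurve IsLocalRing
open FLTAgent.RR (Bd)
open FLTAgent.Reduction (Qb kA FB FS PS Ctx GR redS tS jS)

namespace FLTAgent.TOR

open FLTAgent.SS

local notation "GalQ" => AlgebraicClosure ℚ ≃ₐ[ℚ] AlgebraicClosure ℚ

variable {M p : ℕ} [NeZero M] [NeZero p] {A : ValuationSubring Qb}

/-- the fibre satisfies the requirements of the crossing computation -/
def levelDataFibre (C : Ctx A M p) : SS2.LevelData (fibreData C) where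
  w := atkinW M p
  w_alpha := atkinW_i1 C
  w_beta := atkinW_i2 C
  mem_false _ := Iff.rfl
  red_false x hx := (isRed_redM C (b := false) (y := x) hx).2.symm
  mem_true _ := Iff.rfl
  red_true _ _ := rfl
  J_eq := rfl
  Jbar_eq := rfl

variable {r : ℕ} [NeZero r]

theorem pushforward_incl_principal (hr : r.Prime) (hrMp : ¬ r ∣ M * p) (hp0 : p ≠ 0)
    (h : M * p ∣ M * r * p) {E : Divisor Qb (FB (M * p))} {f : FB (M * p)} (hf : f ≠ 0)
    (hord : ∀ P, (p : ℤ) * E P = P.ord f) {E' : Divisor Qb (FB (M * r * p))}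
    (hord' : ∀ P, (p : ℤ) * E' P = P.ord (SS2.incl h f))
    (φ : FB M →ₐ[Qb] FB (M * p)) (φ' : FB (M * r) →ₐ[Qb] FB (M * r * p))
    (hnorm : SS2.normAlong φ' (SS2.incl h f) = SS2.incl (dvd_mul_right M r) (SS2.normAlong φ f))
    (hE : (Divisor.pushforwardAlong φ (HeckeJ.isIntegralAlong φ) E).IsPrincipal) :
    (Divisor.pushforwardAlong φ' (HeckeJ.isIntegralAlong φ') E').IsPrincipal := by
  obtain ⟨G, lam, hG, hlam, hN⟩ := SS2.exists_norm_eq_pow φ hf hord hE
  refine ⟨SS2.incl (dvd_mul_right M r) G, (_root_.map_ne_zero _).mpr hG, fun v => ?_⟩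
  have h1 : (Divisor.pushforwardAlong φ' (HeckeJ.isIntegralAlong φ') (p • E')) v =
      v.ord (SS2.normAlong φ' (SS2.incl h f)) :=
    HeckeJ.normFormulaAlong φ' (HeckeJ.finiteAlong φ') _ ((_root_.map_ne_zero _).mpr hf) _
      (fun w => by rw [Finsupp.smul_apply, nsmul_eq_mul, ← hord']) v
  have hG' : SS2.incl (dvd_mul_right M r) G ≠ 0 := (_root_.map_ne_zero _).mpr hG
  rw [hnorm, hN, map_mul, map_pow, AlgHom.commutes,
    v.ord_mul ((_root_.map_ne_zero _).mpr hlam) (pow_ne_zero _ hG'), RR.ord_algebraMap, zero_add,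
    RR.ord_pow, map_nsmul, Finsupp.smul_apply, nsmul_eq_mul] at h1
  exact mul_left_cancel₀ (Int.natCast_ne_zero.mpr hp0) h1

variable (C : Ctx A M p)
include C

open Classical in
/-- the orders are proportional to those of the Hasse polynomial -/
theorem exists_slope_ord (hp5 : 5 ≤ p) (hr : r.Prime) (h11 : r % 12 = 11) (hrMp : ¬ r ∣ M * p)
    {L : IntermediateField ℚ Qb} (hL : SlopeField A p L) {y : JZero (M * p)}
    (hfix : ∀ τ : GalQ, (∀ a ∈ L, τ a = a) → τ • y = y) (hpush : KilledByPush M p y)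
    {φ : FS A M} (hφ : IsPhi A y φ) {P : Polynomial (kA A)} (hPm : P.Monic)
    (hPd : P.natDegree = p - 1)
    (hP : Polynomial.aeval (jqModC (kA A)) P * SS2.deltaC (kA A) ^ (p - 1) = 1) :
    ∃ k : ℕ, ∀ Q : PS A M,
      (Bd Q (tS A M false) 0 →
        (p : ℤ) ∣ Q.ord φ - (k : ℤ) * Q.ord (Polynomial.aeval (jS A M) P)) ∧
      (¬ Bd Q (tS A M false) 0 → (p : ℤ) ∣ Q.ord φ) := by
  obtain ⟨E, f, rfl, hord, hfr, hφ0⟩ := hφ
  have hf := hfr.ne_zero hφ0
  have hp := C.prime
  have hM' : ¬ p ∣ M * r := fun hd => (hp.dvd_mul.1 hd).elim C.not_dvd fun h' =>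
    hrMp ((Nat.prime_dvd_prime_iff_eq hp hr).1 h' ▸ dvd_mul_left p M)
  have C' : Ctx A (M * r) p := ⟨hp, hM', C.lies⟩
  have h : M * p ∣ M * r * p := ⟨r, by ring⟩
  have hMr : M ∣ M * r := dvd_mul_right M r
  set ι := SS2.incl h
  haveI : HasPrincipalDivisors Qb (FB (M * r * p)) := HeckeJ.hasPrincipalDivisors_bar _
  have hI := HeckeJ.isIntegralAlong ι
  set E' : Divisor.degZero (K := Qb) (F := FB (M * r * p)) :=
    ⟨Divisor.pullbackAlong ι hI (E : Divisor Qb (FB (M * p))),
      Divisor.pullbackAlong_mem_degZero ι hI (HeckeJ.fundamentalIdentityAlong ι hI) E.2⟩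
  have hord' : ∀ w, (p : ℤ) * (E' : Divisor Qb (FB (M * r * p))) w = w.ord (ι f) := fun w => by
    show (p : ℤ) * Divisor.pullbackAlong ι hI (E : Divisor Qb (FB (M * p))) w = _
    rw [Divisor.pullbackAlong_apply, Place.ord_restrictAlong _ hI, ← hord]
    ring
  -- fixed by `L`
  have hfix' : ∀ τ : GalQ, (∀ a ∈ L, τ a = a) →
      τ • (Pic0.mk E' : JZero (M * r * p)) = Pic0.mk E' := fun τ hτ => by
    have h1 := hfix τ hτ
    rw [galois_smul_pic0_def, SemilinearAut.pic0_smul_mk] at h1 ⊢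
    set g := arithmeticGalois (modularFunctionFieldFull (M * p)) τ
    set g' := arithmeticGalois (modularFunctionFieldFull (M * r * p)) τ
    have hint : SemilinearAut.IntertwinesAlong ι.toRingHom g g' := fun x => by
      refine Subtype.ext ?_
      show _ = ((ι (g • x) : FB (M * r * p)) : LaurentSeries Qb)
      rw [SS2.coe_incl, coe_arithmeticGalois_smul, coe_arithmeticGalois_smul]
      exact congrArg _ (SS2.coe_incl h x)
    have h2 : (QuotientAddGroup.mk' _) (SemilinearAut.degZeroSMulHom g E - E) =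
        (0 : JZero (M * p)) := by rw [map_sub, sub_eq_zero]; exact h1
    rw [QuotientAddGroup.mk'_apply, QuotientAddGroup.eq_zero_iff, AddSubgroup.mem_addSubgroupOf] at h2
    show (QuotientAddGroup.mk' _) _ = (QuotientAddGroup.mk' _) _
    rw [← sub_eq_zero, ← map_sub, QuotientAddGroup.mk'_apply, QuotientAddGroup.eq_zero_iff,
      AddSubgroup.mem_addSubgroupOf]
    have h3 := Divisor.isPrincipal_pullbackAlong ι hI h2
    simp only [AddSubgroup.coe_sub, SemilinearAut.coe_degZeroSMulHom, map_sub] at h3 ⊢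
    rwa [HeckeJ.pullbackAlong_smul ι hI hint] at h3
  -- killed by the pushforwards
  have hpush' : KilledByPush (M * r) p (Pic0.mk E' : JZero (M * r * p)) := by
    obtain ⟨ha, hb⟩ := hpush (HeckeJ.heckeAlphaBarIntegral M p) (HeckeJ.heckeBetaBarIntegral M p) E rfl
    have h2 : ∀ (ψ : FB (M * r) →ₐ[Qb] FB (M * r * p)),
        (Divisor.pushforwardAlong ψ (HeckeJ.isIntegralAlong ψ)
          (E' : Divisor Qb (FB (M * r * p)))).IsPrincipal →
        pushJ (M * r) p ψ (Pic0.mk E') = 0 := fun ψ hψ => by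
      rw [pushJ_mk]
      show (QuotientAddGroup.mk' _) _ = 0
      rw [QuotientAddGroup.mk'_apply, QuotientAddGroup.eq_zero_iff, AddSubgroup.mem_addSubgroupOf]
      exact hψ
    exact killedByPush_of_pushJ (M * r) p
      (h2 _ (pushforward_incl_principal hr hrMp hp.ne_zero h hf hord hord' _ _
        (SS2.normAlong_alpha_incl hr hrMp h f) ha))
      (h2 _ (pushforward_incl_principal hr hrMp hp.ne_zero h hf hord hord' _ _
        (SS2.normAlong_beta_incl hr hrMp h f) hb))
  -- the residue upstairs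
  set φ' := inclS A hMr φ
  have hφ'0 : φ' ≠ 0 := (_root_.map_ne_zero _).mpr hφ0
  have hι0 : ι f ≠ 0 := (_root_.map_ne_zero _).mpr hf
  have hfr' : IsRed A false (ι f) φ' := by
    obtain ⟨h1, h2⟩ := redS_incl (A := A) h hfr.1
    refine ⟨h1, ?_⟩
    show redS A (M * r * p) (ι f) = _
    rw [h2, coe_inclS]
    exact hfr.2
  set D' := fibreData C'
  haveI := D'.fintype
  set Ψ' := Polynomial.aeval (jS A (M * r)) P
  obtain ⟨hdbl12, hdbl⟩ := SS2.double_eq_zeros C' (levelDataFibre C') hr h11 (dvd_mul_left r M) hPm hPd hP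
  -- the slope
  have hpr : ι f = algebraMap Qb (FB (M * r * p)) 1 * ι f := by rw [map_one, one_mul]
  have hslope : ∀ s s', (p : ℤ) ∣ (D'.pt false s).ord φ' - (D'.pt false s').ord φ' := fun s s' => by
    have := slope_dvd (by omega) C' hr h11 (dvd_mul_left r M) hL E' hι0 hord' hfix' hpush'
      false one_ne_zero (by rw [← hpr]; exact hfr'.1)
      (by
        rw [← hpr]
        show redM (M * r) p A false (ι f) ≠ 0
        rw [hfr'.eq]
        exact hφ'0) s s'
    rwa [← hpr, show (fibreData C').red false (ι f) = φ' from hfr'.eq] at this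
  obtain ⟨k, hk⟩ : ∃ k : ℕ, ∀ s, (p : ℤ) ∣ (D'.pt false s).ord φ' - 12 * (k : ℤ) := by
    rcases isEmpty_or_nonempty D'.ι with hem | ⟨⟨s0⟩⟩
    · exact ⟨0, fun s => (hem.false s).elim⟩
    haveI := Fact.mk hp
    refine ⟨((((D'.pt false s0).ord φ' : ℤ) : ZMod p) / 12).val, fun s => ?_⟩
    have h12 : (12 : ZMod p) ≠ 0 := fun e => by
      have h12' : p ∣ 12 := (ZMod.natCast_eq_zero_iff 12 p).1 (by exact_mod_cast e)
      have := Nat.le_of_dvd (by norm_num) h12'
      interval_cases p <;> norm_num at *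
    rw [show (D'.pt false s).ord φ' - 12 * ((((((D'.pt false s0).ord φ' : ℤ) : ZMod p) / 12).val : ℕ) : ℤ) =
      ((D'.pt false s).ord φ' - (D'.pt false s0).ord φ') + ((D'.pt false s0).ord φ' -
        12 * ((((((D'.pt false s0).ord φ' : ℤ) : ZMod p) / 12).val : ℕ) : ℤ)) by ring]
    refine dvd_add (hslope s s0) ((ZMod.intCast_zmod_eq_zero_iff_dvd _ p).1 ?_)
    push_cast
    rw [ZMod.natCast_zmod_val, mul_div_cancel₀ _ h12, sub_self]
  refine ⟨k, fun Q => ⟨fun hQ => ?_, fun hQ => ?_⟩⟩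
  swap
  · exact dvd_ord_off_double C hp.two_le E hf hord hfr hφ0 fun s e =>
      hQ (e ▸ pointMap_fin C false s)
  obtain ⟨Q', e, hpe, he, hQ', hordQ⟩ :=
    exists_above_coprime C C' hp5 (SS2.noEll hr h11 (dvd_mul_left r M)) hMr hQ
  have hΨ : Q'.ord Ψ' = (e : ℤ) * Q.ord (Polynomial.aeval (jS A M) P) := by
    rw [← hordQ]
    congr 1
    rw [← Polynomial.aeval_algHom_apply, inclS_jS]
  have key : (p : ℤ) ∣ Q'.ord φ' - (k : ℤ) * Q'.ord Ψ' := by
    by_cases hs : ∃ s, D'.pt false s = Q'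
    · obtain ⟨s, hs⟩ := hs
      rw [← hs, hdbl12 s]
      have h1 := hk s
      convert h1 using 1
      ring
    · have h0 : Q'.ord Ψ' = 0 := le_antisymm
        (not_lt.mp fun hpos => hs ((hdbl Q').mp ⟨hQ', hpos⟩))
        (SS2.ord_aeval_nonneg C' hPm.ne_zero hQ')
      rw [h0, mul_zero, sub_zero]
      exact dvd_ord_off_double C' hp.two_le E' hι0 hord' hfr' hφ'0 (not_exists.mp hs)
  rw [hordQ, hΨ] at key
  have hcop : IsCoprime (p : ℤ) (e : ℤ) :=
    Int.isCoprime_iff_gcd_eq_one.mpr (by exact_mod_cast (hp.coprime_iff_not_dvd.mpr hpe))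
  refine hcop.dvd_of_dvd_mul_left ?_
  rw [mul_sub, mul_left_comm]
  exact key

end FLTAgent.TOR
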