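import Fermat.Agent.TOR.MazurTl
import Fermat.Agent.EIS.RedHecke

/-!
`T_ℓ` on residual functions keeps the orders at the finite points divisible by `p`: the norm is the
reduced correspondence, and the degeneracy maps carry finite points to finite points.
-/

set_option autoImplicit false
set_option linter.unusedSectionVars false
set_option synthInstance.maxHeartbeats 200000
set_option linter.style.haveILetI false

noncomputable section

open ModularCurve AlgebraicCurve IsLocalRing
open FLTAgent.RR (Bd)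
open FLTAgent.Reduction (Qb kA FB FS PB PS Ctx GR UG red redS rP tS dv normBeta)

namespace FLTAgent.TOR

variable {M p : ℕ} [NeZero M] [NeZero p] {A : ValuationSubring Qb} (C : Ctx A M p)
  {ℓ : ℕ} [NeZero ℓ]
include C

open Classical in
/-- a point over a point that is not finite is not finite -/
theorem correspondence_fin (hℓ : ℓ.Prime) (hℓM : ¬ ℓ ∣ M) (hℓp : ℓ ≠ p)
    [HasPrincipalDivisors Qb (FB (M * ℓ))]
    (hα : (heckeAlphaBar Qb M ℓ).toRingHom.IsIntegral)
    (hβ : (heckeBetaBar Qb M ℓ).toRingHom.IsIntegral)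
    {P : PB M} (hP : ¬ Bd (rP C P) (tS A M false) 0) {Q : PS A M} (hQ : Bd Q (tS A M false) 0) :
    Finsupp.mapDomain (rP C) (Divisor.correspondence (heckeBetaBar Qb M ℓ) (heckeAlphaBar Qb M ℓ)
      hβ hα (Finsupp.single P 1)) Q = 0 := by
  have C' := EIS.ctx_mul hℓ hℓM hℓp C
  rw [Divisor.correspondence_apply]
  set D := Divisor.pullbackAlong (heckeBetaBar Qb M ℓ) hβ (Finsupp.single P 1)
  have hD : ∀ W ∈ D.support, W.restrictAlong (heckeBetaBar Qb M ℓ) hβ = P := fun W hW => by
    by_contra hne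
    refine Finsupp.mem_support_iff.mp hW ?_
    show Divisor.pullbackAlong (heckeBetaBar Qb M ℓ) hβ (Finsupp.single P 1) W = 0
    rw [Divisor.pullbackAlong_apply, Finsupp.single_eq_of_ne hne, mul_zero]
  rw [← D.sum_single, map_finsuppSum, Finsupp.sum, Finsupp.mapDomain_finsetSum,
    Finsupp.finsetSum_apply]
  refine Finset.sum_eq_zero fun W hW => ?_
  rw [Divisor.pushforwardAlong_single, Finsupp.mapDomain_single, Finsupp.single_eq_of_ne]
  intro e
  refine hP ?_
  rw [← hD W hW]
  refine ((EIS.degen_beta hℓ hℓM C C').fin_iff hβ C C').mpr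
    (((EIS.degen_alpha C C').fin_iff hα C C').mp ?_)
  exact e.symm ▸ hQ

open Classical in
set_option maxHeartbeats 1600000 in
/-- `T_ℓ` keeps the orders at the finite points divisible by a given integer -/
theorem dvd_ord_isTl (hℓ : ℓ.Prime) (hℓM : ¬ ℓ ∣ M) (hℓp : ℓ ≠ p) {u : Aˣ}
    (hu : IsPrimitiveRoot u ℓ) {g h : FS A M} (hg : g ≠ 0) (hh : IsTl u ℓ g h) {n : ℤ}
    (hfin : ∀ Q : PS A M, Bd Q (tS A M false) 0 → n ∣ Q.ord g)
    {Q : PS A M} (hQ : Bd Q (tS A M false) 0) : n ∣ Q.ord h := by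
  obtain ⟨y, hy, hyr⟩ := EIS.exists_UG_lift C hg
  haveI : HasPrincipalDivisors Qb (FB (M * ℓ)) := HeckeJ.hasPrincipalDivisors_bar (M * ℓ)
  have hα : (heckeAlphaBar Qb M ℓ).toRingHom.IsIntegral := HeckeJ.heckeAlphaBarIntegral M ℓ
  have hβ : (heckeBetaBar Qb M ℓ).toRingHom.IsIntegral := HeckeJ.heckeBetaBarIntegral M ℓ
  obtain ⟨hn, htl⟩ := isTl_red C hℓ hℓM hu hy.1
  rw [hyr] at htl
  have hnr : red A M (normBeta M ℓ y) = h := htl.unique hh
  have hnU : UG A M (normBeta M ℓ y) := ⟨hn, hnr ▸ hh.ne_zero hg⟩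
  set T := Divisor.correspondence (heckeBetaBar Qb M ℓ) (heckeAlphaBar Qb M ℓ) hβ hα
  have hpush : T (dv y) = dv (normBeta M ℓ y) := by
    refine Finsupp.ext fun v => ?_
    rw [Reduction.dv_apply, Divisor.correspondence_apply]
    have hfin' : FiniteAlong Qb (heckeAlphaBar Qb M ℓ) := HeckeJ.finiteAlong _
    have hN : NormFormulaAlong Qb (heckeAlphaBar Qb M ℓ) hfin' := HeckeJ.normFormulaAlong _ _
    letI := algebraAlong (heckeAlphaBar Qb M ℓ)
    haveI := isScalarTower_along (heckeAlphaBar Qb M ℓ)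
    haveI := isIntegral_along (heckeAlphaBar Qb M ℓ) hα
    haveI : Module.Finite (FB M) (FB (M * ℓ)) := hfin'
    refine hN (heckeBetaBar Qb M ℓ y) ((_root_.map_ne_zero _).mpr (hy.ne_zero C)) _ (fun w => ?_) v
    rw [Divisor.pullbackAlong_apply, Reduction.dv_apply, Place.ord_restrictAlong _ hβ]
  set Δ : Divisor Qb (FB M) →+ Divisor (kA A) (FS A M) :=
    (Finsupp.mapDomain.addMonoidHom (rP C)).comp T
  let F : PS A M → Divisor (kA A) (FS A M) := fun R =>
    if hR : ∃ P, rP C P = R then Δ (Finsupp.single hR.choose 1) else 0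
  have hF : ∀ P, Δ (Finsupp.single P 1) = F (rP C P) := fun P => by
    have hex : ∃ R, rP C R = rP C P := ⟨P, rfl⟩
    simp only [F, dif_pos hex]
    exact EIS.mapDomain_correspondence_congr hℓ hℓM hℓp C hα hβ hex.choose_spec.symm
  have hΔ : ∀ E, Δ E = (Finsupp.mapDomain (rP C) E).sum fun R n => n • F R := fun E => by
    induction E using Finsupp.induction with
    | zero => simp
    | single_add P n E _ _ ih =>
      rw [map_add, Finsupp.mapDomain_add, Finsupp.sum_add_index' (h := fun R (n : ℤ) => n • F R)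
        (fun R => zero_zsmul (F R)) (fun R a b => add_zsmul (F R) a b), ih, Finsupp.mapDomain_single,
        Finsupp.sum_single_index (zero_zsmul _), ← hF, ← map_zsmul, Finsupp.smul_single,
        smul_eq_mul, mul_one]
  have h1 := Reduction.defect_eq_zero C hnU Q
  rw [Reduction.defect, sub_eq_zero, hnr] at h1
  have h2 : Δ (dv y) Q = Q.ord h := by
    rw [← h1, ← hpush]; rfl
  rw [← h2, hΔ, Finsupp.sum, Finsupp.finsetSum_apply]
  refine Finset.dvd_sum fun R _ => ?_
  rw [Finsupp.smul_apply, smul_eq_mul]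
  by_cases hR : Bd R (tS A M false) 0
  · have h3 := Reduction.defect_eq_zero C hy R
    rw [Reduction.defect, sub_eq_zero, hyr] at h3
    rw [h3]
    exact Dvd.dvd.mul_right (hfin R hR) _
  · have hz : F R Q = 0 := by
      simp only [F]
      split_ifs with hex
      · exact correspondence_fin C hℓ hℓM hℓp hα hβ (hex.choose_spec.symm ▸ hR) hQ
      · rfl
    rw [hz, mul_zero]
    exact dvd_zero _

end FLTAgent.TOR
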