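import Fermat.Agent.TOR.MazurEigen
import Fermat.Agent.TOR.MazurSlope
import Fermat.Agent.TOR.MazurSigma
import Fermat.Agent.TOR.MazurTlOrd

/-!
Mazur's principle: on an eigensystem absent from the lower level a class is killed by both
pushforwards, and, when it is fixed by a slope field and the system is not Eisenstein, its residue is
a `p`-th power.
-/

set_option autoImplicit false
set_option linter.unusedSectionVars false
set_option synthInstance.maxHeartbeats 200000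
set_option linter.style.haveILetI false
set_option maxHeartbeats 1000000

noncomputable section

open ModularCurve AlgebraicCurve IsLocalRing
open FLTAgent.RR (Bd)
open FLTAgent.Reduction (Qb kA FB FS PS Ctx tS jS)
open FLTAgent.Attach (GaloisInputs HeckeLattice)

namespace FLTAgent.TOR

open FLTAgent.SS

local notation "GalQ" => AlgebraicClosure ℚ ≃ₐ[ℚ] AlgebraicClosure ℚ

variable {M p : ℕ} [NeZero M] [NeZero p] {W : WeierstrassCurve ℤ}

/-- a killer polynomial acts on the eigen part by its value -/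
theorem tors_act_eig (D : HeckeLattice (M * p))
    (R : MvPolynomial (SubPrime M p W.IsGoodPrimeFor) ℤ) : ∀ (v : D.Lam),
    D.tors p v ∈ eigTors (M * p) W p →
    D.tors p (D.act (evalSub W.IsGoodPrimeFor (M * p) dvd_rfl R) v) =
      (evalA W.apOfModel W.IsGoodPrimeFor R).val • D.tors p v := by
  have hp0 : 0 < p := Nat.pos_of_ne_zero (NeZero.ne p)
  have hcast : ∀ (y : JZero (M * p)), p • y = 0 → ∀ z : ℤ, z • y = (z : ZMod p).val • y := by
    intro y hy z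
    obtain ⟨d, hd⟩ : (p : ℤ) ∣ z - ((z : ZMod p).val : ℕ) := by
      rw [← ZMod.intCast_zmod_eq_zero_iff_dvd]
      push_cast
      rw [ZMod.natCast_zmod_val, sub_self]
    have e : z = ((z : ZMod p).val : ℤ) + d * (p : ℤ) := by linarith
    conv_lhs => rw [e]
    rw [add_zsmul, natCast_zsmul, mul_zsmul, natCast_zsmul, hy, zsmul_zero, add_zero]
  have hmod : ∀ (y : JZero (M * p)), p • y = 0 → ∀ n : ℕ, (n % p) • y = n • y := by
    intro y hy n
    conv_rhs => rw [← Nat.mod_add_div n p, add_nsmul, mul_nsmul, hy, nsmul_zero, add_zero]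
  induction R using MvPolynomial.induction_on with
  | C r =>
    intro v _
    rw [show (MvPolynomial.C r : MvPolynomial (SubPrime M p W.IsGoodPrimeFor) ℤ) =
      (r : MvPolynomial _ ℤ) by simp, map_intCast, map_intCast, map_intCast,
      Module.End.intCast_apply, map_zsmul]
    exact hcast _ (D.nsmul_tors hp0 v) r
  | add R S hR hS =>
    intro v hv
    rw [map_add, map_add, map_add, LinearMap.add_apply, map_add, hR v hv, hS v hv, ← add_nsmul,
      ZMod.val_add, hmod _ hv.1]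
  | mul_X R x ih =>
    intro v hv
    have hℓ : (x.1.1 : ℕ).Prime := x.1.1.2
    have hT : D.tors p (D.T ⟨(x.1.1 : ℕ), hℓ⟩ v) = W.apOfModel (x.1.1 : ℕ) • D.tors p v :=
      (D.tors_T p hp0 _ v).trans (hv.2 _ hℓ x.2 x.1.2.1 x.1.2.2)
    rw [map_mul, map_mul, map_mul, Module.End.mul_apply, evalSub_X, D.act_T, ih _ (by
      rw [hT]; exact zsmul_mem hv _), hT, hcast _ hv.1, ← mul_nsmul,
      show evalA W.apOfModel W.IsGoodPrimeFor (MvPolynomial.X x) =
        ((W.apOfModel (x.1.1 : ℕ) : ℤ) : ZMod p) by simp [evalA],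
      ZMod.val_mul, hmod _ hv.1]
    exact congrArg (fun n : ℕ => n • D.tors p v) (Nat.mul_comm _ _)

/-- on an eigensystem absent from the lower level both pushforwards vanish -/
theorem killedByPush_eig (hp : p.Prime) (D : HeckeLattice (M * p)) (D0 : HeckeLattice M)
    (G : GaloisInputs (M * p)) (G0 : GaloisInputs M)
    {P : MvPolynomial (SubPrime M p W.IsGoodPrimeFor) ℤ}
    (hP : evalSub W.IsGoodPrimeFor M (dvd_mul_right M p) P = 0)
    (hPa : evalA W.apOfModel W.IsGoodPrimeFor P ≠ 0) {y : JZero (M * p)}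
    (hy : y ∈ eigTors (M * p) W p) : KilledByPush M p y := by
  haveI := Fact.mk hp
  obtain ⟨v, hv⟩ := (D.nsmul_eq_zero_iff p hp.pos y).1 hy.1
  set c := evalA W.apOfModel W.IsGoodPrimeFor P
  set v' := (c⁻¹).val • v
  have hv' : D.tors p v' ∈ eigTors (M * p) W p := by
    rw [map_nsmul, hv]; exact nsmul_mem hy _
  have e : D.tors p (D.act (evalSub W.IsGoodPrimeFor (M * p) dvd_rfl P) v') = y := by
    rw [tors_act_eig D P v' hv', map_nsmul, hv, ← mul_nsmul]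
    obtain ⟨d, hd⟩ : (p : ℤ) ∣ ((c⁻¹).val * c.val : ℕ) - (1 : ℤ) := by
      rw [← ZMod.intCast_zmod_eq_zero_iff_dvd]
      push_cast
      rw [ZMod.natCast_zmod_val, ZMod.natCast_zmod_val, inv_mul_cancel₀ hPa, sub_self]
    rw [← natCast_zsmul, show (((c⁻¹).val * c.val : ℕ) : ℤ) = 1 + d * (p : ℤ) by linarith,
      add_zsmul, one_zsmul, mul_zsmul, natCast_zsmul, hy.1, zsmul_zero, add_zero]
  have h := killedByPush_act hp D D0 G G0 (MvPolynomial.rename Subtype.val P) hP 1 v'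
  rw [pow_one] at h
  exact e ▸ h

variable {A : ValuationSubring Qb} (C : Ctx A M p)
include C

/-- the orders of the residue of a class over a slope field are divisible by `p` -/
theorem dvd_ord_eig (hp5 : 5 ≤ p) (hΔ : W.Δ ≠ 0) (hirr : W.ModRepIsIrreducible p)
    {L : IntermediateField ℚ Qb} (hL : SlopeField A p L) {y : JZero (M * p)}
    (hy : y ∈ eigTors (M * p) W p) (hfix : ∀ τ : GalQ, (∀ a ∈ L, τ a = a) → τ • y = y)
    (hpush : KilledByPush M p y) {φ : FS A M} (hφ : IsPhi A y φ) (Q : PS A M) :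
    (p : ℤ) ∣ Q.ord φ := by
  have hp := C.prime
  haveI := Fact.mk hp
  obtain ⟨r, hr, hr', hr11⟩ := Nat.forall_exists_prime_gt_and_eq_mod (q := 12) (a := 11)
    (by decide) (M * p)
  have h11 : r % 12 = 11 := by
    have := congrArg ZMod.val hr11
    rwa [ZMod.val_natCast] at this
  have hrMp : ¬ r ∣ M * p := fun h => by
    have := Nat.le_of_dvd (Nat.mul_pos (Nat.pos_of_ne_zero (NeZero.ne M)) hp.pos) h
    omega
  haveI : NeZero r := ⟨hr'.ne_zero⟩
  obtain ⟨P, hPm, hPd, hP⟩ := SS2.exists_hasse_kA C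
  obtain ⟨k, hk⟩ := exists_slope_ord C hp5 hr' h11 hrMp hL hfix hpush hφ hPm hPd hP
  by_cases hQ : Bd Q (tS A M false) 0
  swap
  · exact (hk Q).2 hQ
  obtain ⟨ℓ, hℓ, hℓS, hgood, hℓp, hℓa⟩ :=
    exists_prime_trace_ne hΔ hp (by omega) hirr (M * p).primeFactors
  have hℓN : ¬ ℓ ∣ M * p := fun h => hℓS (Nat.mem_primeFactors.2
    ⟨hℓ, h, mul_ne_zero (NeZero.ne M) hp.ne_zero⟩)
  have hℓM : ¬ ℓ ∣ M := fun h => hℓN (h.trans (dvd_mul_right M p))
  haveI : NeZero ℓ := ⟨hℓ.ne_zero⟩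
  obtain ⟨u, hu, huk, hℓk⟩ := exists_root hp C.lies hℓ hℓp
  obtain ⟨ψ, hψ, hψy⟩ := hφ.hecke C hℓ hℓN hu
  set Ψ := Polynomial.aeval (jS A M) P
  have hΨ0 : Ψ ≠ 0 := SS2.aeval_ne_zero (N := M) hPm.ne_zero
  obtain ⟨hΨ, hhΨ⟩ := exists_isTl C hℓ hℓM hu Ψ
  set a := W.apOfModel ℓ
  set m : ℕ := (a : ZMod p).val
  obtain ⟨d, hd⟩ : (p : ℤ) ∣ a - m := by
    rw [← ZMod.intCast_zmod_eq_zero_iff_dvd]
    push_cast
    rw [ZMod.natCast_zmod_val, sub_self]
  have hay : heckeOperatorBar (M * p) ⟨ℓ, hℓ⟩ y = m • y := by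
    rw [hy.2 ℓ hℓ hgood hℓN hℓp]
    show a • y = _
    rw [show a = (m : ℤ) + d * (p : ℤ) by linarith, add_zsmul, natCast_zsmul, mul_zsmul,
      natCast_zsmul, hy.1, zsmul_zero, add_zero]
  rw [hay] at hψy
  obtain ⟨h, hh, hh'⟩ := IsPhi.samePow C hψy (hφ.nsmul m)
  have hg0 : φ * (Ψ ^ k)⁻¹ ≠ 0 := mul_ne_zero hφ.ne_zero (inv_ne_zero (pow_ne_zero _ hΨ0))
  have htl : IsTl u ℓ (φ * (Ψ ^ k)⁻¹) (ψ * (hΨ ^ k)⁻¹) :=
    hψ.mul ((hhΨ.pow k).inv (pow_ne_zero _ hΨ0))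
  have hfin : ∀ R : PS A M, Bd R (tS A M false) 0 → (p : ℤ) ∣ R.ord (φ * (Ψ ^ k)⁻¹) :=
    fun R hR => by
    rw [R.ord_mul hφ.ne_zero (inv_ne_zero (pow_ne_zero _ hΨ0)), R.ord_inv, RR.ord_pow,
      ← sub_eq_add_neg]
    exact (hk R).1 hR
  have h1 := dvd_ord_isTl C hℓ hℓM hℓp hu hg0 htl hfin hQ
  have hhΨ0 : hΨ ≠ 0 := hhΨ.ne_zero hΨ0
  rw [Q.ord_mul hψy.ne_zero (inv_ne_zero (pow_ne_zero _ hhΨ0)), Q.ord_inv, RR.ord_pow] at h1
  obtain ⟨s1, hs1⟩ := h1
  obtain ⟨s2, hs2⟩ := ord_isTl_hasse C hPm.ne_zero hP hℓ huk hℓk hhΨ Q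
  obtain ⟨s3, hs3⟩ := (hk Q).1 hQ
  have h4 := congrArg Q.ord hh'
  rw [RR.ord_pow, Q.ord_mul hψy.ne_zero (pow_ne_zero _ hh), RR.ord_pow] at h4
  have hdvd : (p : ℤ) ∣ (a - (ℓ + 1)) * Q.ord φ := by
    refine ⟨s1 + (k : ℤ) * s2 - ((ℓ : ℤ) + 1) * s3 + Q.ord h + d * Q.ord φ, ?_⟩
    linear_combination h4 + hs1 + (k : ℤ) * hs2 - ((ℓ : ℤ) + 1) * hs3 + Q.ord φ * hd
  exact ((Nat.prime_iff_prime_int.mp hp).dvd_mul.mp hdvd).resolve_left hℓa

/-- the residue is a `p`-th power -/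
theorem exists_pow_eig (hp5 : 5 ≤ p) (hΔ : W.Δ ≠ 0) (hirr : W.ModRepIsIrreducible p)
    {P : MvPolynomial (SubPrime M p W.IsGoodPrimeFor) ℤ}
    (hP : evalSub W.IsGoodPrimeFor M (dvd_mul_right M p) P = 0)
    (hPa : evalA W.apOfModel W.IsGoodPrimeFor P ≠ 0)
    {L : IntermediateField ℚ Qb} (hL : SlopeField A p L) {y : JZero (M * p)}
    (hy : y ∈ eigTors (M * p) W p) (hfix : ∀ τ : GalQ, (∀ a ∈ L, τ a = a) → τ • y = y)
    (hpush : KilledByPush M p y) {φ : FS A M} (hφ : IsPhi A y φ) : ∃ w, φ = w ^ p :=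
  exists_pow_of_orders C hp5 W.apOfModel W.IsGoodPrimeFor hP hPa hφ.ne_zero
    (dvd_ord_eig C hp5 hΔ hirr hL hy hfix hpush hφ)
    fun ℓ hℓ hg hℓN n => lth_eigen C hℓ hℓN hy.1
      (hy.2 ℓ hℓ hg hℓN fun e => hℓN (e ▸ dvd_mul_left p M)) hφ n

end FLTAgent.TOR
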