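import Fermat.Agent.TOR.Toric

/-!
The fields over which the slopes of a point of order `p` are constant: extensions of the maximal
unramified field with ramification prime to `p`, or carrying an automorphism of inertia moving their
integers by a small amount and detecting valuations of order prime to `p`.
-/

set_option autoImplicit false
set_option linter.unusedSectionVars false

noncomputable section

open IsLocalRing
open scoped Pointwise
open FLTAgent.Reduction (Qb)

namespace FLTAgent.TOR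

local notation "GalQ" => AlgebraicClosure ℚ ≃ₐ[ℚ] AlgebraicClosure ℚ

variable {A : ValuationSubring Qb} {p : ℕ} {L : IntermediateField ℚ Qb}

/-! ### automorphisms fixing the maximal unramified field are in inertia -/

theorem exists_inertia_eq_on {τ : GalQ} (hτ : ∀ z ∈ SS2.inertiaFixed A, τ z = z) (a : Qb) :
    ∃ σ ∈ A.inertiaSubgroupIn ℚ, τ a = σ a := by
  classical
  obtain ⟨P, hP0, hPa⟩ := (AlgebraicClosure.isAlgebraic ℚ).isAlgebraic a
  set P' := P.map (algebraMap ℚ Qb) with hP'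
  have hP'0 : P' ≠ 0 := Polynomial.map_ne_zero hP0
  set O := {x ∈ P'.roots.toFinset | ∃ σ ∈ A.inertiaSubgroupIn ℚ, σ a = x} with hO
  have hmem : ∀ σ ∈ A.inertiaSubgroupIn ℚ, σ a ∈ O := fun σ hσ => by
    rw [hO, Finset.mem_filter, Multiset.mem_toFinset, Polynomial.mem_roots hP'0]
    refine ⟨?_, σ, hσ, rfl⟩
    rw [Polynomial.IsRoot, hP', Polynomial.eval_map, ← Polynomial.aeval_def]
    show Polynomial.aeval ((σ : Qb →ₐ[ℚ] Qb) a) P = 0
    exact (Polynomial.aeval_algHom_apply (σ : Qb →ₐ[ℚ] Qb) a P).trans ((congrArg _ hPa).trans (map_zero _))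
  have hperm : ∀ σ ∈ A.inertiaSubgroupIn ℚ, O.image σ = O := fun σ hσ => by
    refine Finset.eq_of_subset_of_card_le (fun x hx => ?_)
      (Finset.card_image_of_injective _ σ.injective).ge
    obtain ⟨y, hy, rfl⟩ := Finset.mem_image.mp hx
    obtain ⟨-, ρ, hρ, rfl⟩ := Finset.mem_filter.mp hy
    exact hmem (σ * ρ) (mul_mem hσ hρ)
  set Q : Polynomial Qb := ∏ x ∈ O, (Polynomial.X - Polynomial.C x) with hQ
  have hQσ : ∀ σ ∈ A.inertiaSubgroupIn ℚ, Q.map (σ : Qb →+* Qb) = Q := fun σ hσ => by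
    rw [hQ, Polynomial.map_prod]
    conv_rhs => rw [← hperm σ hσ, Finset.prod_image fun x _ y _ h => σ.injective h]
    exact Finset.prod_congr rfl fun x _ => by simp
  have hQτ : Q.map (τ : Qb →+* Qb) = Q := Polynomial.ext fun i => by
    rw [Polynomial.coeff_map]
    refine hτ _ (SS2.mem_inertiaFixed.mpr fun σ hσ => ?_)
    have := congrArg (fun R : Polynomial Qb => R.coeff i) (hQσ σ hσ)
    simpa [Polynomial.coeff_map] using this
  have hroot : Q.eval (τ a) = 0 := by
    rw [← hQτ, Polynomial.eval_map]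
    show Polynomial.eval₂ (τ : Qb →+* Qb) ((τ : Qb →+* Qb) a) Q = 0
    rw [Polynomial.eval₂_hom, hQ, Polynomial.eval_prod,
      Finset.prod_eq_zero (i := a) (by simpa using hmem 1 (one_mem _)) (by simp), map_zero]
  rw [hQ, Polynomial.eval_prod, Finset.prod_eq_zero_iff] at hroot
  obtain ⟨x, hx, hxz⟩ := hroot
  rw [Polynomial.eval_sub, Polynomial.eval_X, Polynomial.eval_C, sub_eq_zero] at hxz
  obtain ⟨-, σ, hσ, rfl⟩ := Finset.mem_filter.mp hx
  exact ⟨σ, hσ, hxz⟩

theorem mem_inertia_of_fix {τ : GalQ} (hτ : ∀ z ∈ SS2.inertiaFixed A, τ z = z) :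
    τ ∈ A.inertiaSubgroupIn ℚ := by
  have hτ' : ∀ z ∈ SS2.inertiaFixed A, τ⁻¹ z = z := fun z hz => by
    rw [AlgEquiv.aut_inv]
    exact τ.symm_apply_eq.mpr (hτ z hz).symm
  have key : ∀ ρ : GalQ, (∀ z ∈ SS2.inertiaFixed A, ρ z = z) → ∀ a : A,
      ∃ h : ρ (a : Qb) ∈ A, residue A ⟨ρ a, h⟩ = residue A a := by
    intro ρ hρ a
    obtain ⟨σ, hσ, hσa⟩ := exists_inertia_eq_on hρ (a : Qb)
    obtain ⟨s, hs, rfl⟩ := Subgroup.mem_map.mp hσ
    have h1 : s • residue A a = residue A a :=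
      DFunLike.congr_fun (MonoidHom.mem_ker.mp hs) (residue A a)
    rw [← IsLocalRing.ResidueField.residue_smul] at h1
    refine ⟨hσa ▸ (s • a).2, ?_⟩
    rw [← h1]
    exact congrArg _ (Subtype.ext hσa)
  have hdec : τ ∈ A.decompositionSubgroup ℚ := by
    show τ • A = A
    refine ValuationSubring.ext _ _ fun x => ?_
    rw [ValuationSubring.mem_smul_pointwise_iff_exists]
    constructor
    · rintro ⟨y, hy, rfl⟩
      exact (key τ hτ ⟨y, hy⟩).1
    · intro hx
      exact ⟨τ⁻¹ x, (key τ⁻¹ hτ' ⟨x, hx⟩).1, smul_inv_smul τ x⟩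
  refine Subgroup.mem_map.mpr ⟨⟨τ, hdec⟩, ?_, rfl⟩
  refine MonoidHom.mem_ker.mpr (RingEquiv.ext fun c => ?_)
  obtain ⟨a, rfl⟩ := residue_surjective c
  obtain ⟨h, hr⟩ := key τ hτ a
  show (⟨τ, hdec⟩ : A.decompositionSubgroup ℚ) • residue A a = residue A a
  rw [← IsLocalRing.ResidueField.residue_smul]
  exact (congrArg _ (Subtype.ext rfl)).trans hr

/-! ### the fields -/

/-- the valuation of `x` has order prime to `p` over that of `p` -/
def PrimeVal (A : ValuationSubring Qb) (p : ℕ) (x : Qb) : Prop :=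
  ∃ (e : ℕ) (i : ℤ), ¬ p ∣ e ∧ A.valuation x ^ e = A.valuation (p : Qb) ^ i

/-- an automorphism of inertia moving the integers of `L` by at most `δ`, and the elements with
valuations of order divisible by `p` by more -/
structure MoveData (A : ValuationSubring Qb) (p : ℕ) (L : IntermediateField ℚ Qb) (σ : GalQ)
    (δ : Qb) : Prop where
  inertia : σ ∈ A.inertiaSubgroupIn ℚ
  lt : A.valuation δ < 1
  level : A.valuation (p : Qb) ≤ A.valuation δ ^ (p - 1)
  move : ∀ z ∈ L, z ∈ A → A.valuation (σ z - z) ≤ A.valuation δ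
  sep : ∀ x ∈ L, x ≠ 0 → A.valuation (σ x - x) ≤ A.valuation δ * A.valuation x → PrimeVal A p x

/-- the fields over which slopes are constant -/
structure SlopeField (A : ValuationSubring Qb) (p : ℕ) (L : IntermediateField ℚ Qb) : Prop where
  inertia_le : SS2.inertiaFixed A ≤ L
  cases : (∀ x ∈ L, x ≠ 0 → PrimeVal A p x) ∨ ∃ (σ : GalQ) (δ : Qb), MoveData A p L σ δ

theorem SlopeField.mem_inertia (h : SlopeField A p L) {τ : GalQ} (hτ : ∀ a ∈ L, τ a = a) :
    τ ∈ A.inertiaSubgroupIn ℚ :=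
  mem_inertia_of_fix fun z hz => hτ z (h.inertia_le hz)

/-- valuations are linearly ordered along powers of a small element -/
theorem int_le_of_zpow_le {G : Type*} [LinearOrderedCommGroupWithZero G] {g : G} (h0 : g ≠ 0)
    (h1 : g < 1) {a b : ℤ} (h : g ^ a ≤ g ^ b) : b ≤ a :=
  (zpow_le_zpow_iff_right_of_lt_one₀ (zero_lt_iff.mpr h0) h1).mp h

/-- A field of absolute ramification dividing `p (p - 1)` containing the `p`-th roots of unity and
an integer moved at least as far as `ζ - 1` by an automorphism of inertia fixing `ζ`. -/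
theorem slopeField_of_move (hp : p.Prime) (hA : A.LiesOverPrime p)
    (hTL : SS2.inertiaFixed A ≤ L) {ζ : Qb} (hζ : IsPrimitiveRoot ζ p) (hζL : ζ ∈ L)
    (hval : ∀ x ∈ L, x ≠ 0 → ∃ i : ℤ, A.valuation x ^ (p * (p - 1)) = A.valuation (p : Qb) ^ i)
    {σ : GalQ} (hσ : σ ∈ A.inertiaSubgroupIn ℚ) (hσζ : σ ζ = ζ) {a : Qb} (haL : a ∈ L)
    (haA : a ∈ A) (ha : A.valuation (ζ - 1) ≤ A.valuation (σ a - a)) : SlopeField A p L := by
  refine ⟨hTL, ?_⟩
  haveI := Fact.mk hp
  haveI := Reduction.charP_residue A hp hA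
  set v := A.valuation with hv
  by_cases hall : ∀ x ∈ L, x ≠ 0 → PrimeVal A p x
  · exact Or.inl hall
  push Not at hall
  obtain ⟨x₀, hx₀L, hx₀, hnot⟩ := hall
  right
  -- a uniformiser
  have hp1 : 0 < p - 1 := Nat.sub_pos_of_lt hp.one_lt
  obtain ⟨hvp1, hζ1, hζp⟩ := isPi_zeta_sub_one hp hA hζ
  obtain ⟨k, hk⟩ := hval x₀ hx₀L hx₀
  have hpk : ¬ (p : ℤ) ∣ k := by
    rintro ⟨k', rfl⟩
    refine hnot ⟨p - 1, k', fun hd => absurd (Nat.le_of_dvd hp1 hd) (by omega), ?_⟩
    refine (pow_left_inj₀ (n := p) zero_le zero_le hp.ne_zero).mp ?_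
    rw [← pow_mul, mul_comm (p - 1), hk, ← zpow_natCast (v (p : Qb) ^ k'), ← zpow_mul,
      mul_comm (p : ℤ)]
  obtain ⟨u, w, huw⟩ : IsCoprime k (p : ℤ) :=
    ((Nat.prime_iff_prime_int.mp hp).coprime_iff_not_dvd.mpr hpk).symm
  set π := x₀ ^ u * (ζ - 1) ^ w with hπdef
  have hπL : π ∈ L := mul_mem (zpow_mem hx₀L u) (zpow_mem (sub_mem hζL (one_mem L)) w)
  have hπ0 : π ≠ 0 := mul_ne_zero (zpow_ne_zero _ hx₀) (zpow_ne_zero _ hζ1)
  have hπv : v π ^ (p * (p - 1)) = v (p : Qb) := by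
    rw [hπdef, map_mul, map_zpow₀, map_zpow₀, mul_pow]
    have e1 : (v x₀ ^ u) ^ (p * (p - 1)) = v (p : Qb) ^ (k * u) := by
      rw [← zpow_natCast (v x₀ ^ u), zpow_comm, zpow_natCast, hk, ← zpow_mul]
    have e2 : (v (ζ - 1) ^ w) ^ (p * (p - 1)) = v (p : Qb) ^ ((p : ℤ) * w) := by
      rw [← zpow_natCast (v (ζ - 1) ^ w), zpow_comm, zpow_natCast, mul_comm p (p - 1), pow_mul,
        hζp, ← zpow_natCast, ← zpow_mul]
    rw [e1, e2, ← zpow_add₀ ((Valuation.ne_zero_iff _).mpr (Nat.cast_ne_zero.mpr hp.ne_zero))]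
    rw [show k * u + (p : ℤ) * w = 1 by linear_combination huw, zpow_one]
  have hvp0 : v (p : Qb) ≠ 0 := (Valuation.ne_zero_iff _).mpr (Nat.cast_ne_zero.mpr hp.ne_zero)
  have hvπ0 : v π ≠ 0 := (Valuation.ne_zero_iff _).mpr hπ0
  have hN : p * (p - 1) ≠ 0 := mul_ne_zero hp.ne_zero hp1.ne'
  have hπ1 : v π < 1 := (pow_lt_one_iff_of_nonneg zero_le hN).mp (hπv ▸ hvp1)
  have hexp : ∀ x ∈ L, x ≠ 0 → ∃ j : ℤ, v x = v π ^ j := fun x hx hx0 => by
    obtain ⟨i, hi⟩ := hval x hx hx0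
    refine ⟨i, (pow_left_inj₀ (n := p * (p - 1)) zero_le zero_le hN).mp ?_⟩
    rw [hi, ← zpow_natCast (v π ^ i), zpow_comm, zpow_natCast, hπv]
  have hζπ : v (ζ - 1) = v π ^ p := by
    refine (pow_left_inj₀ (n := p - 1) zero_le zero_le hp1.ne').mp ?_
    rw [hζp, ← pow_mul, hπv]
  have hpres : ∀ {ρ : GalQ}, ρ ∈ A.inertiaSubgroupIn ℚ → ∀ z : A,
      ∃ h : ρ (z : Qb) ∈ A, residue A ⟨ρ z, h⟩ = residue A z := fun {ρ} hρ z => by
    obtain ⟨s, hs, rfl⟩ := Subgroup.mem_map.mp hρ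
    have h1 : s • residue A z = residue A z :=
      DFunLike.congr_fun (MonoidHom.mem_ker.mp hs) (residue A z)
    rw [← IsLocalRing.ResidueField.residue_smul] at h1
    exact ⟨(s • z).2, h1⟩
  have hσle : ∀ z : Qb, v z ≤ 1 → v (σ z) ≤ 1 := fun z hz =>
    (A.valuation_le_one_iff _).mpr (hpres hσ ⟨z, (A.valuation_le_one_iff _).mp hz⟩).1
  set δ := σ π - π with hδ
  have hδle : v δ ≤ 1 := by
    refine (v.map_sub _ _).trans (max_le (hσle π hπ1.le) hπ1.le)
  -- the recursion
  have hmove : ∀ n : ℕ, ∀ z ∈ L, v z ≤ 1 → v (σ z - z) ≤ max (v δ) (v π ^ n) := by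
    intro n
    induction n with
    | zero =>
      intro z _ hz
      refine le_trans ?_ (le_max_right _ _)
      rw [pow_zero]
      exact (v.map_sub _ _).trans (max_le (hσle z hz) hz)
    | succ n ih =>
      intro z hzL hz
      obtain ⟨t, htT, htr⟩ := SS2.exists_residue_T hp hA ⟨z, (A.valuation_le_one_iff _).mp hz⟩
      have htL : (t : Qb) ∈ L := hTL htT
      have hσt : σ (t : Qb) = t := SS2.mem_inertiaFixed.mp htT σ hσ
      rcases eq_or_ne (z - t) 0 with h0 | h0
      · rw [sub_eq_zero] at h0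
        rw [h0, hσt, sub_self, map_zero]
        exact zero_le
      have hlt : v (z - t) < 1 := by
        have hr : residue A (⟨z, (A.valuation_le_one_iff _).mp hz⟩ - t) = 0 := by
          rw [map_sub, htr, sub_self]
        exact (Reduction.res_eq_zero_iff A _).mp hr
      obtain ⟨j, hj⟩ := hexp _ (sub_mem hzL htL) h0
      have hj1 : 1 ≤ j := by
        by_contra hc
        push Not at hc
        rw [hj] at hlt
        exact absurd hlt (not_lt.mpr (one_le_zpow_of_nonpos₀ (zero_lt_iff.mpr hvπ0) hπ1.le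
          (by omega)))
      set z' := (z - t) / π
      have hz' : v z' ≤ 1 := by
        rw [map_div₀, div_le_one₀ (zero_lt_iff.mpr hvπ0), hj]
        calc v π ^ j ≤ v π ^ (1 : ℤ) :=
              zpow_le_zpow_right_of_le_one₀ (zero_lt_iff.mpr hvπ0) hπ1.le hj1
          _ = v π := zpow_one _
      have e : σ z - z = δ * σ z' + π * (σ z' - z') := by
        have hz1 : z = t + π * z' := by
          rw [mul_div_cancel₀ _ hπ0, add_sub_cancel]
        conv_lhs => rw [hz1, map_add, map_mul, hσt]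
        rw [hδ]; ring
      rw [e]
      refine (v.map_add _ _).trans (max_le ?_ ?_)
      · rw [map_mul]
        exact le_trans (mul_le_of_le_one_right zero_le (hσle z' hz')) (le_max_left _ _)
      · rw [map_mul]
        refine (mul_le_mul' le_rfl (ih z' (div_mem (sub_mem hzL htL) hπL) hz')).trans ?_
        rcases le_total (v δ) (v π ^ n) with h | h
        · rw [max_eq_right h, ← pow_succ']
          exact le_max_right _ _
        · rw [max_eq_left h]
          exact (mul_le_of_le_one_left zero_le hπ1.le).trans (le_max_left _ _)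
  have hδ0 : δ ≠ 0 := by
    intro h0
    have h1 := hmove (p + 1) a haL ((A.valuation_le_one_iff _).mpr haA)
    rw [h0, map_zero, max_eq_right zero_le] at h1
    have := ha.trans h1
    rw [hζπ, ← zpow_natCast, ← zpow_natCast] at this
    have := int_le_of_zpow_le hvπ0 hπ1 this
    omega
  have hmove' : ∀ z ∈ L, v z ≤ 1 → v (σ z - z) ≤ v δ := fun z hzL hz => by
    obtain ⟨n, hn⟩ := Reduction.exists_pow_le A hp hA hπ1 hδ0
    exact (hmove n z hzL hz).trans (max_le le_rfl hn)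
  have hζδ : v (ζ - 1) ≤ v δ := ha.trans (hmove' a haL ((A.valuation_le_one_iff _).mpr haA))
  -- `σ π / π` has residue one
  set τ := σ π / π
  have hσinv : ∀ z : Qb, v z ≤ 1 → v (σ⁻¹ z) ≤ 1 := fun z hz =>
    (A.valuation_le_one_iff _).mpr
      (hpres (inv_mem hσ) ⟨z, (A.valuation_le_one_iff _).mp hz⟩).1
  have hσv : ∀ z : Qb, z ≠ 0 → v z = 1 → v (σ z) = 1 := fun z hz0 hz => by
    refine le_antisymm (hσle z hz.le) ?_
    have h1 := hσle z⁻¹ (by rw [map_inv₀, hz, inv_one])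
    rwa [map_inv₀, map_inv₀, inv_le_one₀ (zero_lt_iff.mpr ((Valuation.ne_zero_iff _).mpr
      (σ.map_ne_zero_iff.mpr hz0)))] at h1
  have hunit : ∀ {g : Qb}, v g = 1 → v (σ g / g - 1) < 1 := fun {g} hg => by
    have hgA : g ∈ A := (A.valuation_le_one_iff _).mp hg.le
    have hg0 : g ≠ 0 := (Valuation.ne_zero_iff _).mp (hg ▸ one_ne_zero)
    obtain ⟨h, hr⟩ := hpres hσ ⟨g, hgA⟩
    rw [div_sub_one hg0, map_div₀, hg, div_one]
    exact (Reduction.res_eq_zero_iff A (⟨σ g, h⟩ - ⟨g, hgA⟩)).mp (by rw [map_sub, hr, sub_self])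
  set g := π ^ p / (ζ - 1) with hg
  have hgv : v g = 1 := by rw [map_div₀, map_pow, hζπ, div_self (pow_ne_zero _ hvπ0)]
  have hτp : v (τ ^ p - 1) < 1 := by
    have : τ ^ p = σ g / g := by
      rw [hg, map_div₀, map_pow, map_sub, map_one, hσζ, div_div_div_cancel_right₀ hζ1, div_pow]
    rw [this]
    exact hunit hgv
  have hτA : τ ∈ A := by
    refine (A.valuation_le_one_iff _).mp ?_
    by_contra hc
    push Not at hc
    have h1 : 1 < v (τ ^ p) := by rw [map_pow]; exact one_lt_pow₀ hc hp.ne_zero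
    rw [v.map_sub_eq_of_lt_left (by rwa [map_one])] at hτp
    exact absurd hτp (not_lt.mpr h1.le)
  have hτ1 : v (τ - 1) < 1 := by
    refine (Reduction.res_eq_zero_iff A (⟨τ, hτA⟩ - 1)).mp ?_
    refine eq_zero_of_pow_eq_zero (n := p) ?_
    rw [map_sub, map_one, sub_pow_char, one_pow, ← map_pow, ← map_one (residue A), ← map_sub]
    exact (Reduction.res_eq_zero_iff A _).mpr hτp
  have hδτ : v δ = v π * v (τ - 1) := by
    rw [← map_mul, mul_sub, mul_one, mul_div_cancel₀ _ hπ0, hδ]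
  have hδ1 : v δ < 1 := by
    rw [hδτ]
    exact lt_of_le_of_lt (mul_le_of_le_one_right zero_le hτ1.le) hπ1
  refine ⟨σ, δ, hσ, hδ1, ?_, fun z hz hzA => hmove' z hz ((A.valuation_le_one_iff _).mpr hzA),
    fun x hxL hx0 hle => ?_⟩
  · rw [← hζp]
    exact pow_le_pow_left₀ zero_le hζδ _
  obtain ⟨j, hj⟩ := hexp x hxL hx0
  by_cases hpj : (p : ℤ) ∣ j
  · obtain ⟨j', rfl⟩ := hpj
    refine ⟨p - 1, j', fun hd => absurd (Nat.le_of_dvd hp1 hd) (by omega), ?_⟩
    rw [hj, ← hπv, ← zpow_natCast (v π ^ ((p : ℤ) * j')), ← zpow_mul, ← zpow_natCast (v π),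
      ← zpow_mul]
    congr 1
    push_cast
    ring
  exfalso
  -- `σ x / x - 1` is `j (τ - 1)` to first order
  set y := x / π ^ j
  have hy : v y = 1 := by rw [map_div₀, map_zpow₀, hj, div_self (zpow_ne_zero _ hvπ0)]
  have hyL : y ∈ L := div_mem hxL (zpow_mem hπL j)
  have hy0 : y ≠ 0 := (Valuation.ne_zero_iff _).mp (hy ▸ one_ne_zero)
  have hvy : v (σ y / y - 1) ≤ v δ := by
    rw [div_sub_one hy0, map_div₀, hy, div_one]
    exact hmove' y hyL hy.le
  set r : A := ⟨τ, hτA⟩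
  have hru : IsUnit r := by
    refine (IsLocalRing.residue_ne_zero_iff_isUnit r).mp ?_
    have : residue A (r - 1) = 0 := (Reduction.res_eq_zero_iff A _).mpr hτ1
    rw [map_sub, map_one, sub_eq_zero] at this
    rw [this]; exact one_ne_zero
  obtain ⟨ru, hru'⟩ := hru
  have hτ0 : τ ≠ 0 := fun h => by
    have := hτ1
    rw [h, zero_sub, Valuation.map_neg, map_one] at this
    exact lt_irrefl _ this
  -- first order expansion of integral powers
  have hpow : ∀ i : ℤ, ∃ s : A, τ ^ i - 1 = (s : Qb) * (τ - 1) ∧ residue A s = (i : ResidueField A) := by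
    have h1 : residue A r = 1 := by
      have : residue A (r - 1) = 0 := (Reduction.res_eq_zero_iff A _).mpr hτ1
      rwa [map_sub, map_one, sub_eq_zero] at this
    intro i
    induction i using Int.induction_on with
    | zero => exact ⟨0, by simp, by simp⟩
    | succ i ih =>
      obtain ⟨s, hs, hsr⟩ := ih
      refine ⟨1 + r * s, ?_, by rw [map_add, map_one, map_mul, h1, one_mul, hsr]; push_cast; ring⟩
      rw [zpow_add_one₀ hτ0]
      push_cast
      linear_combination τ * hs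
    | pred i ih =>
      obtain ⟨s, hs, hsr⟩ := ih
      refine ⟨((ru⁻¹ : Aˣ) : A) * (s - 1), ?_, ?_⟩
      · have hinv : (((ru⁻¹ : Aˣ) : A) : Qb) = τ⁻¹ := by
          refine eq_inv_of_mul_eq_one_left ?_
          have := congrArg (fun z : A => (z : Qb)) ru.inv_mul
          simpa [hru', r] using this
        rw [zpow_sub_one₀ hτ0]
        push_cast
        rw [hinv]
        field_simp
        linear_combination hs
      · have h2 : residue A ((ru⁻¹ : Aˣ) : A) = 1 := by
          have h3 := congrArg (residue A) ru.inv_mul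
          rwa [map_mul, map_one, hru', h1, mul_one] at h3
        rw [map_mul, h2, one_mul, map_sub, map_one, hsr]; push_cast; ring
  obtain ⟨s, hs, hsr⟩ := hpow j
  have hs1 : v (s : Qb) = 1 := (Reduction.res_ne_zero_iff A s).mp (by
    rw [hsr, Ne, CharP.intCast_eq_zero_iff (ResidueField A) p]
    exact hpj)
  have hx : σ x / x - 1 = (τ ^ j - 1) * (σ y / y) + (σ y / y - 1) := by
    have hx1 : x = π ^ j * y := by rw [mul_div_cancel₀ _ (zpow_ne_zero _ hπ0)]
    conv_lhs => rw [hx1, map_mul, map_zpow₀, mul_div_mul_comm, ← div_zpow]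
    ring
  have hbig : v δ < v (τ - 1) := by
    rw [hδτ]
    refine mul_lt_of_lt_one_left ?_ hπ1
    refine zero_lt_iff.mpr fun h0 => hδ0 ((Valuation.zero_iff _).mp (show v δ = 0 from ?_))
    rw [hδτ, h0, mul_zero]
  have h3 : v ((τ ^ j - 1) * (σ y / y)) = v (τ - 1) := by
    rw [map_mul, hs, map_mul, hs1, one_mul, map_div₀, hσv y hy0 hy, hy, div_one, mul_one]
  have h4 : v (σ x / x - 1) ≤ v δ := by
    rw [div_sub_one hx0, map_div₀, div_le_iff₀ (zero_lt_iff.mpr ((Valuation.ne_zero_iff _).mpr hx0))]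
    exact hle
  rw [hx, v.map_add_eq_of_lt_left (hvy.trans_lt (h3 ▸ hbig)), h3] at h4
  exact absurd h4 (not_le.mpr hbig)

end FLTAgent.TOR
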