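import Fermat.Agent.TOR.MazurTorus
import Fermat.Agent.TOR.SlopeField
import Fermat.Agent.TOR.InertiaVal
import Fermat.Agent.EllFrob.DetCyc
import Fermat.Agent.Local.API

/-!
The `p`-torsion at `p` of a curve with multiplicative reduction whose discriminant has valuation
divisible by `p`: it is fixed by the absolute Galois group of a slope field, and inertia does not act
by scalars.
-/

set_option autoImplicit false
set_option linter.unusedSectionVars false
set_option linter.style.haveILetI false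
set_option maxHeartbeats 1000000

noncomputable section

open WeierstrassCurve IsLocalRing
open FLTAgent.Local FLTAgent.Torsion
open FLTAgent.Attach (cyc cyc_spec cyc_mul cyc_one cyc_unique)
open WeierstrassCurve.Affine.Point (galoisRepModuleEnd galoisRepModuleEnd_apply)
open scoped WeierstrassCurve.Affine

namespace FLTAgent.TOR

open FLTAgent.Reduction (Qb)

local notation "GalQ" => AlgebraicClosure ℚ ≃ₐ[ℚ] AlgebraicClosure ℚ

variable {W : WeierstrassCurve ℤ} {A : ValuationSubring Qb} {p : ℕ}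

local instance decEqRes (B : ValuationSubring Qb) : DecidableEq (ResidueField B) := Classical.decEq _

/-- multiplicative reduction at `p` with discriminant of valuation divisible by `p` -/
structure PeuMult (W : WeierstrassCurve ℤ) (A : ValuationSubring Qb) (p : ℕ) : Prop where
  prime : p.Prime
  three : 3 ≤ p
  lies : A.LiesOverPrime p
  Δ_ne : W.Δ ≠ 0
  dvd : (p : ℤ) ∣ W.Δ
  ss : SemistableAt W p
  peu : p ∣ padicValInt p W.Δ

theorem PeuMult.ne_two (h : PeuMult W A p) : p ≠ 2 := by have := h.three; omega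

/-- the torsion in the kernel of reduction -/
def torsE1 (W : WeierstrassCurve ℤ) (A : ValuationSubring Qb) (p : ℕ) :
    Submodule (ZMod p) (Tors W p) :=
  AddSubgroup.toZModSubmodule p ((redKernel W A).comap (Submodule.subtype _).toAddMonoidHom)

/-- the torsion in the identity component -/
def torsE0 (W : WeierstrassCurve ℤ) (A : ValuationSubring Qb) (p : ℕ) :
    Submodule (ZMod p) (Tors W p) :=
  AddSubgroup.toZModSubmodule p ((zeroComp W A).comap (Submodule.subtype _).toAddMonoidHom)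

theorem exists_coords (hΔ : W.Δ ≠ 0) [Fact p.Prime] {T Q : Tors W p} (hT : T ≠ 0)
    (hQ : ∀ a : ZMod p, Q ≠ a • T) :
    ∃ b : Module.Basis (Fin 2) (ZMod p) (Tors W p), b 0 = T ∧ b 1 = Q := by
  obtain ⟨hfin, hrank⟩ := finrank_tors hΔ p
  have hli : LinearIndependent (ZMod p) ![T, Q] :=
    (LinearIndependent.pair_iff' hT).mpr fun a => Ne.symm (hQ a)
  refine ⟨basisOfLinearIndependentOfCardEqFinrank hli (by rw [hrank, Fintype.card_fin]), ?_, ?_⟩ <;>
    simp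

theorem line_of_mem (hΔ : W.Δ ≠ 0) [Fact p.Prime] {S : Submodule (ZMod p) (Tors W p)}
    {T Q : Tors W p} (hT : T ≠ 0) (hTS : T ∈ S) (hQ : Q ∉ S) {y : Tors W p} (hy : y ∈ S) :
    ∃ a : ZMod p, y = a • T := by
  obtain ⟨b, hb0, hb1⟩ := exists_coords hΔ hT (Q := Q) fun a e => hQ (by rw [e]; exact S.smul_mem a hTS)
  have hy' := b.sum_repr y
  rw [Fin.sum_univ_two, hb0, hb1] at hy'
  by_cases h1 : b.repr y 1 = 0
  · exact ⟨b.repr y 0, by rw [h1, zero_smul, add_zero] at hy'; exact hy'.symm⟩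
  · exfalso
    refine hQ ?_
    have h2 : b.repr y 1 • Q ∈ S := by
      rw [show b.repr y 1 • Q = y - b.repr y 0 • T from eq_sub_of_add_eq' hy']
      exact sub_mem hy (S.smul_mem _ hTS)
    rwa [Submodule.smul_mem_iff _ h1] at h2

/-- the cyclotomic character is the determinant -/
theorem cyc_eq_of_shear (hΔ : W.Δ ≠ 0) [Fact p.Prime] {T Q : Tors W p} (hT : T ≠ 0)
    (hQ : ∀ a : ZMod p, Q ≠ a • T) {σ : GalQ} {c t : ZMod p} (hσT : σ • T = c • T)
    (hσQ : σ • Q = Q + t • T) : cyc p σ = c := by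
  obtain ⟨b, hb0, hb1⟩ := exists_coords hΔ hT hQ
  set f := galoisRepModuleEnd ℚ (K := AlgebraicClosure ℚ) (W.map (Int.castRingHom ℚ)) p σ
  have hdet : LinearMap.det f = cyc p σ := congrFun (EllFrob.repDet_eq_cyc hΔ p) σ
  have h0 : f (b 0) = c • b 0 := by rw [hb0]; exact hσT
  have h1 : f (b 1) = t • b 0 + b 1 := by rw [hb0, hb1, add_comm]; exact hσQ
  rw [← hdet, ← LinearMap.det_toMatrix b, Matrix.det_fin_two]
  simp only [LinearMap.toMatrix_apply, h0, h1, map_smul, map_add, Finsupp.coe_smul, Finsupp.coe_add,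
    Pi.smul_apply, Pi.add_apply, Module.Basis.repr_self, Finsupp.single_apply, smul_eq_mul]
  simp

/-- the cyclotomic character is not trivial on inertia -/
theorem exists_cyc_ne_one (hp : p.Prime) (hp2 : p ≠ 2) (hA : A.LiesOverPrime p) [Fact p.Prime] :
    ∃ σ ∈ A.inertiaSubgroupIn ℚ, cyc p σ ≠ 1 := by
  obtain ⟨ζ, hζ⟩ := HasEnoughRootsOfUnity.exists_primitiveRoot Qb p
  obtain ⟨σ, hσ, hσζ⟩ := exists_inertia_moves hp hA hp2 hζ
  exact ⟨σ, hσ, fun e => hσζ (by rw [cyc_spec σ hζ.pow_eq_one, e, ZMod.val_one, pow_one])⟩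

/-- inertia does not act by scalars -/
theorem not_scalar (hp : p.Prime) (hp2 : p ≠ 2) (hA : A.LiesOverPrime p) (hΔ : W.Δ ≠ 0)
    [Fact p.Prime] (hs : ∀ σ ∈ A.inertiaSubgroupIn ℚ, ∀ x : Tors W p, σ • x = cyc p σ • x) :
    False := by
  obtain ⟨σ, hσ, hne⟩ := exists_cyc_ne_one hp hp2 hA
  have hdet : LinearMap.det (galoisRepModuleEnd ℚ (K := AlgebraicClosure ℚ)
      (W.map (Int.castRingHom ℚ)) p σ) = cyc p σ := congrFun (EllFrob.repDet_eq_cyc hΔ p) σ
  have e : galoisRepModuleEnd ℚ (K := AlgebraicClosure ℚ) (W.map (Int.castRingHom ℚ)) p σ =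
      cyc p σ • (LinearMap.id : Tors W p →ₗ[ZMod p] Tors W p) :=
    LinearMap.ext fun x => hs σ hσ x
  rw [e, LinearMap.det_smul, LinearMap.det_id, mul_one, (finrank_tors hΔ p).2] at hdet
  have hc : cyc p σ ≠ 0 := by
    intro h0
    rw [h0] at hdet
    obtain ⟨ζ, hζ⟩ := HasEnoughRootsOfUnity.exists_primitiveRoot Qb p
    have h1 := cyc_spec σ hζ.pow_eq_one
    rw [h0, ZMod.val_zero, pow_zero] at h1
    exact hζ.ne_one hp.one_lt (σ.injective (h1.trans (map_one σ).symm))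
  refine hne (mul_left_cancel₀ hc ?_)
  rw [mul_one, ← sq]
  exact hdet

/-- the transport to the nodal model carries the torsion onto the torsion -/
theorem exists_model (h : PeuMult W A p) :
    ∃ (W1 : WeierstrassCurve A) (φ : QPoint W →+ (genFib W1).toAffine.Point),
      Nodal W1 ∧ A.valuation (W1.a₆ : Qb) = A.valuation (p : Qb) ^ padicValInt p W.Δ ∧
      Function.Injective φ ∧ (∀ P, InE1 (φ P) ↔ P ∈ redKernel W A) ∧
      (∀ R, p • R = 0 → ∃ P, p • P = 0 ∧ φ P = R) ∧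
      ∀ σ : GalQ, σ ∈ A.decompositionSubgroup ℚ →
        ∀ P, IsImage (σ : Qb →+* Qb) (φ P) (φ (σ • P)) := by
  obtain ⟨W1, φ, hN, hδ, hinj, -, h1, hσ⟩ := exists_nodal_model h.lies h.prime h.dvd h.ss
  rw [val_int_padic h.lies h.prime h.Δ_ne] at hδ
  have hδ0 : A.valuation (W1.a₆ : Qb) ≠ 0 := by
    rw [hδ]
    exact pow_ne_zero _ ((Valuation.ne_zero_iff _).2 (Nat.cast_ne_zero.2 h.prime.ne_zero))
  refine ⟨W1, φ, hN, hδ, hinj, h1, fun R hR => ?_, fun σ hs => (hσ σ hs).2⟩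
  have := isElliptic_genFib hN hδ0
  have := isElliptic_curveBar h.Δ_ne
  let g : {P : QPoint W // p • P = 0} → {P : (genFib W1).toAffine.Point // p • P = 0} :=
    fun P => ⟨φ P.1, by rw [← map_nsmul, P.2, map_zero]⟩
  have c2 := card_nsmul_kernel (genFib W1) p h.prime.ne_zero
  have c1 : Nat.card {P : QPoint W // p • P = 0} = p ^ 2 :=
    card_nsmul_kernel (curveBar W) p h.prime.ne_zero
  haveI : Finite {P : (genFib W1).toAffine.Point // p • P = 0} :=
    Nat.finite_of_card_ne_zero (by rw [c2]; exact pow_ne_zero _ h.prime.ne_zero)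
  obtain ⟨⟨P, hP⟩, he⟩ := ((Nat.bijective_iff_injective_and_card g).2
    ⟨fun a b e => Subtype.ext (hinj (congrArg Subtype.val e)), c1.trans c2.symm⟩).2 ⟨R, hR⟩
  exact ⟨P, hP, congrArg Subtype.val he⟩

/-- a basis adapted to the kernel of reduction -/
theorem exists_adapted (h : PeuMult W A p) [Fact p.Prime] :
    ∃ T Q : Tors W p, T ∈ torsE1 W A p ∧ T ≠ 0 ∧ Q ∉ torsE1 W A p ∧
      ∀ σ ∈ A.inertiaSubgroupIn ℚ, σ • T = cyc p σ • T ∧ ∃ t : ZMod p, σ • Q = Q + t • T := by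
  classical
  have hE01 : ∀ x ∈ torsE1 W A p, x ∈ torsE0 W A p := fun x hx => redKernel_le_zeroComp W A hx
  have hstep0 : ∀ σ ∈ A.inertiaSubgroupIn ℚ, ∀ x : Tors W p, σ • x - x ∈ torsE0 W A p :=
    fun σ hσ x => inertia_sub_mem_zeroComp h.lies h.prime h.ss h.prime h.ne_two hσ (nsmul_tors x)
  have hstep1 : ∀ σ ∈ A.inertiaSubgroupIn ℚ, ∀ x ∈ torsE0 W A p, σ • x - x ∈ torsE1 W A p :=
    fun σ hσ x hx => inertia_sub_mem_redKernel hσ hx
  obtain ⟨Q, hQ⟩ : ∃ Q : Tors W p, Q ∉ torsE1 W A p := by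
    obtain ⟨W1, φ, hN, hδ, -, hE1, hsurj, -⟩ := exists_model h
    obtain ⟨R, hR, hR1⟩ := exists_torsion_not_inE1 hN (by
        rw [hδ]
        exact pow_ne_zero _ ((Valuation.ne_zero_iff _).2 (Nat.cast_ne_zero.2 h.prime.ne_zero)))
      h.prime h.three (Reduction.charP_residue A h.prime h.lies)
    obtain ⟨P, hP, rfl⟩ := hsurj R hR
    exact ⟨mkTors P hP, fun hh => hR1 ((hE1 P).2 hh)⟩
  obtain ⟨T, hT, hT0⟩ : ∃ T ∈ torsE1 W A p, T ≠ 0 := by
    by_contra hno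
    push Not at hno
    have hfix : ∀ σ ∈ A.inertiaSubgroupIn ℚ, ∀ x ∈ torsE0 W A p, σ • x = x := fun σ hσ x hx =>
      sub_eq_zero.mp (hno _ (hstep1 σ hσ x hx))
    obtain ⟨σ, hσ, hne⟩ := exists_cyc_ne_one h.prime h.ne_two h.lies
    obtain ⟨T, hT0, hTfix, S, hTS, hS⟩ : ∃ T : Tors W p, T ≠ 0 ∧ σ • T = T ∧
        ∃ S : Submodule (ZMod p) (Tors W p), T ∈ S ∧ ∀ x, σ • x - x ∈ S ∧
          (x ∈ S → σ • x = x) := by
      by_cases hb : ∃ T ∈ torsE0 W A p, T ≠ 0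
      · obtain ⟨T, hT, hT0⟩ := hb
        exact ⟨T, hT0, hfix σ hσ T hT, torsE0 W A p, hT,
          fun x => ⟨hstep0 σ hσ x, hfix σ hσ x⟩⟩
      · push Not at hb
        have hid : ∀ x : Tors W p, σ • x = x := fun x =>
          sub_eq_zero.mp (hb _ (hstep0 σ hσ x))
        exact ⟨Q, fun e => hQ (e ▸ zero_mem _), hid Q, ⊤, trivial, fun x => ⟨trivial, fun _ => hid x⟩⟩
    by_cases htop : ∀ x : Tors W p, x ∈ S
    · have hid : ∀ x : Tors W p, σ • x = x := fun x => (hS x).2 (htop x)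
      obtain ⟨hfin, hrank⟩ := finrank_tors h.Δ_ne p
      obtain ⟨Q', hQ'⟩ : ∃ Q' : Tors W p, ∀ a : ZMod p, Q' ≠ a • T := by
        by_contra hc
        push Not at hc
        have := finrank_le_one T fun x => (hc x).imp fun a e => e.symm
        omega
      exact hne (cyc_eq_of_shear h.Δ_ne hT0 hQ' (c := 1) (t := 0)
        (by rw [hTfix, one_smul]) (by rw [hid, zero_smul, add_zero]))
    · push Not at htop
      obtain ⟨Q', hQ'⟩ := htop
      obtain ⟨a, ha⟩ := line_of_mem h.Δ_ne hT0 hTS hQ' (hS Q').1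
      exact hne (cyc_eq_of_shear h.Δ_ne hT0 (Q := Q') (fun b e => hQ' (by rw [e]; exact S.smul_mem b hTS)) (c := 1) (t := a)
        (by rw [hTfix, one_smul]) (by rw [← ha, add_sub_cancel]))
  have hline : ∀ {y}, y ∈ torsE1 W A p → ∃ a : ZMod p, y = a • T := fun hy =>
    line_of_mem h.Δ_ne hT0 hT hQ hy
  have hmove : ∀ σ ∈ A.inertiaSubgroupIn ℚ, ∀ x : Tors W p, σ • x - x ∈ torsE1 W A p := by
    intro σ hσ x
    by_cases hQ0 : Q ∈ torsE0 W A p
    · refine hstep1 σ hσ x ?_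
      obtain ⟨b, hb0, hb1⟩ := exists_coords h.Δ_ne hT0 (Q := Q)
        fun a e => hQ (by rw [e]; exact Submodule.smul_mem _ a hT)
      rw [← b.sum_repr x, Fin.sum_univ_two, hb0, hb1]
      exact add_mem (Submodule.smul_mem _ _ (hE01 T hT)) (Submodule.smul_mem _ _ hQ0)
    · obtain ⟨a, ha⟩ := line_of_mem h.Δ_ne hT0 (hE01 T hT) hQ0 (hstep0 σ hσ x)
      rw [ha]
      exact Submodule.smul_mem _ a hT
  refine ⟨T, Q, hT, hT0, hQ, fun σ hσ => ?_⟩
  obtain ⟨a, ha⟩ := hline (hmove σ hσ T)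
  obtain ⟨t, ht⟩ := hline (hmove σ hσ Q)
  have hσT : σ • T = (a + 1) • T := by rw [add_smul, one_smul, ← ha, sub_add_cancel]
  have hσQ : σ • Q = Q + t • T := by rw [← ht, add_sub_cancel]
  rw [cyc_eq_of_shear h.Δ_ne hT0 (fun a e => hQ (by rw [e]; exact Submodule.smul_mem _ a hT)) hσT hσQ]
  exact ⟨hσT, t, hσQ⟩

/-- valuations of the numbers fixed by the inertia elements fixing the `p`-th roots of unity -/
theorem exists_zpow_of_fixed (hp : p.Prime) (hA : A.LiesOverPrime p) [Fact p.Prime] :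
    ∃ n : ℕ, n ∣ p - 1 ∧ 0 < n ∧
      (∀ y : Qb, y ≠ 0 → (∀ σ ∈ A.inertiaSubgroupIn ℚ, cyc p σ = 1 → σ y = y) →
        ∃ i : ℤ, A.valuation y ^ n = A.valuation (p : Qb) ^ i) ∧
      (n = p - 1 → ∀ c : ZMod p, c ≠ 0 → ∃ σ ∈ A.inertiaSubgroupIn ℚ, cyc p σ = c) := by
  classical
  set I := A.inertiaSubgroupIn ℚ
  let f : I →* ZMod p :=
    { toFun := fun σ => cyc p (σ : GalQ)
      map_one' := cyc_one p
      map_mul' := fun σ τ => cyc_mul p (σ : GalQ) (τ : GalQ) }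
  set U := f.toHomUnits.range
  have hcard : Nat.card U ∣ p - 1 := by
    have := Subgroup.card_subgroup_dvd_card U
    rwa [Nat.card_eq_fintype_card (α := (ZMod p)ˣ), ZMod.card_units] at this
  refine ⟨Nat.card U, hcard, Nat.card_pos, fun y hy hfix => ?_, fun hn c hc => ?_⟩
  · choose τ hτ using fun u : U => u.2
    have hval : ∀ u : U, cyc p ((τ u : I) : GalQ) = ((u : (ZMod p)ˣ) : ZMod p) := fun u => by
      rw [← hτ u]; rfl
    set z := ∏ u : U, ((τ u : I) : GalQ) y with hz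
    have hzT : z ∈ SS2.inertiaFixed A := by
      rw [SS2.mem_inertiaFixed]
      intro σ hσ
      rw [hz, map_prod]
      refine Fintype.prod_equiv (Equiv.mulLeft (⟨f.toHomUnits ⟨σ, hσ⟩, ⟨⟨σ, hσ⟩, rfl⟩⟩ : U)) _ _
        fun u => ?_
      set u' := (Equiv.mulLeft (⟨f.toHomUnits ⟨σ, hσ⟩, ⟨⟨σ, hσ⟩, rfl⟩⟩ : U)) u with hu'
      have h1 : f.toHomUnits ((τ u')⁻¹ * (⟨σ, hσ⟩ * τ u)) = 1 := by
        rw [map_mul, map_inv, map_mul, hτ u', hτ u, hu', Equiv.coe_mulLeft, Subgroup.coe_mul,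
          inv_mul_cancel]
      have h2 := hfix ((τ u' : GalQ)⁻¹ * (σ * (τ u : GalQ)))
        (mul_mem (inv_mem (τ u').2) (mul_mem hσ (τ u).2)) (congrArg Units.val h1)
      rw [AlgEquiv.mul_apply, AlgEquiv.mul_apply] at h2
      calc σ ((τ u : GalQ) y) = (τ u' : GalQ) ((τ u' : GalQ)⁻¹ (σ ((τ u : GalQ) y))) :=
            ((τ u' : GalQ).apply_symm_apply _).symm
        _ = (τ u' : GalQ) y := by rw [h2]
    have hz0 : z ≠ 0 := Finset.prod_ne_zero_iff.mpr fun u _ => (_root_.map_ne_zero _).mpr hy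
    obtain ⟨i, hi⟩ := SS2.exists_zpow_valuation_T hp hA hzT hz0
    refine ⟨i, ?_⟩
    rw [← hi, hz, map_prod, Finset.prod_congr rfl (fun u _ => valuation_inertia_eq hp hA (τ u).2 y),
      Finset.prod_const, Finset.card_univ, Nat.card_eq_fintype_card]
  · have htop : U = ⊤ := Subgroup.eq_top_of_card_eq U (by
      rw [hn, Nat.card_eq_fintype_card, ZMod.card_units])
    obtain ⟨σ, hσ⟩ : Units.mk0 c hc ∈ U := htop ▸ Subgroup.mem_top _
    exact ⟨σ, σ.2, congrArg Units.val hσ⟩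

/-- the cyclotomic character is onto on inertia -/
theorem exists_inertia_cyc (hp : p.Prime) (hA : A.LiesOverPrime p) [Fact p.Prime] :
    ∃ n : ℕ, n = p - 1 ∧
      (∀ y : Qb, y ≠ 0 → (∀ σ ∈ A.inertiaSubgroupIn ℚ, cyc p σ = 1 → σ y = y) →
        ∃ i : ℤ, A.valuation y ^ n = A.valuation (p : Qb) ^ i) ∧
      (∀ c : ZMod p, c ≠ 0 → ∃ σ ∈ A.inertiaSubgroupIn ℚ, cyc p σ = c) := by
  obtain ⟨n, hn, hn0, hfix, hall⟩ := exists_zpow_of_fixed hp hA
  obtain ⟨ζ, hζ⟩ := HasEnoughRootsOfUnity.exists_primitiveRoot Qb p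
  obtain ⟨i, hi⟩ := hfix (ζ - 1) (sub_ne_zero.mpr (hζ.ne_one hp.one_lt)) fun σ _ hc => by
    rw [map_sub, map_one, cyc_spec σ hζ.pow_eq_one, hc, ZMod.val_one, pow_one]
  have hv := valuation_zeta_sub_one (A := A) hζ hp
  have hp0 : (0 : A.ValueGroup) < A.valuation (p : Qb) :=
    zero_lt_iff.mpr ((Valuation.ne_zero_iff _).mpr (Nat.cast_ne_zero.mpr hp.ne_zero))
  obtain ⟨d, hd⟩ := hn
  have h1 : A.valuation (p : Qb) ^ (i * (d : ℤ)) = A.valuation (p : Qb) ^ (1 : ℤ) := by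
    rw [zpow_one, zpow_mul, ← hi, zpow_natCast, ← pow_mul, ← hd, hv]
  have h2 := (zpow_right_inj₀ hp0 (ne_of_lt hA)).mp h1
  have hd1 : d = 1 := by
    have := Int.eq_one_of_mul_eq_one_left (Int.natCast_nonneg d) h2
    exact_mod_cast this
  subst hd1
  rw [mul_one] at hd
  exact ⟨n, hd.symm, hfix, hall hd.symm⟩

/-- the group fixing the torsion inside inertia -/
def torsKer (W : WeierstrassCurve ℤ) (A : ValuationSubring Qb) (p : ℕ) [Fact p.Prime] :
    Subgroup GalQ :=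
  A.inertiaSubgroupIn ℚ ⊓ fixLine (W := W) (⊤ : Submodule (ZMod p) (Tors W p))

theorem mem_torsKer [Fact p.Prime] {σ : GalQ} : σ ∈ torsKer W A p ↔
    σ ∈ A.inertiaSubgroupIn ℚ ∧ ∀ x : Tors W p, σ • x = x :=
  ⟨fun h => ⟨h.1, fun x => h.2 x Submodule.mem_top⟩, fun h => ⟨h.1, fun x _ => h.2 x⟩⟩

/-- the field fixed by it -/
def torsField (W : WeierstrassCurve ℤ) (A : ValuationSubring Qb) (p : ℕ) [Fact p.Prime] :
    IntermediateField ℚ Qb :=
  IntermediateField.fixedField (torsKer W A p)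

theorem mem_torsField [Fact p.Prime] {z : Qb} :
    z ∈ torsField W A p ↔ ∀ σ ∈ torsKer W A p, σ z = z :=
  IntermediateField.mem_fixedField_iff _ _

theorem torsField_fix [Fact p.Prime] {τ : GalQ} (hτ : ∀ a ∈ torsField W A p, τ a = a)
    (x : Tors W p) : τ • x = x := by
  apply Subtype.ext
  rw [coe_smul]
  have h1 : τ (xcoord (x : QPoint W)) = xcoord (x : QPoint W) := hτ _ (mem_torsField.mpr
    fun σ hσ => by rw [← (xcoord_smul σ _).1, ← coe_smul, (mem_torsKer.mp hσ).2 x])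
  have h2 : τ (ycoord (x : QPoint W)) = ycoord (x : QPoint W) := hτ _ (mem_torsField.mpr
    fun σ hσ => by rw [← (xcoord_smul σ _).2, ← coe_smul, (mem_torsKer.mp hσ).2 x])
  obtain ⟨P, hP⟩ : ∃ P : QPoint W, (x : QPoint W) = P := ⟨_, rfl⟩
  simp only [hP] at h1 h2 ⊢
  rcases P with _ | ⟨a, b, hns⟩
  · rfl
  · show Affine.Point.map τ.toAlgHom (Affine.Point.some a b hns) = _
    rw [Affine.Point.map_some, Affine.Point.some.injEq]
    exact ⟨h1, h2⟩

theorem xc_isImage {W1 : WeierstrassCurve A} {σ : Qb →+* Qb} {P P' : (genFib W1).toAffine.Point}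
    (hI : IsImage σ P P') : xc P' = σ (xc P) := by
  rcases P with _ | ⟨x, y, h⟩ <;> rcases P' with _ | ⟨x', y', h'⟩
  · exact (map_zero σ).symm
  · exact hI.elim
  · exact hI.elim
  · exact hI.1

/-- with an adapted basis, the field cut out by the torsion is a slope field as soon as the wild
elements of inertia move one of its integers enough -/
theorem slopeField_of_adapted [Fact p.Prime] (hp : p.Prime) (hA : A.LiesOverPrime p) (hΔ : W.Δ ≠ 0)
    {T Q : Tors W p} (hT0 : T ≠ 0) (hQ : ∀ a : ZMod p, Q ≠ a • T)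
    (hact : ∀ σ ∈ A.inertiaSubgroupIn ℚ, σ • T = cyc p σ • T ∧ ∃ t : ZMod p, σ • Q = Q + t • T)
    (hmoved : ∀ σ ∈ A.inertiaSubgroupIn ℚ, ∀ t : ZMod p, t ≠ 0 → σ • T = T → σ • Q = Q + t • T →
      ∃ a ∈ torsField W A p, a ∈ A ∧
        A.valuation (p : Qb) ≤ A.valuation (σ a - a) ^ (p - 1)) :
    SlopeField A p (torsField W A p) := by
  classical
  set L := torsField W A p
  set I := A.inertiaSubgroupIn ℚ
  obtain ⟨ζ, hζ⟩ := HasEnoughRootsOfUnity.exists_primitiveRoot Qb p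
  obtain ⟨n, rfl, hfixJ, hcyc⟩ := exists_inertia_cyc hp hA
  have hcycH : ∀ σ ∈ torsKer W A p, cyc p σ = 1 := fun σ hσ => by
    obtain ⟨h1, h2⟩ := mem_torsKer.mp hσ
    refine cyc_eq_of_shear hΔ hT0 (Q := Q) hQ
      (c := 1) (t := 0) ?_ ?_
    · rw [h2, one_smul]
    · rw [h2, zero_smul, add_zero]
  have hTL : SS2.inertiaFixed A ≤ L := fun z hz =>
    mem_torsField.mpr fun σ hσ => SS2.mem_inertiaFixed.mp hz σ hσ.1
  have htriv : ∀ σ ∈ I, σ • T = T → σ • Q = Q → σ ∈ torsKer W A p := by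
    intro σ hσ hσT hσQ
    refine mem_torsKer.mpr ⟨hσ, fun x => ?_⟩
    obtain ⟨b, hb0, hb1⟩ := exists_coords hΔ hT0 (Q := Q) hQ
    rw [← b.sum_repr x, Fin.sum_univ_two, hb0, hb1, smul_add, smul_zmod_smul, smul_zmod_smul, hσT,
      hσQ]
  by_cases hJ : ∀ σ ∈ I, cyc p σ = 1 → σ • Q = Q
  · refine ⟨hTL, Or.inl fun x hx hx0 => ?_⟩
    obtain ⟨i, hi⟩ := hfixJ x hx0 fun σ hσ hc => mem_torsField.mp hx σ
      (htriv σ hσ (by rw [(hact σ hσ).1, hc, one_smul]) (hJ σ hσ hc))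
    refine ⟨p - 1, i, fun hd => ?_, hi⟩
    have := Nat.le_of_dvd (Nat.sub_pos_of_lt hp.one_lt) hd
    have := hp.one_lt
    omega
  push Not at hJ
  obtain ⟨σ₀, hσ₀, hc₀, hQ₀⟩ := hJ
  obtain ⟨hσ₀T, t₀, hσ₀Q⟩ := hact σ₀ hσ₀
  rw [hc₀, one_smul] at hσ₀T
  have ht₀ : t₀ ≠ 0 := fun e => hQ₀ (by rw [hσ₀Q, e, zero_smul, add_zero])
  have hpow : ∀ m : ℕ, σ₀ ^ m • T = T ∧ σ₀ ^ m • Q = Q + ((m : ZMod p) * t₀) • T := by
    intro m
    induction m with
    | zero => simp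
    | succ m ih =>
      rw [pow_succ', mul_smul, mul_smul, ih.1, ih.2, hσ₀T, smul_add, smul_zmod_smul, hσ₀T, hσ₀Q]
      refine ⟨rfl, ?_⟩
      push_cast
      rw [add_mul, one_mul, add_smul]
      abel
  have hnormal : ∀ σ ∈ I, ∀ h' ∈ torsKer W A p, σ⁻¹ * h' * σ ∈ torsKer W A p := fun σ hσ h' hh' => by
    refine mem_torsKer.mpr ⟨mul_mem (mul_mem (inv_mem hσ) hh'.1) hσ, fun x => ?_⟩
    rw [mul_smul, mul_smul, (mem_torsKer.mp hh').2, inv_smul_smul]
  have hζL : ζ ∈ L := mem_torsField.mpr fun σ hσ => by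
    rw [cyc_spec σ hζ.pow_eq_one, hcycH σ hσ, ZMod.val_one, pow_one]
  have hval : ∀ x ∈ L, x ≠ 0 →
      ∃ i : ℤ, A.valuation x ^ (p * (p - 1)) = A.valuation (p : Qb) ^ i := by
    intro x hx hx0
    set g : ZMod p → Qb := fun a => (σ₀ ^ a.val) x with hg
    have hgp : ∀ m : ℕ, (σ₀ ^ m) x = g (m : ZMod p) := fun m => by
      have hker : σ₀ ^ (p * (m / p)) ∈ torsKer W A p := htriv _ (pow_mem hσ₀ _) (hpow _).1
        (by rw [(hpow _).2, Nat.cast_mul, ZMod.natCast_self, zero_mul, zero_mul, zero_smul,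
          add_zero])
      simp only [g, ZMod.val_natCast]
      conv_lhs => rw [← Nat.mod_add_div m p, pow_add, AlgEquiv.mul_apply,
        mem_torsField.mp hx _ hker]
    set y := ∏ a : ZMod p, g a
    have hy0 : y ≠ 0 := Finset.prod_ne_zero_iff.mpr fun a _ => (_root_.map_ne_zero _).mpr hx0
    obtain ⟨i, hi⟩ := hfixJ y hy0 fun σ hσ hc => by
      obtain ⟨hσT, t, hσQ⟩ := hact σ hσ
      rw [hc, one_smul] at hσT
      set m := (t / t₀).val
      have hm : (m : ZMod p) * t₀ = t := by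
        rw [ZMod.natCast_zmod_val, div_mul_cancel₀ _ ht₀]
      have hker : (σ₀ ^ m)⁻¹ * σ ∈ torsKer W A p := by
        refine htriv _ (mul_mem (inv_mem (pow_mem hσ₀ _)) hσ) ?_ ?_
        · rw [mul_smul, hσT, inv_smul_eq_iff, (hpow m).1]
        · rw [mul_smul, hσQ, inv_smul_eq_iff, (hpow m).2, hm]
      rw [map_prod]
      refine Fintype.prod_equiv (Equiv.addLeft (m : ZMod p)) _ _ fun a => ?_
      have hh := mem_torsField.mp hx _ (hnormal _ (pow_mem hσ₀ a.val) _ hker)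
      rw [AlgEquiv.mul_apply, AlgEquiv.mul_apply, AlgEquiv.mul_apply] at hh
      have h3 := congrArg (σ₀ ^ m * σ₀ ^ a.val : GalQ) hh
      rw [AlgEquiv.mul_apply] at h3
      simp only [Equiv.coe_addLeft]
      rw [← ZMod.natCast_zmod_val a, ← Nat.cast_add, ← hgp, ← hgp, pow_add,
        AlgEquiv.mul_apply]
      refine Eq.trans ?_ h3
      simp only [← AlgEquiv.mul_apply, mul_inv_cancel_left]
    refine ⟨i, ?_⟩
    rw [pow_mul, ← hi, map_prod, Finset.prod_congr rfl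
      (fun a _ => valuation_inertia_eq hp hA (pow_mem hσ₀ _) x), Finset.prod_const,
      Finset.card_univ, ZMod.card]
  -- the moved number
  obtain ⟨a, haL, haA, hp_le⟩ := hmoved σ₀ hσ₀ t₀ ht₀ hσ₀T hσ₀Q
  refine slopeField_of_move hp hA hTL hζ hζL hval hσ₀ ?_ haL haA ?_
  · rw [cyc_spec σ₀ hζ.pow_eq_one, hc₀, ZMod.val_one, pow_one]
  refine (pow_le_pow_iff_left₀ zero_le zero_le (n := p - 1)
    (by have := hp.one_lt; omega)).mp ?_
  rwa [valuation_zeta_sub_one hζ hp]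

/-- a move by the inverse of the parameter of a kernel point is at least that of `ζ - 1` -/
theorem le_move [Fact p.Prime] (hp : p.Prime) (hp2 : p ≠ 2) (hA : A.LiesOverPrime p)
    {W1 : WeierstrassCurve A} {φ : QPoint W →+ (genFib W1).toAffine.Point}
    (hI : ∀ σ : GalQ, σ ∈ A.decompositionSubgroup ℚ →
      ∀ P, IsImage (σ : Qb →+* Qb) (φ P) (φ (σ • P)))
    {T : Tors W p} (hφT : φ (T : QPoint W) ≠ 0)
    (hT : ∀ σ ∈ A.inertiaSubgroupIn ℚ, σ • T = cyc p σ • T) {d : Qb}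
    (hd : A.valuation d ^ 2 * A.valuation (xc (φ (T : QPoint W))) = 1) :
    A.valuation (p : Qb) ≤ A.valuation d ^ (p - 1) := by
  obtain ⟨n, rfl, -, hcyc⟩ := exists_inertia_cyc hp hA
  have hsame : ∀ k, ¬ p ∣ k → A.valuation (xc (k • φ (T : QPoint W))) =
      A.valuation (xc (φ (T : QPoint W))) := by
    intro k hk
    obtain ⟨σ, hσ, hc⟩ := hcyc (k : ZMod p) (by rwa [Ne, ZMod.natCast_eq_zero_iff])
    have e : k • T = σ • T := by rw [hT σ hσ, hc, ← Nat.cast_smul_eq_nsmul (ZMod p)]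
    rw [← map_nsmul, ← AddSubmonoidClass.coe_nsmul, e, coe_smul,
      xc_isImage (hI σ (inertia_mem_decomposition hσ) _)]
    exact valuation_inertia_eq hp hA hσ _
  obtain ⟨hh, hhp⟩ : ∃ hh, p = 2 * hh + 1 := hp.odd_of_ne_two hp2
  have hTp : p • φ (T : QPoint W) = 0 := by rw [← map_nsmul, nsmul_tors, map_zero]
  have hX := val_xc_le hp hp2 hhp hTp hφT hsame
  set v := A.valuation
  set X1 := v (xc (φ (T : QPoint W)))
  rw [show p - 1 = 2 * hh by omega, pow_mul]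
  calc v (p : Qb) = v (p : Qb) * (v d ^ 2 * X1) ^ hh := by rw [hd, one_pow, mul_one]
    _ = (v (p : Qb) * X1 ^ hh) * (v d ^ 2) ^ hh := by rw [mul_pow]; ac_rfl
    _ ≤ (v d ^ 2) ^ hh := mul_le_of_le_one_left zero_le hX

/-- the field cut out by the torsion is a slope field -/
theorem slopeField_torsField (h : PeuMult W A p) [Fact p.Prime] :
    SlopeField A p (torsField W A p) := by
  classical
  have hp := h.prime
  have hA := h.lies
  set L := torsField W A p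
  obtain ⟨T, Q, hT, hT0, hQ, hact⟩ := exists_adapted h
  refine slopeField_of_adapted hp hA h.Δ_ne hT0
    (fun a e => hQ (by rw [e]; exact Submodule.smul_mem _ a hT)) hact
    fun σ₀ hσ₀ t₀ ht₀ hσ₀T hσ₀Q => ?_
  obtain ⟨W1, φ, hN, hδ, hinj, hE1, -, hI⟩ := exists_model h
  have hδ0 : A.valuation (W1.a₆ : Qb) ≠ 0 := by
    rw [hδ]
    exact pow_ne_zero _ ((Valuation.ne_zero_iff _).2 (Nat.cast_ne_zero.2 hp.ne_zero))
  set T' : Tors W p := t₀ • T
  have hT'0 : T' ≠ 0 := smul_ne_zero ht₀ hT0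
  have hφT : φ (T' : QPoint W) ≠ 0 := fun e =>
    hT'0 (Subtype.ext (hinj (e.trans (map_zero φ).symm)))
  obtain ⟨k, hk1, hk2⟩ := exists_move hN hδ0 hp h.ne_two (Q := φ (Q : QPoint W))
    (T := φ (T' : QPoint W))
    (by rw [← map_nsmul, nsmul_tors, map_zero]) (fun e => hQ ((hE1 _).1 e))
    ((hE1 _).2 (Submodule.smul_mem (torsE1 W A p) t₀ hT)) hφT
  set xq := xc (φ (Q : QPoint W))
  set X1 := A.valuation (xc (φ (T' : QPoint W)))
  have hσx : σ₀ xq = xc (φ (Q : QPoint W) + φ (T' : QPoint W)) := by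
    rw [← map_add, ← AddMemClass.coe_add, ← hσ₀Q, coe_smul,
      xc_isImage (hI σ₀ (inertia_mem_decomposition hσ₀) _)]
    rfl
  have hxqL : xq ∈ L := mem_torsField.mpr fun σ hσ => by
    have h1 := xc_isImage (hI σ (inertia_mem_decomposition hσ.1) (Q : QPoint W))
    rw [← coe_smul, (mem_torsKer.mp hσ).2] at h1
    exact h1.symm
  obtain ⟨k0, hk0⟩ := h.peu
  set v := A.valuation
  set c : Qb := (p : Qb) ^ ((k0 : ℤ) * k) with hc
  have hpQ : (p : Qb) ≠ 0 := Nat.cast_ne_zero.2 hp.ne_zero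
  have hc0 : c ≠ 0 := zpow_ne_zero _ hpQ
  have hvc0 : v c ≠ 0 := (Valuation.ne_zero_iff _).2 hc0
  have hcp : v c ^ p = v (W1.a₆ : Qb) ^ k := by
    rw [hδ, hk0, hc, map_zpow₀, ← zpow_natCast, ← zpow_natCast, ← zpow_mul, ← zpow_mul]
    congr 1
    push_cast
    ring
  set a := xq / c with ha
  have haL : a ∈ L := div_mem hxqL (zpow_mem (natCast_mem L p) _)
  have haA : a ∈ A := by
    refine (A.valuation_le_one_iff _).1 ?_
    refine (pow_le_one_iff_of_nonneg zero_le hp.ne_zero).mp ?_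
    rw [ha, map_div₀, div_pow, hcp]
    exact (div_le_one₀ (zero_lt_iff.2 (zpow_ne_zero k hδ0))).2 hk1
  have hσc : σ₀ c = c := by rw [hc, map_zpow₀, map_natCast]
  have hE : v (σ₀ a - a) ^ 2 * X1 = 1 := by
    refine (pow_eq_one_iff_left hp.ne_zero).mp ?_
    have e : (v c ^ 2) ^ p = v (W1.a₆ : Qb) ^ (2 * k) := by
      rw [← pow_mul, mul_comm 2 p, pow_mul, hcp, ← zpow_natCast, ← zpow_mul, mul_comm]
      rfl
    have hd : v (σ₀ a - a) = v (xc (φ (Q : QPoint W) + φ (T' : QPoint W)) - xq) / v c := by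
      rw [ha, map_div₀, hσc, ← sub_div, map_div₀, hσx]
    rw [hd, div_pow, mul_pow, div_pow, ← pow_mul, div_mul_eq_mul_div, hk2, e,
      div_self (zpow_ne_zero _ hδ0)]
  exact ⟨a, haL, haA, le_move hp h.ne_two hA hI hφT
    (fun σ hσ => by rw [smul_zmod_smul, (hact σ hσ).1, smul_comm]) hE⟩

end FLTAgent.TOR
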