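import Fermat.Agent.TOR.MazurModel
import Fermat.Agent.TOR.MazurEis
import Fermat.Agent.TOR.MazurLocal
import Fermat.Agent.Attach.Interface
import Fermat.Agent.Alg.Frobenius
import Fermat.Prelude.Def_FreyPackage_IsConductorLevel

/-!
Mazur's principle: a residually modular Frey curve whose level contains `p` is residually modular at
the level without `p`.
-/

set_option autoImplicit false
set_option linter.unusedSectionVars false
set_option linter.style.haveILetI false
set_option synthInstance.maxHeartbeats 200000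
set_option maxHeartbeats 1000000

noncomputable section

open ModularCurve WeierstrassCurve
open FLTAgent.Reduction (Qb Ctx FS)
open FLTAgent.Attach (GaloisInputs HeckeLattice cyc cyc_spec)
open FLTAgent.Torsion (Tors)
open FLTAgent.SS (fibreCore fibreData)
open scoped WeierstrassCurve.Affine

namespace FLTAgent.TOR

local notation "GalQ" => AlgebraicClosure ℚ ≃ₐ[ℚ] AlgebraicClosure ℚ

/-- the torsion of an isomorphic model -/
theorem exists_tors_hom {W F : WeierstrassCurve ℤ} {C : VariableChange ℚ}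
    (h : C • F.map (Int.castRingHom ℚ) = W.map (Int.castRingHom ℚ)) (p : ℕ) :
    ∃ j : Tors F p →+ Tors W p, Function.Injective j ∧ ∀ (σ : GalQ) x, j (σ • x) = σ • j x :=
  ⟨{ toFun := fun x => ⟨modelPt h x, by
        rw [Submodule.mem_torsionBy_iff, ← map_zsmul,
          (Submodule.mem_torsionBy_iff _ _).mp x.2, map_zero]⟩
     map_zero' := Subtype.ext (map_zero _)
     map_add' := fun x y => Subtype.ext (map_add _ _ _) },
    fun _ _ e => Subtype.ext (modelPt_injective h (congrArg Subtype.val e)),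
    fun σ x => Subtype.ext (modelPt_smul h σ x)⟩

variable {M p : ℕ} [NeZero M] [NeZero p]

theorem wJ_mem_eigTors {A : ValuationSubring Qb} (C : Ctx A M p) {W : WeierstrassCurve ℤ}
    (G : GaloisInputs (M * p)) {y : JZero (M * p)} (hy : y ∈ eigTors (M * p) W p) :
    wJ C y ∈ eigTors (M * p) W p := by
  refine ⟨by rw [← map_nsmul, hy.1, map_zero], fun ℓ hℓ h1 h2 h3 => ?_⟩
  rw [wJ_hecke C G hℓ h2 hy.1, hy.2 ℓ hℓ h1 h2 h3, map_zsmul]

/-- a system absent from the lower level cannot contain a curve of peu ramifié multiplicative type -/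
theorem mazur_absurd {W F : WeierstrassCurve ℤ} {A : ValuationSubring Qb} (hM : ¬ p ∣ M) (hp5 : 5 ≤ p)
    (hΔ : W.Δ ≠ 0) (hirr : W.ModRepIsIrreducible p) (hF : PeuMult F A p)
    {Cv : VariableChange ℚ}
    (hC : Cv • F.map (Int.castRingHom ℚ) = W.map (Int.castRingHom ℚ))
    {R : MvPolynomial (SubPrime M p W.IsGoodPrimeFor) ℤ}
    (hR : evalSub W.IsGoodPrimeFor M (dvd_mul_right M p) R = 0)
    (hRa : evalA W.apOfModel W.IsGoodPrimeFor R ≠ 0) {y0 : JZero (M * p)} (hy0 : y0 ≠ 0)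
    (hy0' : y0 ∈ eigTors (M * p) W p) : False := by
  have hp := hF.prime
  haveI : Fact p.Prime := ⟨hp⟩
  have C : Ctx A M p := ⟨hp, hM, hF.lies⟩
  obtain ⟨D⟩ := Attach.exists_heckeLattice (M * p)
  obtain ⟨D0⟩ := Attach.exists_heckeLattice M
  have G := Attach.galoisInputs (M * p)
  have G0 := Attach.galoisInputs M
  obtain ⟨ι0, hι0, hι0e, hι0m⟩ := exists_embedding hΔ hp hF.ne_two hirr D G hy0 hy0'
  obtain ⟨j, hj, hje⟩ := exists_tors_hom hC p
  set ι : Tors F p →+ JZero (M * p) := ι0.comp j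
  have hιi : Function.Injective ι := hι0.comp hj
  have hιe : ∀ (σ : GalQ) x, ι (σ • x) = σ • ι x := fun σ x =>
    (congrArg ι0 (hje σ x)).trans (hι0e σ (j x))
  have hιm : ∀ x, ι x ∈ eigTors (M * p) W p := fun x => hι0m (j x)
  refine not_scalar hp hF.ne_two hF.lies hF.Δ_ne fun σ hσ x => ?_
  have hfix : ∀ τ : GalQ, (∀ a ∈ torsField F A p, τ a = a) → τ • ι x = ι x := fun τ hτ => by
    rw [← hιe, torsField_fix hτ]
  have hk := killedByPush_eig hp D D0 G G0 hR hRa (hιm x)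
  obtain ⟨φ, hφ⟩ := exists_isPhi C (hιm x).1
  obtain ⟨w, rfl⟩ := exists_pow_eig C hp5 hΔ hirr hR hRa (slopeField_torsField hF) (hιm x)
    hfix hk hφ
  have hm' := wJ_mem_eigTors C G (hιm x)
  obtain ⟨φ', hφ'⟩ := exists_isPhi C hm'.1
  obtain ⟨w', rfl⟩ := exists_pow_eig C hp5 hΔ hirr hR hRa (slopeField_torsField hF) hm'
    (fun τ hτ => by rw [← wJ_smul, hfix τ hτ]) (killedByPush_eig hp D D0 G G0 hR hRa hm') hφ'
  obtain ⟨ζ, hζ⟩ := HasEnoughRootsOfUnity.exists_primitiveRoot (AlgebraicClosure ℚ) p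
  have h := smul_eq_of_push (a := (cyc p σ).val) (by omega) C (fibreData C)
    (SS.fibreData_toCore C) (hιm x).1 (kerR_of_isPhi C hφ hφ') hk
    (SS.compat_inertia C σ hσ) hζ (cyc_spec σ hζ.pow_eq_one)
  refine hιi ?_
  rw [hιe, h, ← map_nsmul, ← Nat.cast_smul_eq_nsmul (ZMod p), ZMod.natCast_zmod_val]

end FLTAgent.TOR

namespace FLTAgent.TOR

/-- Mazur's principle for Frey curves -/
theorem level_lowering_at_p (P : FreyPackage) {N : ℕ} (hcond : P.IsConductorLevel N)
    (hpN : P.p ∣ N)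
    (hirr : Affine.Point.GaloisRepIsIrreducible (K := AlgebraicClosure ℚ) ℚ P.freyCurve P.p)
    (hmod : P.ModularRepOfLevel N) :
    ∃ M : ℕ, M ∣ N ∧ ¬ P.p ∣ M ∧ P.ModularRepOfLevel M := by
  obtain ⟨M, rfl⟩ := hpN
  have hp := P.pp
  have hM : ¬ P.p ∣ M := fun h => hcond.sq_not_dvd hp (by
    rw [pow_two]; exact Nat.mul_dvd_mul_left _ h)
  rw [Nat.mul_comm] at hcond hmod ⊢
  haveI : NeZero P.p := ⟨hp.ne_zero⟩
  haveI : NeZero M := ⟨fun h => by have := hcond.pos; simp [h] at this⟩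
  haveI : Fact P.p.Prime := ⟨hp⟩
  obtain ⟨f, W, 𝔪, hf, hW, hmax, hpm, hcong⟩ := hmod
  obtain ⟨hΔ, hirrW⟩ := modRepIsIrreducible_model P hW hirr
  rcases exists_killer_or_form (M := M) W.apOfModel W.IsGoodPrimeFor hp with
    ⟨R, hR, hRa⟩ | ⟨g, 𝔪', hg, hmax', hpm', hg'⟩
  · exfalso
    obtain ⟨D⟩ := Attach.exists_heckeLattice (M * P.p)
    obtain ⟨y, hy, hpy, hyT⟩ := exists_eigen_torsion D hf hp hmax hpm
    obtain ⟨A, -, hA, -⟩ := Alg.exists_place_frobenius P.p hp
    obtain ⟨Cv, hCv⟩ := hW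
    rw [Local.freyCurve_eq] at hCv
    have h2 : P.p ≠ 2 := by have := P.hp5; omega
    have hdvd : (P.p : ℤ) ∣ P.freyCurveInt.Δ := by
      have h : (P.p : ℤ) ∣ P.freyCurveInt.Δ * 2 ^ 8 := by
        rw [Local.freyCurveInt_Δ]
        exact dvd_pow (hcond.p_dvd_abc (dvd_mul_left _ _)) (by have := P.hp5; omega)
      refine ((Nat.prime_iff_prime_int.mp hp).dvd_or_dvd h).resolve_right fun h' => h2 ?_
      have h'' := (Nat.prime_iff_prime_int.mp hp).dvd_of_dvd_pow h'
      exact (Nat.prime_dvd_prime_iff_eq hp Nat.prime_two).mp (by exact_mod_cast h'')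
    exact mazur_absurd hM P.hp5 hΔ hirrW (F := P.freyCurveInt)
      ⟨hp, by have := P.hp5; omega, hA, Local.freyCurveInt_Δ_ne_zero P, hdvd, Local.freyCurveInt_semistable P hp,
        Local.freyCurveInt_padicValInt_odd P hp h2⟩
      hCv hR hRa hy ⟨hpy, fun ℓ hℓ h1 h2 h3 => hyT ℓ hℓ h2 _ (hcong ℓ hℓ h1 h2 h3)⟩
  · exact ⟨M, dvd_mul_right M P.p, hM, g, W, 𝔪', hg, hW, hmax', hpm', hg'⟩

end FLTAgent.TOR
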