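import Mathlib

/-!
A finite module of exponent `p` with a fixed vector for `τ₀`, on which `(σ - 1) (σ - a σ)` is
nilpotent for all `σ`, has a trivial quotient of a submodule.
-/

set_option autoImplicit false
set_option linter.unusedSectionVars false
set_option linter.style.haveILetI false

noncomputable section

namespace FLTAgent.TOR

variable {G : Type*} [Group G] {p : ℕ}

/-- `(σ - 1) (σ - a)` -/
def quadEnd (W : Type*) [AddCommGroup W] [DistribMulAction G W] (a : ℤ) (σ : G) : Module.End ℤ W :=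
  (DistribSMul.toLinearMap ℤ W σ - 1) * (DistribSMul.toLinearMap ℤ W σ - (a : Module.End ℤ W))

theorem quadEnd_apply {W : Type*} [AddCommGroup W] [DistribMulAction G W] (a : ℤ) (σ : G) (y : W) :
    quadEnd W a σ y = σ • (σ • y - a • y) - (σ • y - a • y) := by
  simp [quadEnd, Module.End.intCast_apply]

/-- on a simple module with a fixed vector of `τ₀` everything is trivial -/
theorem smul_eq_self_of_simple (hp : p.Prime) {Q : Type*} [AddCommGroup Q] [Finite Q]
    [DistribMulAction G Q] (hpQ : ∀ q : Q, p • q = 0) (a : G →* ZMod p)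
    (hnil : ∀ σ : G, IsNilpotent (quadEnd Q ((a σ).val : ℤ) σ))
    (hsimple : ∀ F : AddSubgroup Q, (∀ σ : G, ∀ x ∈ F, σ • x ∈ F) → F = ⊥ ∨ F = ⊤)
    {τ₀ : G} (ha₀ : a τ₀ ≠ 1) {q₀ : Q} (hq₀ : q₀ ≠ 0) (hτq₀ : τ₀ • q₀ = q₀) :
    ∀ (σ : G) (q : Q), σ • q = q := by
  classical
  haveI := Fact.mk hp
  haveI : NeZero p := ⟨hp.ne_zero⟩
  set t : G → Module.End ℤ Q := fun σ => DistribSMul.toLinearMap ℤ Q σ with ht
  have htmul : ∀ σ σ', t (σ * σ') = t σ * t σ' := fun σ σ' =>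
    LinearMap.ext fun q => mul_smul σ σ' q
  have ht1 : t 1 = 1 := LinearMap.ext fun q => one_smul G q
  have htpow : ∀ σ (n : ℕ), t (σ ^ n) = t σ ^ n := by
    intro σ n
    induction n with
    | zero => rw [pow_zero, pow_zero, ht1]
    | succ n ih => rw [pow_succ, pow_succ, htmul, ih]
  have hpE : (p : Module.End ℤ Q) = 0 := LinearMap.ext fun q => by
    rw [Module.End.natCast_apply, hpQ q, LinearMap.zero_apply]
  have hcast : ∀ z z' : ℤ, (z : ZMod p) = z' → (z : Module.End ℤ Q) = z' := by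
    intro z z' h
    obtain ⟨d, hd⟩ := (ZMod.intCast_eq_intCast_iff_dvd_sub _ _ p).mp h
    rw [show z' = z + (p : ℤ) * d by linarith, Int.cast_add, Int.cast_mul, Int.cast_natCast, hpE,
      zero_mul, add_zero]
  -- the subgroup where `a = 1`
  set G₀ : Subgroup G := a.ker
  have hG₀ : ∀ {σ}, σ ∈ G₀ ↔ a σ = 1 := fun {σ} => MonoidHom.mem_ker
  let f : G₀ →* Equiv.Perm Q := MulAction.toPermHom G₀ Q
  have hPG : IsPGroup p f.range := by
    rintro ⟨_, σ, rfl⟩
    obtain ⟨m, hm⟩ := hnil σ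
    have h1 : (t (σ : G) - 1) ^ (2 * m) = 0 := by
      rw [pow_mul, sq, ← hm, quadEnd]
      congr 2
      rw [hcast _ 1 (by rw [Int.cast_natCast, ZMod.natCast_zmod_val, Int.cast_one]; exact hG₀.mp σ.2),
        Int.cast_one]
    refine ⟨2 * m, Subtype.ext (Equiv.ext fun q => ?_)⟩
    rw [SubgroupClass.coe_pow, OneMemClass.coe_one, ← map_pow, Equiv.Perm.one_apply]
    change ((σ : G) ^ p ^ (2 * m)) • q = q
    have h2 : t ((σ : G) ^ p ^ (2 * m)) = 1 := by
      obtain ⟨r, hr⟩ := (Commute.one_right (t (σ : G) - 1)).exists_add_pow_prime_pow_eq hp (2 * m)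
      rw [sub_add_cancel] at hr
      rw [htpow, hr, hpE, pow_eq_zero_of_le (Nat.lt_pow_self hp.one_lt).le h1, one_pow, zero_add,
        zero_mul, zero_mul, zero_mul, add_zero]
    exact LinearMap.congr_fun h2 q
  have hstab0 : ∀ q : Q, (∀ ν : G, a ν = 1 → ν • q = q) → ∀ σ ν : G, a ν = 1 → ν • σ • q = σ • q := by
    intro q hq σ ν hν
    have h1 : a (σ⁻¹ * ν * σ) = 1 := by
      rw [map_mul, map_mul, hν, mul_one, ← map_mul, inv_mul_cancel, map_one]
    have h2 := congrArg (σ • ·) (hq _ h1)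
    simp only [mul_smul, smul_inv_smul] at h2
    exact h2
  let F₀ : AddSubgroup Q :=
    { carrier := {q | ∀ ν : G, a ν = 1 → ν • q = q}
      add_mem' := fun hx hy ν hν => by rw [smul_add, hx ν hν, hy ν hν]
      zero_mem' := fun ν _ => smul_zero ν
      neg_mem' := fun hx ν hν => by rw [smul_neg, hx ν hν] }
  have hF₀ : F₀ = ⊤ := by
    refine (hsimple F₀ fun σ x hx ν hν => hstab0 x hx σ ν hν).resolve_left fun hbot => ?_
    haveI : Finite f.range := inferInstance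
    obtain ⟨x, hx, hne⟩ := hPG.exists_fixed_point_of_prime_dvd_card_of_fixed_point Q (p := p)
      (by
        rw [← addOrderOf_eq_prime (hpQ q₀) hq₀]
        exact addOrderOf_dvd_natCard q₀)
      (a := (0 : Q)) (by rintro ⟨_, σ, rfl⟩; exact smul_zero σ)
    have : x ∈ F₀ := fun ν hν => hx ⟨f ⟨ν, hG₀.mpr hν⟩, ⟨ν, hG₀.mpr hν⟩, rfl⟩
    rw [hbot, AddSubgroup.mem_bot] at this
    exact hne this.symm
  have hI₀ : ∀ ν : G, a ν = 1 → ∀ q : Q, ν • q = q := fun ν hν q =>
    (show q ∈ F₀ by rw [hF₀]; trivial) ν hν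
  have hcomm : ∀ (σ σ' : G) (q : Q), σ • σ' • q = σ' • σ • q := by
    intro σ σ' q
    have h1 : a ((σ' * σ)⁻¹ * (σ * σ')) = 1 := by
      rw [map_mul, map_mul a σ, mul_comm (a σ) (a σ'), ← map_mul a σ', ← map_mul, inv_mul_cancel,
        map_one]
    have h2 := congrArg (fun z => (σ' * σ) • z) (hI₀ _ h1 q)
    rw [← mul_smul, mul_inv_cancel_left, mul_smul, mul_smul] at h2
    exact h2
  have hker : ∀ σ : G, (∃ x : Q, x ≠ 0 ∧ σ • x = x) → ∀ q : Q, σ • q = q := by
    intro σ ⟨x, hx, hσx⟩ q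
    let F : AddSubgroup Q :=
      { carrier := {q | σ • q = q}
        add_mem' := fun {u w} (hu : σ • u = u) (hw : σ • w = w) => show σ • (u + w) = u + w by
          rw [smul_add, hu, hw]
        zero_mem' := smul_zero σ
        neg_mem' := fun {u} (hu : σ • u = u) => show σ • -u = -u by rw [smul_neg, hu] }
    have hF : F = ⊤ := (hsimple F fun σ' u (hu : σ • u = u) => show σ • σ' • u = σ' • u by
      rw [hcomm, hu]).resolve_left fun hbot => hx (by
        have : x ∈ F := hσx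
        rwa [hbot, AddSubgroup.mem_bot] at this)
    exact (show q ∈ F by rw [hF]; trivial)
  have hτ : ∀ q : Q, τ₀ • q = q := hker τ₀ ⟨q₀, hq₀, hτq₀⟩
  intro σ
  refine hker σ ?_
  -- `σ - 1` is nilpotent
  have htσ : t (σ * τ₀) = t σ := LinearMap.ext fun q => by
    show (σ * τ₀) • q = σ • q
    rw [mul_smul, hτ]
  set n₁ := (t σ - 1) * (t σ - ((a σ).val : ℤ))
  set n₂ := (t σ - 1) * (t σ - (((a σ).val : ℤ) * ((a τ₀).val : ℤ) : ℤ))
  have hn₁ : IsNilpotent n₁ := hnil σ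
  have hn₂ : IsNilpotent n₂ := by
    have h := hnil (σ * τ₀)
    rw [quadEnd] at h
    rw [show DistribSMul.toLinearMap ℤ Q (σ * τ₀) = t σ from htσ,
      hcast _ (((a σ).val : ℤ) * ((a τ₀).val : ℤ)) (by
        simp [Int.cast_mul, map_mul])] at h
    exact h
  have hc12 : Commute n₁ n₂ := by
    have hC : ∀ z : ℤ, Commute (t σ - 1) (t σ - (z : Module.End ℤ Q)) := fun z =>
      ((Commute.refl (t σ)).sub_right (Int.cast_commute z (t σ)).symm).sub_left (Commute.one_left _)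
    have hD : ∀ z z' : ℤ, Commute (t σ - (z : Module.End ℤ Q)) (t σ - (z' : Module.End ℤ Q)) := fun z z' =>
      ((Commute.refl (t σ)).sub_right (Int.cast_commute z' (t σ)).symm).sub_left
        ((Int.cast_commute z (t σ)).sub_right (Int.cast_commute z _))
    exact ((Commute.refl (t σ - 1)).mul_right (hC _)).mul_left ((hC _).symm.mul_right (hD _ _))
  have hd : n₁ - n₂ = (((a σ).val : ℤ) * ((a τ₀).val : ℤ) - (a σ).val : ℤ) * (t σ - 1) := by
    simp only [n₁, n₂]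
    rw [← mul_sub, sub_sub_sub_cancel_left, ← Int.cast_sub]
    exact (Int.cast_commute _ _).eq.symm
  obtain ⟨m, hm⟩ := hc12.isNilpotent_sub hn₁ hn₂
  have hunit : ∃ u : ℤ, (u : Module.End ℤ Q) *
      ((((a σ).val : ℤ) * ((a τ₀).val : ℤ) - (a σ).val : ℤ) : Module.End ℤ Q) = 1 := by
    set c : ZMod p := a σ * a τ₀ - a σ
    have hc : c ≠ 0 := by
      simp only [c]
      rw [show a σ * a τ₀ - a σ = a σ * (a τ₀ - 1) by ring]
      refine mul_ne_zero (fun h0 => ?_) (sub_ne_zero.mpr ha₀)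
      have := map_mul a σ σ⁻¹
      rw [h0, zero_mul, mul_inv_cancel, map_one] at this
      exact one_ne_zero this
    refine ⟨(c⁻¹).val, ?_⟩
    rw [← Int.cast_mul, hcast _ 1 ?_, Int.cast_one]
    push_cast
    rw [ZMod.natCast_zmod_val, ZMod.natCast_zmod_val, ZMod.natCast_zmod_val]
    exact inv_mul_cancel₀ hc
  obtain ⟨u, hu⟩ := hunit
  have hnilσ : (t σ - 1) ^ m = 0 := by
    rw [hd, (Int.cast_commute _ _).mul_pow] at hm
    calc (t σ - 1) ^ m = ((u : Module.End ℤ Q) * _) ^ m * (t σ - 1) ^ m := by rw [hu, one_pow, one_mul]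
      _ = 0 := by rw [(Int.cast_commute u _).mul_pow, mul_assoc, hm, mul_zero]
  classical
  have hex : ∃ i : ℕ, ((t σ - 1) ^ i : Module.End ℤ Q) q₀ = 0 := ⟨m, by rw [hnilσ]; rfl⟩
  have hpos : Nat.find hex ≠ 0 := fun h0 => hq₀ (by
    have := Nat.find_spec hex
    rwa [h0, pow_zero, Module.End.one_apply] at this)
  obtain ⟨i, hi⟩ := Nat.exists_eq_succ_of_ne_zero hpos
  refine ⟨((t σ - 1) ^ i) q₀, Nat.find_min hex (by omega), sub_eq_zero.mp ?_⟩
  have := Nat.find_spec hex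
  rw [hi, pow_succ', Module.End.mul_apply] at this
  exact this

/-- a nonzero element of a module of exponent `p` goes to one under some homomorphism -/
theorem exists_hom_eq_one (hp : p.Prime) {Q : Type*} [AddCommGroup Q] (hpQ : ∀ q : Q, p • q = 0)
    {q : Q} (hq : q ≠ 0) : ∃ φ : Q →+ ZMod p, φ q = 1 := by
  haveI := Fact.mk hp
  letI : Module (ZMod p) Q := AddCommGroup.zmodModule hpQ
  set b := Module.Basis.ofVectorSpace (ZMod p) Q
  obtain ⟨i, hi⟩ : ∃ i, LinearMap.toAddMonoidHom (b.coord i) q ≠ 0 := by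
    by_contra hall
    push Not at hall
    exact hq (b.forall_coord_eq_zero_iff.mp hall)
  exact ⟨(AddMonoidHom.mulLeft (LinearMap.toAddMonoidHom (b.coord i) q)⁻¹).comp
    (LinearMap.toAddMonoidHom (b.coord i)), inv_mul_cancel₀ hi⟩

/-- a trivial quotient of a stable subgroup -/
theorem exists_trivial_constituent (hp : p.Prime) {K : Type*} [AddCommGroup K] [Finite K]
    [DistribMulAction G K] (hpK : ∀ x : K, p • x = 0) (a : G →* ZMod p)
    (hnil : ∀ σ : G, IsNilpotent (quadEnd K ((a σ).val : ℤ) σ))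
    {τ₀ : G} (ha₀ : a τ₀ ≠ 1) {z : K} (hz : z ≠ 0) (hτz : τ₀ • z = z) :
    ∃ (K' : AddSubgroup K) (hK' : ∀ σ : G, ∀ x ∈ K', σ • x ∈ K') (φ : K' →+ ZMod p) (c₁ : K'),
      φ c₁ = 1 ∧ ∀ (σ : G) (x : K'), φ ⟨σ • (x : K), hK' σ x x.2⟩ = φ x := by
  classical
  haveI := Fact.mk hp
  let P : AddSubgroup K → Prop := fun F =>
    (∀ σ : G, ∀ x ∈ F, σ • x ∈ F) ∧ ∃ x ∈ F, x ≠ 0 ∧ τ₀ • x = x
  obtain ⟨K', hP, hmin⟩ := Set.Finite.exists_minimal (s := {F | P F}) (Set.toFinite _)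
    ⟨⊤, fun σ x _ => AddSubgroup.mem_top _, z, AddSubgroup.mem_top _, hz, hτz⟩
  obtain ⟨hK', y, hy, hy0, hτy⟩ := hP
  obtain ⟨K₂, ⟨hK₂, hle, hyK₂⟩, hmax⟩ := Set.Finite.exists_maximal
    (s := {F : AddSubgroup K | (∀ σ : G, ∀ x ∈ F, σ • x ∈ F) ∧ F ≤ K' ∧ F ≠ K'}) (Set.toFinite _)
    ⟨⊥, fun σ x hx => by rw [AddSubgroup.mem_bot] at hx ⊢; rw [hx, smul_zero], bot_le, fun h => hy0 (by
      rw [← h, AddSubgroup.mem_bot] at hy; exact hy)⟩
  have hyK₂' : y ∉ K₂ := fun h => hyK₂ (le_antisymm hle (hmin ⟨hK₂, y, h, hy0, hτy⟩ hle))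
  letI : SMul G K' := ⟨fun σ x => ⟨σ • (x : K), hK' σ x x.2⟩⟩
  letI : DistribMulAction G K' :=
    { one_smul := fun x => Subtype.ext (one_smul G (x : K))
      mul_smul := fun σ τ x => Subtype.ext (mul_smul σ τ (x : K))
      smul_zero := fun σ => Subtype.ext (smul_zero σ)
      smul_add := fun σ x y => Subtype.ext (smul_add σ (x : K) (y : K)) }
  set R := K₂.addSubgroupOf K'
  have hR : ∀ (σ : G) (x : K'), x ∈ R → σ • x ∈ R := fun σ x hx => by
    rw [AddSubgroup.mem_addSubgroupOf] at hx ⊢; exact hK₂ σ _ hx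
  letI : SMul G (K' ⧸ R) := ⟨fun σ => QuotientAddGroup.map R R (DistribSMul.toAddMonoidHom K' σ)
    fun x hx => hR σ x hx⟩
  have hmk : ∀ (σ : G) (x : K'), σ • (QuotientAddGroup.mk x : K' ⧸ R) = QuotientAddGroup.mk (σ • x) :=
    fun σ x => rfl
  letI : DistribMulAction G (K' ⧸ R) :=
    { one_smul := fun q => by
        obtain ⟨x, rfl⟩ := QuotientAddGroup.mk_surjective q
        rw [hmk, one_smul]
      mul_smul := fun σ τ q => by
        obtain ⟨x, rfl⟩ := QuotientAddGroup.mk_surjective q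
        rw [hmk, hmk, hmk, mul_smul]
      smul_zero := fun σ => map_zero _
      smul_add := fun σ => map_add _ }
  let π : K' →+ K' ⧸ R := QuotientAddGroup.mk' R
  have hπσ : ∀ (σ : G) (x : K'), π (σ • x) = σ • π x := fun σ x => rfl
  have hnilQ : ∀ σ : G, IsNilpotent (quadEnd (K' ⧸ R) ((a σ).val : ℤ) σ) := by
    intro σ
    obtain ⟨m, hm⟩ := hnil σ
    refine ⟨m, LinearMap.ext fun q => ?_⟩
    obtain ⟨x, rfl⟩ := QuotientAddGroup.mk_surjective q
    have h1 : ∀ (i : ℕ) (x : K'), ∃ x' : K', (x' : K) = (quadEnd K ((a σ).val : ℤ) σ ^ i) (x : K) ∧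
        (quadEnd (K' ⧸ R) ((a σ).val : ℤ) σ ^ i) (π x) = π x' := by
      intro i
      induction i with
      | zero => exact fun x => ⟨x, rfl, rfl⟩
      | succ i ih =>
        intro x
        obtain ⟨x', hx', hq'⟩ := ih x
        refine ⟨σ • (σ • x' - ((a σ).val : ℤ) • x') - (σ • x' - ((a σ).val : ℤ) • x'), ?_, ?_⟩
        · rw [pow_succ', Module.End.mul_apply, ← hx', quadEnd_apply]
          rfl
        · rw [pow_succ', Module.End.mul_apply, hq', quadEnd_apply]
          simp only [map_sub, map_zsmul, hπσ]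
    obtain ⟨x', hx', hq'⟩ := h1 m x
    rw [hm, LinearMap.zero_apply, ZeroMemClass.coe_eq_zero] at hx'
    rw [show (QuotientAddGroup.mk x : K' ⧸ R) = π x from rfl, hq', hx', map_zero, LinearMap.zero_apply]
  have hQ₀ : π ⟨y, hy⟩ ≠ 0 := fun h0 => hyK₂' ((QuotientAddGroup.eq_zero_iff _).mp h0 :)
  have htriv := smul_eq_self_of_simple hp (Q := K' ⧸ R)
    (fun q => by
      obtain ⟨x, rfl⟩ := QuotientAddGroup.mk_surjective q
      rw [← QuotientAddGroup.mk_nsmul, show p • x = 0 from Subtype.ext (hpK x), QuotientAddGroup.mk_zero])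
    a hnilQ
    (fun F hF => by
      by_cases hb : F = ⊥
      · exact Or.inl hb
      refine Or.inr ?_
      let V : AddSubgroup K := (F.comap π).map K'.subtype
      have hV₂ : K₂ ≤ V := fun x hx => ⟨⟨x, hle hx⟩, by
        show π _ ∈ F
        rw [show π ⟨x, hle hx⟩ = 0 from (QuotientAddGroup.eq_zero_iff _).mpr hx]
        exact F.zero_mem, rfl⟩
      have hVK : V ≤ K' := by rintro _ ⟨x, -, rfl⟩; exact x.2
      have hVst : ∀ σ : G, ∀ x ∈ V, σ • x ∈ V := by
        rintro σ _ ⟨x, hx, rfl⟩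
        exact ⟨σ • x, show π (σ • x) ∈ F from hπσ σ x ▸ hF σ _ hx, rfl⟩
      have hVeq : V = K' := by
        by_contra hne
        have h1 : V ≤ K₂ := hmax ⟨hVst, hVK, hne⟩ hV₂
        refine hb ((AddSubgroup.eq_bot_iff_forall _).mpr fun q hq => ?_)
        obtain ⟨x, rfl⟩ := QuotientAddGroup.mk_surjective q
        exact (QuotientAddGroup.eq_zero_iff _).mpr (h1 ⟨x, hq, rfl⟩)
      refine (AddSubgroup.eq_top_iff' F).mpr fun q => ?_
      obtain ⟨x, rfl⟩ := QuotientAddGroup.mk_surjective q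
      obtain ⟨x', hx', hxx⟩ := (hVeq.symm ▸ x.2 : (x : K) ∈ V)
      rw [← Subtype.ext (a2 := x) hxx]
      exact hx')
    ha₀ hQ₀ (by rw [← hπσ]; exact congrArg π (Subtype.ext hτy))
  obtain ⟨φ, hφ⟩ := exists_hom_eq_one hp (fun q => by
    obtain ⟨x, rfl⟩ := QuotientAddGroup.mk_surjective q
    rw [← QuotientAddGroup.mk_nsmul, show p • x = 0 from Subtype.ext (hpK x), QuotientAddGroup.mk_zero])
    hQ₀
  refine ⟨K', hK', φ.comp π, ⟨y, hy⟩, hφ, fun σ x => ?_⟩
  show φ (π (σ • x)) = φ (π x)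
  rw [hπσ, htriv]

end FLTAgent.TOR

end
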