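import Fermat.Agent.TOR.FlatConn
import Fermat.Agent.TOR.Constituent
import Fermat.Agent.FlatDatum.Main
import Fermat.Agent.Attach.Cyclotomic

/-!
The `p`-torsion in the kernel of reduction at `p ∤ M` of `J₀(M)` on which inertia has only the
eigenvalues `χ` and `1` has no vector fixed by an inertia element `τ₀` with `χ τ₀ ≠ 1`.
-/

set_option autoImplicit false
set_option linter.unusedSectionVars false
set_option linter.style.haveILetI false

noncomputable section

open IsLocalRing ModularCurve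
open FLTAgent.Attach (cyc cyc_one cyc_mul)

namespace FLTAgent.TOR

open FLTAgent.Reduction (Qb Ctx)
open FLTAgent.FlatDatum (torJ)

local notation "GalQ" => AlgebraicClosure ℚ ≃ₐ[ℚ] AlgebraicClosure ℚ

/-- `quadEnd` commutes with conjugation -/
theorem quadEnd_pow_smul {G : Type*} [Group G] {W : Type*} [AddCommGroup W] [DistribMulAction G W]
    (a : ℤ) (σ ν : G) (x : W) : ∀ j : ℕ,
    (quadEnd W a σ ^ j) (ν • x) = ν • (quadEnd W a (ν⁻¹ * σ * ν) ^ j) x := by
  intro j
  induction j with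
  | zero => rfl
  | succ j ih =>
    have h : ∀ y : W, σ • ν • y = ν • (ν⁻¹ * σ * ν) • y := fun y => by
      rw [← mul_smul, ← mul_smul, ← mul_assoc, mul_inv_cancel_left]
    rw [pow_succ', Module.End.mul_apply, ih, pow_succ', Module.End.mul_apply, quadEnd_apply,
      quadEnd_apply]
    have hz : ∀ (y : W), a • (ν • y) = ν • (a • y) := fun y => smul_comm a ν y
    rw [h, hz, ← smul_sub, h, ← smul_sub]

/-- no fixed vectors in a connected part of a model of exponent `p` -/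
theorem eq_zero_of_fixed_model {p : ℕ} (hp : p.Prime) (hp2 : p ≠ 2) [NeZero p]
    {A : ValuationSubring Qb} (hA : A.LiesOverPrime p) {X : Type} [AddCommGroup X] [Finite X]
    [DistribMulAction GalQ X] (hpX : ∀ x : X, p • x = 0) (R : Flat.RawModel X A) (Red : AddSubgroup X)
    (hRed : ∀ σ ∈ A.inertiaSubgroupIn ℚ, ∀ x ∈ Red, σ • x ∈ Red)
    (hR : ∀ f ∈ R.gens, ∀ c ∈ Red, A.valuation (f c - f 0) < 1)
    {τ₀ : GalQ} (hτ₀ : τ₀ ∈ A.inertiaSubgroupIn ℚ) (ha₀ : cyc p τ₀ ≠ 1)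
    {w : X} (hw : w ∈ Red) (hfix : τ₀ • w = w)
    (hnil : ∀ σ ∈ A.inertiaSubgroupIn ℚ, ∃ j : ℕ,
      (quadEnd (G := GalQ) X ((cyc p σ).val : ℤ) σ ^ j) w = 0) : w = 0 := by
  classical
  by_contra hw0
  set I := A.inertiaSubgroupIn ℚ
  let Q : ℕ → GalQ → Module.End ℤ X := fun j σ =>
    quadEnd (G := GalQ) X ((cyc p σ).val : ℤ) σ ^ j
  have hconj : ∀ σ ν : GalQ, cyc p (ν⁻¹ * σ * ν) = cyc p σ := fun σ ν => by
    rw [cyc_mul, cyc_mul, mul_comm, ← mul_assoc, ← cyc_mul, mul_inv_cancel, cyc_one, one_mul]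
  have hmono : ∀ (σ : GalQ) (x : X) (i j : ℕ), i ≤ j → Q i σ x = 0 → Q j σ x = 0 := by
    intro σ x i j hij h
    show (quadEnd (G := GalQ) X _ σ ^ j) x = 0
    rw [← Nat.sub_add_cancel hij, pow_add, Module.End.mul_apply, h, map_zero]
  let K : AddSubgroup X :=
    { carrier := {x | x ∈ Red ∧ ∀ σ ∈ I, ∃ j, Q j σ x = 0}
      add_mem' := by
        rintro x y ⟨hx, hx'⟩ ⟨hy, hy'⟩
        refine ⟨add_mem hx hy, fun σ hσ => ?_⟩
        obtain ⟨i, hi⟩ := hx' σ hσ
        obtain ⟨j, hj⟩ := hy' σ hσ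
        exact ⟨max i j, by rw [map_add, hmono σ _ i _ (le_max_left i j) hi,
          hmono σ _ j _ (le_max_right i j) hj, add_zero]⟩
      zero_mem' := ⟨zero_mem _, fun σ _ => ⟨0, map_zero _⟩⟩
      neg_mem' := by
        rintro x ⟨hx, hx'⟩
        refine ⟨neg_mem hx, fun σ hσ => ?_⟩
        obtain ⟨i, hi⟩ := hx' σ hσ
        exact ⟨i, by rw [map_neg, hi, neg_zero]⟩ }
  have hKst : ∀ ν : I, ∀ x ∈ K, (ν : GalQ) • x ∈ K := by
    rintro ⟨ν, hν⟩ x ⟨hx, hx'⟩
    refine ⟨hRed ν hν x hx, fun σ hσ => ?_⟩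
    obtain ⟨j, hj⟩ := hx' (ν⁻¹ * σ * ν) (mul_mem (mul_mem (inv_mem hν) hσ) hν)
    refine ⟨j, ?_⟩
    show (quadEnd (G := GalQ) X ((cyc p σ).val : ℤ) σ ^ j) (ν • x) = 0
    rw [quadEnd_pow_smul, ← hconj σ ν, show (quadEnd (G := GalQ) X
      ((cyc p (ν⁻¹ * σ * ν)).val : ℤ) (ν⁻¹ * σ * ν) ^ j) x = 0 from hj]
    exact smul_zero ν
  letI : SMul I K := ⟨fun σ x => ⟨(σ : GalQ) • (x : X), hKst σ x x.2⟩⟩
  letI : DistribMulAction I K :=
    { one_smul := fun x => Subtype.ext (one_smul GalQ (x : X))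
      mul_smul := fun σ τ x => Subtype.ext (mul_smul (σ : GalQ) (τ : GalQ) (x : X))
      smul_zero := fun σ => Subtype.ext (smul_zero (σ : GalQ))
      smul_add := fun σ x y => Subtype.ext (smul_add (σ : GalQ) (x : X) (y : X)) }
  let a : I →* ZMod p :=
    { toFun := fun σ => cyc p (σ : GalQ), map_one' := cyc_one p,
      map_mul' := fun σ τ => cyc_mul p (σ : GalQ) τ }
  have hpow : ∀ (σ : I) (i : ℕ) (x : K),
      (((quadEnd K ((a σ).val : ℤ) σ ^ i) x : K) : X) = Q i σ (x : X) := by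
    intro σ i
    induction i with
    | zero => exact fun x => rfl
    | succ i ih =>
      intro x
      show _ = (quadEnd (G := GalQ) X _ (σ : GalQ) ^ (i + 1)) _
      rw [pow_succ', pow_succ', Module.End.mul_apply, Module.End.mul_apply, quadEnd_apply]
      conv_rhs => rw [show (quadEnd (G := GalQ) X ((cyc p (σ : GalQ)).val : ℤ) (σ : GalQ) ^ i)
        (x : X) = Q i σ (x : X) from rfl, ← ih x, quadEnd_apply]
      rfl
  have hnilK : ∀ σ : I, IsNilpotent (quadEnd K ((a σ).val : ℤ) σ) := by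
    intro σ
    haveI := Fintype.ofFinite K
    choose j hj using fun x : K => x.2.2 σ σ.2
    refine ⟨Finset.univ.sup j, LinearMap.ext fun x => Subtype.ext ?_⟩
    rw [hpow]
    exact hmono σ _ _ _ (Finset.le_sup (Finset.mem_univ x)) (hj x)
  obtain ⟨K', hK', φ, c₁, hc₁, hφ⟩ := exists_trivial_constituent (G := I) hp (K := K)
    (fun x => Subtype.ext (hpX (x : X))) a hnilK (τ₀ := ⟨τ₀, hτ₀⟩) ha₀
    (z := ⟨w, hw, hnil⟩) (fun h => hw0 (congrArg (fun x : K => (x : X)) h)) (Subtype.ext hfix)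
  let r : K' → X := fun c => ((c : K) : X)
  let gens : Set (K' → Qb) := (fun f c => f (r c)) '' R.gens
  have hadj : ∀ u ∈ Algebra.adjoin A R.gens, (fun c => u (r c)) ∈ Algebra.adjoin A gens := by
    intro u hu
    induction hu using Algebra.adjoin_induction with
    | mem x hx => exact Algebra.subset_adjoin ⟨x, hx, rfl⟩
    | algebraMap s => exact Subalgebra.algebraMap_mem _ s
    | add x y _ _ hx hy => exact add_mem hx hy
    | mul x y _ _ hx hy => exact mul_mem hx hy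
  refine no_invariant_hom (K := K') hp hA hp2 (gens := gens) (R.finite.image _) ?_ ?_
    (fun σ c => if h : σ ∈ I then ⟨(⟨σ, h⟩ : I) • (c : K), hK' ⟨σ, h⟩ c c.2⟩ else c) ?_ ?_ ?_
    φ hc₁ ?_
  · rintro _ ⟨f, hf, rfl⟩ c
    exact R.val_mem f hf _
  · intro c d h
    exact Subtype.ext (Subtype.ext (R.separates _ _ fun f hf => h _ ⟨f, hf, rfl⟩))
  · rintro σ hσ _ ⟨f, hf, rfl⟩ c
    rw [dif_pos hσ]
    have h := congrFun (R.inertia σ hσ f hf) (σ • r c)
    rw [Flat.conjF, inv_smul_smul] at h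
    exact h.symm
  · rintro _ ⟨f, hf, rfl⟩
    have key : ∀ F ∈ Submodule.span A
        (Flat.tensorSet ((Algebra.adjoin A R.gens : Subalgebra A _) : Set (X → Qb))),
        (fun x : K' × K' => F (r x.1, r x.2)) ∈ Submodule.span A
          (Flat.tensorSet ((Algebra.adjoin A gens : Subalgebra A (K' → Qb)) : Set (K' → Qb))) := by
      intro F hF
      induction hF using Submodule.span_induction with
      | mem x hx =>
        obtain ⟨u, hu, v, hv, rfl⟩ := hx
        exact Submodule.subset_span ⟨_, hadj u hu, _, hadj v hv, rfl⟩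
      | zero => exact zero_mem _
      | add x y _ _ hx hy => exact add_mem hx hy
      | smul s x _ hx => exact Submodule.smul_mem _ s hx
    exact key _ (R.comul f hf)
  · rintro _ ⟨f, hf, rfl⟩ c
    exact hR f hf _ (c : K).2.1
  · intro σ hσ c
    rw [dif_pos hσ]
    exact hφ ⟨σ, hσ⟩ c

theorem quadEnd_pow_map {G : Type*} [Group G] {W W' : Type*} [AddCommGroup W] [DistribMulAction G W]
    [AddCommGroup W'] [DistribMulAction G W'] (f : W →+ W') (hf : ∀ (σ : G) x, f (σ • x) = σ • f x)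
    (a : ℤ) (σ : G) (x : W) : ∀ j : ℕ, f ((quadEnd W a σ ^ j) x) = (quadEnd W' a σ ^ j) (f x) := by
  intro j
  induction j with
  | zero => rfl
  | succ j ih =>
    rw [pow_succ', pow_succ', Module.End.mul_apply, Module.End.mul_apply, ← ih, quadEnd_apply,
      quadEnd_apply]
    simp only [map_sub, map_zsmul, hf]

/-- no fixed vectors in the kernel of reduction -/
theorem eq_zero_of_fixed {M : ℕ} [NeZero M] {p : ℕ} (hp : p.Prime) (hp2 : p ≠ 2) (hpM : ¬ p ∣ M)
    {A : ValuationSubring Qb} (hA : A.LiesOverPrime p) [NeZero p]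
    {τ₀ : GalQ} (hτ₀ : τ₀ ∈ A.inertiaSubgroupIn ℚ) (ha₀ : cyc p τ₀ ≠ 1)
    {w : JZero M} (hw : p • w = 0) (hred : reductionModL A M w = 0) (hfix : τ₀ • w = w)
    (hnil : ∀ σ ∈ A.inertiaSubgroupIn ℚ, ∃ j : ℕ,
      (quadEnd (G := GalQ) (JZero M) ((cyc p σ).val : ℤ) σ ^ j) w = 0) : w = 0 := by
  haveI : Finite (torJ M p) :=
    ((Flat.finite_torsion (N := M) p hp.pos).subset fun x hx => hx).to_subtype
  obtain ⟨R, hR⟩ := Flat.exists_rawModel_conn M hp hpM hA (torJ M p) (torJ M p).subtype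
    Subtype.val_injective fun σ c => rfl
  have h := eq_zero_of_fixed_model hp hp2 hA (X := torJ M p) (fun x => Subtype.ext x.2) R
    ((reductionModL A M).comp (torJ M p).subtype).ker
    (fun σ hσ x hx => by
      rw [AddMonoidHom.mem_ker, AddMonoidHom.comp_apply] at hx ⊢
      rw [show (torJ M p).subtype (σ • x) = σ • (torJ M p).subtype x from rfl,
        Reduction.reductionModL_inertia ⟨hp, hpM, hA⟩ hσ, hx])
    (fun f hf c hc => hR f hf c hc) hτ₀ ha₀ (w := ⟨w, hw⟩) hred (Subtype.ext hfix)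
    (fun σ hσ => by
      obtain ⟨j, hj⟩ := hnil σ hσ
      refine ⟨j, Subtype.ext ?_⟩
      rw [← AddSubgroup.subtype_apply, quadEnd_pow_map (torJ M p).subtype fun σ x => rfl]
      exact hj)
  exact congrArg Subtype.val h

end FLTAgent.TOR

end
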