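import Mathlib

/-!
The algebra of the ordinary identity `(σ - a σ) (τ - 1) = 0` on a finite Galois module of `p`-power
exponent on which `σ + a σ σ⁻¹ - 1 - a σ` is nilpotent.
-/

set_option autoImplicit false
set_option linter.unusedSectionVars false

noncomputable section

namespace FLTAgent.TOR

variable {Γ : Type*} [Group Γ] {W : Type*} [AddCommGroup W] [DistribMulAction Γ W]

/-- `σ + a σ⁻¹ - (1 + a)` -/
def relEnd (a : ℕ) (σ : Γ) : Module.End ℤ W :=
  DistribSMul.toLinearMap ℤ W σ + (a : Module.End ℤ W) * DistribSMul.toLinearMap ℤ W σ⁻¹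
    - ((1 + a : ℕ) : Module.End ℤ W)

theorem relEnd_apply (a : ℕ) (σ : Γ) (y : W) :
    relEnd a σ y = σ • y + a • (σ⁻¹ • y) - (1 + a) • y := by
  simp [relEnd, Module.End.natCast_apply, add_smul]

theorem smul_relEnd (a : ℕ) (σ : Γ) (y : W) :
    σ • relEnd a σ y = σ • σ • y - (1 + a) • σ • y + a • y := by
  rw [relEnd_apply, smul_sub, smul_add, smul_comm σ a, smul_inv_smul, smul_comm σ (1 + a)]
  abel

open Polynomial in
/-- two operators differing by an invertible scalar generate -/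
theorem exists_split {R : Type*} [Ring R] (t : R) {a : ℕ} {u : ℤ}
    (hu : (u : R) * ((a : R) - 1) = 1) (j : ℕ) :
    ∃ P Q : R, (t - 1) ^ j * P + (t - (a : R)) ^ j * Q = 1 := by
  have hmem : (C u * ((X - 1) - (X - (a : ℤ[X])))) ^ (j + j) ∈
      Ideal.span {(X - 1 : ℤ[X]) ^ j} ⊔ Ideal.span {(X - (a : ℤ[X])) ^ j} := by
    rw [← Ideal.span_singleton_pow, ← Ideal.span_singleton_pow]
    refine Ideal.sup_pow_add_le_pow_sup_pow (Ideal.pow_mem_pow (Ideal.mul_mem_left _ _ ?_) _)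
    exact sub_mem (Ideal.mem_sup_left (Ideal.mem_span_singleton_self _))
      (Ideal.mem_sup_right (Ideal.mem_span_singleton_self _))
  obtain ⟨x, hx, y, hy, hxy⟩ := Submodule.mem_sup.mp hmem
  obtain ⟨P, rfl⟩ := Ideal.mem_span_singleton'.mp hx
  obtain ⟨Q, rfl⟩ := Ideal.mem_span_singleton'.mp hy
  refine ⟨aeval t P, aeval t Q, ?_⟩
  have h := congrArg (aeval t) hxy
  rw [mul_comm P, mul_comm Q] at h
  simp only [map_add, map_mul, map_pow, map_sub, map_one, map_natCast, aeval_X,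
    eq_intCast, map_intCast] at h
  rw [h, show t - 1 - (t - (a : R)) = (a : R) - 1 by abel, hu, one_pow]

/-- a nonzero element of `p`-power order has a multiple of order `p` -/
theorem eq_zero_of_forall_torsion {p : ℕ} (P : W → Prop) (hP : ∀ x, P x → P (p • x))
    (h : ∀ x, P x → p • x = 0 → x = 0) : ∀ (i : ℕ) (x : W), P x → p ^ i • x = 0 → x = 0 := by
  intro i
  induction i with
  | zero => intro x _ hx; simpa using hx
  | succ i ih =>
    intro x hx hi
    exact h x hx (ih (p • x) (hP x hx) (by rw [← mul_smul, ← pow_succ]; exact hi))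

/-- The ordinary identity. -/
theorem ordinary_identity (I : Subgroup Γ) (a : Γ → ℕ) {p k : ℕ} (X : AddSubgroup W)
    (hk : ∀ y : W, p ^ k • y = 0)
    (ha_mul : ∀ σ ∈ I, ∀ τ ∈ I, ∀ y : W, a (σ * τ) • y = a σ • a τ • y)
    (ha_one : ∀ y : W, a 1 • y = y)
    {τ₀ : Γ} (hτ₀ : τ₀ ∈ I) {u : ℤ} (hu : ∀ y : W, u • (a τ₀ • y - y) = y)
    (hX : ∀ σ ∈ I, ∀ y : W, σ • y - y ∈ X)
    (hcomm : ∀ σ ∈ I, ∀ (γ : Γ) (y : W), relEnd (a σ) σ (γ • y) = γ • relEnd (a σ) σ y)
    (hnil : ∀ σ ∈ I, IsNilpotent (relEnd (a σ) σ : Module.End ℤ W))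
    (hR2 : ∀ z ∈ X, p • z = 0 → τ₀ • z = z → z = 0)
    (hIrr : ∀ σ ∈ I, (∃ j : ℕ, ∀ y : W,
      ((DistribSMul.toLinearMap ℤ W τ₀ - (a τ₀ : Module.End ℤ W)) ^ j)
        (relEnd (a σ) σ y) = 0) → ∀ y : W, relEnd (a σ) σ y = 0) :
    ∀ σ ∈ I, ∀ τ ∈ I, ∀ y : W, σ • (τ • y - y) = a σ • (τ • y - y) := by
  classical
  set t : Module.End ℤ W := DistribSMul.toLinearMap ℤ W τ₀ with ht
  set a₀ : Module.End ℤ W := (a τ₀ : Module.End ℤ W) with ha₀
  have ht_apply : ∀ y, t y = τ₀ • y := fun y => rfl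
  have hu' : (u : Module.End ℤ W) * (a₀ - 1) = 1 := by
    refine LinearMap.ext fun y => ?_
    simp only [Module.End.mul_apply, Module.End.intCast_apply, LinearMap.sub_apply, ha₀,
      Module.End.natCast_apply, Module.End.one_apply]
    exact hu y
  -- fixed vectors of `X`
  have hfix0 : ∀ x ∈ X, τ₀ • x = x → x = 0 := fun x hx hfx =>
    eq_zero_of_forall_torsion (p := p) (fun x => x ∈ X ∧ τ₀ • x = x)
      (fun z hz => ⟨X.nsmul_mem hz.1 p, by rw [smul_comm, hz.2]⟩)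
      (fun z hz hpz => hR2 z hz.1 hpz hz.2) k x ⟨hx, hfx⟩ (hk x)
  have hfix : ∀ (i : ℕ), ∀ x ∈ X, ((t - 1) ^ i) x = 0 → x = 0 := by
    intro i
    induction i with
    | zero => intro x _ hx; simpa using hx
    | succ i ih =>
      intro x hx hi
      rw [pow_succ, Module.End.mul_apply] at hi
      have h1 : τ₀ • x - x = 0 := ih _ (hX τ₀ hτ₀ x) hi
      exact hfix0 x hx (sub_eq_zero.mp h1)
  -- `b` commutes with everything
  have hbt : ∀ σ ∈ I, Commute (relEnd (a σ) σ : Module.End ℤ W) t := fun σ hσ =>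
    LinearMap.ext fun y => hcomm σ hσ τ₀ y
  have hbfixed : ∀ σ ∈ I, ∀ z, τ₀ • z = z → τ₀ • relEnd (a σ) σ z = relEnd (a σ) σ z :=
    fun σ hσ z hz => by rw [← hcomm σ hσ τ₀ z, hz]
  have hbX : ∀ σ ∈ I, ∀ y, relEnd (a σ) σ y ∈ X := fun σ hσ y => by
    rw [relEnd_apply, show σ • y + a σ • (σ⁻¹ • y) - (1 + a σ) • y =
      (σ • y - y) + a σ • (σ⁻¹ • y - y) by rw [smul_sub, add_smul, one_smul]; abel]
    exact add_mem (hX σ hσ y) (X.nsmul_mem (hX _ (inv_mem hσ) y) _)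
  set b₀ : Module.End ℤ W := relEnd (a τ₀) τ₀ with hb₀
  have hfac : (t - 1) * (t - a₀) = t * b₀ := by
    refine LinearMap.ext fun y => ?_
    rw [Module.End.mul_apply, Module.End.mul_apply, hb₀, ht_apply, smul_relEnd]
    simp only [LinearMap.sub_apply, Module.End.one_apply, ha₀, Module.End.natCast_apply, map_sub,
      map_nsmul, ht_apply, add_smul, one_smul, smul_sub]
    abel
  -- `b₀ = 0`
  have hb0 : ∀ y, b₀ y = 0 := by
    obtain ⟨j, hj⟩ := hnil τ₀ hτ₀
    have hcm : Commute (t - 1) (t - a₀) :=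
      ((Commute.refl t).sub_right (Nat.cast_commute (a τ₀) t).symm).sub_left (Commute.one_left _)
    have hN : (t - 1) ^ j * (t - a₀) ^ j = 0 := by
      rw [← hcm.mul_pow, hfac, ((hbt τ₀ hτ₀).symm).mul_pow, hj, mul_zero]
    obtain ⟨P, Q, hPQ⟩ := exists_split t hu' j
    have hzero : ∀ w, b₀ (((t - a₀) ^ j) w) = 0 := by
      intro w
      set z := ((t - a₀) ^ j) w with hz
      have hz1 : τ₀ • z = z := by
        refine sub_eq_zero.mp (hfix j _ (hX τ₀ hτ₀ z) ?_)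
        have h1 : τ₀ • z - z = (t - 1) z := by simp [ht_apply]
        rw [h1, hz, ← Module.End.mul_apply, ← Module.End.mul_apply, (Commute.pow_self (t - 1) j).eq,
          mul_assoc, hN, mul_zero, LinearMap.zero_apply]
      rw [hb₀, relEnd_apply, inv_smul_eq_iff.mpr hz1.symm, hz1, add_smul, one_smul, sub_self]
    refine hIrr τ₀ hτ₀ ⟨j, fun y => ?_⟩
    have h2 : b₀ y = b₀ (((t - 1) ^ j) (P y)) := by
      conv_lhs => rw [show y = ((t - 1) ^ j) (P y) + ((t - a₀) ^ j) (Q y) from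
        (LinearMap.congr_fun hPQ y).symm, map_add, hzero, add_zero]
    change ((t - a₀) ^ j) (b₀ y) = 0
    rw [h2, ← Module.End.mul_apply, ← Module.End.mul_apply, ← Commute.eq (Commute.pow_right
      (((hbt τ₀ hτ₀).sub_right (Nat.cast_commute (a τ₀) b₀).symm)) j), mul_assoc,
      ← (hcm.pow_pow j j).eq, hN, mul_zero, LinearMap.zero_apply]
  have hN1 : ∀ y, (t - 1) ((t - a₀) y) = 0 := fun y => by
    rw [← Module.End.mul_apply, hfac, Module.End.mul_apply, hb0, map_zero]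
  have hN2 : ∀ y, (t - a₀) ((t - 1) y) = 0 := fun y => by
    rw [← hN1 y]
    simp only [LinearMap.sub_apply, Module.End.one_apply, ha₀, Module.End.natCast_apply, map_sub,
      map_nsmul, smul_sub]
    abel
  obtain ⟨P, Q, hPQ⟩ := exists_split t hu' 1
  -- `b = 0`
  have hb : ∀ σ ∈ I, ∀ y : W, relEnd (a σ) σ y = 0 := by
    intro σ hσ
    refine hIrr σ hσ ⟨1, fun y => ?_⟩
    rw [pow_one]
    have hz : τ₀ • ((t - a₀) (Q y)) = (t - a₀) (Q y) := sub_eq_zero.mp (hN1 (Q y))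
    have h2 : relEnd (a σ) σ y = relEnd (a σ) σ ((t - 1) (P y)) := by
      conv_lhs => rw [show y = ((t - 1) ^ 1 : Module.End ℤ W) (P y) + ((t - a₀) ^ 1 : Module.End ℤ W) (Q y) from
        (LinearMap.congr_fun hPQ y).symm]
      rw [pow_one, pow_one, map_add,
        hfix0 _ (hbX σ hσ _) (hbfixed σ hσ _ hz), add_zero]
    rw [h2, ← Module.End.mul_apply, ← Module.End.mul_apply,
      ← ((hbt σ hσ).sub_right (Nat.cast_commute (a τ₀) _).symm).eq, mul_assoc,
      Module.End.mul_apply, Module.End.mul_apply, hN2, map_zero]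
  -- `X` is the `a₀`-part
  have hXa : ∀ x ∈ X, τ₀ • x = a τ₀ • x := by
    intro x hx
    refine sub_eq_zero.mp (hfix0 _ ?_ (sub_eq_zero.mp (hN1 x)))
    rw [show τ₀ • x - a τ₀ • x = (τ₀ • x - x) + (x - a τ₀ • x) by abel]
    exact add_mem (hX τ₀ hτ₀ x) (sub_mem hx (X.nsmul_mem hx _))
  intro σ hσ τ hτ y
  set x := τ • y - y with hx'
  have hx : x ∈ X := hX τ hτ y
  clear_value x
  clear hx'
  have hσX : ∀ {z}, z ∈ X → σ • z ∈ X := fun {z} hz => by
    rw [← sub_add_cancel (σ • z) z]; exact add_mem (hX σ hσ z) hz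
  set A₀ : ℕ := a τ₀
  set B : ℕ := a σ
  have e1 : σ • σ • x - (1 + B) • σ • x + B • x = 0 := by
    rw [← smul_relEnd, hb σ hσ, smul_zero]
  have e2 : A₀ • A₀ • σ • σ • x - (1 + B * A₀) • A₀ • σ • x + (B * A₀) • x = 0 := by
    have h := smul_relEnd (a (σ * τ₀)) (σ * τ₀) x
    rw [hb _ (mul_mem hσ hτ₀), smul_zero, mul_smul, mul_smul, hXa x hx, smul_comm σ A₀,
      smul_comm τ₀ A₀, hXa _ (hσX hx), smul_comm σ A₀, smul_comm σ A₀] at h
    have e : ∀ z : W, (1 + a (σ * τ₀)) • z = (1 + B * A₀) • z ∧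
        a (σ * τ₀) • z = (B * A₀) • z := fun z => by
      have := ha_mul σ hσ τ₀ hτ₀ z
      rw [← mul_smul] at this
      exact ⟨by rw [add_smul, add_smul, this], this⟩
    rw [(e _).1, (e _).2] at h
    exact h.symm
  have key : ((A₀ : ℤ) * ((A₀ : ℤ) - 1)) • (σ • x - B • x) = 0 := by
    have := congrArg₂ (fun v w => v - ((A₀ : ℤ) * A₀) • w) e2 e1
    simp only [smul_zero, sub_zero] at this
    rw [← this]
    clear this e1 e2
    generalize σ • σ • x = w
    generalize σ • x = v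
    simp only [← natCast_zsmul, smul_sub, smul_add, smul_smul, Nat.cast_add, Nat.cast_mul,
      Nat.cast_one]
    module
  have hinv : a τ₀⁻¹ • A₀ • (σ • x - B • x) = σ • x - B • x := by
    rw [← ha_mul _ (inv_mem hτ₀) _ hτ₀, inv_mul_cancel, ha_one]
  have h3 : u • (A₀ • (σ • x - B • x) - (σ • x - B • x)) = σ • x - B • x := hu _
  rw [← sub_eq_zero, ← h3, ← hinv, smul_comm A₀ (a τ₀⁻¹), ← smul_sub,
    show A₀ • A₀ • (σ • x - B • x) - A₀ • (σ • x - B • x) = 0 by
      rw [← key]; generalize σ • x - B • x = v; simp only [← natCast_zsmul, smul_smul]; module,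
    smul_zero, smul_zero]

end FLTAgent.TOR

end
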