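import Fermat.Agent.FlatDatum.Main
import Fermat.Agent.TOR.OrdAlg

/-!
The Hecke algebra on `J₀(N)[n]`, the part on which the kernel of an eigen system modulo `p` is
nilpotent, and the vanishing of Hecke–Galois stable subsets of it on which one inertia element is
`a`-unipotent.
-/

set_option autoImplicit false
set_option linter.unusedSectionVars false
set_option linter.style.haveILetI false

noncomputable section

namespace FLTAgent.TOR

open ModularCurve
open FLTAgent.Attach (HeckeLattice GaloisInputs)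
open FLTAgent.FlatDatum (torJ)

local notation "GalQ" => AlgebraicClosure ℚ ≃ₐ[ℚ] AlgebraicClosure ℚ

section Generic

/-- the idempotent of a point, in a finite image -/
theorem exists_proj {H R k : Type*} [CommRing H] [Ring R] [Finite R] [CommRing k] (Φ : H →+* R)
    (θ : H →+* k) : ∃ u : H, θ u = 1 ∧ ∀ b : H, θ b = 0 → ∃ i : ℕ, Φ (u * b ^ i) = 0 := by
  classical
  have hidem : ∀ r : R, ∃ i : ℕ, 0 < i ∧ r ^ i * r ^ i = r ^ i := by
    intro r
    obtain ⟨a, b, hne, hab⟩ := Finite.exists_ne_map_eq_of_infinite fun i : ℕ => r ^ i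
    wlog hlt : a < b generalizing a b
    · exact this b a hne.symm hab.symm (by omega)
    obtain ⟨d, rfl⟩ : ∃ d, b = a + d := ⟨b - a, by omega⟩
    have hper : ∀ m t, r ^ (a + m + d * t) = r ^ (a + m) := by
      intro m t
      induction t with
      | zero => simp
      | succ t ih =>
        rw [show a + m + d * (t + 1) = (a + d) + (m + d * t) by ring, pow_add, ← hab, ← pow_add,
          ← add_assoc, ih]
    have hd : 1 ≤ d := by omega
    refine ⟨d * (a + 1), Nat.mul_pos hd (Nat.succ_pos a), ?_⟩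
    obtain ⟨m, hm⟩ : ∃ m, d * (a + 1) = a + m :=
      ⟨d * (a + 1) - a, by have := Nat.le_mul_of_pos_left (a + 1) hd; omega⟩
    rw [← pow_add]
    conv_lhs => rw [show d * (a + 1) + d * (a + 1) = a + m + d * (a + 1) by omega, hper]
    rw [hm]
  choose I hI0 hI using hidem
  set P : Finset R := (Set.toFinite (Φ '' {b | θ b = 0})).toFinset
  choose β hβ hΦβ using fun r : P => (Set.Finite.mem_toFinset _).mp r.2
  refine ⟨∏ r : P, (1 - β r ^ I r.1), ?_, fun b hb => ⟨I (Φ b), ?_⟩⟩
  · rw [map_prod]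
    refine Finset.prod_eq_one fun r _ => ?_
    rw [map_sub, map_one, map_pow, show θ (β r) = 0 from hβ r, zero_pow (hI0 _).ne', sub_zero]
  · have hr : Φ b ∈ P := (Set.Finite.mem_toFinset _).mpr ⟨b, hb, rfl⟩
    rw [← Finset.prod_erase_mul _ _ (Finset.mem_univ (⟨Φ b, hr⟩ : P)), mul_assoc, map_mul, map_mul,
      map_sub, map_one, map_pow, map_pow, hΦβ, sub_mul, one_mul, hI, sub_self, mul_zero]

variable {H : Type*} [CommRing H] {W : Type*} [AddCommGroup W] (Φ : H →+* Module.End ℤ W)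

/-- commuting locally nilpotent operators kill a common nonzero vector -/
theorem exists_common_kernel (V : W → Prop) (hVΦ : ∀ t v, V v → V (Φ t v))
    (B : Finset H) (hB : ∀ b ∈ B, ∀ v, V v → ∃ j, (Φ b ^ j) v = 0) {v : W} (hv : V v) (hv0 : v ≠ 0) :
    ∃ w, V w ∧ w ≠ 0 ∧ ∀ b ∈ B, Φ b w = 0 := by
  classical
  induction B using Finset.induction_on with
  | empty => exact ⟨v, hv, hv0, by simp⟩
  | insert b B hb ih =>
    obtain ⟨w, hw, hw0, hkill⟩ := ih fun b' hb' => hB b' (Finset.mem_insert_of_mem hb')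
    have hex := hB b (Finset.mem_insert_self b B) w hw
    have hpos : Nat.find hex ≠ 0 := fun h0 => hw0 (by
      have := Nat.find_spec hex
      rwa [h0, pow_zero, Module.End.one_apply] at this)
    obtain ⟨i, hi⟩ := Nat.exists_eq_succ_of_ne_zero hpos
    refine ⟨Φ (b ^ i) w, hVΦ _ _ hw, ?_, ?_⟩
    · rw [map_pow]; exact Nat.find_min hex (by omega)
    · intro b' hb'
      rw [← Module.End.mul_apply, ← map_mul]
      rcases Finset.mem_insert.mp hb' with rfl | hb'
      · have := Nat.find_spec hex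
        rw [hi, ← map_pow, pow_succ'] at this
        exact this
      · rw [mul_comm, map_mul, Module.End.mul_apply, hkill b' hb', map_zero]

/-- the part on which the kernel of a point is nilpotent -/
def locPart {k : Type*} [CommRing k] (θ : H →+* k) : AddSubgroup W where
  carrier := {y | ∀ b, θ b = 0 → ∃ j : ℕ, (Φ b ^ j) y = 0}
  add_mem' := by
    intro x y hx hy b hb
    obtain ⟨i, hi⟩ := hx b hb
    obtain ⟨j, hj⟩ := hy b hb
    refine ⟨i + j, ?_⟩
    rw [map_add]
    conv_lhs => arg 1; rw [add_comm i j, pow_add, Module.End.mul_apply, hi, map_zero]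
    rw [zero_add, pow_add, Module.End.mul_apply, hj, map_zero]
  zero_mem' := fun b _ => ⟨0, map_zero _⟩
  neg_mem' := by
    intro x hx b hb
    obtain ⟨i, hi⟩ := hx b hb
    exact ⟨i, by rw [map_neg, hi, neg_zero]⟩

theorem map_mem_locPart {k : Type*} [CommRing k] (θ : H →+* k) (t : H) {x : W}
    (hx : x ∈ locPart Φ θ) : Φ t x ∈ locPart Φ θ := by
  intro b hb
  obtain ⟨j, hj⟩ := hx b hb
  refine ⟨j, ?_⟩
  rw [← map_pow, ← Module.End.mul_apply, ← map_mul, mul_comm, map_mul, Module.End.mul_apply,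
    map_pow, hj, map_zero]

theorem smul_mem_locPart {Γ : Type*} [Group Γ] [DistribMulAction Γ W] {k : Type*} [CommRing k]
    (θ : H →+* k) (hΦ : ∀ (γ : Γ) (t : H) (y : W), Φ t (γ • y) = γ • Φ t y) (γ : Γ) {x : W}
    (hx : x ∈ locPart Φ θ) : γ • x ∈ locPart Φ θ := by
  intro b hb
  obtain ⟨j, hj⟩ := hx b hb
  refine ⟨j, ?_⟩
  rw [← map_pow, hΦ, map_pow, hj, smul_zero]

variable {Γ : Type*} [Group Γ] [DistribMulAction Γ W]

/-- Hecke–Galois stable subsets on which one element is `a`-unipotent vanish when the traces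
modulo `p` are not abelian. -/
theorem eq_zero_of_unipotent {k : Type*} [Field k] [Finite k] (θ : H →+* k)
    (hΦ : ∀ (γ : Γ) (t : H) (y : W), Φ t (γ • y) = γ • Φ t y)
    (t : Γ → H) (a : Γ → ℕ) (ht : ∀ (γ : Γ) (y : W), γ • y + a γ • (γ⁻¹ • y) = Φ (t γ) y)
    (ha_mul : ∀ (σ τ : Γ) (y : W), a (σ * τ) • y = a σ • a τ • y)
    {τ₀ : Γ} (hτθ : θ (t τ₀) = 1 + (a τ₀ : k)) {u : ℤ} (hu : ∀ y : W, u • (a τ₀ • y - y) = y)
    {α μ ν : Γ} (hd : θ (t (α * (μ * ν))) ≠ θ (t (α * (ν * μ))))
    (V : W → Prop) (hVΦ : ∀ s v, V v → V (Φ s v)) (hVγ : ∀ (γ : Γ) v, V v → V (γ • v))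
    (hloc : ∀ b, θ b = 0 → ∀ v, V v → ∃ j, (Φ b ^ j) v = 0)
    [Finite W]
    (hVτ : ∀ v, V v → ∃ j : ℕ,
      ((DistribSMul.toLinearMap ℤ W τ₀ - (a τ₀ : Module.End ℤ W)) ^ j) v = 0) :
    ∀ v, V v → v = 0 := by
  classical
  intro v hv
  by_contra hv0
  haveI : Finite (Module.End ℤ W) := Finite.of_injective _ DFunLike.coe_injective
  set P : Finset (Module.End ℤ W) := (Set.toFinite (Φ '' {b | θ b = 0})).toFinset
  choose β hβ hΦβ using fun r : P => (Set.Finite.mem_toFinset _).mp r.2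
  obtain ⟨w, hw, hw0, hkill⟩ := exists_common_kernel Φ V hVΦ (Finset.univ.image β)
    (fun b hb => by
      obtain ⟨r, -, rfl⟩ := Finset.mem_image.mp hb
      exact hloc _ (hβ r)) hv hv0
  set Z : W → Prop := fun z => V z ∧ ∀ b, θ b = 0 → Φ b z = 0 with hZ
  have hwZ : Z w := ⟨hw, fun b hb => by
    have hr : Φ b ∈ P := (Set.Finite.mem_toFinset _).mpr ⟨b, hb, rfl⟩
    rw [show Φ b = Φ (β ⟨Φ b, hr⟩) from (hΦβ ⟨Φ b, hr⟩).symm]
    exact hkill _ (Finset.mem_image_of_mem _ (Finset.mem_univ _))⟩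
  have hZγ : ∀ (γ : Γ) z, Z z → Z (γ • z) := fun γ z hz =>
    ⟨hVγ γ z hz.1, fun b hb => by rw [hΦ, hz.2 b hb, smul_zero]⟩
  -- `τ₀` is the scalar `a`
  set T₀ : Module.End ℤ W := DistribSMul.toLinearMap ℤ W τ₀ - (a τ₀ : Module.End ℤ W)
  have hT₀ : ∀ z, T₀ z = τ₀ • z - a τ₀ • z := fun z => by
    simp [T₀, Module.End.natCast_apply]
  have hscal : ∀ z, Z z → τ₀ • z = a τ₀ • z := by
    intro z hz
    have h1 : relEnd (a τ₀) τ₀ z = 0 := by
      have h := hz.2 (t τ₀ - (1 + a τ₀ : ℕ)) (by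
        rw [map_sub, map_natCast, hτθ, Nat.cast_add, Nat.cast_one, sub_self])
      rwa [map_sub, map_natCast, LinearMap.sub_apply, Module.End.natCast_apply, ← ht,
        ← relEnd_apply] at h
    have h2 := smul_relEnd (a τ₀) τ₀ z
    rw [h1, smul_zero] at h2
    set y := τ₀ • z - a τ₀ • z with hy
    have hfix : τ₀ • y = y := by
      rw [hy, smul_sub, smul_comm τ₀ (a τ₀) z, ← sub_eq_zero, h2, add_smul, one_smul]
      abel
    obtain ⟨j, hj⟩ := hVτ z hz.1
    have hj' : (T₀ ^ j) y = 0 := by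
      rw [show y = T₀ z from (hT₀ z).symm, ← Module.End.mul_apply, ← pow_succ, pow_succ',
        Module.End.mul_apply, hj, map_zero]
    have hdown : ∀ i : ℕ, (T₀ ^ i) y = 0 → y = 0 := by
      intro i
      induction i with
      | zero => intro h; simpa using h
      | succ i ih =>
        intro h
        refine ih ?_
        rw [pow_succ, Module.End.mul_apply, hT₀, hfix] at h
        have h3 : (T₀ ^ i) (u • (y - a τ₀ • y)) = 0 := by rw [map_zsmul, h, smul_zero]
        rw [show u • (y - a τ₀ • y) = -y by rw [← neg_sub, smul_neg, hu], map_neg,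
          neg_eq_zero] at h3
        exact h3
    exact sub_eq_zero.mp (hdown j hj')
  -- every element acts through the Hecke algebra
  have hgal : ∀ (γ : Γ) z, Z z → γ • z = Φ ((u : H) * (t (γ * τ₀) - t γ)) z := by
    intro γ z hz
    have h1 : a τ₀ • τ₀⁻¹ • γ⁻¹ • z = γ⁻¹ • z := by
      rw [← smul_comm τ₀⁻¹ (a τ₀), inv_smul_eq_iff, hscal _ (hZγ _ _ hz)]
    rw [map_mul, map_intCast, map_sub, Module.End.mul_apply, Module.End.intCast_apply,
      LinearMap.sub_apply, ← ht, ← ht, mul_smul, hscal z hz, smul_comm γ (a τ₀), mul_inv_rev,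
      mul_smul, ha_mul, h1, add_sub_add_right_eq_sub, hu]
  have hcomm : ∀ (γ γ' : Γ) z, Z z → γ • γ' • z = γ' • γ • z := by
    intro γ γ' z hz
    rw [hgal γ (γ' • z) (hZγ _ _ hz), hgal γ z hz, hΦ]
  set d := t (α * (μ * ν)) - t (α * (ν * μ)) with hd'
  have hd0 : Φ d w = 0 := by
    have hinv : ∀ γ : Γ, Z (γ • w) := fun γ => hZγ γ w hwZ
    rw [hd', map_sub, LinearMap.sub_apply, ← ht, ← ht, sub_eq_zero]
    congr 1
    · simp only [mul_smul]
      rw [hcomm μ ν w hwZ]
    · simp only [mul_inv_rev, mul_smul, ha_mul, hcomm ν⁻¹ μ⁻¹ _ (hinv α⁻¹)]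
      rw [smul_comm (a μ) (a ν)]
  letI := Fintype.ofFinite k
  have hq : 1 ≤ Fintype.card k - 1 := Nat.le_sub_one_of_lt Fintype.one_lt_card
  have hb := hwZ.2 (d ^ (Fintype.card k - 1) - 1) (by
    rw [map_sub, map_pow, map_one, FiniteField.pow_card_sub_one_eq_one _
      (by rw [hd', map_sub, sub_ne_zero]; exact hd), sub_self])
  obtain ⟨i, hi⟩ := Nat.exists_eq_succ_of_ne_zero (Nat.one_le_iff_ne_zero.mp hq)
  rw [hi, map_sub, map_pow, map_one, LinearMap.sub_apply, Module.End.one_apply, pow_succ,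
    Module.End.mul_apply, hd0, map_zero, zero_sub, neg_eq_zero] at hb
  exact hw0 hb

end Generic

section Torsion

variable {N : ℕ} [NeZero N] (D : HeckeLattice N) (G : GaloisInputs N) (n : ℕ) [NeZero n]

theorem exists_lift_torJ (x : torJ N n) : ∃ v, D.tors n v = (x : JZero N) :=
  (D.nsmul_eq_zero_iff n (Nat.pos_of_ne_zero (NeZero.ne n)) _).1 x.2

theorem tors_map_congr (w : Module.End ℤ D.Lam) {v v' : D.Lam} (h : D.tors n v = D.tors n v') :
    D.tors n (w v) = D.tors n (w v') := by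
  obtain ⟨z, hz⟩ := (D.tors_eq_iff (Nat.pos_of_ne_zero (NeZero.ne n)) _ _).1 h
  refine (D.tors_eq_iff (Nat.pos_of_ne_zero (NeZero.ne n)) _ _).2 ⟨w z, ?_⟩
  rw [← map_sub, hz, map_zsmul]

/-- an endomorphism of the lattice on a point of `J₀(N)[n]` -/
def torFun (w : Module.End ℤ D.Lam) (x : torJ N n) : torJ N n :=
  ⟨D.tors n (w (exists_lift_torJ D n x).choose),
    D.nsmul_tors (Nat.pos_of_ne_zero (NeZero.ne n)) _⟩

theorem coe_torFun (w : Module.End ℤ D.Lam) {x : torJ N n} {v : D.Lam}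
    (h : D.tors n v = (x : JZero N)) : ((torFun D n w x : torJ N n) : JZero N) = D.tors n (w v) :=
  tors_map_congr D n w ((exists_lift_torJ D n x).choose_spec.trans h.symm)

theorem torFun_add (w : Module.End ℤ D.Lam) (x y : torJ N n) :
    torFun D n w (x + y) = torFun D n w x + torFun D n w y := by
  obtain ⟨v, hv⟩ := exists_lift_torJ D n x
  obtain ⟨v', hv'⟩ := exists_lift_torJ D n y
  refine Subtype.ext ?_
  rw [AddSubgroup.coe_add, coe_torFun D n w hv, coe_torFun D n w hv',
    coe_torFun D n w (v := v + v') (by rw [map_add, hv, hv', AddSubgroup.coe_add]), map_add, map_add]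

/-- an endomorphism of the lattice on `J₀(N)[n]` -/
def torMap : Module.End ℤ D.Lam →+* Module.End ℤ (torJ N n) where
  toFun w := (AddMonoidHom.mk' (torFun D n w) (torFun_add D n w)).toIntLinearMap
  map_one' := LinearMap.ext fun x => Subtype.ext (exists_lift_torJ D n x).choose_spec
  map_mul' w w' := LinearMap.ext fun x => Subtype.ext (by
    obtain ⟨v, hv⟩ := exists_lift_torJ D n x
    show ((torFun D n (w * w') x : torJ N n) : JZero N) = (torFun D n w (torFun D n w' x) : torJ N n)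
    rw [coe_torFun D n _ hv, coe_torFun D n w (coe_torFun D n w' hv).symm, Module.End.mul_apply])
  map_zero' := LinearMap.ext fun x => Subtype.ext (map_zero (D.tors n))
  map_add' w w' := LinearMap.ext fun x => Subtype.ext (map_add (D.tors n) _ _)

theorem torMap_apply (w : Module.End ℤ D.Lam) {x : torJ N n} {v : D.Lam}
    (h : D.tors n v = (x : JZero N)) : ((torMap D n w x : torJ N n) : JZero N) = D.tors n (w v) :=
  coe_torFun D n w h

variable (S : Set ℕ)

/-- the Hecke algebra away from `S` on `J₀(N)[n]` -/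
def heckeT : CuspForm.heckeAlgebra N 2 S →+* Module.End ℤ (torJ N n) :=
  (torMap D n).comp (D.actS S)

theorem heckeT_apply (t : CuspForm.heckeAlgebra N 2 S) {x : torJ N n} {v : D.Lam}
    (h : D.tors n v = (x : JZero N)) :
    ((heckeT D n S t x : torJ N n) : JZero N) = D.tors n (D.actS S t v) :=
  torMap_apply D n (D.actS S t) h

attribute [irreducible] heckeT

include G in
theorem heckeT_smul (σ : GalQ) (t : CuspForm.heckeAlgebra N 2 S) (x : torJ N n) :
    heckeT D n S t (σ • x) = σ • heckeT D n S t x := by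
  have hn := Nat.pos_of_ne_zero (NeZero.ne n)
  obtain ⟨v, hv⟩ := exists_lift_torJ D n x
  obtain ⟨w, hw⟩ := exists_lift_torJ D n (σ • x)
  refine Subtype.ext ?_
  rw [FlatDatum.coe_smul_torJ, heckeT_apply D n S t hw, heckeT_apply D n S t hv]
  refine D.galois_hecke G (D.actS_mem S t) hn σ v w ?_
  rw [hw, hv, FlatDatum.coe_smul_torJ]

end Torsion

end FLTAgent.TOR

end
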