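import Fermat.Agent.TOR.KerR
import Fermat.Agent.TOR.Theta
import Fermat.Agent.TOR.RedKernel
import Fermat.Agent.TOR.InertiaVal
import Fermat.Agent.SS.Push
import Fermat.Agent.SS.FibreData
import Fermat.Agent.SS.FibreGalois

/-!
The ordinary identity `σ (τ - 1) = a σ (τ - 1)` for inertia at `p` on the part of `J₀(Mp)[pᵏ]` on
which the kernel of an irreducible eigen system, ordinary at `p`, is nilpotent.
-/

set_option autoImplicit false
set_option linter.unusedSectionVars false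
set_option linter.style.haveILetI false
set_option synthInstance.maxHeartbeats 200000

noncomputable section

open ModularCurve AlgebraicCurve IsLocalRing

namespace FLTAgent.TOR

open FLTAgent.Reduction (Qb FB FS Ctx)
open FLTAgent.Attach (HeckeLattice GaloisInputs cyc cyc_one cyc_mul cyc_cast cyc_spec)
open FLTAgent.FlatDatum (torJ)

local notation "GalQ" => AlgebraicClosure ℚ ≃ₐ[ℚ] AlgebraicClosure ℚ

/-- intertwined operators have intertwined powers -/
theorem pow_map_apply {R : Type*} [Semiring R] {W W' : Type*} [AddCommGroup W] [AddCommGroup W']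
    [Module R W] [Module R W'] (f : W →+ W') (T : Module.End R W) (T' : Module.End R W')
    (h : ∀ y, f (T y) = T' (f y)) (j : ℕ) (y : W) : f ((T ^ j) y) = (T' ^ j) (f y) := by
  induction j with
  | zero => rfl
  | succ j ih => rw [pow_succ', pow_succ', Module.End.mul_apply, Module.End.mul_apply, h, ih]

/-- equivariant maps commute with `relEnd` -/
theorem relEnd_map {Γ : Type*} [Group Γ] {W W' : Type*} [AddCommGroup W] [DistribMulAction Γ W]
    [AddCommGroup W'] [DistribMulAction Γ W'] (f : W →+ W')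
    (hf : ∀ (σ : Γ) (y : W), f (σ • y) = σ • f y) (a : ℕ) (σ : Γ) (y : W) :
    f (relEnd a σ y) = relEnd a σ (f y) := by
  rw [relEnd_apply, relEnd_apply, map_sub, map_add, map_nsmul, map_nsmul, hf, hf]

/-- on points killed by `p` the operator `(σ - 1) (σ - a')` is `σ` times `σ + a σ⁻¹ - 1 - a` -/
theorem quadEnd_pow_eq {Γ : Type*} [Group Γ] {W : Type*} [AddCommGroup W] [DistribMulAction Γ W]
    {p : ℕ} (a : ℕ) (a' : ℤ) (σ : Γ) (hcong : ∀ y : W, p • y = 0 → a' • y = a • y)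
    (hcomm : ∀ (γ : Γ) (y : W), relEnd a σ (γ • y) = γ • relEnd a σ y) {z : W} (hz : p • z = 0) :
    ∀ j : ℕ, (quadEnd (G := Γ) W a' σ ^ j) z = σ ^ j • (relEnd a σ ^ j) z := by
  intro j
  induction j with
  | zero => rw [pow_zero, pow_zero, pow_zero, one_smul]
  | succ j ih =>
    have hw : p • (σ ^ j • (relEnd a σ ^ j) z) = 0 := by
      rw [← smul_comm (σ ^ j) p, ← map_nsmul, hz, map_zero, smul_zero]
    have hsw : p • (σ • σ ^ j • (relEnd a σ ^ j) z) = 0 := by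
      rw [← smul_comm σ p, hw, smul_zero]
    rw [pow_succ', pow_succ', Module.End.mul_apply, ih]
    conv_rhs => rw [pow_succ', mul_smul, Module.End.mul_apply, ← hcomm, smul_relEnd]
    rw [quadEnd_apply, hcong _ hw, smul_sub, smul_comm σ a, add_smul, one_smul]
    abel

variable {M p : ℕ} [NeZero M] [NeZero p]

/-- reduction of a pushforward to level `M` -/
def redPush (A : ValuationSubring Qb) (b : Bool) :=
  (reductionModL A M).comp
    (SS.pushJ M p (bif b then heckeBetaBar Qb M p else heckeAlphaBar Qb M p))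

theorem intertwines_bif (b : Bool) (σ : GalQ) :
    SemilinearAut.IntertwinesAlong
      (bif b then heckeBetaBar Qb M p else heckeAlphaBar Qb M p).toRingHom
      (arithmeticGalois (modularFunctionFieldFull M) σ)
      (arithmeticGalois (modularFunctionFieldFull (M * p)) σ) := by
  cases b
  · exact HeckeJ.intertwines_heckeAlphaBar M p σ
  · exact HeckeJ.intertwines_heckeBetaBar M p σ

/-- inertia does not move the reductions of the pushforwards -/
theorem redPush_smul {A : ValuationSubring Qb} (C : Ctx A M p) (b : Bool) {σ : GalQ}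
    (hσ : σ ∈ A.inertiaSubgroupIn ℚ) (x : JZero (M * p)) :
    redPush (M := M) (p := p) A b (σ • x) = redPush (M := M) (p := p) A b x := by
  show reductionModL A M (SS.pushJ M p _ (σ • x)) = reductionModL A M (SS.pushJ M p _ x)
  rw [SS.pushJ_smul M p _ (intertwines_bif b) σ x]
  exact Reduction.reductionModL_inertia C hσ _

/-- the identity on the nilpotent part of a finite Hecke–Galois module from the two inputs -/
theorem identity_of_inputs {Γ : Type*} [Group Γ] {Y : Type*} [AddCommGroup Y]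
    [DistribMulAction Γ Y] [Finite Y] {H : Type*} [CommRing H] (Φ : H →+* Module.End ℤ Y)
    (hΦ : ∀ (γ : Γ) (s : H) (y : Y), Φ s (γ • y) = γ • Φ s y)
    {k : Type*} [Field k] [Finite k] (θ : H →+* k) (t : Γ → H) (a : Γ → ℕ)
    (htw : ∀ (γ : Γ) (y : Y), γ • y + a γ • (γ⁻¹ • y) = Φ (t γ) y)
    (I : Subgroup Γ) (hθI : ∀ σ ∈ I, θ (t σ) = 1 + (a σ : k))
    {α μ ν : Γ} (hd : θ (t (α * (μ * ν))) ≠ θ (t (α * (ν * μ))))
    {p j : ℕ} (hk : ∀ y : Y, p ^ j • y = 0)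
    (hmul : ∀ (σ τ : Γ) (y : Y), a (σ * τ) • y = a σ • a τ • y) (hone : ∀ y : Y, a 1 • y = y)
    {τ₀ : Γ} (hτ₀ : τ₀ ∈ I) {u : ℤ} (hu : ∀ y : Y, u • (a τ₀ • y - y) = y)
    (X₀ : AddSubgroup Y) (hX : ∀ σ ∈ I, ∀ y : Y, σ • y - y ∈ X₀) (a' : Γ → ℤ)
    (hcong : ∀ (σ : Γ) (y : Y), p • y = 0 → a' σ • y = a σ • y)
    (hR2 : ∀ z ∈ X₀, p • z = 0 → τ₀ • z = z →
      (∀ σ ∈ I, ∃ i : ℕ, (quadEnd (G := Γ) Y (a' σ) σ ^ i) z = 0) → z = 0) :
    ∀ σ ∈ I, ∀ τ ∈ I, ∀ y ∈ locPart Φ θ, σ • (τ • y - y) = a σ • (τ • y - y) := by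
  classical
  let W := locPart Φ θ
  letI : SMul Γ W := ⟨fun σ y => ⟨σ • (y : Y), smul_mem_locPart Φ θ hΦ σ y.2⟩⟩
  letI : DistribMulAction Γ W :=
    { one_smul := fun y => Subtype.ext (one_smul Γ (y : Y))
      mul_smul := fun σ τ y => Subtype.ext (mul_smul σ τ (y : Y))
      smul_zero := fun σ => Subtype.ext (smul_zero σ)
      smul_add := fun σ x y => Subtype.ext (smul_add σ (x : Y) (y : Y)) }
  haveI : Finite W := Subtype.finite
  have hWσ : ∀ (σ : Γ) (y : W), W.subtype (σ • y) = σ • W.subtype y := fun σ y => rfl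
  have hrel : ∀ (σ : Γ) (y : W),
      W.subtype (relEnd (a σ) σ y) = Φ (t σ - ((1 + a σ : ℕ) : H)) (W.subtype y) := fun σ y => by
    rw [relEnd_map W.subtype hWσ, relEnd_apply, map_sub Φ, map_natCast, LinearMap.sub_apply,
      Module.End.natCast_apply, htw]
  have hβθ : ∀ σ ∈ I, θ (t σ - ((1 + a σ : ℕ) : H)) = 0 := fun σ hσ => by
    rw [map_sub, map_natCast, hθI σ hσ, Nat.cast_add, Nat.cast_one, sub_self]
  have hcomm : ∀ σ ∈ I, ∀ (γ : Γ) (y : W), relEnd (a σ) σ (γ • y) = γ • relEnd (a σ) σ y :=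
    fun σ _ γ y => Subtype.ext (by
      show W.subtype (relEnd (a σ) σ (γ • y)) = γ • W.subtype (relEnd (a σ) σ y)
      rw [hrel, hrel, hWσ, hΦ])
  have hnil : ∀ σ ∈ I, IsNilpotent (relEnd (a σ) σ : Module.End ℤ W) := fun σ hσ => by
    haveI := Fintype.ofFinite W
    choose i hi using fun y : W => y.2 _ (hβθ σ hσ)
    refine ⟨Finset.univ.sup i, LinearMap.ext fun y => Subtype.ext ?_⟩
    show W.subtype _ = (0 : Y)
    rw [pow_map_apply W.subtype _ (Φ _) (hrel σ),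
      ← Nat.sub_add_cancel (Finset.le_sup (f := i) (Finset.mem_univ y)), pow_add,
      Module.End.mul_apply]
    exact (congrArg _ (hi y)).trans (map_zero _)
  have hR2' : ∀ z ∈ X₀.comap W.subtype, p • z = 0 → τ₀ • z = z → z = 0 := by
    intro z hz hpz hfix
    refine Subtype.ext (hR2 (W.subtype z) hz (by rw [← map_nsmul, hpz, map_zero])
      (by rw [← hWσ, hfix]) fun σ hσ => ?_)
    obtain ⟨i, hi⟩ := hnil σ hσ
    refine ⟨i, ?_⟩
    rw [← quadEnd_pow_map W.subtype hWσ, quadEnd_pow_eq (a σ) _ σ (fun y hy => Subtype.ext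
      (hcong σ (y : Y) (congrArg Subtype.val hy))) (hcomm σ hσ) hpz, hi, LinearMap.zero_apply,
      smul_zero, map_zero]
  have hIrr : ∀ σ ∈ I, (∃ i : ℕ, ∀ y : W,
      ((DistribSMul.toLinearMap ℤ W τ₀ - (a τ₀ : Module.End ℤ W)) ^ i)
        (relEnd (a σ) σ y) = 0) → ∀ y : W, relEnd (a σ) σ y = 0 := by
    intro σ hσ ⟨i, hi⟩ y
    refine Subtype.ext ?_
    show W.subtype (relEnd (a σ) σ y) = 0
    refine eq_zero_of_unipotent Φ θ hΦ t a htw hmul (hθI τ₀ hτ₀) hu hd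
      (fun v => ∃ y : W, Φ (t σ - ((1 + a σ : ℕ) : H)) (W.subtype y) = v) ?_ ?_ ?_ ?_ _
      ⟨y, (hrel σ y).symm⟩
    · rintro s _ ⟨y, rfl⟩
      refine ⟨⟨Φ s (W.subtype y), map_mem_locPart Φ θ s y.2⟩, ?_⟩
      show Φ _ (Φ s _) = Φ s (Φ _ _)
      rw [← Module.End.mul_apply, ← Module.End.mul_apply, ← map_mul, ← map_mul, mul_comm]
    · rintro γ _ ⟨y, rfl⟩
      exact ⟨γ • y, hΦ γ _ _⟩
    · rintro b hb _ ⟨y, rfl⟩
      exact map_mem_locPart Φ θ _ y.2 b hb
    · rintro _ ⟨y, rfl⟩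
      refine ⟨i, ?_⟩
      rw [← hrel, ← pow_map_apply W.subtype
        (DistribSMul.toLinearMap ℤ W τ₀ - (a τ₀ : Module.End ℤ W)) _ (fun x => ?_) i, hi, map_zero]
      simp only [LinearMap.sub_apply, Module.End.natCast_apply, map_sub, map_nsmul]
      rfl
  have key := ordinary_identity (Γ := Γ) (W := W) I a (p := p) (k := j) (X₀.comap W.subtype)
    (fun y => Subtype.ext (hk _)) (fun σ _ τ _ y => Subtype.ext (hmul σ τ _))
    (fun y => Subtype.ext (hone _)) hτ₀ (fun y => Subtype.ext (hu _)) (fun σ hσ y => hX σ hσ _)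
    hcomm hnil hR2' hIrr
  intro σ hσ τ hτ y hy
  exact congrArg W.subtype (key σ hσ τ hτ ⟨y, hy⟩)

/-- no fixed points of order `p` among the classes with both reductions zero -/
theorem eq_zero_of_fixed_level (hp : p.Prime) (hp2 : p ≠ 2) (hpM : ¬ p ∣ M)
    {A : ValuationSubring Qb} (hA : A.LiesOverPrime p) (j : ℕ) {ζ : Qb} (hζ : IsPrimitiveRoot ζ p)
    {τ₀ : GalQ} (hτ₀ : τ₀ ∈ A.inertiaSubgroupIn ℚ) (hcyc₀ : cyc p τ₀ ≠ 1) {z : JZero (M * p)}
    (hzR : z ∈ kerR (SS.fibreData (⟨hp, hpM, hA⟩ : Ctx A M p)).toCore (p ^ (j + 1)))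
    (hred : ∀ b, redPush (M := M) (p := p) A b z = 0) (hpz : p • z = 0) (hfix : τ₀ • z = z)
    (hnil : ∀ σ ∈ A.inertiaSubgroupIn ℚ, ∃ i : ℕ,
      (quadEnd (G := GalQ) (JZero (M * p)) ((cyc p σ).val : ℤ) σ ^ i) z = 0) : z = 0 := by
  haveI := Fact.mk hp
  have hpush : ∀ b : Bool,
      SS.pushJ M p (bif b then heckeBetaBar Qb M p else heckeAlphaBar Qb M p) z = 0 := fun b => by
    have hφσ := SS.pushJ_smul M p _ (intertwines_bif (M := M) (p := p) b)
    refine eq_zero_of_fixed hp hp2 hpM hA hτ₀ hcyc₀ (by rw [← map_nsmul, hpz, map_zero]) (hred b)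
      (by rw [← hφσ, hfix]) fun σ hσ => ?_
    obtain ⟨i, hi⟩ := hnil σ hσ
    exact ⟨i, by rw [← quadEnd_pow_map _ hφσ, hi, map_zero]⟩
  haveI := Reduction.charP_residue A hp hA
  have h := smul_eq_of_push (by have := hp.two_le; omega) ⟨hp, hpM, hA⟩ (SS.fibreData _) rfl hpz
    (kerR_descend hp _ j hzR hpz) (SS.killedByPush_of_pushJ M p (hpush false) (hpush true))
    (SS.compat_inertia ⟨hp, hpM, hA⟩ τ₀ hτ₀) hζ (cyc_spec τ₀ hζ.pow_eq_one)
  rw [hfix] at h
  by_contra hz0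
  refine hcyc₀ ?_
  have h1 : ((((cyc p τ₀).val : ℤ) - 1) : ℤ) • z = 0 := by
    rw [sub_smul, natCast_zsmul, one_smul, ← h, sub_self]
  rw [← addOrderOf_dvd_iff_zsmul_eq_zero, addOrderOf_eq_prime hpz hz0,
    ← ZMod.intCast_zmod_eq_zero_iff_dvd, Int.cast_sub, Int.cast_natCast, Int.cast_one,
    ZMod.natCast_zmod_val, sub_eq_zero] at h1
  exact h1

set_option maxHeartbeats 1200000 in
theorem torsion_identity (hp : p.Prime) (hp2 : p ≠ 2) (hpM : ¬ p ∣ M) {A : ValuationSubring Qb}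
    (hA : A.LiesOverPrime p) (j : ℕ) {n : ℕ} [NeZero n] (hn_def : n = p ^ (j + 1))
    {H : Type*} [CommRing H]
    (Φ : H →+* Module.End ℤ (torJ (M * p) n))
    (hΦ : ∀ (γ : GalQ) (s : H) (y : torJ (M * p) n), Φ s (γ • y) = γ • Φ s y)
    {k : Type*} [Field k] [Finite k] (θ : H →+* k) (t : GalQ → H)
    (a : GalQ → ℕ) (ha : ∀ σ, a σ = (cyc n σ).val)
    (htw : ∀ (γ : GalQ) (y : torJ (M * p) n), γ • y + a γ • (γ⁻¹ • y) = Φ (t γ) y)
    (hθI : ∀ σ ∈ A.inertiaSubgroupIn ℚ, θ (t σ) = 1 + (a σ : k))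
    {α μ ν : GalQ} (hd : θ (t (α * (μ * ν))) ≠ θ (t (α * (ν * μ)))) :
    ∀ σ ∈ A.inertiaSubgroupIn ℚ, ∀ τ ∈ A.inertiaSubgroupIn ℚ, ∀ y ∈ locPart Φ θ,
      σ • (τ • y - y) = a σ • (τ • y - y) := by
  classical
  haveI := Fact.mk hp
  have hn : 0 < n := hn_def ▸ pow_pos hp.pos _
  have hpn : p ∣ n := hn_def ▸ dvd_pow_self p j.succ_ne_zero
  haveI : Finite (torJ (M * p) n) :=
    ((Flat.finite_torsion (N := M * p) n hn).subset fun x hx => hx).to_subtype
  have hnT : ∀ y : torJ (M * p) n, n • y = 0 := fun y => Subtype.ext y.2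
  have hcast : ∀ σ : GalQ, ((a σ : ℕ) : ZMod p) = cyc p σ := fun σ => by
    rw [ha, ← cyc_cast hpn σ, ← map_natCast (ZMod.castHom hpn (ZMod p))]
    exact congrArg _ (ZMod.natCast_zmod_val _)
  obtain ⟨ζ, hζ⟩ := HasEnoughRootsOfUnity.exists_primitiveRoot Qb p
  obtain ⟨τ₀, hτ₀, hmove⟩ := exists_inertia_moves (A := A) (p := p) hp hA hp2 hζ
  have hcyc₀ : cyc p τ₀ ≠ 1 := fun h => hmove (by
    rw [cyc_spec τ₀ hζ.pow_eq_one, h, ZMod.val_one, pow_one])
  obtain ⟨u, hu⟩ : ∃ u : ℤ, ∀ y : torJ (M * p) n, u • (a τ₀ • y - y) = y := by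
    have hndvd : ¬ (p : ℤ) ∣ (a τ₀ : ℤ) - 1 := fun hd' => hcyc₀ (by
      rw [← ZMod.intCast_zmod_eq_zero_iff_dvd, Int.cast_sub, Int.cast_natCast, Int.cast_one,
        sub_eq_zero, hcast] at hd'
      exact hd')
    obtain ⟨b, u, hbu⟩ :=
      (((Nat.prime_iff_prime_int.mp hp).coprime_iff_not_dvd).mpr hndvd).pow_left (m := j + 1)
    refine ⟨u, fun y => ?_⟩
    have h0 : ((p : ℤ) ^ (j + 1)) • y = 0 := by
      rw [← Nat.cast_pow, natCast_zsmul, ← hn_def]; exact hnT y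
    calc u • (a τ₀ • y - y) = (u * ((a τ₀ : ℤ) - 1)) • y := by
          rw [← natCast_zsmul]; module
      _ = (1 - b * (p : ℤ) ^ (j + 1)) • y := by
          rw [show u * ((a τ₀ : ℤ) - 1) = 1 - b * (p : ℤ) ^ (j + 1) by linarith]
      _ = y := by rw [sub_smul, one_smul, mul_smul, h0, smul_zero, sub_zero]
  let C : Ctx A M p := ⟨hp, hpM, hA⟩
  let X₀ : AddSubgroup (torJ (M * p) n) := (kerR (SS.fibreData C).toCore n ⊓
    ((redPush (M := M) (p := p) A false).ker ⊓ (redPush (M := M) (p := p) A true).ker)).comap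
      (torJ (M * p) n).subtype
  have hX : ∀ σ ∈ A.inertiaSubgroupIn ℚ, ∀ y : torJ (M * p) n, σ • y - y ∈ X₀ := by
    intro σ hσ y
    have key : ∀ b, redPush (M := M) (p := p) A b (σ • (y : JZero (M * p)) - y) = 0 := fun b =>
      (map_sub (redPush (M := M) (p := p) A b) _ _).trans
        (sub_eq_zero.mpr (redPush_smul C b hσ (y : JZero (M * p))))
    exact ⟨smul_sub_mem_kerR _ hn.ne' y.2 (SS.compat_inertia C σ hσ), key false, key true⟩
  refine identity_of_inputs Φ hΦ θ t a htw (A.inertiaSubgroupIn ℚ) hθI hd (p := p) (j := j + 1)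
    (fun y => hn_def ▸ hnT y)
    (fun σ τ y => by rw [ha, ha, ha, cyc_mul, FlatDatum.val_mul_nsmul (hnT y)])
    (fun y => by rw [ha, cyc_one, FlatDatum.val_one_nsmul (hnT y)]) hτ₀ hu X₀ hX
    (fun σ => ((cyc p σ).val : ℤ))
    (fun σ y hy => by
      rw [natCast_zsmul, ← hcast σ, ZMod.val_natCast, FlatDatum.nsmul_mod_of_eq_zero hy]) ?_
  rintro z ⟨hzR, hza, hzb⟩ hpz hfix hnil
  refine Subtype.ext (eq_zero_of_fixed_level hp hp2 hpM hA j hζ hτ₀ hcyc₀ (hn_def ▸ hzR)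
    (fun b => ?_) (congrArg Subtype.val hpz) (congrArg Subtype.val hfix) fun σ hσ => ?_)
  · cases b
    · exact hza
    · exact hzb
  · obtain ⟨i, hi⟩ := hnil σ hσ
    refine ⟨i, ?_⟩
    rw [← AddSubgroup.subtype_apply, ← quadEnd_pow_map (torJ (M * p) n).subtype fun σ x => rfl, hi,
      map_zero]

end FLTAgent.TOR

end
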