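import Mathlib

/-!
A group acting on a space and satisfying the quadratic relations of an irreducible odd plane
representation: the action factors through two by two matrices (Boston–Lenstra–Ribet, elementary
case).
-/

set_option autoImplicit false
set_option linter.unusedSectionVars false

noncomputable section

open Matrix

namespace FLTAgent.TOR.BLR

variable {k : Type*} [Field k] {G : Type*} [Group G] {X : Type*} [AddCommGroup X] [Module k X]

variable (r : G →* Matrix (Fin 2) (Fin 2) k) (ρ : G →* Module.End k X)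

/-- the span of the pairs -/
def pairs : Submodule k (Matrix (Fin 2) (Fin 2) k × Module.End k X) :=
  Submodule.span k (Set.range fun g => (r g, ρ g))

/-- the conjugate -/
def conj (a : Matrix (Fin 2) (Fin 2) k × Module.End k X) : Module.End k X :=
  a.1.trace • 1 - a.2

variable {r ρ}

theorem conj_gen (hq : ∀ g, ρ g * ρ g - (r g).trace • ρ g + (r g).det • 1 = 0) (g : G) :
    conj (r g, ρ g) = (r g).det • ρ g⁻¹ := by
  have h1 : ρ g⁻¹ * ρ g = 1 := by rw [← map_mul, inv_mul_cancel, map_one]
  have h := congrArg (ρ g⁻¹ * ·) (hq g)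
  simp only [mul_add, mul_sub, mul_zero, mul_smul_comm, ← mul_assoc, h1, one_mul, mul_one] at h
  rw [conj, sub_eq_iff_eq_add, ← sub_eq_zero, ← neg_eq_zero, ← h]
  abel

theorem mul_mem_pairs {a b : Matrix (Fin 2) (Fin 2) k × Module.End k X} (ha : a ∈ pairs r ρ)
    (hb : b ∈ pairs r ρ) : a * b ∈ pairs r ρ := by
  induction ha using Submodule.span_induction with
  | mem x hx =>
    obtain ⟨g, rfl⟩ := hx
    induction hb using Submodule.span_induction with
    | mem y hy =>
      obtain ⟨h, rfl⟩ := hy
      exact Submodule.subset_span ⟨g * h, Prod.ext (map_mul r g h) (map_mul ρ g h)⟩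
    | zero => rw [mul_zero]; exact zero_mem _
    | add y z _ _ hy hz => rw [mul_add]; exact add_mem hy hz
    | smul c y _ hy => rw [mul_smul_comm]; exact Submodule.smul_mem _ c hy
  | zero => rw [zero_mul]; exact zero_mem _
  | add x y _ _ hx hy => rw [add_mul]; exact add_mem hx hy
  | smul c x _ hx => rw [smul_mul_assoc]; exact Submodule.smul_mem _ c hx

theorem one_mem_pairs : (1 : Matrix (Fin 2) (Fin 2) k × Module.End k X) ∈ pairs r ρ :=
  Submodule.subset_span ⟨1, Prod.ext (map_one r) (map_one ρ)⟩

theorem conj_add (a b : Matrix (Fin 2) (Fin 2) k × Module.End k X) :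
    conj (a + b) = conj a + conj b := by
  simp only [conj, Prod.fst_add, Prod.snd_add, trace_add, add_smul]
  abel

theorem conj_smul (c : k) (a : Matrix (Fin 2) (Fin 2) k × Module.End k X) :
    conj (c • a) = c • conj a := by
  simp only [conj, Prod.smul_fst, Prod.smul_snd, trace_smul, smul_eq_mul, mul_smul, smul_sub]

theorem conj_zero : conj (0 : Matrix (Fin 2) (Fin 2) k × Module.End k X) = 0 := by simp [conj]

theorem conj_mul (hq : ∀ g, ρ g * ρ g - (r g).trace • ρ g + (r g).det • 1 = 0)
    {a b : Matrix (Fin 2) (Fin 2) k × Module.End k X} (ha : a ∈ pairs r ρ)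
    (hb : b ∈ pairs r ρ) : conj (a * b) = conj b * conj a := by
  induction ha using Submodule.span_induction with
  | mem x hx =>
    obtain ⟨g, rfl⟩ := hx
    induction hb using Submodule.span_induction with
    | mem y hy =>
      obtain ⟨h, rfl⟩ := hy
      rw [show (r g, ρ g) * (r h, ρ h) = (r (g * h), ρ (g * h)) from
        Prod.ext (map_mul r g h).symm (map_mul ρ g h).symm, conj_gen hq, conj_gen hq, conj_gen hq,
        _root_.mul_inv_rev, map_mul, map_mul, det_mul, smul_mul_smul_comm, mul_comm (r g).det]
    | zero => rw [mul_zero, conj_zero, zero_mul]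
    | add y z _ _ hy hz => rw [mul_add, conj_add, conj_add, hy, hz, add_mul]
    | smul c y _ hy => rw [mul_smul_comm, conj_smul, conj_smul, hy, smul_mul_assoc]
  | zero => rw [zero_mul, conj_zero, mul_zero]
  | add x y _ _ hx hy => rw [add_mul, conj_add, conj_add, hx, hy, mul_add]
  | smul c x _ hx => rw [smul_mul_assoc, conj_smul, conj_smul, hx, mul_smul_comm]

/-- a pair with trivial first component is trivial -/
theorem snd_eq_zero (hq : ∀ g, ρ g * ρ g - (r g).trace • ρ g + (r g).det • 1 = 0)
    (hspan : Submodule.span k (Set.range r) = ⊤) (h2 : (2 : k) ≠ 0)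
    {w : Module.End k X} (hw : ((0, w) : Matrix (Fin 2) (Fin 2) k × Module.End k X) ∈ pairs r ρ) :
    w = 0 := by
  classical
  have hfst : ∀ A : Matrix (Fin 2) (Fin 2) k, ∃ a ∈ pairs r ρ, a.1 = A := by
    intro A
    have h : A ∈ (pairs r ρ).map (LinearMap.fst k _ _) := by
      rw [pairs, Submodule.map_span, ← Set.range_comp]
      exact hspan.symm ▸ Submodule.mem_top
    exact Submodule.mem_map.mp h
  have hsq : ∀ {z : Module.End k X},
      ((0, z) : Matrix (Fin 2) (Fin 2) k × Module.End k X) ∈ pairs r ρ → z * z = 0 := by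
    intro z hz
    have h := conj_mul hq hz hz
    simp only [conj, Prod.mk_mul_mk, mul_zero, trace_zero, zero_smul, zero_sub, neg_mul,
      mul_neg, neg_neg] at h
    have : (2 : k) • (z * z) = 0 := by
      rw [two_smul]; nth_rewrite 1 [← h]; exact neg_add_cancel _
    exact (smul_eq_zero.mp this).resolve_left h2
  have hkill : ∀ {z : Module.End k X},
      ((0, z) : Matrix (Fin 2) (Fin 2) k × Module.End k X) ∈ pairs r ρ →
      ∀ a ∈ pairs r ρ, ∀ b ∈ pairs r ρ, (a.2 * b.2 - b.2 * a.2) * z = 0 := by
    intro z hz a ha b hb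
    have key : ∀ c ∈ pairs r ρ, z * c.2 = conj c * z := by
      intro c hc
      have h := conj_mul hq hz hc
      simp only [conj, Prod.fst_mul, Prod.snd_mul, zero_mul, trace_zero, zero_smul, zero_sub,
        mul_neg] at h
      exact neg_injective h
    have h1 := key _ (mul_mem_pairs ha hb)
    rw [conj_mul hq ha hb, Prod.snd_mul, ← mul_assoc, key a ha, mul_assoc, key b hb,
      ← mul_assoc, ← sub_eq_zero, ← sub_mul] at h1
    rw [← h1]
    refine congrArg (· * z) ?_
    simp only [conj, mul_sub, sub_mul, smul_mul_assoc, mul_smul_comm, one_mul, mul_one, smul_sub,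
      smul_smul, mul_comm a.1.trace]
    abel
  obtain ⟨a, ha, ha1⟩ := hfst (single 0 1 1)
  obtain ⟨b, hb, hb1⟩ := hfst (single 1 0 1)
  set e := (a * b - b * a) * (a * b - b * a) with he
  have hc : a * b - b * a ∈ pairs r ρ := sub_mem (mul_mem_pairs ha hb) (mul_mem_pairs hb ha)
  have he1 : e.1 = 1 := by
    simp only [he, Prod.fst_mul, Prod.fst_sub, ha1, hb1]
    ext i j
    fin_cases i <;> fin_cases j <;> simp [mul_apply, Fin.sum_univ_two, single]
  have hi : ((0, e.2 - 1) : Matrix (Fin 2) (Fin 2) k × Module.End k X) ∈ pairs r ρ := by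
    rw [show ((0 : Matrix (Fin 2) (Fin 2) k), e.2 - 1) = e - 1 from
      Prod.ext (by simp [he1]) (by simp)]
    exact sub_mem (mul_mem_pairs hc hc) one_mem_pairs
  have hew : e.2 * w = 0 := by
    have h := hkill hw a ha b hb
    simp only [he, Prod.snd_mul, Prod.snd_sub, mul_assoc, h, mul_zero]
  have hii := hsq hi
  have h3 : (e.2 - 1) * w = -w := by rw [sub_mul, hew, one_mul, zero_sub]
  have h4 : (e.2 - 1) * ((e.2 - 1) * w) = w := by rw [h3, mul_neg, h3, neg_neg]
  rw [← h4, ← mul_assoc, hii, zero_mul]

/-- the action factors through matrices -/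
theorem exists_matrix_action (hspan : Submodule.span k (Set.range r) = ⊤) (h2 : (2 : k) ≠ 0)
    (hq : ∀ g, ρ g * ρ g - (r g).trace • ρ g + (r g).det • 1 = 0) :
    ∃ Φ : Matrix (Fin 2) (Fin 2) k →ₐ[k] Module.End k X, ∀ g, Φ (r g) = ρ g := by
  classical
  set R := pairs r ρ
  let π : R →ₗ[k] Matrix (Fin 2) (Fin 2) k := (LinearMap.fst k _ _).comp R.subtype
  have hinj : Function.Injective π := by
    rw [← LinearMap.ker_eq_bot, eq_bot_iff]
    rintro ⟨⟨A, w⟩, hAw⟩ h
    obtain rfl : A = 0 := h
    exact Subtype.ext (Prod.ext rfl (snd_eq_zero hq hspan h2 hAw))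
  have hsurj : Function.Surjective π := by
    rw [← LinearMap.range_eq_top, eq_top_iff, ← hspan, Submodule.span_le]
    rintro _ ⟨g, rfl⟩
    exact ⟨⟨(r g, ρ g), Submodule.subset_span ⟨g, rfl⟩⟩, rfl⟩
  let e := LinearEquiv.ofBijective π ⟨hinj, hsurj⟩
  let φ : Matrix (Fin 2) (Fin 2) k →ₗ[k] Module.End k X :=
    (LinearMap.snd k _ _).comp (R.subtype.comp e.symm.toLinearMap)
  have hφ : ∀ (A : Matrix (Fin 2) (Fin 2) k) (w : Module.End k X), (A, w) ∈ R → φ A = w := by
    intro A w h
    have : e.symm A = ⟨(A, w), h⟩ := e.symm_apply_eq.mpr rfl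
    simp only [φ, LinearMap.comp_apply, LinearEquiv.coe_coe, this]
    rfl
  have hmem : ∀ A, (A, φ A) ∈ R := by
    intro A
    have h2' : (e.symm A : Matrix (Fin 2) (Fin 2) k × Module.End k X).1 = A := e.apply_symm_apply A
    have h : ((e.symm A : Matrix (Fin 2) (Fin 2) k × Module.End k X)) = (A, φ A) :=
      Prod.ext h2' rfl
    exact h ▸ (e.symm A).2
  refine ⟨AlgHom.ofLinearMap φ (hφ _ _ one_mem_pairs) (fun A B =>
    hφ _ _ (mul_mem_pairs (hmem A) (hmem B))), fun g => hφ _ _ (Submodule.subset_span ⟨g, rfl⟩)⟩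

/-- an equivariant embedding of the plane representation -/
theorem exists_embedding [Nontrivial X] (hspan : Submodule.span k (Set.range r) = ⊤)
    (h2 : (2 : k) ≠ 0) (hq : ∀ g, ρ g * ρ g - (r g).trace • ρ g + (r g).det • 1 = 0) :
    ∃ ι : (Fin 2 → k) →ₗ[k] X, Function.Injective ι ∧ ∀ g v, ι (r g *ᵥ v) = ρ g (ι v) := by
  classical
  obtain ⟨Φ, hΦ⟩ := exists_matrix_action hspan h2 hq
  have hE : Φ (single 0 0 1) ≠ 0 := by
    intro h
    have h1 : (1 : Matrix (Fin 2) (Fin 2) k) =
        single 0 0 1 + single 1 0 1 * single 0 0 1 * single 0 1 1 := by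
      rw [single_mul_single_same, single_mul_single_same, mul_one, mul_one]
      ext i j
      fin_cases i <;> fin_cases j <;> simp [single]
    have h' := map_one Φ
    rw [h1, map_add, map_mul, map_mul, h] at h'
    simp only [mul_zero, zero_mul, add_zero] at h'
    exact zero_ne_one h'
  obtain ⟨w, hw⟩ : ∃ w, Φ (single 0 0 1) w ≠ 0 := by
    by_contra hc
    push Not at hc
    exact hE (LinearMap.ext hc)
  set u := Φ (single 0 0 1) w
  let col : (Fin 2 → k) →ₗ[k] Matrix (Fin 2) (Fin 2) k :=
    { toFun := fun v => Matrix.of fun i j => if j = 0 then v i else 0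
      map_add' := fun v v' => by ext i j; by_cases h : j = 0 <;> simp [h]
      map_smul' := fun c v => by ext i j; by_cases h : j = 0 <;> simp [h] }
  let ι : (Fin 2 → k) →ₗ[k] X := (LinearMap.applyₗ u).comp (Φ.toLinearMap.comp col)
  refine ⟨ι, ?_, fun g v => ?_⟩
  · rw [← LinearMap.ker_eq_bot, eq_bot_iff]
    intro v hv
    refine (Submodule.mem_bot k).mpr (funext fun i => ?_)
    have hv' : Φ (col v) u = 0 := hv
    have h1 := congrArg (Φ (single 0 i 1)) hv'
    rw [map_zero, ← Module.End.mul_apply, ← map_mul,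
      show single 0 i 1 * col v = v i • single 0 0 1 by
        ext a b
        fin_cases a <;> fin_cases b <;> fin_cases i <;> simp [col, mul_apply, Fin.sum_univ_two, single],
      map_smul, LinearMap.smul_apply] at h1
    have hu : Φ (single 0 0 1) u = u := by
      show Φ (single 0 0 1) (Φ (single 0 0 1) w) = _
      rw [← Module.End.mul_apply, ← map_mul, single_mul_single_same, mul_one]
    rw [hu] at h1
    exact (smul_eq_zero.mp h1).resolve_right hw
  · show Φ (col (r g *ᵥ v)) u = ρ g (Φ (col v) u)
    rw [← hΦ, show Φ (r g) (Φ (col v) u) = Φ (r g * col v) u by rw [map_mul]; rfl]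
    refine congrArg (fun A => Φ A u) ?_
    ext i j
    fin_cases i <;> fin_cases j <;> simp [col, mul_apply, mulVec, dotProduct, Fin.sum_univ_two]

/-- an irreducible odd plane representation is not reducible on traces -/
theorem exists_trace_ne (hspan : Submodule.span k (Set.range r) = ⊤) (h2 : (2 : k) ≠ 0) :
    ∃ g, (r g).trace ≠ 1 + (r g).det := by
  classical
  by_contra hc
  push Not at hc
  have hq : ∀ g, (1 : G →* Module.End k k) g * (1 : G →* Module.End k k) g
      - (r g).trace • (1 : G →* Module.End k k) g + (r g).det • 1 = 0 := fun g => by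
    rw [MonoidHom.one_apply, mul_one, hc g, add_smul, one_smul]
    abel
  obtain ⟨Φ, -⟩ := exists_matrix_action (X := k) hspan h2 hq
  have hcomm : ∀ A B, Φ A * Φ B = Φ B * Φ A := fun A B => LinearMap.ext_ring (by
    have hlin : ∀ (f : Module.End k k) (x : k), f x = x * f 1 := fun f x => by
      conv_lhs => rw [show x = x • (1 : k) by simp, map_smul, smul_eq_mul]
    simp only [Module.End.mul_apply]
    rw [hlin (Φ A) (Φ B 1), hlin (Φ B) (Φ A 1), mul_comm])
  have h0 : Φ (single 0 0 1) = Φ (single 1 1 1) := by
    have := hcomm (single 0 1 1) (single 1 0 1)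
    rwa [← map_mul, ← map_mul, single_mul_single_same, single_mul_single_same, mul_one] at this
  have hz : Φ (single 0 0 1) * Φ (single 1 1 1) = 0 := by
    rw [← map_mul, single_mul_single_of_ne _ _ _ _ (by decide), map_zero]
  have hid : Φ (single 0 0 1) * Φ (single 0 0 1) = Φ (single 0 0 1) := by
    rw [← map_mul, single_mul_single_same, mul_one]
  rw [← h0, hid] at hz
  have h1 : (1 : Module.End k k) = 0 := by
    rw [← map_one Φ, show (1 : Matrix (Fin 2) (Fin 2) k) = single 0 0 1 + single 1 1 1 by
      ext i j; fin_cases i <;> fin_cases j <;> simp [single], map_add, ← h0, hz, add_zero]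
  exact one_ne_zero (α := k) (LinearMap.congr_fun h1 1)

/-- in a basis of eigenvectors of an involution of determinant `-1`, an irreducible action
spans all matrices -/
theorem exists_basis_span_top {V : Type*} [AddCommGroup V] [Module k V] [FiniteDimensional k V]
    (hrk : Module.finrank k V = 2) (σ : G →* Module.End k V)
    (hirr : ∀ N : Submodule k V, (∀ g, ∀ x ∈ N, σ g x ∈ N) → N = ⊥ ∨ N = ⊤) (h2 : (2 : k) ≠ 0)
    {c : G} (hc : σ c * σ c = 1) (hdet : LinearMap.det (σ c) = -1) :
    ∃ b : Module.Basis (Fin 2) k V,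
      Submodule.span k (Set.range fun g => LinearMap.toMatrix b b (σ g)) = ⊤ := by
  classical
  set C := σ c with hC
  have h1 : (1 : k) ≠ -1 := fun h => h2 (by linear_combination h)
  obtain ⟨v, hv⟩ : ∃ v, v + C v ≠ 0 := by
    by_contra hh
    push Not at hh
    have : C = (-1 : k) • 1 := LinearMap.ext fun v => by
      simp only [LinearMap.smul_apply, Module.End.one_apply, neg_smul, one_smul]
      exact (eq_neg_of_add_eq_zero_right (hh v))
    rw [this, LinearMap.det_smul, hrk, map_one, mul_one] at hdet
    exact h1 (by linear_combination hdet)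
  obtain ⟨w, hw⟩ : ∃ w, w - C w ≠ 0 := by
    by_contra hh
    push Not at hh
    have : C = 1 := LinearMap.ext fun v => (sub_eq_zero.mp (hh v)).symm
    rw [this, map_one] at hdet
    exact h1 hdet
  have hCC : ∀ x, C (C x) = x := fun x => by rw [← Module.End.mul_apply, hc]; rfl
  set e : Fin 2 → V := ![v + C v, w - C w]
  have he0 : C (e 0) = e 0 := by simp [e, hCC, add_comm]
  have he1 : C (e 1) = -e 1 := by simp [e, hCC]
  have hli : LinearIndependent k e := by
    rw [Fintype.linearIndependent_iff]
    intro a ha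
    rw [Fin.sum_univ_two] at ha
    have h' := congrArg C ha
    rw [map_add, map_smul, map_smul, he0, he1, map_zero] at h'
    have s0 : (2 * a 0) • e 0 = 0 := by
      rw [mul_smul, two_smul]
      have := congrArg₂ (· + ·) ha h'
      simp only [add_zero, smul_neg] at this
      rw [← this]; abel
    have s1 : (2 * a 1) • e 1 = 0 := by
      rw [mul_smul, two_smul]
      have := congrArg₂ (· - ·) ha h'
      simp only [sub_zero, smul_neg] at this
      rw [← this]; abel
    intro i
    fin_cases i
    · exact (mul_eq_zero.mp ((smul_eq_zero.mp s0).resolve_right hv)).resolve_left h2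
    · exact (mul_eq_zero.mp ((smul_eq_zero.mp s1).resolve_right hw)).resolve_left h2
  let b : Module.Basis (Fin 2) k V :=
    basisOfLinearIndependentOfCardEqFinrank hli (by simp [hrk])
  have hb : ∀ i, b i = e i := fun i => by simp [b]
  refine ⟨b, ?_⟩
  let M : G →* Matrix (Fin 2) (Fin 2) k :=
    (LinearMap.toMatrixAlgEquiv b).toMonoidHom.comp σ
  set S := Submodule.span k (Set.range fun g => LinearMap.toMatrix b b (σ g))
  have hmulS : ∀ A ∈ S, ∀ B ∈ S, A * B ∈ S := by
    intro A hA B hB
    induction hA using Submodule.span_induction with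
    | mem x hx =>
      obtain ⟨g, rfl⟩ := hx
      induction hB using Submodule.span_induction with
      | mem y hy =>
        obtain ⟨h, rfl⟩ := hy
        refine Submodule.subset_span ⟨g * h, ?_⟩
        simp only [map_mul]
        rw [← LinearMap.toMatrix_mul]
      | zero => rw [mul_zero]; exact zero_mem _
      | add y z _ _ hy hz => rw [mul_add]; exact add_mem hy hz
      | smul a y _ hy => rw [mul_smul_comm]; exact Submodule.smul_mem _ a hy
    | zero => rw [zero_mul]; exact zero_mem _
    | add x y _ _ hx hy => rw [add_mul]; exact add_mem hx hy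
    | smul a x _ hx => rw [smul_mul_assoc]; exact Submodule.smul_mem _ a hx
  have h1S : (1 : Matrix (Fin 2) (Fin 2) k) ∈ S :=
    Submodule.subset_span ⟨1, by simp⟩
  have hCm : LinearMap.toMatrix b b C = single 0 0 1 - single 1 1 1 := by
    ext i j
    rw [LinearMap.toMatrix_apply, hb]
    fin_cases j
    · show b.repr (C (e 0)) i = _
      rw [he0, ← hb, b.repr_self]
      fin_cases i <;> simp [single]
    · show b.repr (C (e 1)) i = _
      rw [he1, ← hb, map_neg, b.repr_self]
      fin_cases i <;> simp [single]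
  have hCS : single 0 0 1 - single 1 1 1 ∈ S := hCm ▸ Submodule.subset_span ⟨c, rfl⟩
  have hE0 : single (0 : Fin 2) (0 : Fin 2) (1 : k) ∈ S := by
    have : single (0 : Fin 2) (0 : Fin 2) (1 : k) = (2 : k)⁻¹ • (1 + (single 0 0 1 - single 1 1 1)) := by
      ext i j; fin_cases i <;> fin_cases j <;> simp [single] <;> field_simp <;> ring
    rw [this]; exact Submodule.smul_mem _ _ (add_mem h1S hCS)
  have hE1 : single (1 : Fin 2) (1 : Fin 2) (1 : k) ∈ S := by
    have : single (1 : Fin 2) (1 : Fin 2) (1 : k) = 1 - single 0 0 1 := by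
      ext i j; fin_cases i <;> fin_cases j <;> simp [single]
    rw [this]; exact sub_mem h1S hE0
  have hoff : ∀ i j : Fin 2, i ≠ j → single i j (1 : k) ∈ S := by
    intro i j hij
    obtain ⟨g, hg⟩ : ∃ g, LinearMap.toMatrix b b (σ g) i j ≠ 0 := by
      by_contra hh
      push Not at hh
      rcases hirr (k ∙ b j) (fun g x hx => by
        obtain ⟨a, rfl⟩ := Submodule.mem_span_singleton.mp hx
        rw [map_smul]
        refine Submodule.smul_mem _ a (Submodule.mem_span_singleton.mpr
          ⟨LinearMap.toMatrix b b (σ g) j j, ?_⟩)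
        conv_rhs => rw [← b.sum_repr (σ g (b j)), Fin.sum_univ_two]
        have := hh g
        simp only [LinearMap.toMatrix_apply] at this ⊢
        fin_cases i <;> fin_cases j <;> simp_all) with h | h
      · exact b.ne_zero j (Submodule.span_singleton_eq_bot.mp h)
      · have := congrArg (fun N : Submodule k V => Module.finrank k N) h
        simp only [finrank_span_singleton (b.ne_zero j), finrank_top, hrk] at this
        omega
    have hii : ∀ l : Fin 2, single l l (1 : k) ∈ S := fun l => by fin_cases l <;> assumption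
    have h := hmulS _ (hmulS _ (hii i) _ (Submodule.subset_span ⟨g, rfl⟩)) _ (hii j)
    have h' : single i i (1 : k) * LinearMap.toMatrix b b (σ g) * single j j 1 =
        LinearMap.toMatrix b b (σ g) i j • single i j 1 := by
      ext x y
      fin_cases i <;> fin_cases j <;> fin_cases x <;> fin_cases y <;>
        simp [mul_apply, Fin.sum_univ_two, single]
    rw [h'] at h
    exact (Submodule.smul_mem_iff _ hg).mp h
  rw [eq_top_iff]
  intro A _
  rw [matrix_eq_sum_single A]
  refine sum_mem fun i _ => sum_mem fun j _ => ?_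
  rw [← mul_one (A i j), ← smul_eq_mul, ← smul_single]
  refine Submodule.smul_mem _ _ ?_
  by_cases h : i = j
  · subst h; fin_cases i <;> assumption
  · exact hoff i j h

end FLTAgent.TOR.BLR
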