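import Fermat.Agent.Local.Nodal

/-!
The odd division polynomials of a nodal cubic are neither zero nor constant, and the valuations of
the roots of an integral polynomial are bounded by that of its leading coefficient.
-/

set_option autoImplicit false
set_option linter.unusedSectionVars false

noncomputable section

open WeierstrassCurve IsLocalRing Polynomial
open FLTAgent.Local (genFib specFib Nodal)

namespace FLTAgent.TOR

section DivPoly

variable {R : Type*} [CommRing R] (W : WeierstrassCurve R) {x : R}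

/-- at a root of `ψ₂²` the odd division polynomials only see `ψ₃` -/
theorem preΨ'_eval_step (h2 : W.Ψ₂Sq.eval x = 0) (m : ℕ) :
    (W.preΨ' (2 * (m + 2) + 1)).eval x =
      if Even m then -((W.preΨ' (m + 1)).eval x * (W.preΨ' (m + 3)).eval x ^ 3)
      else (W.preΨ' (m + 4)).eval x * (W.preΨ' (m + 2)).eval x ^ 3 := by
  rw [preΨ'_odd]
  split_ifs <;> simp [h2]

theorem preΨ'_eval_eq_zero (h2 : W.Ψ₂Sq.eval x = 0) (h3 : W.Ψ₃.eval x = 0) {n : ℕ} (hn : Odd n)
    (h3n : 3 ≤ n) : (W.preΨ' n).eval x = 0 := by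
  induction n using Nat.strongRecOn with
  | _ n ih =>
    obtain ⟨t, rfl⟩ := hn
    rcases lt_or_ge t 2 with ht | ht
    · rw [show 2 * t + 1 = 3 by omega, preΨ'_three, h3]
    obtain ⟨m, rfl⟩ : ∃ m, t = m + 2 := ⟨t - 2, by omega⟩
    rw [preΨ'_eval_step W h2]
    split_ifs with hm
    · rw [ih (m + 3) (by omega) (by obtain ⟨c, hc⟩ := hm; exact ⟨c + 1, by omega⟩) (by omega)]
      simp
    · rw [ih (m + 2) (by omega) (by
        obtain ⟨c, hc⟩ := Nat.not_even_iff_odd.mp hm; exact ⟨c + 1, by omega⟩)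
        (by have := (Nat.not_even_iff_odd.mp hm).pos; omega)]
      simp

theorem preΨ'_eval_ne_zero [IsDomain R] (h2 : W.Ψ₂Sq.eval x = 0) (h3 : W.Ψ₃.eval x ≠ 0) {n : ℕ}
    (hn : Odd n) : (W.preΨ' n).eval x ≠ 0 := by
  induction n using Nat.strongRecOn with
  | _ n ih =>
    obtain ⟨t, rfl⟩ := hn
    rcases lt_or_ge t 2 with ht | ht
    · interval_cases t
      · simp
      · rw [show 2 * 1 + 1 = 3 from rfl, preΨ'_three]; exact h3
    obtain ⟨m, rfl⟩ : ∃ m, t = m + 2 := ⟨t - 2, by omega⟩
    rw [preΨ'_eval_step W h2]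
    split_ifs with hm
    · obtain ⟨c, hc⟩ := hm
      exact neg_ne_zero.mpr (mul_ne_zero (ih (m + 1) (by omega) ⟨c, by omega⟩)
        (pow_ne_zero _ (ih (m + 3) (by omega) ⟨c + 1, by omega⟩)))
    · obtain ⟨c, hc⟩ := Nat.not_even_iff_odd.mp hm
      exact mul_ne_zero (ih (m + 4) (by omega) ⟨c + 2, by omega⟩)
        (pow_ne_zero _ (ih (m + 2) (by omega) ⟨c + 1, by omega⟩))

end DivPoly

variable {K : Type*} [Field K] {A : ValuationSubring K}

/-- an odd division polynomial of a nodal model does not become constant on the special fibre -/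
theorem preΨ'_specFib_natDegree {W1 : WeierstrassCurve A} (hW : Nodal W1)
    (h2 : (2 : ResidueField A) ≠ 0) {n : ℕ} (hn : Odd n) (h3n : 3 ≤ n) :
    (specFib W1).preΨ' n ≠ 0 ∧ ((specFib W1).preΨ' n).natDegree ≠ 0 := by
  set S := specFib W1 with hS
  have e3 : S.a₃ = 0 := by simp [hS, hW.a₃]
  have e4 : S.a₄ = 0 := by simp [hS, hW.a₄]
  have e6 : S.a₆ = 0 := by
    show residue A W1.a₆ = 0
    exact Local.res_eq_zero.2 hW.a₆
  have hb : S.b₂ ≠ 0 := by
    rw [hS, map_b₂]
    exact Local.res_ne_zero.2 hW.b₂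
  have hb4 : S.b₄ = 0 := by simp [b₄, e3, e4]
  have hb6 : S.b₆ = 0 := by simp [b₆, e3, e6]
  have hb8 : S.b₈ = 0 := by simp [b₈, e3, e4, e6]
  have h4 : (4 : ResidueField A) ≠ 0 := by
    rw [show (4 : ResidueField A) = 2 * 2 by norm_num]; exact mul_ne_zero h2 h2
  set x₀ : ResidueField A := -S.b₂ / 4
  have a0 : S.Ψ₂Sq.eval 0 = 0 := by simp [Ψ₂Sq, hb6]
  have a1 : S.Ψ₃.eval 0 = 0 := by simp [Ψ₃, hb8]
  have b0 : S.Ψ₂Sq.eval x₀ = 0 := by
    simp only [Ψ₂Sq, x₀, hb4, hb6, eval_add, eval_mul, eval_C, eval_pow, eval_X, mul_zero,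
      zero_mul, add_zero]
    field_simp
    ring
  have b1 : S.Ψ₃.eval x₀ ≠ 0 := by
    have hx : x₀ ≠ 0 := div_ne_zero (neg_ne_zero.mpr hb) h4
    have e : S.Ψ₃.eval x₀ = -x₀ ^ 4 := by
      simp only [Ψ₃, x₀, hb4, hb6, hb8, eval_add, eval_mul, eval_C, eval_pow, eval_X, mul_zero,
        zero_mul, add_zero, eval_ofNat]
      field_simp
      ring
    rw [e]
    exact neg_ne_zero.mpr (pow_ne_zero _ hx)
  have hne := preΨ'_eval_ne_zero S b0 b1 hn
  refine ⟨fun h0 => hne (by rw [h0, eval_zero]), fun hd => hne ?_⟩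
  have hz := preΨ'_eval_eq_zero S a0 a1 hn h3n
  rw [eq_C_of_natDegree_eq_zero hd, eval_C] at hz ⊢
  exact hz

/-- a product of linear factors as a constant times a primitive integral polynomial -/
theorem exists_primitive_prod (s : Multiset K) : ∃ (c : K) (g : A[X]),
    (s.map fun r => X - C r).prod = C c * g.map A.subtype ∧
      A.valuation c = (s.map fun r => max 1 (A.valuation r)).prod ∧
      g.map (residue A) ≠ 0 ∧ ((∀ r ∈ s, r ∉ A) → (g.map (residue A)).natDegree = 0) := by
  induction s using Multiset.induction_on with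
  | empty => exact ⟨1, 1, by simp, by simp, by simp, fun _ => by simp⟩
  | cons r s ih =>
    obtain ⟨c, g, e, hc, hg, hdeg⟩ := ih
    rw [Multiset.map_cons, Multiset.prod_cons, Multiset.map_cons, Multiset.prod_cons, e]
    by_cases hr : r ∈ A
    · refine ⟨c, (X - C ⟨r, hr⟩) * g, ?_, ?_, ?_, fun h => absurd hr (h r (by simp))⟩
      · rw [Polynomial.map_mul, Polynomial.map_sub, map_X, map_C]
        show (X - C r) * (C c * _) = C c * ((X - C r) * _)
        ring
      · rw [hc, max_eq_left ((A.valuation_le_one_iff r).2 hr), one_mul]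
      · rw [Polynomial.map_mul, Polynomial.map_sub, map_X, map_C]
        exact mul_ne_zero (X_sub_C_ne_zero _) hg
    · have hr0 : r ≠ 0 := fun h => hr (h ▸ A.zero_mem)
      set i : A := ⟨r⁻¹, (A.mem_or_inv_mem r).resolve_left hr⟩
      have hi : residue A i = 0 := Local.res_eq_zero.2 (by
        show A.valuation r⁻¹ < 1
        rw [map_inv₀]
        exact inv_lt_one_of_one_lt₀ (not_le.1 fun h => hr ((A.valuation_le_one_iff r).1 h)))
      have hmap : (C i * X - 1 : A[X]).map (residue A) = -1 := by simp [hi]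
      refine ⟨r * c, (C i * X - 1) * g, ?_, ?_, ?_, fun h => ?_⟩
      · rw [Polynomial.map_mul, Polynomial.map_sub, Polynomial.map_mul, map_X, map_C,
          Polynomial.map_one, C_mul]
        show (X - C r) * (C c * _) = C r * C c * ((C r⁻¹ * X - 1) * _)
        have h1 : C r * C r⁻¹ = (1 : K[X]) := by rw [← C_mul, mul_inv_cancel₀ hr0, C_1]
        linear_combination (-(C c * g.map A.subtype * X)) * h1
      · rw [map_mul, hc, max_eq_right (not_le.1 fun h => hr ((A.valuation_le_one_iff r).1 h)).le]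
      · rw [Polynomial.map_mul, hmap]
        exact mul_ne_zero (neg_ne_zero.mpr one_ne_zero) hg
      · rw [Polynomial.map_mul, hmap, neg_one_mul, natDegree_neg]
        exact hdeg fun t ht => h t (Multiset.mem_cons_of_mem ht)

variable [IsAlgClosed K] (f : A[X])

/-- the Gauss factorisation of an integral polynomial -/
theorem exists_gauss (hf : f.map A.subtype ≠ 0) : ∃ (c : A) (g : A[X]),
    f = C c * g ∧ g.map (residue A) ≠ 0 ∧
      ((∀ r ∈ (f.map A.subtype).roots, r ∉ A) → (g.map (residue A)).natDegree = 0) ∧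
      A.valuation (c : K) = A.valuation (f.map A.subtype).leadingCoeff *
        ((f.map A.subtype).roots.map fun r => max 1 (A.valuation r)).prod := by
  obtain ⟨c, g, e, hc, hg, hdeg⟩ := exists_primitive_prod (A := A) (f.map A.subtype).roots
  set C₀ := (f.map A.subtype).leadingCoeff * c with hC₀
  have hfK : f.map A.subtype = C C₀ * g.map A.subtype := by
    conv_lhs => rw [(IsAlgClosed.splits (f.map A.subtype)).eq_prod_roots, e]
    rw [hC₀, C_mul, mul_assoc]
  have hC0 : C₀ ≠ 0 := fun h => hf (by rw [hfK, h, map_zero, zero_mul])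
  by_cases hA : C₀ ∈ A
  · refine ⟨⟨C₀, hA⟩, g, ?_, hg, hdeg, ?_⟩
    · refine Polynomial.map_injective A.subtype Subtype.val_injective ?_
      rw [Polynomial.map_mul, map_C]
      exact hfK
    · show A.valuation ((f.map A.subtype).leadingCoeff * c) = _
      rw [map_mul, hc]
  · exfalso
    set i : A := ⟨C₀⁻¹, (A.mem_or_inv_mem C₀).resolve_left hA⟩
    have hi : residue A i = 0 := Local.res_eq_zero.2 (by
      show A.valuation C₀⁻¹ < 1
      rw [map_inv₀]
      exact inv_lt_one_of_one_lt₀ (not_le.1 fun h => hA ((A.valuation_le_one_iff _).1 h)))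
    have hgi : g = C i * f := by
      refine Polynomial.map_injective A.subtype Subtype.val_injective ?_
      rw [Polynomial.map_mul, map_C, hfK]
      show _ = C C₀⁻¹ * (C C₀ * _)
      rw [← mul_assoc, ← C_mul, inv_mul_cancel₀ hC0, C_1, one_mul]
    exact hg (by rw [hgi, Polynomial.map_mul, map_C, hi, C_0, zero_mul])

/-- the leading coefficient times any set of roots is integral -/
theorem val_lead_mul_prod_le (hf : f.map A.subtype ≠ 0) {s : Multiset K}
    (hs : s ≤ (f.map A.subtype).roots) :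
    A.valuation (f.map A.subtype).leadingCoeff * (s.map A.valuation).prod ≤ 1 := by
  obtain ⟨c, g, -, -, -, hc⟩ := exists_gauss f hf
  refine le_trans ?_ (hc ▸ A.valuation_le_one c)
  refine mul_le_mul_right ?_ _
  obtain ⟨t, ht⟩ := Multiset.le_iff_exists_add.mp hs
  rw [ht, Multiset.map_add, Multiset.prod_add]
  refine le_mul_of_le_of_one_le ?_ (Multiset.one_le_prod ?_)
  · exact Multiset.prod_map_le_prod_map _ _ fun r _ => le_max_right _ _
  · intro a ha
    rw [Multiset.mem_map] at ha
    obtain ⟨b, -, rfl⟩ := ha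
    exact le_max_left _ _

/-- a polynomial not constant on the special fibre has an integral root -/
theorem exists_root_mem (hf : f.map A.subtype ≠ 0)
    (hd : (f.map (residue A)).natDegree ≠ 0) : ∃ r ∈ (f.map A.subtype).roots, r ∈ A := by
  by_contra h
  push Not at h
  obtain ⟨c, g, e, -, hdeg, -⟩ := exists_gauss f hf
  refine hd ?_
  rw [e, Polynomial.map_mul, map_C]
  exact Nat.le_zero.1 ((natDegree_C_mul_le _ _).trans (hdeg h).le)

end FLTAgent.TOR
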