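import Fermat.Agent.RR.Forms
import Fermat.Agent.SS2.Delta
import Fermat.Agent.TOR.MazurLog

/-!
Area TOR, Mazur's principle: differentials without poles give cusp forms with the expansion of
`h · θj`.
-/

set_option autoImplicit false
set_option maxHeartbeats 1000000
set_option linter.unusedSectionVars false
set_option synthInstance.maxHeartbeats 200000

noncomputable section

open UpperHalfPlane CongruenceSubgroup ModularCurve AlgebraicCurve ModularForm EisensteinSeries
open scoped MatrixGroups Manifold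

namespace FLTAgent.TOR

open FLTAgent.ModFun (M1 lx lx_good Good jdM lx_jdM evalM jFun scale qx)
open FLTAgent.RR (DN genL evF J2)
open FLTAgent.SS2 (deltaC e4C)

local notation "Qb" => AlgebraicClosure ℚ

variable {N : ℕ} [NeZero N]

theorem good_E4 : Good (E₄ : ℍ → ℂ) := (ModFun.isMF_levelOne E₄).good

theorem good_E6 : Good (E₆ : ℍ → ℂ) := (ModFun.isMF_levelOne E₆).good

theorem good_discriminant : Good (ModularForm.discriminant : ℍ → ℂ) := ModFun.isMF_delta.good

theorem good_J2 : Good J2 := (good_E4.mul good_E4).mul good_E6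

theorem lx_discriminant : lx ⟨_, good_discriminant.mod1⟩ = deltaC ℂ := by
  rw [lx_good good_discriminant, ModFun.qx_discriminant, map_mul, HahnSeries.ofPowerSeries_X]
  rfl

/-- `θj · Δ = -E₄² E₆` -/
theorem lx_J2 : lx ⟨J2, good_J2.mod1⟩ = -(SS2.theta (jqModC ℂ) * deltaC ℂ) := by
  set a := SS2.theta (jqModC ℂ) * deltaC ℂ with ha
  set J := lx ⟨J2, good_J2.mod1⟩ with hJ
  have e4 : lx ⟨_, good_E4.mod1⟩ = e4C ℂ := by rw [lx_good good_E4, ModFun.qx_E4]; rfl
  have h6 : (⟨_, good_E4.mod1⟩ : M1) ^ 3 - 1728 * ⟨_, good_discriminant.mod1⟩ =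
      (⟨_, good_E6.mod1⟩ : M1) ^ 2 := by
    refine Subtype.ext (funext fun z => ?_)
    show (E₄ : ℍ → ℂ) z ^ 3 - 1728 * ModularForm.discriminant z = (E₆ : ℍ → ℂ) z ^ 2
    rw [ModularForm.discriminant_eq_E₄_cube_sub_E₆_sq z]
    ring
  have hJm : (⟨J2, good_J2.mod1⟩ : M1) =
      ⟨_, good_E4.mod1⟩ * ⟨_, good_E4.mod1⟩ * ⟨_, good_E6.mod1⟩ := Subtype.ext rfl
  have hsq : J ^ 2 = a ^ 2 := by
    have h7 := congrArg lx h6
    rw [map_sub, map_pow, map_pow, map_mul, map_ofNat, e4, lx_discriminant] at h7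
    rw [ha, SS2.theta_jqModC_mul_deltaC_sq, h7, hJ, hJm, map_mul, map_mul, e4]
    ring
  rcases sq_eq_sq_iff_eq_or_eq_neg.mp hsq with h | h
  swap
  · exact h
  exfalso
  have hJ0 : J.coeff 0 = 1 := by
    rw [hJ, lx_good good_J2, show (0 : ℤ) = ((0 : ℕ) : ℤ) from rfl,
      HahnSeries.ofPowerSeries_apply_coeff,
      show J2 = (E₄ : ℍ → ℂ) * (E₄ : ℍ → ℂ) * (E₆ : ℍ → ℂ) from rfl,
      Good.qx_mul (good_E4.mul good_E4) good_E6, Good.qx_mul good_E4 good_E4,
      PowerSeries.coeff_zero_eq_constantCoeff, map_mul, map_mul,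
      ← PowerSeries.coeff_zero_eq_constantCoeff_apply, ← PowerSeries.coeff_zero_eq_constantCoeff_apply,
      qx, qx, E_qExpansion_coeff_zero _ ⟨2, rfl⟩, E_qExpansion_coeff_zero _ ⟨3, rfl⟩]
    norm_num
  have ha0 : a.coeff 0 = -1 := by
    have e : a = HahnSeries.ofPowerSeries ℤ ℂ ((SS2.thetaP (jNum.map (Int.castRingHom ℂ)) -
        jNum.map (Int.castRingHom ℂ)) * dedekindEtaUnit.map (Int.castRingHom ℂ)) := by
      rw [ha, jqModC, deltaC, SS2.theta_mul, SS2.theta_single, SS2.theta_ofPowerSeries]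
      simp only [Int.cast_neg, Int.cast_one, mul_one, HahnSeries.single_neg, map_mul, map_sub]
      linear_combination ((HahnSeries.ofPowerSeries ℤ ℂ (SS2.thetaP (jNum.map (Int.castRingHom ℂ))) -
        HahnSeries.ofPowerSeries ℤ ℂ (jNum.map (Int.castRingHom ℂ))) *
        HahnSeries.ofPowerSeries ℤ ℂ (dedekindEtaUnit.map (Int.castRingHom ℂ))) *
        SS2.single_mul_cancel ℂ
    rw [e, show (0 : ℤ) = ((0 : ℕ) : ℤ) from rfl, HahnSeries.ofPowerSeries_apply_coeff,
      PowerSeries.coeff_zero_eq_constantCoeff, map_mul, map_sub,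
      ← PowerSeries.coeff_zero_eq_constantCoeff_apply, ← PowerSeries.coeff_zero_eq_constantCoeff_apply,
      ← PowerSeries.coeff_zero_eq_constantCoeff_apply]
    simp [PowerSeries.coeff_zero_eq_constantCoeff, constantCoeff_jNum, constantCoeff_dedekindEtaUnit]
  rw [h, ha0] at hJ0
  norm_num at hJ0

variable (e : Qb →+* ℂ)

/-- a polynomial in the `j(dτ)` as an element of `M1` -/
def polyM (P : MvPolynomial (DN N) Qb) : M1 :=
  MvPolynomial.aeval (fun d : DN N => jdM (d : ℕ)) (MvPolynomial.map e P)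

theorem polyM_apply (P : MvPolynomial (DN N) Qb) (τ : ℍ) :
    (polyM e P : ℍ → ℂ) τ = RR.theta e P τ := by
  have h : evalM τ (polyM e P) =
      MvPolynomial.eval (fun d : DN N => jFun (scale (d : ℕ) τ)) (MvPolynomial.map e P) := by
    rw [polyM, MvPolynomial.comp_aeval_apply, MvPolynomial.aeval_eq_eval₂Hom]
    rfl
  rw [MvPolynomial.eval_map] at h
  exact h

theorem lx_polyM (P : MvPolynomial (DN N) Qb) :
    lx (polyM e P) = coeffMap e (evF P : LaurentSeries Qb) := by
  rw [polyM, MvPolynomial.comp_aeval_apply, RR.coe_evF]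
  simp only [lx_jdM]
  induction P using MvPolynomial.induction_on with
  | C a =>
      simp only [MvPolynomial.map_C, MvPolynomial.aeval_C,
        algebraMap_laurentSeries_eq_single, coeffMap_single]
  | add p q hp hq => simp only [map_add, hp, hq]
  | mul_X p d hp =>
      simp only [map_mul, hp, MvPolynomial.map_X, MvPolynomial.aeval_X]
      congr 1
      rw [genL, coeffEmb, coeffEmb, coeffMap_coeffMap]
      exact coeffMap_congr (Subsingleton.elim _ _) _

/-- a differential without poles is a cusp form of weight two -/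
theorem exists_form_series {x : ↥(modularFunctionFieldBar N)}
    (hx : x ∈ riemannRochSpace (KdB N)) :
    ∃ f : CuspForm (Gamma0 N) 2,
      HahnSeries.ofPowerSeries ℤ ℂ (UpperHalfPlane.qExpansion 1 f) =
        coeffMap e ((x : LaurentSeries Qb) *
          SS2.theta ((ModFun.jBar N : ↥(modularFunctionFieldBar N)) : LaurentSeries Qb)) := by
  obtain ⟨f, P, B, hB, hAB, hf⟩ := RR.exists_cuspForm e hx
  have hfg : Good (f : ℍ → ℂ) := (ModFun.isCF_of_form f).isMF.good
  have hmul : (⟨_, hfg.mod1⟩ : M1) * (polyM e B * ⟨_, good_discriminant.mod1⟩) =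
      polyM e P * ⟨J2, good_J2.mod1⟩ := by
    refine Subtype.ext (funext fun τ => ?_)
    show f τ * ((polyM e B : ℍ → ℂ) τ * ModularForm.discriminant τ) = (polyM e P : ℍ → ℂ) τ * J2 τ
    rw [polyM_apply, polyM_apply]
    exact hf τ
  have h1 := congrArg lx hmul
  rw [map_mul, map_mul, map_mul, lx_polyM, lx_polyM, lx_discriminant, lx_J2, lx_good hfg,
    ← hAB, MulMemClass.coe_mul, map_mul] at h1
  have hB0 : coeffMap e (evF B : LaurentSeries Qb) ≠ 0 := fun h => hB (Subtype.ext (by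
    refine HahnSeries.ext (funext fun k => e.injective ?_)
    have := congrArg (fun z : LaurentSeries ℂ => z.coeff k) h
    simpa using this))
  have hD0 : deltaC ℂ ≠ 0 := (SS2.isUnit_deltaC ℂ).ne_zero
  have hj : SS2.theta (jqModC ℂ) = coeffMap e
      (SS2.theta ((ModFun.jBar N : ↥(modularFunctionFieldBar N)) : LaurentSeries Qb)) := by
    rw [← SS2.theta_coeffMap, Reduction.coe_jBar, ← Reduction.jqModC_eq_coeffEmb, coeffMap_jqModC]
  have h2 : HahnSeries.ofPowerSeries ℤ ℂ (qx (f : ℍ → ℂ)) =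
      -coeffMap e ((x : LaurentSeries Qb) *
        SS2.theta ((ModFun.jBar N : ↥(modularFunctionFieldBar N)) : LaurentSeries Qb)) := by
    refine mul_right_cancel₀ (mul_ne_zero hB0 hD0) (h1.trans ?_)
    rw [map_mul, ← hj]
    ring
  refine ⟨-f, ?_⟩
  change HahnSeries.ofPowerSeries ℤ ℂ (qx (-(f : ℍ → ℂ))) = _
  rw [Good.qx_neg hfg, map_neg, h2, neg_neg]

theorem exists_form {x : ↥(modularFunctionFieldBar N)}
    (hx : x ∈ riemannRochSpace (KdB N)) :
    ∃ f : CuspForm (Gamma0 N) 2, ∀ n : ℕ, (UpperHalfPlane.qExpansion 1 f).coeff n =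
      e (((x : LaurentSeries Qb) *
        SS2.theta ((ModFun.jBar N : ↥(modularFunctionFieldBar N)) : LaurentSeries Qb)).coeff n) := by
  obtain ⟨f, hf⟩ := exists_form_series e hx
  refine ⟨f, fun n => ?_⟩
  have h := congrArg (fun z : LaurentSeries ℂ => z.coeff (n : ℤ)) hf
  simpa only [HahnSeries.ofPowerSeries_apply_coeff, coeffMap_coeff] using h

end FLTAgent.TOR
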