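import Fermat.Agent.TOR.MazurDivPoly
import Fermat.Agent.Local.Component2
import Fermat.Agent.Torsion.Count

/-!
The `p`-torsion of a nodal model whose residue characteristic is `p`: some point is outside the
kernel of reduction, the points of the kernel are as far from the origin as `ζ - 1` from zero, and
adding such a point moves the abscissa by that amount.
-/

set_option autoImplicit false
set_option linter.unusedSectionVars false
set_option maxHeartbeats 800000

noncomputable section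

open WeierstrassCurve IsLocalRing
open FLTAgent.Local FLTAgent.Torsion

namespace FLTAgent.TOR

variable {K : Type*} [Field K] {A : ValuationSubring K} [DecidableEq K] [CharZero K]
  [IsAlgClosed K] [DecidableEq (ResidueField A)] {W1 : WeierstrassCurve A} {p : ℕ}

/-- a nodal model with nonzero discriminant valuation is an elliptic curve -/
theorem isElliptic_genFib (hW : Nodal W1) (hδ : A.valuation (W1.a₆ : K) ≠ 0) :
    (genFib W1).IsElliptic := by
  constructor
  rw [isUnit_iff_ne_zero]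
  have e : (genFib W1).Δ = -(W1.a₆ : K) * ((W1.b₂ : K) ^ 3 + 432 * (W1.a₆ : K)) := by
    rw [Nodal.coe_b₂]
    simp only [WeierstrassCurve.Δ, WeierstrassCurve.b₂, WeierstrassCurve.b₄, WeierstrassCurve.b₆,
      WeierstrassCurve.b₈, genFib_a₁, genFib_a₂, genFib_a₃, genFib_a₄, genFib_a₆, hW.a₃, hW.a₄]
    push_cast
    ring
  have hv : A.valuation ((W1.b₂ : K) ^ 3 + 432 * (W1.a₆ : K)) = 1 := by
    rw [Valuation.map_add_eq_of_lt_left, map_pow, hW.b₂, one_pow]
    rw [map_pow, hW.b₂, one_pow, map_mul]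
    exact lt_of_le_of_lt (mul_le_of_le_one_left' (by simpa using A.valuation_le_one (432 : A))) hW.a₆
  rw [e]
  exact mul_ne_zero (neg_ne_zero.mpr ((Valuation.ne_zero_iff _).mp hδ))
    ((Valuation.ne_zero_iff _).mp (hv ▸ one_ne_zero))

theorem two_ne_zero_residue (hchar : CharP (ResidueField A) p) (hp : p.Prime) (hp2 : p ≠ 2) :
    (2 : ResidueField A) ≠ 0 := fun h => hp2
  ((Nat.prime_dvd_prime_iff_eq hp Nat.prime_two).1
    ((CharP.cast_eq_zero_iff (ResidueField A) p 2).1 (by exact_mod_cast h)))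

theorem preΨ'_map_subtype (n : ℕ) :
    (W1.preΨ' n).map A.subtype = (genFib W1).preΨ' n :=
  (W1.map_preΨ' A.subtype n).symm

theorem preΨ'_genFib_lead (hp : p.Prime) (hp2 : p ≠ 2) :
    ((genFib W1).preΨ' p).leadingCoeff = (p : K) ∧ (genFib W1).preΨ' p ≠ 0 := by
  have hne : (p : K) ≠ 0 := Nat.cast_ne_zero.mpr hp.ne_zero
  have h : ((genFib W1).preΨ' p).leadingCoeff = (p : K) := by
    rw [leadingCoeff_preΨ' _ hne, if_neg (Nat.not_even_iff_odd.mpr (hp.odd_of_ne_two hp2))]
  exact ⟨h, fun e => hne (by rw [← h, e, Polynomial.leadingCoeff_zero])⟩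

theorem ΨSq_eval_eq (hp : p.Prime) (hp2 : p ≠ 2) (r : K) :
    ((genFib W1).ΨSq (p : ℤ)).eval r = ((genFib W1).preΨ' p).eval r ^ 2 := by
  rw [WeierstrassCurve.ΨSq_ofNat, if_neg (Nat.not_even_iff_odd.mpr (hp.odd_of_ne_two hp2))]
  simp

/-- some `p`-torsion point is outside the kernel of reduction -/
theorem exists_torsion_not_inE1 (hW : Nodal W1) (hδ : A.valuation (W1.a₆ : K) ≠ 0) (hp : p.Prime)
    (hp3 : 3 ≤ p) (hchar : CharP (ResidueField A) p) :
    ∃ R : (genFib W1).toAffine.Point, p • R = 0 ∧ ¬ InE1 R := by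
  have := isElliptic_genFib hW hδ
  have hp2 : p ≠ 2 := by omega
  obtain ⟨-, hf0⟩ := preΨ'_genFib_lead (W1 := W1) hp hp2
  have hd : ((W1.preΨ' p).map (residue A)).natDegree ≠ 0 := by
    rw [← W1.map_preΨ' (residue A) p]
    exact (preΨ'_specFib_natDegree hW (two_ne_zero_residue hchar hp hp2) (hp.odd_of_ne_two hp2)
      hp3).2
  obtain ⟨r, hr, hrA⟩ := exists_root_mem (W1.preΨ' p) (by rwa [preΨ'_map_subtype]) hd
  rw [preΨ'_map_subtype, Polynomial.mem_roots hf0] at hr
  obtain ⟨y, hy⟩ := exists_nonsingular (genFib W1) r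
  refine ⟨.some r y hy, (nsmul_eq_zero_iff hy p).mpr ?_, fun h => h hrA⟩
  rw [ΨSq_eval_eq hp hp2, hr, zero_pow two_ne_zero]

/-- `v(p) v(x)^((p-1)/2) ≤ 1` when all multiples of a point have abscissas of the same valuation -/
theorem val_xc_le (hp : p.Prime) (hp2 : p ≠ 2) {h : ℕ} (hh : p = 2 * h + 1)
    {T : (genFib W1).toAffine.Point} (hT : p • T = 0)
    (hT0 : T ≠ 0) (hsame : ∀ k, ¬ p ∣ k → A.valuation (xc (k • T)) = A.valuation (xc T)) :
    A.valuation (p : K) * A.valuation (xc T) ^ h ≤ 1 := by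
  classical
  obtain ⟨hlead, hf0⟩ := preΨ'_genFib_lead (W1 := W1) hp hp2
  have hmul_ne : ∀ k : ℕ, ¬ p ∣ k → k • T ≠ 0 := by
    intro k hk e
    apply hk
    rcases (Nat.dvd_prime hp).mp (addOrderOf_dvd_of_nsmul_eq_zero hT) with h1 | h1
    · exact absurd (AddMonoid.addOrderOf_eq_one_iff.mp h1) hT0
    · rw [← h1]; exact addOrderOf_dvd_of_nsmul_eq_zero e
  have hpk : ∀ k : ℕ, p • (k • T) = 0 := fun k => by rw [nsmul_left_comm, hT, nsmul_zero]
  have hndvd : ∀ k ∈ Finset.Icc 1 h, ¬ p ∣ k := fun k hk e => by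
    rw [Finset.mem_Icc] at hk
    have := Nat.le_of_dvd (by omega) e; omega
  set S : Finset K := (Finset.Icc 1 h).image (fun k => xc (k • T)) with hS
  have hinj : Set.InjOn (fun k : ℕ => xc (k • T)) (↑(Finset.Icc 1 h) : Set ℕ) := by
    intro a ha b hb e
    have h1 := eq_or_eq_neg_of_xc_eq (hmul_ne a (hndvd a ha)) (hmul_ne b (hndvd b hb)) e
    rw [Finset.mem_coe, Finset.mem_Icc] at ha hb
    rcases h1 with h1 | h1
    · by_contra hab
      rcases Nat.lt_or_gt_of_ne hab with hlt | hlt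
      · refine hmul_ne (b - a) (fun e => by have := Nat.le_of_dvd (by omega) e; omega) ?_
        rw [sub_nsmul _ hlt.le, h1, add_neg_cancel]
      · refine hmul_ne (a - b) (fun e => by have := Nat.le_of_dvd (by omega) e; omega) ?_
        rw [sub_nsmul _ hlt.le, h1, add_neg_cancel]
    · exfalso
      refine hmul_ne (a + b) (fun e => by have := Nat.le_of_dvd (by omega) e; omega) ?_
      rw [add_nsmul, h1, neg_add_cancel]
  have hsub : S.val ≤ ((W1.preΨ' p).map A.subtype).roots := by
    rw [preΨ'_map_subtype, Multiset.le_iff_subset S.nodup]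
    intro r hr
    rw [Finset.mem_val, hS, Finset.mem_image] at hr
    obtain ⟨k, hk, rfl⟩ := hr
    obtain ⟨x, y, hns, he, hx⟩ :=
      exists_some_of_ne_zero (W := genFib W1) (hmul_ne k (hndvd k hk))
    rw [Polynomial.mem_roots hf0, hx]
    have := (nsmul_eq_zero_iff hns p).mp (by rw [← he]; exact hpk k)
    rw [ΨSq_eval_eq hp hp2] at this
    exact pow_eq_zero_iff (n := 2) (by norm_num) |>.mp this
  have h1 := val_lead_mul_prod_le (W1.preΨ' p) (by rwa [preΨ'_map_subtype]) hsub
  rw [preΨ'_map_subtype, hlead] at h1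
  rwa [← Finset.prod_eq_multiset_prod, hS, Finset.prod_image hinj,
    Finset.prod_congr rfl (fun k hk => hsame k (hndvd k hk)), Finset.prod_const, Nat.card_Icc,
    Nat.add_sub_cancel] at h1

/-- adding a point `(w², ·)` of the kernel moves an integral abscissa by `ψ / w` -/
theorem val_addX_sub (hW : Nodal W1) {x₁ y₁ : K} {x y : A}
    (h₁ : (genFib W1).toAffine.Equation x₁ y₁) (h₂ : (genFib W1).toAffine.Equation (x : K) y)
    (hx₁ : x₁ ∉ A) (hμ : A.valuation (2 * (y : K) + W1.a₁ * x) ≠ 0)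
    (hA : A.valuation (3 * (x : K) ^ 2 + 2 * W1.a₂ * x - W1.a₁ * y) ≤
      A.valuation (2 * (y : K) + W1.a₁ * x))
    (hB : A.valuation (-(x : K) ^ 3 + 2 * W1.a₆) ≤ A.valuation (2 * (y : K) + W1.a₁ * x)) :
    A.valuation ((genFib W1).toAffine.addX x₁ x
        ((genFib W1).toAffine.slope x₁ x y₁ y) - x) ^ 2 * A.valuation x₁ =
      A.valuation (2 * (y : K) + W1.a₁ * x) ^ 2 := by
  obtain ⟨w, hwA, hw, hY⟩ := exists_scale h₁ hx₁
  have hne : x₁ ≠ x := fun e => hx₁ (e ▸ x.2)
  have hd : x₁ - (x : K) ≠ 0 := sub_ne_zero.2 hne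
  have hw0 : w ≠ 0 := fun e => hwA (e ▸ A.zero_mem)
  have hwv : A.valuation w ≠ 0 := (Valuation.ne_zero_iff _).2 hw0
  set i : K := w⁻¹ with hi
  set Y : K := y₁ / w ^ 3 with hYd
  have hiv : A.valuation i < 1 := val_inv_lt_one hwA
  have hiA : i ∈ A := (A.valuation_le_one_iff _).1 hiv.le
  set μ := 2 * (y : K) + W1.a₁ * x
  have e₁ := hW.equation h₁
  have e₂ := hW.equation h₂
  have hY1 : A.valuation Y = 1 := by
    have e : Y ^ 2 = 1 + ((W1.a₂ : K) * i ^ 2 + (W1.a₆ : K) * i ^ 6 - W1.a₁ * i * Y) := by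
      rw [hYd, hi]
      subst hw
      field_simp
      linear_combination e₁
    have h2 : A.valuation (Y ^ 2) = 1 := by
      rw [e, Valuation.map_add_eq_of_lt_left, map_one]
      rw [map_one]
      refine Valuation.map_sub_lt _ (Valuation.map_add_lt _ ?_ ?_) ?_
      · rw [map_mul, map_pow]
        exact lt_of_le_of_lt (mul_le_of_le_one_left' (A.valuation_le_one W1.a₂))
          (pow_lt_one₀ zero_le hiv two_ne_zero)
      · rw [map_mul, map_pow]
        exact lt_of_le_of_lt (mul_le_of_le_one_left' (A.valuation_le_one W1.a₆))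
          (pow_lt_one₀ zero_le hiv (by norm_num))
      · rw [map_mul, map_mul]
        exact lt_of_le_of_lt (mul_le_of_le_one_right'
          ((A.valuation_le_one_iff _).2 hY)) (lt_of_le_of_lt
            (mul_le_of_le_one_left' (A.valuation_le_one W1.a₁)) hiv)
    rw [map_pow] at h2
    exact (pow_eq_one_iff_left two_ne_zero).mp h2
  set D : K := 1 - x * i ^ 2 with hD
  have hDv : A.valuation D = 1 := by
    rw [hD, Valuation.map_sub_eq_of_lt_left, map_one]
    rw [map_one, map_mul, map_pow]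
    exact lt_of_le_of_lt (mul_le_of_le_one_left' (A.valuation_le_one x))
      (pow_lt_one₀ zero_le hiv two_ne_zero)
  set R : K := i * ((3 * (x : K) ^ 2 + 2 * W1.a₂ * x - W1.a₁ * y) * i +
    (-(x : K) ^ 3 + 2 * W1.a₆) * i ^ 3 - Y * μ) with hR
  have key : ((genFib W1).toAffine.addX x₁ x ((genFib W1).toAffine.slope x₁ x y₁ y) - x) * D ^ 2 =
      R := by
    rw [Affine.slope_of_X_ne hne]
    simp only [Affine.addX, hR, hD, WeierstrassCurve.toAffine, genFib_a₁, genFib_a₂, hi, hYd, μ]
    subst hw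
    field_simp
    linear_combination e₁ + e₂
  have hRv : A.valuation R = A.valuation i * A.valuation μ := by
    rw [hR, map_mul]
    congr 1
    rw [Valuation.map_sub_eq_of_lt_right, map_mul, hY1, one_mul]
    rw [map_mul A.valuation Y, hY1, one_mul]
    refine Valuation.map_add_lt _ ?_ ?_
    · rw [map_mul]
      exact lt_of_le_of_lt (mul_le_mul' hA le_rfl) (mul_lt_of_lt_one_right (zero_lt_iff.2 hμ) hiv)
    · rw [map_mul, map_pow]
      exact lt_of_le_of_lt (mul_le_mul' hB le_rfl) (mul_lt_of_lt_one_right (zero_lt_iff.2 hμ)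
        (pow_lt_one₀ zero_le hiv (by norm_num)))
  have hv := congrArg A.valuation key
  rw [map_mul, map_pow, hDv, one_pow, mul_one, hRv] at hv
  rw [hv, ← hw, map_pow, hi, map_inv₀]
  field_simp

/-- adding a kernel point to a `p`-torsion point outside the kernel -/
theorem exists_move (hW : Nodal W1) (hδ : A.valuation (W1.a₆ : K) ≠ 0) (hp : p.Prime)
    (hp2 : p ≠ 2) {Q T : (genFib W1).toAffine.Point}
    (hQ : p • Q = 0) (hQ1 : ¬ InE1 Q) (hT : InE1 T) (hT0 : T ≠ 0) :
    ∃ k : ℤ, A.valuation (xc Q) ^ p ≤ A.valuation (W1.a₆ : K) ^ k ∧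
      A.valuation (xc (Q + T) - xc Q) ^ (2 * p) * A.valuation (xc T) ^ p =
        A.valuation (W1.a₆ : K) ^ (2 * k) := by
  rcases T with _ | ⟨x₁, y₁, h₁⟩
  · exact absurd rfl hT0
  have hx₁ : x₁ ∉ A := hT
  rcases Q with _ | ⟨x, y, h⟩
  · exact absurd trivial hQ1
  have hx : x ∈ A := not_not.1 hQ1
  have hy := y_mem h.1 hx
  have hne : x₁ ≠ x := fun e => hx₁ (e ▸ hx)
  set δ := A.valuation (W1.a₆ : K)
  suffices hk : ∃ k : ℤ, A.valuation x ^ p ≤ δ ^ k ∧
      A.valuation (2 * y + W1.a₁ * x) ^ p = δ ^ k ∧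
      A.valuation (3 * x ^ 2 + 2 * W1.a₂ * x - W1.a₁ * y) ≤
        A.valuation (2 * y + W1.a₁ * x) ∧
      A.valuation (-x ^ 3 + 2 * W1.a₆) ≤ A.valuation (2 * y + W1.a₁ * x) by
    obtain ⟨k, hk1, hk2, hA, hB⟩ := hk
    refine ⟨k, hk1, ?_⟩
    have hμ : A.valuation (2 * y + W1.a₁ * x) ≠ 0 := fun e => by
      rw [e, zero_pow hp.ne_zero] at hk2
      exact zpow_ne_zero k hδ hk2.symm
    have key := val_addX_sub hW (x := ⟨x, hx⟩) (y := ⟨y, hy⟩) h₁.1 h.1 hx₁ hμ hA hB
    rw [add_comm (Affine.Point.some x y h), Affine.Point.add_of_X_ne hne, xc_some, xc_some, xc_some,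
      pow_mul, ← mul_pow, key, ← pow_mul, mul_comm 2 p, pow_mul, hk2, ← zpow_natCast (δ ^ k) 2,
      ← zpow_mul, mul_comm]
    rfl
  by_cases h0 : InE0 (.some x y h : (genFib W1).toAffine.Point)
  · refine ⟨0, ?_⟩
    rw [zpow_zero]
    have hμ : A.valuation (2 * y + W1.a₁ * x) = 1 := by
      rcases h0 with hh | ⟨_, _, hns⟩
      · exact absurd hx hh
      have hle : A.valuation (2 * y + (W1.a₁ : K) * x) ≤ 1 :=
        (A.valuation_le_one_iff _).2 (add_mem (mul_mem (by simpa using (2 : A).2) hy)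
          (mul_mem W1.a₁.2 hx))
      refine le_antisymm hle (not_lt.1 fun hlt => ?_)
      -- the reduction would be killed by two and by `p`
      have hr : red (.some x y h : (genFib W1).toAffine.Point) =
          Affine.Point.some _ _ hns := red_some hx hy hns
      have hneg : -(Affine.Point.some _ _ hns : (specFib W1).toAffine.Point) =
          Affine.Point.some _ _ hns := by
        rw [Affine.Point.neg_some, Affine.Point.some.injEq]
        refine ⟨rfl, ?_⟩
        have e : residue A (2 * ⟨y, hy⟩ + W1.a₁ * ⟨x, hx⟩) = 0 := res_eq_zero.2 hlt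
        rw [map_add, map_mul, map_mul, map_ofNat] at e
        simp only [Affine.negY, WeierstrassCurve.toAffine, WeierstrassCurve.map_a₁,
          WeierstrassCurve.map_a₃, hW.a₃, map_zero, sub_zero]
        linear_combination -e
      have h2 : 2 • red (.some x y h : (genFib W1).toAffine.Point) = 0 := by
        rw [hr, two_nsmul]
        nth_rewrite 1 [← hneg]
        rw [neg_add_cancel]
      have hp' : p • red (.some x y h : (genFib W1).toAffine.Point) = 0 := by
        rw [← red_nsmul (P := (.some x y h : (genFib W1).toAffine.Point)) (Or.inr ⟨hx, hy, hns⟩), hQ,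
          red_zero]
      obtain ⟨t, ht⟩ := hp.odd_of_ne_two hp2
      rw [ht, succ_nsmul, mul_nsmul, h2, nsmul_zero, zero_add] at hp'
      rw [hr] at hp'
      exact Affine.Point.some_ne_zero _ hp'
    rw [hμ, one_pow]
    refine ⟨pow_le_one₀ zero_le ((A.valuation_le_one_iff _).2 hx), rfl, ?_, ?_⟩
    · exact (A.valuation_le_one_iff _).2 (sub_mem (add_mem (mul_mem (by simpa using (3 : A).2)
        (pow_mem hx 2)) (mul_mem (mul_mem (by simpa using (2 : A).2) W1.a₂.2) hx))
        (mul_mem W1.a₁.2 hy))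
    · exact (A.valuation_le_one_iff _).2 (add_mem (neg_mem (pow_mem hx 3))
        (mul_mem (by simpa using (2 : A).2) W1.a₆.2))
  · have h1 := hW.dist1_lt h0
    have hn := hW.nonMid hp hp2 hQ h1
    obtain ⟨k, -, -, hk⟩ := hW.exists_zpow hp hp2 hδ hQ h0
    have hxlt : A.valuation x < 1 := by
      by_contra hge
      simp only [dist1, if_neg hge] at h1
      exact lt_irrefl _ h1
    simp only [dist1, if_pos hxlt] at hn hk
    have hμ := hW.val_psi h.1 hxlt hn
    obtain ⟨α, β, -, -, -, hwβ, -⟩ := hW.exists_branch h.1 hxlt hn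
    have hyX : A.valuation y ≤ A.valuation x := by
      rw [show y = (y - β * x) + β * x by ring]
      refine Valuation.map_add_le _ hwβ.le ?_
      rw [map_mul]; exact mul_le_of_le_one_left' (A.valuation_le_one β)
    refine ⟨k, hk.le, by rw [hμ, hk], ?_, ?_⟩
    · rw [hμ]
      refine Valuation.map_sub_le _ (Valuation.map_add_le _ ?_ ?_) ?_
      · rw [map_mul, map_pow]
        exact (mul_le_of_le_one_left' (by simpa using A.valuation_le_one (3 : A))).trans
          (pow_le_of_le_one zero_le hxlt.le two_ne_zero)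
      · rw [map_mul, map_mul]
        exact mul_le_of_le_one_left' (mul_le_one' Nodal.val_two_le (A.valuation_le_one W1.a₂))
      · rw [map_mul]
        exact (mul_le_of_le_one_left' (A.valuation_le_one W1.a₁)).trans hyX
    · rw [hμ]
      refine Valuation.map_add_le _ ?_ ?_
      · rw [Valuation.map_neg, map_pow]
        exact pow_le_of_le_one zero_le hxlt.le (by norm_num)
      · rw [map_mul]
        exact (mul_le_of_le_one_left' Nodal.val_two_le).trans
          (hn.le.trans (pow_le_of_le_one zero_le hxlt.le two_ne_zero))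

end FLTAgent.TOR
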