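import Fermat.Agent.TOR.ToricNewton

/-!
A semilinear automorphism acts by the cyclotomic character on the classes of order `p` with
`PushInput`, in residue characteristic `p`.
-/

set_option autoImplicit false
set_option linter.unusedSectionVars false

noncomputable section

open AlgebraicCurve IsLocalRing
open FLTAgent.RR (Bd Pol)
open FLTAgent.Reduction (Val)

namespace FLTAgent.TOR

open FLTAgent.SS

variable {K : Type*} [Field K] [IsAlgClosed K] [CharZero K] {A : ValuationSubring K}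
  {F : Type*} [Field F] [Algebra K F] [RR.FnField K F]
  {Fs : Type*} [Field Fs] [Algebra (ResidueField A) Fs]

local notation "𝕜" => ResidueField A
local notation "ι'" => algebraMap K F

section Power

variable {C : Core K A F Fs} {n : ℕ}

/-- a multiple of a twist -/
def rpow (R : SS.Rep C n) (j : ℕ) : SS.Rep C n where
  E := j • R.E
  f := R.f ^ j
  α b := R.α b ^ j
  h b := R.h b ^ j
  degree_E := by rw [map_nsmul, R.degree_E, smul_zero]
  f_ne := pow_ne_zero _ R.f_ne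
  ord_f P := by
    rw [RR.ord_pow, ← R.ord_f, Finsupp.smul_apply, nsmul_eq_mul]
    ring
  α_ne b := pow_ne_zero _ (R.α_ne b)
  h_ne b := pow_ne_zero _ (R.h_ne b)
  mem b := by
    rw [show (ι' ((R.α b ^ j) ^ n))⁻¹ * R.f ^ j = ((ι' (R.α b ^ n))⁻¹ * R.f) ^ j by
      rw [mul_pow, inv_pow, ← map_pow, ← pow_mul, ← pow_mul, mul_comm n j]]
    exact pow_mem (R.mem b) j
  red_eq b := by
    rw [show (ι' ((R.α b ^ j) ^ n))⁻¹ * R.f ^ j = ((ι' (R.α b ^ n))⁻¹ * R.f) ^ j by
      rw [mul_pow, inv_pow, ← map_pow, ← pow_mul, ← pow_mul, mul_comm n j],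
      C.red_pow b (R.mem b), R.red_eq, ← pow_mul, ← pow_mul, mul_comm n]

variable (R : SS.Rep C n) {g : SemilinearAut K F} (hg : Compat C g (RingEquiv.refl Fs)) (j : ℕ)

/-- the twist `g • R + j R` -/
def twisted : SS.Rep C n := (R.map hg).mul (rpow R j)

theorem twisted_E : (twisted R hg j).E = g • R.E + j • R.E := rfl

theorem smul_mem_gi (hg : Compat C g (RingEquiv.refl Fs)) {z : F} (hz : z ∈ gi C) :
    g • z ∈ gi C ∧ ∀ b, C.red b (g • z) = C.red b z :=
  ⟨mem_gi.mpr fun b => hg.mem b z (mem_gi.mp hz b), fun b => hg.red b z (mem_gi.mp hz b)⟩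

theorem twisted_mul {x : F} (b : Bool) :
    ι' ((twisted R hg j).α b) * (g • x * x ^ j) = g • (ι' (R.α b) * x) * (ι' (R.α b) * x) ^ j := by
  show ι' (SemilinearAut.baseAut g (R.α b) * R.α b ^ j) * (g • x * x ^ j) = _
  rw [smul_mul', SemilinearAut.smul_algebraMap, map_mul, map_pow, mul_pow]
  ring

theorem twisted_integ {x : F} (hx : R.Integ x) : (twisted R hg j).Integ (g • x * x ^ j) := fun b => by
  rw [twisted_mul]
  exact mul_mem (hg.mem b _ (hx b)) (pow_mem (hx b) j)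

theorem twisted_res {x : F} (hx : R.Integ x) (hxr : R.res x = 1) :
    (twisted R hg j).res (g • x * x ^ j) = 1 := funext fun b => by
  show C.red b (ι' ((twisted R hg j).α b) * (g • x * x ^ j)) * (R.h b * R.h b ^ j) = 1
  rw [twisted_mul, C.red_mul b _ (hg.mem b _ (hx b)) _ (pow_mem (hx b) j), hg.red b _ (hx b),
    C.red_pow b (hx b), RingEquiv.refl_apply, mul_mul_mul_comm, ← mul_pow,
    show C.red b (ι' (R.α b) * x) * R.h b = 1 from congrFun hxr b, one_pow, one_mul]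

theorem twisted_eq {x : F} : (g • x * x ^ j) ^ n * (twisted R hg j).f
    = g • (x ^ n * R.f) * (x ^ n * R.f) ^ j := by
  show _ * (g • R.f * R.f ^ j) = _
  rw [smul_mul', smul_pow', mul_pow, mul_pow, ← pow_mul, ← pow_mul, mul_comm j]
  ring

theorem twisted_bd (hg : Compat C g (RingEquiv.refl Fs)) (j : ℕ) {x : F} {P : Place K F} {e e' : ℤ}
    (h : Bd (g⁻¹ • P) x e) (h' : Bd P x e') : Bd P (g • x * x ^ j) (e + j * e') := by
  refine RR.Bd.mul ?_ (h'.pow j)
  rw [RR.bd_iff]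
  rcases eq_or_ne x 0 with rfl | hx
  · exact Or.inl (smul_zero _)
  refine Or.inr ?_
  have h2 := SemilinearAut.ord_smul g (g⁻¹ • P) x
  rw [smul_inv_smul] at h2
  rw [h2]
  exact (RR.bd_iff_ord hx).mp h

theorem twisted_L {x : F} {m : ℕ} (hx : x ∈ R.L m) :
    g • x * x ^ j ∈ (twisted R hg j).L ((1 + j) * m) := fun P => by
  refine (twisted_bd hg j (mem_rr.mp hx (g⁻¹ • P)) (mem_rr.mp hx P)).mono (le_of_eq ?_)
  simp only [twisted, SS.Rep.mul, SS.Rep.map, rpow, Finsupp.add_apply, Finsupp.smul_apply,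
    RR.Pol_apply, nsmul_eq_mul, SemilinearAut.divisor_smul_apply, ← Rep.ord_gJ hg P]
  push_cast
  ring

theorem twisted_onInf {x : F} (hx : R.OnInf x) :
    (twisted R hg j).OnInf (g • x * x ^ j) := fun P hP => by
  refine (twisted_bd hg j (hx _ ((Rep.ord_gJ hg P) ▸ hP)) (hx P hP)).mono (le_of_eq ?_)
  simp only [twisted, SS.Rep.mul, SS.Rep.map, rpow, Finsupp.add_apply, Finsupp.smul_apply,
    nsmul_eq_mul, SemilinearAut.divisor_smul_apply]

end Power

variable {p : ℕ} [hp : Fact p.Prime] [CharP (ResidueField A) p] {D : Data K A F Fs}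

/-- a function vanishing on both components is a small multiple of an integral one -/
theorem exists_small_gi {C : Core K A F Fs} {x : F} (hx : x ∈ gi C) (h0 : ∀ b, C.red b x = 0) :
    ∃ δ : K, A.valuation δ < 1 ∧ ∃ x' ∈ gi C, x = ι' δ * x' := by
  choose c hc y hy he using fun b => C.exists_small b (mem_gi.mp hx b) (h0 b)
  obtain ⟨δ, hδ, hle⟩ : ∃ δ : K, A.valuation δ < 1 ∧ ∀ b, A.valuation (c b : K) ≤ A.valuation δ := by
    rcases le_total (A.valuation (c false : K)) (A.valuation (c true : K)) with h | h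
    · exact ⟨_, (A.valuation_lt_one_iff _).mp (hc true), fun b => by cases b; exacts [h, le_rfl]⟩
    · exact ⟨_, (A.valuation_lt_one_iff _).mp (hc false), fun b => by cases b; exacts [le_rfl, h]⟩
  rcases eq_or_ne δ 0 with rfl | h
  · refine ⟨0, hδ, 0, zero_mem _, ?_⟩
    have := hle false
    rw [map_zero, le_zero_iff, Valuation.zero_iff] at this
    rw [he false, this]
    simp
  have hk : ι' δ ≠ 0 := (_root_.map_ne_zero _).mpr h
  refine ⟨δ, hδ, (ι' δ)⁻¹ * x, mem_gi.mpr fun b => ?_, by rw [mul_inv_cancel_left₀ hk]⟩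
  rw [he b, ← mul_assoc, ← map_inv₀, ← map_mul]
  refine C.const_mul_mem b (mem_of_val_le ?_) (hy b)
  rw [map_mul, map_inv₀, inv_mul_le_iff₀ (zero_lt_iff.mpr ((Valuation.ne_zero_iff _).mpr h)), mul_one]
  exact hle b

theorem mem_gi_of_le {C : Core K A F Fs} {δ δ' : K} (h : A.valuation δ ≤ A.valuation δ') {x x' : F}
    (hx' : x' ∈ gi C) (he : x = ι' δ * x') : ∃ y ∈ gi C, x = ι' δ' * y := by
  rcases eq_or_ne δ' 0 with rfl | h0
  · rw [map_zero, le_zero_iff, Valuation.zero_iff] at h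
    exact ⟨x', hx', by rw [he, h]⟩
  refine ⟨ι' (δ / δ') * x', mul_mem (const_mem_gi ?_) hx', ?_⟩
  · rw [map_div₀]; exact div_le_one_of_le₀ h zero_le
  · rw [← mul_assoc, ← map_mul, mul_div_cancel₀ _ h0]; exact he

/-- first order expansion of a product `(1 + c t z)(1 + c w) ^ j` -/
theorem exists_first_order {C : Core K A F Fs} {c : K} (hc : A.valuation c < 1) {u w : F}
    (hu : u ∈ gi C) (hw : w ∈ gi C) (j : ℕ) :
    ∃ W ∈ gi C, (1 + ι' c * u) * (1 + ι' c * w) ^ j = 1 + ι' c * W ∧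
      ∀ b, C.red b W = C.red b u + (j : Fs) * C.red b w := by
  have hk : ι' c ∈ gi C := const_mem_gi hc.le
  obtain ⟨r, hr, hpow⟩ := exists_one_add_pow (gi C) (mul_mem hk hw) j
  have hjw : ι' (j : K) * w ∈ gi C := mul_mem (const_mem_gi (by
    simpa using (A.valuation_le_one (j : A)))) hw
  have hrest : w ^ 2 * r + u * (ι' (j : K) * w) + ι' c * u * w ^ 2 * r ∈ gi C :=
    add_mem (add_mem (mul_mem (pow_mem hw 2) hr) (mul_mem hu hjw))
      (mul_mem (mul_mem (mul_mem hk hu) (pow_mem hw 2)) hr)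
  refine ⟨u + ι' (j : K) * w + ι' c * (w ^ 2 * r + u * (ι' (j : K) * w) + ι' c * u * w ^ 2 * r),
    add_mem (add_mem hu hjw) (mul_mem hk hrest), ?_, fun b => ?_⟩
  · rw [hpow, map_natCast]; ring
  · rw [C.red_add b _ (mem_gi.mp (add_mem hu hjw) b) _ (mem_gi.mp (mul_mem hk hrest) b),
      red_const_mul_lt b hc (mem_gi.mp hrest b), add_zero,
      C.red_add b _ (mem_gi.mp hu b) _ (mem_gi.mp hjw b)]
    congr 1
    have := C.red_const_mul b (j : A) (mem_gi.mp hw b)
    simp only [SubringClass.coe_natCast, map_natCast] at this ⊢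
    rw [this, Algebra.smul_def, map_natCast]

theorem natCast_add_eq_zero (k : Type*) [Field k] [CharP k p] {E : Type*} [Field E] [Algebra k E]
    {a j : ℕ} (h : a + j = p) : (a : E) + (j : E) = 0 := by
  haveI : CharP E p := charP_of_injective_algebraMap (algebraMap k E).injective p
  rw [← Nat.cast_add, h, CharP.cast_eq_zero]

theorem natCast_pow_eq (a : ℕ) : (a : 𝕜) ^ p = a := by
  haveI := ExpChar.prime (R := 𝕜) hp.out
  exact (frobenius_def p (a : 𝕜)).symm.trans (map_natCast (frobenius 𝕜 p) a)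

theorem jbar_pow_mem_W {m k : ℕ} (hk : k ≤ m) : (fun _ => D.Jbar ^ k) ∈ D.W m := by
  refine ⟨fun b => mem_target.mpr fun Q => ?_, fun s => ?_⟩
  · rw [RR.bd_iff_ord (pow_ne_zero _ D.toCore.Jbar_ne_zero), RR.ord_pow]
    have h1 : (k : ℤ) ≤ m := by exact_mod_cast hk
    have h2 := mul_le_mul_of_nonneg_left (le_max_left (-Q.ord D.Jbar) 0) (Int.natCast_nonneg k)
    have h3 := mul_le_mul_of_nonneg_right h1 (le_max_right (-Q.ord D.Jbar) 0)
    rw [mul_neg] at h2
    linarith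
  · obtain ⟨c, hc⟩ := D.glue k (D.J ^ k) (fun P => by
      show Bd P (D.J ^ k) _
      rw [RR.bd_iff_ord (pow_ne_zero _ D.toCore.J_ne_zero), RR.ord_pow, Finsupp.smul_apply,
        RR.Pol_apply, nsmul_eq_mul, ← mul_neg]
      exact mul_le_mul_of_nonneg_left (neg_le.mp (le_max_left _ _)) (Int.natCast_nonneg _))
      (fun b => pow_mem (D.J_mem b) k) s
    exact ⟨c, fun b => by rw [← D.red_J b, ← D.toCore.red_pow b (D.J_mem b)]; exact hc b⟩

variable {g : SemilinearAut K F} {π : K}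

/-- the twisted root is a root to more than `π ^ p` -/
theorem twisted_near (hπ : IsPi A p π) (R : SS.Rep D.toCore p)
    (hg : Compat D.toCore g (RingEquiv.refl Fs)) {t : A}
    (htπ : SemilinearAut.baseAut g π = (t : K) * π) {a j : ℕ} (hta : residue A t = (a : 𝕜))
    (haj : a + j = p) {x z : F} (hz : z ∈ gi D.toCore)
    (he : x ^ p * R.f = 1 + ι' (π ^ p) * z) :
    ∃ W ∈ gi D.toCore, (∀ b, D.red b W = 0) ∧
      (g • x * x ^ j) ^ p * (twisted R hg j).f = 1 + ι' (π ^ p) * W := by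
  have hπp : A.valuation (π ^ p) < 1 := by
    rw [map_pow]; exact pow_lt_one₀ zero_le hπ.lt hp.out.ne_zero
  obtain ⟨hgz, hgr⟩ := smul_mem_gi hg hz
  have htz : ι' ((t : K) ^ p) * (g • z) ∈ gi D.toCore :=
    mul_mem (const_mem_gi ((A.valuation_le_one_iff _).mpr (pow_mem t.2 p))) hgz
  obtain ⟨W, hW, hWe, hWr⟩ := exists_first_order (C := D.toCore) hπp htz hz j
  refine ⟨W, hW, fun b => ?_, ?_⟩
  · have hr := D.toCore.red_const_mul b (t ^ p) (mem_gi.mp hgz b)
    rw [SubmonoidClass.coe_pow] at hr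
    rw [hWr b, hr, hgr b, map_pow, hta, natCast_pow_eq, Algebra.smul_def, map_natCast, ← add_mul,
      natCast_add_eq_zero 𝕜 haj, zero_mul]
  · rw [twisted_eq, he, smul_add, smul_one, smul_mul', SemilinearAut.smul_algebraMap, map_pow, htπ,
      mul_pow, mul_comm ((t : K) ^ p), map_mul, mul_assoc]
    exact hWe

set_option maxHeartbeats 1600000 in
/-- `g • E + j E` is principal when `g` acts on `π` by `a` and `a + j = p` -/
theorem principal_twisted (hp3 : 3 ≤ p) (hS : D.Surj) (hA : Arch A) (hT : DiscreteFields A p)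
    (hπ : IsPi A p π) (R : SS.Rep D.toCore p) (hP : PushInput R)
    (hg : Compat D.toCore g (RingEquiv.refl Fs)) {t : A}
    (htπ : SemilinearAut.baseAut g π = (t : K) * π) {a j : ℕ} (hta : residue A t = (a : 𝕜))
    (haj : a + j = p) :
    ∃ x : F, x ≠ 0 ∧ ∀ P : Place K F, (g • R.E + j • R.E) P = P.ord x := by
  have hp0 := hp.out.ne_zero
  obtain ⟨m0, hm0⟩ := Data.exists_jump (D := D) hp0 hS
  have hone : ∀ (R' : SS.Rep D.toCore p) (m : ℕ), m0 ≤ m → D.W m ≤ R'.T m ∧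
      ∃ ζ : D.ι → 𝕜, Data.IsJump R' ζ ∧ ∀ u ∈ D.toCore.P m, (∀ s c, Val (D.pt false s) (u false) c →
        Val (D.pt true s) (u true) (ζ s * c)) → u ∈ R'.T m := by
    intro R' m hm
    obtain ⟨ζ, hζ1, hζ, hTm⟩ := hm0 R'
    refine ⟨fun u hu => hTm m hm u (D.W_le_P m hu) fun s c hc => ?_, ζ, hζ, hTm m hm⟩
    obtain ⟨c', hc'⟩ := hu.2 s
    rw [show ζ s = 1 from eq_of_pow_eq (k := 𝕜) p (by rw [hζ1 s, one_pow]), one_mul,
      hc.unique (hc' false)]
    exact hc' true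
  obtain ⟨s0, hs0L, hs0I, hs0r, z0, hz0, hs0e⟩ := exists_level hπ.p_lt hπ.eq hT R hP
    (hone R m0 le_rfl).1 (Nat.zero_le m0) (jbar_pow_mem_W (Nat.zero_le m0))
  obtain ⟨s1, hs1L, hs1I, hs1r, z1, hz1, hs1e⟩ := exists_level hπ.p_lt hπ.eq hT R hP
    (hone R m0 le_rfl).1 le_rfl (jbar_pow_mem_W le_rfl)
  simp only [pow_zero, mul_zero] at hs0r hs0e
  -- the root at infinity
  set y := (D.J ^ m0)⁻¹ * s1
  have hyI : R.Integ y := fun b => by
    rw [mul_left_comm]; exact mul_mem (D.toCore.J_zpow_mem b m0).1 (hs1I b)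
  have hyinf : R.OnInf y := (R.mem_L_iff.mp hs1L).2
  have hyr : R.res y = 1 := funext fun b => by
    show D.red b (ι' (R.α b) * y) * R.h b = 1
    rw [mul_left_comm, D.red_mul b _ (D.toCore.J_zpow_mem b m0).1 _ (hs1I b),
      (D.toCore.J_zpow_mem b m0).2, mul_assoc,
      show D.red b (ι' (R.α b) * s1) * R.h b = D.Jbar ^ m0 from congrFun hs1r b,
      inv_mul_cancel₀ (pow_ne_zero _ D.toCore.Jbar_ne_zero)]
  have hzy : (D.J ^ (p * m0))⁻¹ * z1 ∈ gi D.toCore :=
    mem_gi.mpr fun b => mul_mem (D.toCore.J_zpow_mem b _).1 (hz1 b)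
  have hye : y ^ p * R.f = 1 + ι' (π ^ p) * ((D.J ^ (p * m0))⁻¹ * z1) := by
    rw [mul_pow, inv_pow, ← pow_mul, mul_comm m0 p, mul_assoc, hs1e, mul_add,
      inv_mul_cancel₀ (pow_ne_zero _ D.toCore.J_ne_zero), mul_left_comm]
  have hz0' : z0 ∈ gi D.toCore := mem_gi.mpr hz0
  obtain ⟨h, hh, hhe, -⟩ := ratio hπ hs0I hs0r hyI hyr hz0' hzy hs0e hye
  -- the twist
  obtain ⟨W0, hW0, hW0r, hW0e⟩ := twisted_near hπ R hg htπ hta haj hz0' hs0e
  obtain ⟨W1, hW1, hW1r, hW1e⟩ := twisted_near hπ R hg htπ hta haj hzy hye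
  set Rz := twisted R hg j
  set X := g • s0 * s0 ^ j
  set Y := g • y * y ^ j
  have hXI : Rz.Integ X := twisted_integ R hg j hs0I
  have hYI : Rz.Integ Y := twisted_integ R hg j hyI
  have hXr : Rz.res X = 1 := twisted_res R hg j hs0I hs0r
  have hYr : Rz.res Y = 1 := twisted_res R hg j hyI hyr
  obtain ⟨G, hG, hGe, hGδ⟩ := ratio hπ hXI hXr hYI hYr hW0 hW1 hW0e hW1e
  -- the twisted roots differ by more than `π`
  have hG0 : ∀ b, D.red b G = 0 := by
    obtain ⟨hgh, hghr⟩ := smul_mem_gi hg hh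
    obtain ⟨W, hW, hWe, hWr⟩ := exists_first_order (C := D.toCore) hπ.lt
      (mul_mem (const_mem_gi ((A.valuation_le_one_iff _).mpr t.2)) hgh) hh j
    have hX0 : X ≠ 0 := (div_mem_gi hXI hXr hXI).1
    have e : G = W := by
      refine mul_left_cancel₀ ((_root_.map_ne_zero ι').mpr hπ.ne) (add_left_cancel (a := (1 : F)) ?_)
      refine mul_left_cancel₀ hX0 ?_
      rw [← hGe, ← hWe]
      simp only [X, Y, hhe, smul_mul', smul_add, smul_one, SemilinearAut.smul_algebraMap, htπ,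
        mul_pow, map_mul]
      ring
    intro b
    rw [e, hWr b, D.toCore.red_const_mul b t (mem_gi.mp hgh b), hghr b, hta, Algebra.smul_def,
      map_natCast, ← add_mul, natCast_add_eq_zero 𝕜 haj, zero_mul]
  -- a common precision
  obtain ⟨δ, hδ, hδ0, ⟨W0', hW0', hW0d⟩, ⟨W1', hW1', hW1d⟩⟩ : ∃ δ : K, A.valuation δ < 1 ∧ δ ≠ 0 ∧
      (∃ W' ∈ gi D.toCore, W0 = ι' δ * W') ∧ ∃ W' ∈ gi D.toCore, W1 = ι' δ * W' := by
    obtain ⟨d0, hd0, W0', hW0', e0⟩ := exists_small_gi hW0 hW0r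
    obtain ⟨d1, hd1, W1', hW1', e1⟩ := exists_small_gi hW1 hW1r
    obtain ⟨δ, hδ, h0, h1, h2⟩ : ∃ δ : K, A.valuation δ < 1 ∧ A.valuation d0 ≤ A.valuation δ ∧
        A.valuation d1 ≤ A.valuation δ ∧ A.valuation π ≤ A.valuation δ := by
      rcases le_total (A.valuation d0) (A.valuation d1) with h | h
      · rcases le_total (A.valuation d1) (A.valuation π) with h' | h'
        exacts [⟨π, hπ.lt, h.trans h', h', le_rfl⟩, ⟨d1, hd1, h, le_rfl, h'⟩]
      · rcases le_total (A.valuation d0) (A.valuation π) with h' | h'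
        exacts [⟨π, hπ.lt, h', h.trans h', le_rfl⟩, ⟨d0, hd0, le_rfl, h, h'⟩]
    refine ⟨δ, hδ, ?_, mem_gi_of_le h0 hW0' e0, mem_gi_of_le h1 hW1' e1⟩
    rintro rfl
    rw [map_zero, le_zero_iff, Valuation.zero_iff] at h2
    exact hπ.ne h2
  obtain ⟨G', hG', hGd⟩ := hGδ δ W0' W1' hδ hW0' hW1' hW0d hW1d hG0
  set M := (1 + j) * m0
  obtain ⟨-, ζ, hζ, hTM⟩ := hone Rz M (Nat.le_mul_of_pos_left _ (by omega))
  obtain ⟨u, hu, hdiv⟩ := principal_of_state hπ (by omega) hA hζ hTM hδ hδ0 (x := X) (y := Y)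
    ⟨twisted_L R hg j hs0L, hXI, hXr, twisted_onInf R hg j hyinf, hYI, hYr,
      ⟨W0', hW0', by rw [hW0e, hW0d, map_mul, mul_assoc]⟩,
      ⟨W1', hW1', by rw [hW1e, hW1d, map_mul, mul_assoc]⟩,
      G', hG', by rw [hGe, hGd, map_mul, mul_assoc (ι' π)]⟩
  exact ⟨u, hu, hdiv⟩

end FLTAgent.TOR
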