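import Fermat.Agent.TOR.ToricField
import Fermat.Agent.TOR.ToricGalois
import Fermat.Agent.TOR.ToricPush

/-!
Inertia at `p` acts by the cyclotomic character modulo `p` on the points of order `p` of `J₀(Mp)`
whose residual classes are trivial and which are killed by both pushforwards to level `M`.
-/

set_option autoImplicit false
set_option linter.unusedSectionVars false
set_option synthInstance.maxHeartbeats 200000
set_option linter.style.haveILetI false

noncomputable section

open ModularCurve AlgebraicCurve IsLocalRing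
open FLTAgent.Reduction (Qb kA FB FS Ctx)

namespace FLTAgent.TOR

open FLTAgent.SS

/-- the class has a representative twist: both residues of a trivialisation of `n` times it are
`n`-th powers -/
def KerR {K : Type*} [Field K] [IsAlgClosed K] [CharZero K] {A : ValuationSubring K}
    {F : Type*} [Field F] [Algebra K F] [RR.FnField K F]
    {Fs : Type*} [Field Fs] [Algebra (ResidueField A) Fs] (C : Core K A F Fs) (n : ℕ)
    (y : Pic0 K F) : Prop :=
  ∃ R : SS.Rep C n, Pic0.mk ⟨R.E, Divisor.mem_degZero.mpr R.degree_E⟩ = y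

section Zeta

variable {p : ℕ} {A : ValuationSubring Qb} {ζ : Qb}

theorem mem_of_primitiveRoot (hp : p.Prime) (hζ : IsPrimitiveRoot ζ p) : ζ ∈ A :=
  Reduction.mem_A_of_isIntegral A ⟨Polynomial.X ^ p - 1,
    Polynomial.monic_X_pow_sub_C 1 hp.ne_zero, by simp [hζ.pow_eq_one]⟩

theorem residue_primitiveRoot (hp : p.Prime) (hA : A.LiesOverPrime p) (hζ : IsPrimitiveRoot ζ p) :
    residue A ⟨ζ, mem_of_primitiveRoot hp hζ⟩ = 1 := by
  haveI := Fact.mk hp
  haveI := Reduction.charP_residue A hp hA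
  refine eq_of_pow_eq (k := kA A) p ?_
  rw [← map_pow, one_pow, ← map_one (residue A)]
  exact congrArg _ (Subtype.ext hζ.pow_eq_one)

/-- `ζ ^ i - 1` is `i` times `ζ - 1` to first order -/
theorem exists_pow_sub_one (hp : p.Prime) (hA : A.LiesOverPrime p) (hζ : IsPrimitiveRoot ζ p)
    (i : ℕ) : ∃ t : A, ζ ^ i - 1 = (t : Qb) * (ζ - 1) ∧ residue A t = (i : kA A) := by
  refine ⟨∑ j ∈ Finset.range i, (⟨ζ, mem_of_primitiveRoot hp hζ⟩ : A) ^ j, ?_, ?_⟩
  · push_cast
    exact (geom_sum_mul ζ i).symm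
  · rw [map_sum, Finset.sum_congr rfl fun j _ => by rw [map_pow, residue_primitiveRoot hp hA hζ,
      one_pow], Finset.sum_const, Finset.card_range, nsmul_one]

theorem isPi_zeta_sub_one (hp : p.Prime) (hA : A.LiesOverPrime p) (hζ : IsPrimitiveRoot ζ p) :
    IsPi A p (ζ - 1) := by
  classical
  haveI := Fact.mk hp
  haveI := Reduction.charP_residue A hp hA
  refine ⟨Reduction.valuation_ell_lt_one A hA, sub_ne_zero.mpr (hζ.ne_one hp.one_lt), ?_⟩
  have h1 : ((p : Qb)) = ∏ μ ∈ primitiveRoots p Qb, (1 - μ) := by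
    rw [← Polynomial.eval_one_cyclotomic_prime (R := Qb) (p := p),
      Polynomial.cyclotomic_eq_prod_X_sub_primitiveRoots hζ, Polynomial.eval_prod]
    simp
  rw [h1, map_prod, Finset.prod_congr rfl fun μ hμ => ?_, Finset.prod_const, hζ.card_primitiveRoots,
    Nat.totient_prime hp]
  rw [mem_primitiveRoots hp.pos] at hμ
  obtain ⟨i, hi, rfl⟩ := hζ.eq_pow_of_pow_eq_one hμ.pow_eq_one
  have hi0 : i ≠ 0 := by
    rintro rfl
    rw [pow_zero] at hμ
    exact hp.one_lt.ne' (hμ.unique IsPrimitiveRoot.one)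
  obtain ⟨t, ht, htr⟩ := exists_pow_sub_one hp hA hζ i
  have ht1 : A.valuation (t : Qb) = 1 := by
    refine (Reduction.res_ne_zero_iff A t).mp ?_
    rw [htr, Ne, CharP.cast_eq_zero_iff (kA A) p]
    exact fun hd => hi0 (Nat.eq_zero_of_dvd_of_lt hd hi)
  rw [← neg_sub, Valuation.map_neg, ht, map_mul, ht1, one_mul]

end Zeta

variable {M p : ℕ} [NeZero M] [NeZero p] {A : ValuationSubring Qb}

set_option maxHeartbeats 800000 in
/-- inertia acts by the cyclotomic character on the toric points of order `p` -/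
theorem smul_eq_of_push (hp3 : 3 ≤ p) (C : Ctx A M p) (D : Data Qb A (FB (M * p)) (FS A M))
    (hD : D.toCore = fibreCore C) {y : JZero (M * p)} (hy : p • y = 0) (hker : KerR D.toCore p y)
    (hpush : KilledByPush M p y) {σ : AlgebraicClosure ℚ ≃ₐ[ℚ] AlgebraicClosure ℚ}
    (hc : Compat D.toCore (galAut M p σ) (RingEquiv.refl (FS A M))) {ζ : Qb}
    (hζ : IsPrimitiveRoot ζ p) {a : ℕ} (hσ : σ ζ = ζ ^ a) : σ • y = a • y := by
  haveI := Fact.mk C.prime
  haveI := Reduction.charP_residue A C.prime C.lies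
  obtain ⟨R, hR⟩ := hker
  have hpr : ∀ b, ∀ hφ : (sideMap (M := M) (p := p) b).toRingHom.IsIntegral,
      (Divisor.pushforwardAlong (sideMap b) hφ R.E).IsPrincipal := fun b hφ => by
    have h := hpush (HeckeJ.heckeAlphaBarIntegral M p) (HeckeJ.heckeBetaBarIntegral M p)
      ⟨R.E, Divisor.mem_degZero.mpr R.degree_E⟩ hR
    cases b
    exacts [h.1, h.2]
  have hP : PushInput R := by
    revert R
    rw [hD]
    exact fun R _ hpr => pushInput C R hpr
  have ha : a % p ≠ 0 := fun h0 => by
    have h1 : σ ζ = σ 1 := by rw [hσ, map_one, pow_eq_pow_mod a hζ.pow_eq_one, h0, pow_zero]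
    exact hζ.ne_one C.prime.one_lt (σ.injective h1)
  obtain ⟨t, ht, htr⟩ := exists_pow_sub_one C.prime C.lies hζ a
  have haj : a % p + (p - a % p) = p := Nat.add_sub_cancel' (Nat.mod_lt _ C.prime.pos).le
  obtain ⟨x, hx, hdiv⟩ := principal_twisted hp3 D.exists_surj (arch C.prime C.lies)
    (discreteFields C.prime C.lies) (isPi_zeta_sub_one C.prime C.lies hζ) R hP hc (t := t)
    (by
      rw [baseAut_arithmeticGalois]
      exact ((map_sub σ ζ 1).trans (by rw [hσ, map_one])).trans ht)
    (htr.trans (CharP.cast_eq_mod (kA A) p a)) haj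
  set E : Divisor.degZero (K := Qb) (F := FB (M * p)) :=
    ⟨R.E, Divisor.mem_degZero.mpr R.degree_E⟩
  have h0 : (Pic0.mk (SemilinearAut.degZeroSMulHom (galAut M p σ) E + (p - a % p) • E) : JZero (M * p))
      = 0 := by
    show (QuotientAddGroup.mk' _) _ = 0
    rw [QuotientAddGroup.mk'_apply, QuotientAddGroup.eq_zero_iff, AddSubgroup.mem_addSubgroupOf]
    refine ⟨x, hx, fun P => ?_⟩
    rw [← hdiv P]
    simp [E, SemilinearAut.coe_degZeroSMulHom]
  have h1 : σ • y + (p - a % p) • y = 0 := by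
    rw [← h0, ← hR]
    rfl
  have h2 : a • y = (a % p) • y := by
    conv_lhs => rw [← Nat.mod_add_div a p, add_nsmul, mul_nsmul, hy, smul_zero, add_zero]
  rw [h2]
  refine add_right_cancel (b := (p - a % p) • y) ?_
  rw [h1, ← add_nsmul, haj, hy]

end FLTAgent.TOR
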