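import Fermat.Agent.TOR.SlopeToric
import Fermat.Agent.TOR.Toric
import Fermat.Agent.SS.FibreGalois

/-!
An inertia element moving the integers of `L` by at most `δ` moves a trivialisation of a point of
order `p` over `L` killed by both pushforwards by a `p`-th power of a section congruent to a
constant modulo `δ` on each side.
-/

set_option autoImplicit false
set_option linter.unusedSectionVars false
set_option linter.style.haveILetI false
set_option synthInstance.maxHeartbeats 400000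
set_option maxHeartbeats 800000

noncomputable section

open ModularCurve AlgebraicCurve IsLocalRing
open FLTAgent.RR (Bd)
open FLTAgent.Reduction (Qb kA FB FS PB PS Ctx GR cB twist)
open FLTAgent.SS2 (galFn LS cL GG redL normAlong)

namespace FLTAgent.TOR

open FLTAgent.SS

local notation "GalQ" => AlgebraicClosure ℚ ≃ₐ[ℚ] AlgebraicClosure ℚ

/-! ### congruences of series -/

/-- congruent modulo `η` for the Gauss valuation -/
def LCong (A : ValuationSubring Qb) (η : Qb) (x y : LS) : Prop := cL η⁻¹ * (x - y) ∈ GG A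

section LCong

variable {A : ValuationSubring Qb} {η : Qb} {x y x' y' : LS}

theorem LCong.refl (x : LS) : LCong A η x x := by rw [LCong, sub_self, mul_zero]; exact zero_mem _

theorem LCong.trans {z : LS} (h : LCong A η x y) (h' : LCong A η y z) : LCong A η x z := by
  have e : cL η⁻¹ * (x - z) = cL η⁻¹ * (x - y) + cL η⁻¹ * (y - z) := by ring
  rw [LCong, e]; exact add_mem h h'

theorem LCong.symm (h : LCong A η x y) : LCong A η y x := by
  rw [LCong, ← neg_sub, mul_neg]; exact neg_mem h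

theorem LCong.mul (h : LCong A η x y) (h' : LCong A η x' y') (hx : x' ∈ GG A) (hy : y ∈ GG A) :
    LCong A η (x * x') (y * y') := by
  have e : cL η⁻¹ * (x * x' - y * y') = cL η⁻¹ * (x - y) * x' + y * (cL η⁻¹ * (x' - y')) := by ring
  rw [LCong, e]; exact add_mem (mul_mem h hx) (mul_mem hy h')

theorem LCong.mono {η' : Qb} (hη : η ≠ 0) (hle : A.valuation η ≤ A.valuation η') (h : LCong A η x y) :
    LCong A η' x y := by
  have e : cL η'⁻¹ * (x - y) = cL (η / η') * (cL η⁻¹ * (x - y)) := by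
    rw [← mul_assoc, ← SS2.cL_mul]; congr 2; field_simp
  rw [LCong, e]
  exact mul_mem (SS2.cL_mem (mem_of_val_le (by
    rw [map_div₀]; exact div_le_one_of_le₀ hle zero_le))) h

theorem LCong.prod {ι : Type*} (s : Finset ι) {f : ι → LS} {y : LS} (hy : y ∈ GG A)
    (hf : ∀ i ∈ s, f i ∈ GG A) (h : ∀ i ∈ s, LCong A η (f i) y) :
    LCong A η (∏ i ∈ s, f i) (y ^ s.card) := by
  classical
  induction s using Finset.induction_on with
  | empty => simpa using LCong.refl (A := A) (η := η) (1 : LS)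
  | insert a s ha ih =>
    rw [Finset.prod_insert ha, Finset.card_insert_of_notMem ha, pow_succ']
    exact (h a (Finset.mem_insert_self a s)).mul (ih (fun i hi => hf i (Finset.mem_insert_of_mem hi))
      fun i hi => h i (Finset.mem_insert_of_mem hi))
      (prod_mem fun i hi => hf i (Finset.mem_insert_of_mem hi)) hy

theorem LCong.mem (hη : η ≠ 0) (hη1 : A.valuation η ≤ 1) (h : LCong A η x y) (hy : y ∈ GG A) :
    x ∈ GG A := by
  have e : x = cL η * (cL η⁻¹ * (x - y)) + y := by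
    rw [← mul_assoc, ← SS2.cL_mul, mul_inv_cancel₀ hη, SS2.cL_one, one_mul, sub_add_cancel]
  rw [e]; exact add_mem (mul_mem (SS2.cL_mem (mem_of_val_le hη1)) h) hy

/-- the `p`-th power of a congruence -/
theorem LCong.pow_prime {p : ℕ} (hp : p.Prime) {ε : Qb} (hε : ε ≠ 0) (hη : η ≠ 0)
    (hε1 : A.valuation ε ≤ 1) (h : LCong A ε x y) (hy : y ∈ GG A)
    (hεp : A.valuation ε ^ p ≤ A.valuation η) (hpη : A.valuation (p : Qb) ≤ A.valuation η) :
    LCong A η (x ^ p) (y ^ p) := by
  set Y := cL ε⁻¹ * (x - y)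
  have hx : x = y + cL ε * Y := by
    rw [← mul_assoc, ← SS2.cL_mul, mul_inv_cancel₀ hε, SS2.cL_one, one_mul, add_sub_cancel]
  have hεY : cL ε * Y ∈ GG A := mul_mem (SS2.cL_mem (mem_of_val_le hε1)) h
  obtain ⟨r, hr, hadd⟩ : ∃ r ∈ GG A,
      (y + cL ε * Y) ^ p = y ^ p + (cL ε * Y) ^ p + p * y * (cL ε * Y) * r :=
    ⟨_, sum_mem fun i _ => mul_mem (mul_mem (pow_mem hy _) (pow_mem hεY _)) (natCast_mem _ _),
      add_pow_prime_eq hp _ _⟩
  have e : cL η⁻¹ * (x ^ p - y ^ p) =
      cL (η⁻¹ * ε ^ p) * Y ^ p + cL (η⁻¹ * p * ε) * (y * Y * r) := by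
    rw [hx, hadd]
    simp only [cL, map_mul, map_pow, map_natCast]
    ring
  rw [LCong, e]
  refine add_mem (mul_mem (SS2.cL_mem (mem_of_val_le ?_)) (pow_mem h p))
    (mul_mem (SS2.cL_mem (mem_of_val_le ?_)) (mul_mem (mul_mem hy h) hr))
  · rw [map_mul, map_inv₀, map_pow]; exact inv_mul_le_one_of_le₀ hεp zero_le
  · rw [map_mul, map_mul, map_inv₀]
    exact mul_le_one' (inv_mul_le_one_of_le₀ hpη zero_le) hε1

end LCong

variable {M p : ℕ} [NeZero M] [NeZero p] {A : ValuationSubring Qb}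

local notation "κ" => algebraMap Qb (FB (M * p))

theorem coe_const (N : ℕ) [NeZero N] (c : Qb) :
    ((algebraMap Qb (FB N) c : FB N) : LS) = cL c := rfl

/-- Gauss integrality at level `Mp` can be tested after substituting `q ↦ q ^ p` -/
theorem mem_GR_of_qExpand' (C : Ctx A M p) {y : FB (M * p)}
    (h : qExpand Qb p (y : LS) ∈ GG A) : y ∈ GR A (M * p) := by
  rcases eq_or_ne y 0 with rfl | hy
  · exact zero_mem _
  obtain ⟨c, u, rr, hc, hr, hu, rfl⟩ := scaled C false hy
  have hu' : u ∈ GR A (M * p) := hu.1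
  obtain ⟨h1, h2⟩ := SS2.qExpand_mem p (mem_GG_iff.mpr hu')
  refine mul_mem (Reduction.cB_mem ?_) hu'
  refine SS2.mem_A_of_cL_mul h1 ?_ ?_
  · rw [h2, redL_coe hu', show Reduction.redS A (M * p) u = (rr : LaurentSeries (kA A)) from hu.2]
    exact (map_ne_zero _).mpr fun h0 => hr (Subtype.ext h0)
  · convert h using 1
    rw [MulMemClass.coe_mul, map_mul, coe_const]
    congr 1
    rw [cL, algebraMap_laurentSeries_eq_single, qExpand_single, mul_zero]

/-- substituting a root of unity moves a series by a multiple of `π` -/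
theorem twist_cong (C : Ctx A M p) {ζ : Qb} (hζ : IsPrimitiveRoot ζ p) {u : Aˣ} {i : ℕ}
    (hu : ((u : A) : Qb) = ζ ^ i) {y : LS} (hy : y ∈ GG A) :
    LCong A (ζ - 1) (twist (SS2.unitQ u) y) y := by
  obtain ⟨t, ht, -⟩ := exists_pow_sub_one C.prime C.lies hζ i
  by_cases h1 : ((u : A) : Qb) = 1
  · have : u = 1 := Units.ext (Subtype.ext h1)
    rw [this, show SS2.unitQ (1 : Aˣ) = 1 from map_one _, Reduction.twist_one_apply]
    exact LCong.refl _
  have hζ0 : ζ - 1 ≠ 0 := sub_ne_zero.mpr (hζ.ne_one C.prime.one_lt)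
  have hur : residue A (u : A) = 1 := by
    have e : (u : A) = ⟨ζ, mem_of_primitiveRoot C.prime hζ⟩ ^ i := Subtype.ext hu
    rw [e, map_pow, residue_primitiveRoot C.prime C.lies hζ, one_pow]
  obtain ⟨h, -⟩ := SS2.theta_difference u hur h1 hy
  have hne : (1 : Qb) - ((u : A) : Qb) ≠ 0 := sub_ne_zero.mpr (Ne.symm h1)
  have e : cL (ζ - 1)⁻¹ * (twist (SS2.unitQ u) y - y) =
      cL (t : Qb) * (cL (1 - ((u : A) : Qb))⁻¹ * (y - twist (SS2.unitQ u) y)) := by
    have e' : (t : Qb) * (1 - ((u : A) : Qb))⁻¹ = -(ζ - 1)⁻¹ := by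
      have h2 : (1 : Qb) - ((u : A) : Qb) = -((t : Qb) * (ζ - 1)) := by rw [hu, ← ht]; ring
      have ht0 : (t : Qb) ≠ 0 := fun h0 => hne (by rw [h2, h0, zero_mul, neg_zero])
      rw [h2]
      field_simp
    rw [← mul_assoc (cL (t : Qb)), ← SS2.cL_mul, e']
    simp only [cL, map_neg]
    ring
  rw [LCong, e]
  exact mul_mem (SS2.cL_mem t.2) h

variable {L : IntermediateField ℚ Qb}

set_option maxHeartbeats 1600000 in
/-- a regular function over `L` moves by a constant modulo `δ` -/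
theorem exists_move_regular (C : Ctx A M p) {σ : GalQ} {δ : Qb}
    (hM : MoveData A p L σ δ) {Y : FB M} (hY0 : Y ≠ 0)
    (hreg : Y ∈ Reduction.regOn Qb (Reduction.tB M false))
    (hfix : ∀ τ : GalQ, (∀ a ∈ L, τ a = a) → galFn M τ • Y = Y) :
    ∃ k : Qb, A.valuation k = 1 ∧ LCong A δ ((galFn M σ • Y / Y : FB M) : LS) (cL k) := by
  classical
  obtain ⟨e, g₀, he, hg₀, rfl⟩ := Reduction.exists_scale_UG C hY0
  have hBT : Reduction.BT A M false g₀ := by
    refine Reduction.BT_of_mem C ?_ hg₀.1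
    have h := mul_mem ((Reduction.regOn Qb (Reduction.tB M false)).algebraMap_mem e⁻¹) hreg
    rwa [← mul_assoc, ← map_mul, inv_mul_cancel₀ he, map_one, one_mul] at h
  obtain ⟨S, x, hS, hx, -⟩ := Reduction.exists_series_BT C false hBT
  have hS0 : Reduction.dn A S ≠ 0 := fun h0 => hg₀.2 (Subtype.ext (by
    rw [Reduction.coe_red C hg₀.1, Reduction.redS_series hS, h0]; rfl))
  obtain ⟨n, hn⟩ : ∃ n, residue A (S.coeff n) ≠ 0 := by
    by_contra hc
    push Not at hc
    exact hS0 (HahnSeries.ext (funext fun i => by rw [coeffMap_coeff, hc]; rfl))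
  have hn1 : A.valuation ((S.coeff n : A) : Qb) = 1 := (Reduction.res_ne_zero_iff A _).mp hn
  set Sn : Qb := ((S.coeff n : A) : Qb)
  have hSn : Sn ≠ 0 := (Valuation.ne_zero_iff _).mp (hn1 ▸ one_ne_zero)
  have hcf : ∀ i, ((cB M e * g₀ : FB M) : LS).coeff i = e * ((S.coeff i : A) : Qb) := fun i => by
    rw [MulMemClass.coe_mul, coe_const, SS2.coeff_cL_mul, ← hS, coeffMap_coeff]
    rfl
  have hL : ∀ i, e * ((S.coeff i : A) : Qb) ∈ L := fun i => mem_of_fixed fun τ hτ => by
    have h := congrArg (fun z : FB M => (z : LS).coeff i) (hfix τ hτ)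
    simp only [coe_arithmeticGalois_smul, coeffMap_coeff, hcf] at h
    exact h
  set a := e * Sn with ha
  have ha0 : a ≠ 0 := mul_ne_zero he hSn
  have haσ : σ a ≠ 0 := (_root_.map_ne_zero σ).mpr ha0
  have hδ : δ ≠ 0 := fun h => by
    have h1 := hM.level
    rw [h, map_zero, zero_pow (by have := C.prime.two_le; omega)] at h1
    exact Nat.cast_ne_zero.mpr C.prime.ne_zero ((Valuation.zero_iff _).mp (le_zero_iff.mp h1))
  set y : FB M := cB M Sn⁻¹ * g₀
  have hyU : Reduction.UG A M y := by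
    have hiA : Sn⁻¹ ∈ A := mem_of_val_le (by rw [map_inv₀, hn1, inv_one])
    refine ⟨mul_mem (Reduction.cB_mem hiA) hg₀.1, ?_⟩
    rw [Reduction.red_mul C (Reduction.cB_mem hiA) hg₀.1, Reduction.red_cB C ⟨_, hiA⟩]
    exact mul_ne_zero ((_root_.map_ne_zero _).mpr (residue_ne_zero_of_eq
      (show A.valuation Sn⁻¹ = 1 by rw [map_inv₀, hn1, inv_one]))) hg₀.2
  have hcy : ∀ i, (y : LS).coeff i = e * ((S.coeff i : A) : Qb) / a := fun i => by
    rw [MulMemClass.coe_mul, coe_const, SS2.coeff_cL_mul, ← hS, coeffMap_coeff, ha]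
    show Sn⁻¹ * ((S.coeff i : A) : Qb) = _
    field_simp
  have hdiff : ∀ i, A.valuation (σ ((y : LS).coeff i) - (y : LS).coeff i) ≤ A.valuation δ := by
    intro i
    refine hM.move _ (by rw [hcy]; exact L.div_mem (hL i) (hL n)) (mem_of_val_le ?_)
    rw [MulMemClass.coe_mul, coe_const, SS2.coeff_cL_mul, ← hS, coeffMap_coeff, map_mul, map_inv₀,
      hn1, inv_one, one_mul]
    exact (A.valuation_le_one_iff _).mpr (S.coeff i).2
  obtain ⟨T, hT⟩ := Reduction.exists_series (A := A)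
    (f := cL δ⁻¹ * ((galFn M σ • y : FB M) - y : LS)) fun i => mem_of_val_le (by
      rw [SS2.coeff_cL_mul, HahnSeries.coeff_sub, coe_arithmeticGalois_smul, coeffMap_coeff, map_mul,
        map_inv₀]
      exact inv_mul_le_one_of_le₀ (hdiff i) zero_le)
  have h1 : LCong A δ ((galFn M σ • y : FB M) : LS) (y : LS) := SS2.mem_GL_of_series T hT
  obtain ⟨hyi, -⟩ := hyU.inv C
  have h2 := h1.mul (LCong.refl (A := A) (η := δ) ((y⁻¹ : FB M) : LS)) (mem_GG_iff.mpr hyi.1)
    (mem_GG_iff.mpr hyU.1)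
  rw [← MulMemClass.coe_mul, ← MulMemClass.coe_mul, mul_inv_cancel₀ (hyU.ne_zero C),
    OneMemClass.coe_one] at h2
  refine ⟨σ a / a, by rw [map_div₀, valuation_inertia_eq C.prime C.lies hM.inertia,
    div_self ((Valuation.ne_zero_iff _).mpr ha0)], ?_⟩
  have hk : σ a / a ∈ A := mem_of_val_le (by rw [map_div₀,
    valuation_inertia_eq C.prime C.lies hM.inertia, div_self ((Valuation.ne_zero_iff _).mpr ha0)])
  have h3 := (LCong.refl (A := A) (η := δ) (cL (σ a / a))).mul h2
    (mem_GG_iff.mpr (mul_mem ?_ hyi.1)) (SS2.cL_mem hk)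
  swap
  · have := hyU.1
    exact mem_GG_iff.mp (h1.mem hδ hM.lt.le (mem_GG_iff.mpr this))
  have eY : cB M e * g₀ = cB M a * y := by
    rw [← mul_assoc, ← map_mul, ha, mul_assoc, mul_inv_cancel₀ hSn, mul_one]
  have e1 : galFn M σ • (cB M e * g₀) / (cB M e * g₀) =
      cB M (σ a / a) * (galFn M σ • y * y⁻¹) := by
    rw [eY, smul_mul', SS2.galFn_smul_const]
    simp only [cB, map_div₀]
    ring
  rwa [mul_one, ← coe_const M, ← MulMemClass.coe_mul, ← e1] at h3

set_option maxHeartbeats 1600000 in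
/-- a function over `L` moves by a constant modulo `δ` -/
theorem exists_move_const (C : Ctx A M p) (hL : SlopeField A p L) {σ : GalQ} {δ : Qb}
    (hM : MoveData A p L σ δ) {G : FB M} (hG : G ≠ 0)
    (hfix : ∀ τ : GalQ, (∀ a ∈ L, τ a = a) → galFn M τ • G = G) :
    ∃ k : Qb, A.valuation k = 1 ∧ LCong A δ ((galFn M σ • G / G : FB M) : LS) (cL k) := by
  classical
  set t := Reduction.tB M false
  set S := (Reduction.dv G).support.filter (fun v => Bd v t 0 ∧ v.ord G < 0) with hS
  set Q := ∏ v ∈ S, (t - cB M (SS2.PV.valAt v t)) ^ (v.ord G).natAbs with hQdef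
  have hne : ∀ c : Qb, t - cB M c ≠ 0 := fun c =>
    Reduction.ne_zero_of_transc (RR.transcendental_sub_const (Reduction.transcendental_tB M false) c)
  have hQ0 : Q ≠ 0 := Finset.prod_ne_zero_iff.mpr fun v _ => pow_ne_zero _ (hne _)
  have hQreg : Q ∈ Reduction.regOn Qb t := prod_mem fun v _ => pow_mem
    (sub_mem (Reduction.self_mem_regOn t) ((Reduction.regOn Qb t).algebraMap_mem _)) _
  have hvp : ∀ τ : GalQ, (∀ a ∈ L, τ a = a) → ∀ v : PB M,
      (galFn M τ • v).ord G = v.ord G := fun τ hτ v => by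
    conv_lhs => rw [← hfix τ hτ]
    rw [SemilinearAut.ord_smul]
  have hQfix : ∀ τ : GalQ, (∀ a ∈ L, τ a = a) → galFn M τ • Q = Q := by
    intro τ hτ
    have hmem : ∀ {ρ : GalQ}, (∀ a ∈ L, ρ a = a) → ∀ v ∈ S, galFn M ρ • v ∈ S := by
      intro ρ hρ v hv
      obtain ⟨-, hvt, hvn⟩ := Finset.mem_filter.mp hv
      refine Finset.mem_filter.mpr ⟨Finsupp.mem_support_iff.mpr (by
        rw [Reduction.dv_apply, hvp ρ hρ]; omega), ?_, by rw [hvp ρ hρ]; exact hvn⟩
      have := (Flat.val_gal ρ (SS2.PV.val_valAt hvt)).bd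
      rwa [Flat.gal_tB] at this
    rw [hQdef, Finset.smul_prod']
    have hτi : ∀ a ∈ L, τ⁻¹ a = a := fun a ha => by
      rw [AlgEquiv.aut_inv]; exact τ.symm_apply_eq.mpr (hτ a ha).symm
    refine Finset.prod_bij (fun v _ => galFn M τ • v) (fun v hv => hmem hτ v hv)
      (fun v _ w _ h => smul_left_cancel _ h)
      (fun w hw => ⟨galFn M τ⁻¹ • w, hmem hτi w hw, by
        rw [smul_smul, ← map_mul, mul_inv_cancel, map_one, one_smul]⟩) fun v hv => ?_
    have hvt := (Finset.mem_filter.mp hv).2.1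
    have hv' := Flat.val_gal τ (SS2.PV.val_valAt hvt)
    rw [Flat.gal_tB] at hv'
    rw [smul_pow', smul_sub, show galFn M τ • t = t from Flat.gal_tB τ false, SS2.galFn_smul_const,
      hvp τ hτ v, show SS2.PV.valAt (galFn M τ • v) t = τ (SS2.PV.valAt v t) from
        SS2.PV.valAt_eq hv']
  have hYreg : G * Q ∈ Reduction.regOn Qb t := fun v hv => by
    have hQv : 0 ≤ v.ord Q := by
      have := (RR.bd_iff_ord hQ0).mp (hQreg v hv); omega
    rw [RR.bd_iff_ord (mul_ne_zero hG hQ0), v.ord_mul hG hQ0]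
    by_cases h : v.ord G < 0
    · have hvS : v ∈ S := Finset.mem_filter.mpr ⟨Finsupp.mem_support_iff.mpr (by
        rw [Reduction.dv_apply]; omega), hv, h⟩
      have h1 : 1 ≤ v.ord (t - cB M (SS2.PV.valAt v t)) := by
        refine Reduction.Val.ord_pos ?_ (hne _)
        have h0 := (SS2.PV.val_valAt hv).sub
          (Reduction.Val.const (v := v) (SS2.PV.valAt v t))
        rwa [sub_self] at h0
      have h2 : ((v.ord G).natAbs : ℤ) ≤ v.ord Q := by
        rw [hQdef, RR.ord_prod _ _ _ fun w _ => pow_ne_zero _ (hne _)]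
        refine le_trans ?_ (Finset.single_le_sum (f := fun w : PB M =>
          v.ord ((t - cB M (SS2.PV.valAt w t)) ^ (w.ord G).natAbs)) (fun w _ => ?_) hvS)
        · rw [RR.ord_pow]; nlinarith
        · have := (RR.bd_iff_ord (pow_ne_zero (w.ord G).natAbs (hne (SS2.PV.valAt w t)))).mp
            ((pow_mem (sub_mem (Reduction.self_mem_regOn t)
              ((Reduction.regOn Qb t).algebraMap_mem _)) _ :
              (t - cB M (SS2.PV.valAt w t)) ^ (w.ord G).natAbs ∈ Reduction.regOn Qb t) v hv)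
          linarith
      omega
    · omega
  obtain ⟨k₁, hk₁, h₁⟩ := exists_move_regular C hM (mul_ne_zero hG hQ0) hYreg fun τ hτ => by
    rw [smul_mul', hfix τ hτ, hQfix τ hτ]
  obtain ⟨k₂, hk₂, h₂⟩ := exists_move_regular C hM hQ0 hQreg hQfix
  have hk20 : k₂ ≠ 0 := (Valuation.ne_zero_iff _).mp (hk₂ ▸ one_ne_zero)
  refine ⟨k₁ * k₂⁻¹, by rw [map_mul, map_inv₀, hk₁, hk₂, inv_one, mul_one], ?_⟩
  have hk2A : k₂⁻¹ ∈ A := mem_of_val_le (by rw [map_inv₀, hk₂, inv_one])
  have hd : δ ≠ 0 := fun h => by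
    have h1 := hM.level
    rw [h, map_zero, zero_pow (by have := C.prime.two_le; omega)] at h1
    exact Nat.cast_ne_zero.mpr C.prime.ne_zero ((Valuation.zero_iff _).mp (le_zero_iff.mp h1))
  set q2 : LS := ((galFn M σ • Q / Q : FB M) : LS) with hq2
  have hq2G : q2 ∈ GG A := h₂.mem hd hM.lt.le (SS2.cL_mem (mem_of_val_le hk₂.le))
  have hq2r : redL A q2 ≠ 0 := by
    have e : q2 = cL δ * (cL δ⁻¹ * (q2 - cL k₂)) + cL k₂ := by
      rw [← mul_assoc, ← SS2.cL_mul, mul_inv_cancel₀ hd, SS2.cL_one, one_mul, sub_add_cancel]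
    rw [e, SS2.redL_add (mul_mem (SS2.cL_mem (mem_of_val_le hM.lt.le)) h₂)
      (SS2.cL_mem (mem_of_val_le hk₂.le)), SS2.redL_mul (SS2.cL_mem (mem_of_val_le hM.lt.le)) h₂,
      SS2.redL_cL ⟨δ, mem_of_val_le hM.lt.le⟩, residue_eq_zero_of_lt (c := ⟨δ, _⟩) hM.lt, map_zero,
      zero_mul, zero_add, SS2.redL_cL ⟨k₂, mem_of_val_le hk₂.le⟩]
    exact (_root_.map_ne_zero _).mpr (residue_ne_zero_of_eq hk₂)
  obtain ⟨hqi, -⟩ := SS2.inv_mem_GL hq2G hq2r
  -- invert the second congruence
  have h₂i : LCong A δ q2⁻¹ (cL k₂⁻¹) := by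
    have e : cL δ⁻¹ * (q2⁻¹ - cL k₂⁻¹) = -(cL δ⁻¹ * (q2 - cL k₂) * (q2⁻¹ * cL k₂⁻¹)) := by
      have hq0 : q2 ≠ 0 := fun h0 => hq2r (by rw [h0, SS2.redL_zero])
      have hc : cL k₂ * cL k₂⁻¹ = 1 := by rw [← SS2.cL_mul, mul_inv_cancel₀ hk20, SS2.cL_one]
      linear_combination (-(cL δ⁻¹) * q2⁻¹) * hc + (cL δ⁻¹ * cL k₂⁻¹) * (inv_mul_cancel₀ hq0)
    rw [LCong, e]
    exact neg_mem (mul_mem h₂ (mul_mem hqi (SS2.cL_mem hk2A)))
  have h := h₁.mul h₂i hqi (SS2.cL_mem (mem_of_val_le hk₁.le))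
  rw [← SS2.cL_mul, hq2, ← IntermediateField.coe_inv, ← MulMemClass.coe_mul] at h
  have e : galFn M σ • (G * Q) / (G * Q) * (galFn M σ • Q / Q)⁻¹ = galFn M σ • G / G := by
    have hσQ : galFn M σ • Q ≠ 0 := (smul_ne_zero_iff_ne _).mpr hQ0
    rw [smul_mul']
    field_simp
  rwa [e] at h

/-- a `p`-th root of something close to `1` is close to `1` -/
theorem root_near_one (C : Ctx A M p) {π : Qb} (hπ : A.valuation π ^ (p - 1) = A.valuation (p : Qb))
    (hπ0 : π ≠ 0) {T u : FB M} (hu : u ∈ GR A M) (h : T ^ p = 1 + cB M (π ^ p) * u) :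
    LCong A π ((T : FB M) : LS) 1 := by
  haveI := Fact.mk C.prime
  suffices hmem : cB M π⁻¹ * (T - 1) ∈ GR A M by
    have := mem_GG_iff.mpr hmem
    rwa [MulMemClass.coe_mul, AddSubgroupClass.coe_sub, OneMemClass.coe_one, coe_const] at this
  rcases eq_or_ne (T - 1) 0 with h0 | h0
  · rw [h0, mul_zero]; exact zero_mem _
  obtain ⟨e, g, he, hg, hTe⟩ := Reduction.exists_scale_UG C h0
  by_cases hle : A.valuation e ≤ A.valuation π
  · rw [hTe, ← mul_assoc, ← map_mul]
    refine mul_mem (Reduction.cB_mem (mem_of_val_le ?_)) hg.1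
    rw [map_mul, map_inv₀]; exact inv_mul_le_one_of_le₀ hle zero_le
  exfalso
  push Not at hle
  have hT : T = 1 + cB M e * g := by rw [← hTe]; ring
  have hp0 := C.prime.ne_zero
  have he0 : A.valuation e ≠ 0 := (Valuation.ne_zero_iff _).mpr he
  have hcu : A.valuation (π ^ p / e ^ p) < 1 := by
    rw [map_div₀, map_pow, map_pow, div_lt_one₀ (zero_lt_iff.mpr (pow_ne_zero _ he0))]
    exact pow_lt_pow_left₀ hle zero_le hp0
  have hgp : Reduction.red A M g ^ p ≠ 0 := pow_ne_zero _ hg.2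
  have hvan : ∀ {c : Qb} {x : FB M}, A.valuation c < 1 → x ∈ GR A M →
      cB M c * x ∈ GR A M ∧ Reduction.red A M (cB M c * x) = 0 := fun {c x} hc hx => by
    have hcA := mem_of_val_le (A := A) hc.le
    refine ⟨mul_mem (Reduction.cB_mem hcA) hx, ?_⟩
    rw [Reduction.red_mul C (Reduction.cB_mem hcA) hx, Reduction.red_cB C ⟨c, hcA⟩,
      residue_eq_zero_of_lt (c := ⟨c, hcA⟩) hc, map_zero, zero_mul]
  obtain ⟨m1, r1⟩ := hvan hcu hu
  have hk : ∀ c : Qb, c ≠ 0 → cB M c ≠ 0 := fun c hc => (_root_.map_ne_zero _).mpr hc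
  rcases le_or_gt (A.valuation e) 1 with he1 | he1
  · have heg : cB M e * g ∈ GR A M := mul_mem (Reduction.cB_mem (mem_of_val_le he1)) hg.1
    obtain ⟨r, hr, hadd⟩ : ∃ r ∈ GR A M,
        (1 + cB M e * g) ^ p = 1 ^ p + (cB M e * g) ^ p + p * 1 * (cB M e * g) * r :=
      ⟨_, sum_mem fun i _ => mul_mem (mul_mem (pow_mem (one_mem _) _) (pow_mem heg _))
        (natCast_mem _ _), add_pow_prime_eq C.prime _ _⟩
    have hpe : A.valuation ((p : Qb) * e / e ^ p) < 1 := by
      rw [map_div₀, map_mul, map_pow, div_lt_one₀ (zero_lt_iff.mpr (pow_ne_zero _ he0)), ← hπ]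
      calc A.valuation π ^ (p - 1) * A.valuation e < A.valuation e ^ (p - 1) * A.valuation e := by
            refine mul_lt_mul_of_pos_right (pow_lt_pow_left₀ hle zero_le ?_) (zero_lt_iff.mpr he0)
            have := C.prime.two_le; omega
        _ = A.valuation e ^ p := by rw [← pow_succ, Nat.sub_add_cancel C.prime.one_le]
    obtain ⟨m2, r2⟩ := hvan hpe (mul_mem hg.1 hr)
    have e2 : g ^ p + cB M ((p : Qb) * e / e ^ p) * (g * r) = cB M (π ^ p / e ^ p) * u := by
      rw [hT, hadd] at h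
      have hk' := pow_ne_zero p (hk e he)
      simp only [map_div₀, map_mul, map_pow, map_natCast]
      field_simp
      simp only [map_pow, one_pow, mul_one] at h
      linear_combination h
    have h2 := congrArg (Reduction.red A M) e2
    rw [Reduction.red_add C (pow_mem hg.1 p) m2, Reduction.red_pow C hg.1, r1, r2, add_zero] at h2
    exact hgp h2
  · have hi : A.valuation e⁻¹ < 1 := by rw [map_inv₀]; exact inv_lt_one_of_one_lt₀ he1
    obtain ⟨mi, ri⟩ := hvan hi (one_mem (GR A M))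
    have hip : A.valuation (e⁻¹ ^ p) < 1 := by rw [map_pow]; exact pow_lt_one₀ zero_le hi hp0
    obtain ⟨mp, rp⟩ := hvan hip (one_mem (GR A M))
    have e2 : (g + cB M e⁻¹ * 1) ^ p = cB M (e⁻¹ ^ p) * 1 + cB M (π ^ p / e ^ p) * u := by
      have hk' : algebraMap Qb (FB M) e ≠ 0 := (_root_.map_ne_zero _).mpr he
      have e3 : g + cB M e⁻¹ * 1 = cB M e⁻¹ * T := by
        rw [hT, mul_add, ← mul_assoc, ← map_mul, inv_mul_cancel₀ he, map_one, one_mul, add_comm]
      rw [e3, mul_pow, h]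
      simp only [cB, map_div₀, map_pow, map_inv₀, inv_pow]
      field_simp
    have h2 := congrArg (Reduction.red A M) e2
    rw [Reduction.red_pow C (add_mem hg.1 mi), Reduction.red_add C hg.1 mi, ri, add_zero,
      Reduction.red_add C mp m1, rp, r1, add_zero] at h2
    exact hgp h2

/-- the norm commutes with Galois -/
theorem normSide_smul (C : Ctx A M p) (b : Bool) (τ : GalQ) (x : FB (M * p)) :
    normSide b (galFn (M * p) τ • x) = galFn M τ • normSide b x := by
  have hs : ∀ z, side M p b (galFn (M * p) τ • z) = galFn (M * p) τ • side M p b z := fun z => by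
    cases b
    · rfl
    · exact atkinW_galAut C τ z
  set e₁ : FB M ≃+* FB M := MulSemiringAction.toRingEquiv _ (FB M) (galFn M τ) with he₁
  set e₂ : FB (M * p) ≃+* FB (M * p) :=
    MulSemiringAction.toRingEquiv _ (FB (M * p)) (galFn (M * p) τ) with he₂
  have h := @Algebra.norm_eq_of_equiv_equiv (FB M) (FB (M * p)) (FB M) (FB (M * p)) _ _ _ _
    (algebraAlong (i1 M p)) (algebraAlong (i1 M p)) e₁ e₂
    (RingHom.ext fun g => (HeckeJ.intertwines_heckeAlphaBar M p τ g).symm) (side M p b x)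
  rw [RingEquiv.eq_symm_apply] at h
  show normAlong (i1 M p) (side M p b (galFn (M * p) τ • x)) = galFn M τ • _
  rw [hs]
  exact h.symm

/-- one step of improving the congruences of a pair to constants -/
theorem improve (C : Ctx A M p) {ζ : Qb} (hζ : IsPrimitiveRoot ζ p) {S : Bool → FB (M * p)}
    (hS : ∀ b, atkinW M p (S b) = S (!b)) (hmem : ∀ b, S b ∈ GR A (M * p))
    {η : Qb} (hη : η ≠ 0) (hη1 : A.valuation η ≤ 1) (hζη : A.valuation (ζ - 1) ≤ A.valuation η)
    {μ : Bool → Qb} (hμ : ∀ b, A.valuation (μ b) = 1)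
    (hΦ : ∀ b, LCong A η ((normAlong (i1 M p) (S b) : FB M) : LS) (cL (μ b)))
    {ε : Qb} (hε : ε ≠ 0) (hε1 : A.valuation ε ≤ 1) (hεp : A.valuation ε ^ p ≤ A.valuation η)
    {l : Bool → Qb} (hl : ∀ b, A.valuation (l b) = 1)
    (hin : ∀ b, LCong A ε ((S b : FB (M * p)) : LS) (cL (l b))) :
    ∀ b, LCong A η ((S b : FB (M * p)) : LS) (cL (μ b / l (!b) ^ p)) := by
  classical
  intro b
  haveI := Fact.mk C.prime
  have hζA := mem_of_primitiveRoot (A := A) C.prime hζ
  set uA : Aˣ := Units.ofPowEqOne ⟨ζ, hζA⟩ p (Subtype.ext hζ.pow_eq_one) C.prime.ne_zero with huA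
  have hu : IsPrimitiveRoot (SS2.unitQ uA) p :=
    IsPrimitiveRoot.coe_units_iff.mp (by simpa [huA] using hζ)
  set S' : LS := ((S (!b) : FB (M * p)) : LS)
  have hS' : S' ∈ GG A := mem_GG_iff.mpr (hmem _)
  set P : LS := ∏ i : Fin p, twist (SS2.unitQ uA ^ (i : ℕ)) S'
  have hexp : qExpand Qb p ((normAlong (i1 M p) (S b) : FB M) : LS) =
      qExpand Qb p ((S b : FB (M * p)) : LS) * P := by
    rw [qExpand_normAlong C hu, hS b]
  have hq : ∀ c : Qb, qExpand Qb p (cL c) = cL c := fun c => by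
    rw [cL, algebraMap_laurentSeries_eq_single, qExpand_single, mul_zero]
  have hζ0 : ζ - 1 ≠ 0 := sub_ne_zero.mpr (hζ.ne_one C.prime.one_lt)
  haveI := Reduction.charP_residue A C.prime C.lies
  have hπ := isPi_zeta_sub_one C.prime C.lies hζ
  have hpη : A.valuation (p : Qb) ≤ A.valuation η := by
    refine le_trans ?_ hζη
    rw [← hπ.eq]
    exact pow_le_of_le_one zero_le hπ.lt.le (by have := C.prime.two_le; omega)
  -- the product over the conjugates is congruent to a constant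
  have hl' : cL (l (!b)) ∈ GG A := SS2.cL_mem (mem_of_val_le (hl _).le)
  have hP1 : LCong A η P (S' ^ p) := by
    have h := LCong.prod (A := A) (η := η) (Finset.univ : Finset (Fin p)) (y := S')
      (f := fun i => twist (SS2.unitQ uA ^ (i : ℕ)) S') hS'
      (fun i _ => by
        simp only [← map_pow]
        exact (SS2.twist_mem _ hS').1)
      (fun i _ => by
        simp only [← map_pow]
        exact (twist_cong C hζ (u := uA ^ (i : ℕ)) (i := (i : ℕ)) (by simp [huA]) hS').mono hζ0 hζη)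
    rwa [Finset.card_univ, Fintype.card_fin] at h
  have hP2 : LCong A η (S' ^ p) (cL (l (!b) ^ p)) := by
    rw [show cL (l (!b) ^ p) = cL (l (!b)) ^ p from map_pow _ _ _]
    exact (hin (!b)).pow_prime C.prime hε hη hε1 hl' hεp hpη
  have hP := (hP1.trans hP2).symm
  have hlp : A.valuation (l (!b) ^ p) = 1 := by rw [map_pow, hl, one_pow]
  have hlp0 : l (!b) ^ p ≠ 0 := (Valuation.ne_zero_iff _).mp (hlp ▸ one_ne_zero)
  set X : LS := qExpand Qb p ((S b : FB (M * p)) : LS)
  have hX : X ∈ GG A := (SS2.qExpand_mem p (mem_GG_iff.mpr (hmem b))).1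
  have h1 : LCong A η (X * cL (l (!b) ^ p)) (X * P) :=
    (LCong.refl X).mul hP (SS2.cL_mem (mem_of_val_le hlp.le)) hX
  have h2 : LCong A η (X * P) (cL (μ b)) := by
    rw [← hexp, ← hq (μ b)]
    have := (SS2.qExpand_mem p (hΦ b)).1
    rw [map_mul, hq, map_sub] at this
    exact this
  have h3 : LCong A η X (cL (μ b / l (!b) ^ p)) := by
    have hinvA : (l (!b) ^ p)⁻¹ ∈ A := mem_of_val_le (by rw [map_inv₀, hlp, inv_one])
    have h := (h1.trans h2).mul (LCong.refl (cL (l (!b) ^ p)⁻¹)) (SS2.cL_mem hinvA)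
      (SS2.cL_mem (mem_of_val_le (hμ b).le))
    rwa [mul_assoc, ← SS2.cL_mul, mul_inv_cancel₀ hlp0, SS2.cL_one, mul_one, ← SS2.cL_mul,
      ← div_eq_mul_inv] at h
  have hmem' : κ η⁻¹ * (S b - κ (μ b / l (!b) ^ p)) ∈ GR A (M * p) := by
    refine mem_GR_of_qExpand' C ?_
    rw [MulMemClass.coe_mul, AddSubgroupClass.coe_sub, coe_const, coe_const, map_mul, map_sub, hq, hq]
    exact h3
  have := mem_GG_iff.mpr hmem'
  rwa [MulMemClass.coe_mul, AddSubgroupClass.coe_sub, coe_const, coe_const] at this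

set_option maxHeartbeats 3200000 in
/-- the section -/
theorem exists_root_const (hp3 : 3 ≤ p) (C : Ctx A M p) (hL : SlopeField A p L) {σ : GalQ} {δ : Qb}
    (hM : MoveData A p L σ δ) {E : Divisor Qb (FB (M * p))} (hdeg : Divisor.degree E = 0)
    {f : FB (M * p)} (hf : f ≠ 0) (hord : ∀ P : PB (M * p), (p : ℤ) * E P = P.ord f)
    (hffix : ∀ τ : GalQ, (∀ a ∈ L, τ a = a) → galFn (M * p) τ • f = f)
    (hpush : ∀ b, ∀ hφ : (sideMap (M := M) (p := p) b).toRingHom.IsIntegral,
      (Divisor.pushforwardAlong (sideMap b) hφ E).IsPrincipal) :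
    ∃ (x : FB (M * p)) (l : Bool → Qb), (∀ b, A.valuation (l b) = 1) ∧
      (∀ P : PB (M * p), 0 ≤ P.ord (fibreData C).J →
        Bd P x ((galFn (M * p) σ • E) P - E P)) ∧
      ∀ b, SideCong (fibreData C).toCore b δ x (κ (l b)) := by
  classical
  haveI := Fact.mk C.prime
  haveI := Reduction.charP_residue A C.prime C.lies
  have hp0 := C.prime.ne_zero
  set g := galFn (M * p) σ with hgdef
  have hc : Compat (fibreCore C) g (RingEquiv.refl (FS A M)) := compat_inertia C σ hM.inertia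
  -- the twist of `σ E - E`
  choose a ha hmem hne using fun b => (fibreData C).exists_scale b f hf
  have hk : ∀ b, A.valuation (a b / σ (a b)) = 1 := fun b => by
    rw [map_div₀, valuation_inertia_eq C.prime C.lies hM.inertia,
      div_self ((Valuation.ne_zero_iff _).mpr (ha b))]
  choose hr hhr using fun b : Bool => IsAlgClosed.exists_pow_nat_eq (k := kA A)
    (residue A ⟨a b / σ (a b), mem_of_val_le (hk b).le⟩) C.prime.pos
  have hfg : g • f ≠ 0 := (smul_ne_zero_iff_ne g).mpr hf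
  have hft : ∀ b, (g • f / f) ∈ (fibreCore C).G b ∧ (fibreCore C).red b (g • f / f) =
      algebraMap (kA A) (FS A M) (residue A ⟨a b / σ (a b), mem_of_val_le (hk b).le⟩) := fun b => by
    have hu : κ (a b) * f ∈ (fibreCore C).G b := hmem b
    obtain ⟨hi, hir⟩ := (fibreCore C).inv_mem b hu (hne b)
    have hgu := hc.mem b _ hu
    have hne' : (fibreCore C).red b (κ (a b) * f) ≠ 0 := hne b
    have hσa : σ (a b) ≠ 0 := (_root_.map_ne_zero σ).mpr (ha b)
    have e : g • f / f = κ (a b / σ (a b)) * (g • (κ (a b) * f) * (κ (a b) * f)⁻¹) := by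
      have := ha b
      rw [smul_mul', SS2.galFn_smul_const, map_div₀]
      field_simp
      rw [div_self]
      exact mul_ne_zero ((_root_.map_ne_zero _).mpr this) ((_root_.map_ne_zero _).mpr hσa)
    have hm := mul_mem hgu hi
    refine ⟨e ▸ (fibreCore C).const_mul_mem b (mem_of_val_le (hk b).le) hm, ?_⟩
    rw [e, (fibreCore C).red_const_mul b ⟨_, mem_of_val_le (hk b).le⟩ hm,
      (fibreCore C).red_mul b _ hgu _ hi, hir, hc.red b _ hu, RingEquiv.refl_apply,
      mul_inv_cancel₀ hne', Algebra.smul_def, mul_one]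
  let R : SS.Rep (fibreData C).toCore p :=
    { E := g • E - E
      f := g • f / f
      α := 1
      h := fun b => algebraMap (kA A) (FS A M) (hr b)
      degree_E := by rw [map_sub, SemilinearAut.degree_smul, hdeg, sub_zero]
      f_ne := div_ne_zero hfg hf
      ord_f := fun P => by
        rw [div_eq_mul_inv, P.ord_mul hfg (inv_ne_zero hf), P.ord_inv, Finsupp.sub_apply, mul_sub,
          SemilinearAut.divisor_smul_apply, hord, hord, hgdef, SS2.ord_galFn]
        ring
      α_ne := fun _ => one_ne_zero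
      h_ne := fun b => (_root_.map_ne_zero _).mpr fun h0 => residue_ne_zero_of_eq
        (c := ⟨a b / σ (a b), mem_of_val_le (hk b).le⟩) (hk b) (by rw [← hhr b, h0, zero_pow hp0])
      mem := fun b => by simp only [Pi.one_apply, one_pow, map_one, inv_one, one_mul]; exact (hft b).1
      red_eq := fun b => by
        simp only [Pi.one_apply, one_pow, map_one, inv_one, one_mul]
        rw [← map_pow, hhr b]
        exact (hft b).2 }
  -- normalised pushforwards
  have hG : ∀ b, ∃ G : FB M, G ≠ 0 ∧ (∀ τ : GalQ, (∀ a ∈ L, τ a = a) → galFn M τ • G = G) ∧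
      ∃ c : Qb, c ≠ 0 ∧ normSide b f = algebraMap Qb (FB M) c * G ^ p ∧
      ∀ hφ : (sideMap (M := M) (p := p) b).toRingHom.IsIntegral,
        ∀ v, Divisor.pushforwardAlong (sideMap b) hφ E v = v.ord G := by
    intro b
    have hφ := HeckeJ.isIntegralAlong (sideMap (M := M) (p := p) b)
    obtain ⟨G, hG0, hGd, hGl⟩ := SS2.exists_normalised (hpush b hφ)
    have hn0 : normSide b f ≠ 0 := by
      rw [← normAlong_sideMap C]
      letI := algebraAlong (sideMap (M := M) (p := p) b)
      haveI : Module.Finite (FB M) (FB (M * p)) := HeckeJ.finiteAlong _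
      exact Algebra.norm_ne_zero_iff.mpr hf
    have hnd : ∀ v : PB M, v.ord (normSide b f) = (p : ℤ) * v.ord G := fun v => by
      rw [← normAlong_sideMap C, ← pushforward_dv (sideMap b) hφ hf (p • E)
        (fun w => by rw [Finsupp.smul_apply, ← hord w, nsmul_eq_mul]) v, map_nsmul,
        Finsupp.smul_apply, ← hGd v, nsmul_eq_mul]
    obtain ⟨c, hcG⟩ := SS2.exists_const_of_ord (h := normSide b f * (G ^ p)⁻¹) fun v => by
      rw [v.ord_mul hn0 (inv_ne_zero (pow_ne_zero _ hG0)), v.ord_inv, RR.ord_pow, hnd]; ring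
    have hNG : normSide b f = algebraMap Qb (FB M) c * G ^ p := by
      rw [← hcG, inv_mul_cancel_right₀ (pow_ne_zero _ hG0)]
    refine ⟨G, hG0, fun τ hτ => ?_, c, fun h0 => hn0 (by rw [hNG, h0, map_zero, zero_mul]), hNG,
      fun _ v => hGd v⟩
    have h1 := normSide_smul C b τ f
    rw [hffix τ hτ] at h1
    refine SS2.eq_of_ord_lead ((smul_ne_zero_iff_ne _).mpr hG0) hG0 (fun v => ?_)
      (by rw [SS2.lead_smul, hGl, map_one])
    have h2 := congrArg (fun z => v.ord z) h1
    simp only [SS2.ord_galFn, hnd] at h2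
    rw [SS2.ord_galFn]
    exact mul_left_cancel₀ (Int.natCast_ne_zero.mpr hp0) h2.symm
  choose G hG0 hGfix cG hcG0 hGn hGd using hG
  have hR : ∀ b, ∀ hφ : (sideMap (M := M) (p := p) b).toRingHom.IsIntegral,
      (Divisor.pushforwardAlong (sideMap b) hφ R.E).IsPrincipal := fun b hφ => by
    have hint : SemilinearAut.IntertwinesAlong (sideMap (M := M) (p := p) b).toRingHom
        (galFn M σ) g := by
      cases b
      exacts [HeckeJ.intertwines_heckeAlphaBar M p σ, HeckeJ.intertwines_heckeBetaBar M p σ]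
    have hne' : galFn M σ • G b ≠ 0 := (smul_ne_zero_iff_ne _).mpr (hG0 b)
    refine ⟨galFn M σ • G b / G b, div_ne_zero hne' (hG0 b), fun v => ?_⟩
    show Divisor.pushforwardAlong (sideMap b) hφ (g • E - E) v = _
    rw [map_sub, HeckeJ.pushforwardAlong_smul _ hφ hint, Finsupp.sub_apply,
      SemilinearAut.divisor_smul_apply, hGd b hφ, hGd b hφ, div_eq_mul_inv,
      v.ord_mul hne' (inv_ne_zero (hG0 b)), v.ord_inv, SS2.ord_galFn]
    ring
  have hP : PushInput R := pushInput C R hR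
  -- a root up to `π ^ p`
  haveI : NeZero (p : Qb) := ⟨Nat.cast_ne_zero.mpr hp0⟩
  obtain ⟨ζ, hζ⟩ := HasEnoughRootsOfUnity.exists_primitiveRoot Qb p
  set π := ζ - 1
  have hπ : IsPi A p π := isPi_zeta_sub_one C.prime C.lies hζ
  obtain ⟨m0, hm0⟩ := Data.exists_jump (D := fibreData C) hp0 (fibreData C).exists_surj
  have hTm : (fibreData C).W m0 ≤ R.T m0 := by
    obtain ⟨ξ, hξ1, -, hT⟩ := hm0 R
    refine fun u hu => hT m0 le_rfl u ((fibreData C).W_le_P m0 hu) fun s c hc => ?_
    obtain ⟨c', hc'⟩ := hu.2 s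
    rw [show ξ s = 1 from eq_of_pow_eq (k := kA A) p (by rw [hξ1 s, one_pow]), one_mul,
      hc.unique (hc' false)]
    exact hc' true
  obtain ⟨x, hxL, hxI, hxr, z, hz, hxe⟩ := exists_level
    hπ.p_lt hπ.eq (discreteFields C.prime C.lies) R hP hTm (Nat.zero_le m0)
    (jbar_pow_mem_W (Nat.zero_le m0))
  simp only [pow_zero, mul_zero] at hxr hxe
  have hπδ : A.valuation π ≤ A.valuation δ := by
    refine (pow_le_pow_iff_left₀ zero_le zero_le (n := p - 1) (by omega)).mp ?_
    rw [hπ.eq]; exact hM.level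
  have hδ : δ ≠ 0 := fun h => by
    rw [h, map_zero, le_zero_iff] at hπδ
    exact hπ.ne ((Valuation.zero_iff _).mp hπδ)
  -- the constants
  have hx : ∀ b, x ∈ (fibreData C).G b := fun b => by
    have := hxI b
    simpa [R] using this
  set S : Bool → FB (M * p) := fun b => side M p b x
  have hSmem : ∀ b, S b ∈ GR A (M * p) := fun b => hx b
  have hSW : ∀ b, atkinW M p (S b) = S (!b) := fun b => by
    cases b
    · rfl
    · exact atkinW_atkinW C x
  have hΦ : ∀ b, ∃ μ : Qb, A.valuation μ = 1 ∧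
      LCong A δ ((normAlong (i1 M p) (S b) : FB M) : LS) (cL μ) := by
    intro b
    obtain ⟨k, hk1, hkc⟩ := exists_move_const C hL hM (hG0 b) (hGfix b)
    obtain ⟨μ, hμ⟩ := IsAlgClosed.exists_pow_nat_eq (σ (cG b) / cG b) C.prime.pos
    have hμ1 : A.valuation μ = 1 := by
      refine (pow_left_inj₀ zero_le zero_le hp0).mp ?_
      rw [one_pow]
      rw [← map_pow, hμ, map_div₀, valuation_inertia_eq C.prime C.lies hM.inertia,
        div_self ((Valuation.ne_zero_iff _).mpr (hcG0 b))]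
    set ψ := galFn M σ • G b / G b with hψ
    set T := algebraMap Qb (FB M) μ * ψ * normSide b x with hT
    have hzs : ∀ b', side M p b z ∈ GS M p A b' := fun b' => side_mem C b b' hz
    obtain ⟨u, hu, hue, -⟩ := norm_first_order C hzs (c := π ^ p)
      (by rw [map_pow]; exact pow_lt_one₀ zero_le hπ.lt hp0) (pow_ne_zero _ hπ.ne)
    have hTp : T ^ p = 1 + cB M (π ^ p) * u := by
      rw [show cB M (π ^ p) = algebraMap Qb (FB M) (π ^ p) from rfl, ← hue]
      have he := congrArg (normSide (M := M) (p := p) b) hxe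
      simp only [normSide, map_mul, map_pow, map_add, map_one, AlgHom.commutes] at he
      simp only [map_pow]
      rw [← he, hT, mul_pow, mul_pow, ← map_pow, hμ]
      have hn : normAlong (i1 M p) (side M p b (g • f / f)) =
          algebraMap Qb (FB M) (σ (cG b) / cG b) * ψ ^ p := by
        have hne0 : algebraMap Qb (FB M) (cG b) ≠ 0 := (_root_.map_ne_zero _).mpr (hcG0 b)
        have hmul : normAlong (i1 M p) (side M p b (g • f / f)) * normSide b f
            = normSide b (g • f) := by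
          unfold normSide
          rw [← map_mul, ← map_mul, div_mul_cancel₀ _ hf]
        have hn0 : normSide b f ≠ 0 := by
          rw [hGn b]; exact mul_ne_zero hne0 (pow_ne_zero _ (hG0 b))
        rw [eq_div_of_mul_eq hn0 hmul, map_div₀ (algebraMap Qb (FB M))]
        rw [hgdef, normSide_smul C b σ f, hGn b, smul_mul', smul_pow', SS2.galFn_smul_const, hψ,
          div_pow, mul_div_mul_comm]
      rw [hn]
      simp only [normSide, ← map_pow]
      ring
    have hTc := root_near_one C hπ.eq hπ.ne hu hTp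
    have hμk : A.valuation (μ * k) = 1 := by rw [map_mul, hμ1, hk1, one_mul]
    have hμk0 : μ * k ≠ 0 := (Valuation.ne_zero_iff _).mp (hμk ▸ one_ne_zero)
    refine ⟨(μ * k)⁻¹, by rw [map_inv₀, hμk, inv_one], ?_⟩
    set N : LS := ((normSide b x : FB M) : LS)
    have hN : N ∈ GG A := by
      refine mem_GG_iff.mpr (mem_GR_of_qExpand C ?_)
      have hζA := mem_of_primitiveRoot (A := A) C.prime hζ
      set uA : Aˣ := Units.ofPowEqOne ⟨ζ, hζA⟩ p (Subtype.ext hζ.pow_eq_one) C.prime.ne_zero with huA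
      have hu' : IsPrimitiveRoot (SS2.unitQ uA) p :=
        IsPrimitiveRoot.coe_units_iff.mp (by simpa [huA] using hζ)
      rw [show normSide b x = normAlong (i1 M p) (S b) from rfl, qExpand_normAlong C hu', hSW b]
      exact mul_mem (SS2.qExpand_mem p (mem_GG_iff.mpr (hSmem b))).1 (prod_mem fun i _ => by
        simp only [← map_pow]
        exact (SS2.twist_mem _ (mem_GG_iff.mpr (hSmem (!b)))).1)
    have hμA := SS2.cL_mem (A := A) (mem_of_val_le hμ1.le)
    have hkA := SS2.cL_mem (A := A) (mem_of_val_le hk1.le)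
    have h1 : LCong A δ (cL μ * ((ψ : FB M) : LS) * N) (cL μ * cL k * N) :=
      ((LCong.refl (cL μ)).mul hkc (hkc.mem hδ hM.lt.le hkA) hμA).mul (LCong.refl N) hN
        (mul_mem hμA hkA)
    have h2 : LCong A δ (cL μ * ((ψ : FB M) : LS) * N) 1 := by
      have := hTc.mono hπ.ne hπδ
      rwa [hT, MulMemClass.coe_mul, MulMemClass.coe_mul, coe_const] at this
    have h3 := (LCong.refl (A := A) (η := δ) (cL (μ * k)⁻¹)).mul (h1.symm.trans h2)
      (mul_mem (mul_mem hμA hkA) hN) (SS2.cL_mem (mem_of_val_le (by rw [map_inv₀, hμk, inv_one])))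
    rwa [mul_one, ← mul_assoc, ← SS2.cL_mul, ← SS2.cL_mul, inv_mul_cancel₀ hμk0, SS2.cL_one,
      one_mul] at h3
  choose μ hμ hμc using hΦ
  -- the start
  have hstart : ∀ b, ∃ (c l : Qb), A.valuation c < 1 ∧ A.valuation l = 1 ∧
      ∃ y ∈ (fibreData C).G b, x - κ l = κ c * y := by
    intro b
    obtain ⟨w, hw⟩ := residue_surjective (R := A) (hr b)⁻¹
    have hr0 : hr b ≠ 0 := fun h0 => R.h_ne b (by show algebraMap _ _ (hr b) = 0; rw [h0, map_zero])
    have hw1 : A.valuation (w : Qb) = 1 :=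
      (Reduction.res_ne_zero_iff A w).mp (by rw [hw]; exact inv_ne_zero hr0)
    have hd := (fibreData C).const_mem b w
    obtain ⟨c, hc1, y, hy, hye⟩ := (fibreData C).toCore.exists_small b (sub_mem (hx b) hd) (by
      rw [(fibreData C).toCore.red_sub b (hx b) hd, (fibreData C).red_const b w, hw]
      have h1 : (fibreData C).red b (κ (1 : Qb) * x) * algebraMap (kA A) (FS A M) (hr b) = 1 :=
        congrFun hxr b
      rw [map_one, one_mul] at h1
      rw [map_inv₀, sub_eq_zero]
      exact eq_inv_of_mul_eq_one_left h1)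
    exact ⟨c, w, (A.valuation_lt_one_iff c).mp hc1, hw1, y, hy, hye⟩
  choose c0 l0 hc0 hl0 y0 hy0 hye using hstart
  obtain ⟨ε, hε0, hε1, hεc⟩ : ∃ ε : Qb, ε ≠ 0 ∧ A.valuation ε < 1 ∧
      (A.valuation δ ≤ A.valuation ε ∧ ∀ b, A.valuation (c0 b) ≤ A.valuation ε) := by
    obtain ⟨ε, hεm, hmax⟩ := Finset.exists_max_image ({δ, c0 false, c0 true} : Finset Qb)
      (fun t => A.valuation t) ⟨δ, by simp⟩
    have hδε := hmax δ (by simp)
    refine ⟨ε, fun h => ?_, ?_, hδε, fun b => by cases b <;> exact hmax _ (by simp)⟩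
    · rw [h, map_zero, le_zero_iff] at hδε
      exact hδ ((Valuation.zero_iff _).mp hδε)
    · simp only [Finset.mem_insert, Finset.mem_singleton] at hεm
      rcases hεm with rfl | rfl | rfl
      exacts [hM.lt, hc0 false, hc0 true]
  have hcong : ∀ (η : Qb) (l : Qb) (b : Bool), LCong A η ((S b : FB (M * p)) : LS) (cL l) ↔
      SideCong (fibreData C).toCore b η x (κ l) := fun η l b => by
    show _ ↔ side M p b (κ η⁻¹ * (x - κ l)) ∈ GR A (M * p)
    rw [map_mul, map_sub, AlgHom.commutes, AlgHom.commutes, ← mem_GG_iff, MulMemClass.coe_mul,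
      AddSubgroupClass.coe_sub, coe_const, coe_const]
    rfl
  -- contraction
  have iter : ∀ k : ℕ, ∃ (η : Qb) (l : Bool → Qb), η ≠ 0 ∧ A.valuation δ ≤ A.valuation η ∧
      A.valuation η ≤ max (A.valuation δ) (A.valuation ε ^ p ^ k) ∧ A.valuation η < 1 ∧
      (∀ b, A.valuation (l b) = 1) ∧ ∀ b, LCong A η ((S b : FB (M * p)) : LS) (cL (l b)) := by
    intro k
    induction k with
    | zero =>
      refine ⟨ε, l0, hε0, hεc.1, le_max_of_le_right (by rw [pow_zero, pow_one]), hε1, hl0,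
        fun b => (hcong ε (l0 b) b).mpr ?_⟩
      rw [SideCong, hye b, ← mul_assoc, ← map_mul]
      refine (fibreData C).toCore.const_mul_mem b (mem_of_val_le ?_) (hy0 b)
      rw [map_mul, map_inv₀]
      exact inv_mul_le_one_of_le₀ (hεc.2 b) zero_le
    | succ k ih =>
      obtain ⟨η, l, hη, hδη, hηb, hη1, hl, hin⟩ := ih
      obtain ⟨η', hη', hδ', he', hb', hlt'⟩ : ∃ η' : Qb, η' ≠ 0 ∧
          A.valuation δ ≤ A.valuation η' ∧ A.valuation η ^ p ≤ A.valuation η' ∧
          A.valuation η' ≤ max (A.valuation δ) (A.valuation ε ^ p ^ (k + 1)) ∧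
          A.valuation η' < 1 := by
        have hb : A.valuation η ^ p ≤ max (A.valuation δ) (A.valuation ε ^ p ^ (k + 1)) := by
          refine (pow_le_pow_left₀ zero_le hηb p).trans ?_
          rcases le_total (A.valuation δ) (A.valuation ε ^ p ^ k) with h | h
          · rw [max_eq_right h, ← pow_mul, ← pow_succ]; exact le_max_right _ _
          · rw [max_eq_left h]
            exact le_max_of_le_left (pow_le_of_le_one zero_le hM.lt.le hp0)
        rcases le_total (A.valuation δ) (A.valuation η ^ p) with h | h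
        · exact ⟨η ^ p, pow_ne_zero _ hη, by rwa [map_pow], by rw [map_pow], by rwa [map_pow],
            by rw [map_pow]; exact pow_lt_one₀ zero_le hη1 hp0⟩
        · exact ⟨δ, hδ, le_rfl, h, le_max_left _ _, hM.lt⟩
      refine ⟨η', fun b => μ b / l (!b) ^ p, hη', hδ', hb', hlt', fun b => by
        rw [map_div₀, map_pow, hμ, hl, one_pow, div_one], ?_⟩
      exact improve C hζ hSW hSmem hη' hlt'.le (hπδ.trans hδ') hμ
        (fun b => (hμc b).mono hδ hδ') hη hη1.le he' hl hin
  obtain ⟨n, hn⟩ := Reduction.exists_pow_le A C.prime C.lies hε1 hδ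
  obtain ⟨η, l, hη, -, hηb, -, hl, hin⟩ := iter n
  refine ⟨x, l, hl, fun P hP => ?_, fun b => (hcong δ (l b) b).mp ((hin b).mono hη ?_)⟩
  · refine (mem_rr.mp hxL P).mono (le_of_eq ?_)
    rw [Finsupp.add_apply, Finsupp.smul_apply, RR.Pol_apply, max_eq_right (by omega), smul_zero,
      zero_add]
    exact Finsupp.sub_apply _ _ _
  · refine hηb.trans (max_le le_rfl ((pow_le_pow_of_le_one zero_le hε1.le ?_).trans hn))
    exact (Nat.lt_pow_self C.prime.one_lt).le

end FLTAgent.TOR
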