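import Fermat.Agent.TOR.Disc
import Fermat.Agent.TOR.SlopeField
import Fermat.Agent.TOR.InertiaVal

/-!
The part on a residue disc of a divisor fixed by `Gal(ℚ̄/L)`: the scales of a trivialisation of `p`
times it on the two sides differ by its slope, and an inertia element moving `L` by little moves the
local equation by a constant on either side, up to that amount.
-/

set_option autoImplicit false
set_option linter.unusedSectionVars false
set_option linter.style.haveILetI false
set_option synthInstance.maxHeartbeats 400000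
set_option maxHeartbeats 800000

noncomputable section

open ModularCurve AlgebraicCurve IsLocalRing Polynomial
open FLTAgent.RR (Bd)
open FLTAgent.Reduction (Qb kA FB FS PB PS Ctx Val)
open FLTAgent.SS2 (galFn)

namespace FLTAgent.TOR

open FLTAgent.SS

local notation "GalQ" => AlgebraicClosure ℚ ≃ₐ[ℚ] AlgebraicClosure ℚ

/-! ### congruences on a side -/

section Cong

variable {K : Type*} [Field K] [IsAlgClosed K] [CharZero K] {A : ValuationSubring K}
  {F : Type*} [Field F] [Algebra K F] [RR.FnField K F]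
  {Fs : Type*} [Field Fs] [Algebra (ResidueField A) Fs]

/-- congruent modulo `δ` on a side -/
def SideCong (C : Core K A F Fs) (b : Bool) (δ : K) (x y : F) : Prop :=
  algebraMap K F δ⁻¹ * (x - y) ∈ C.G b

variable {C : Core K A F Fs} {b : Bool} {δ : K} {x y x' y' : F}

theorem SideCong.refl (x : F) : SideCong C b δ x x := by
  rw [SideCong, sub_self, mul_zero]; exact zero_mem _

theorem SideCong.trans {z : F} (h : SideCong C b δ x y) (h' : SideCong C b δ y z) :
    SideCong C b δ x z := by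
  have e : algebraMap K F δ⁻¹ * (x - z) =
      algebraMap K F δ⁻¹ * (x - y) + algebraMap K F δ⁻¹ * (y - z) := by ring
  rw [SideCong, e]; exact add_mem h h'

theorem SideCong.mul (h : SideCong C b δ x y) (h' : SideCong C b δ x' y') (hx : x' ∈ C.G b)
    (hy : y ∈ C.G b) : SideCong C b δ (x * x') (y * y') := by
  have e : algebraMap K F δ⁻¹ * (x * x' - y * y') =
      algebraMap K F δ⁻¹ * (x - y) * x' + y * (algebraMap K F δ⁻¹ * (x' - y')) := by ring
  rw [SideCong, e]; exact add_mem (mul_mem h hx) (mul_mem hy h')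

theorem SideCong.inv (h : SideCong C b δ x y) (hx : x⁻¹ ∈ C.G b) (hy : y⁻¹ ∈ C.G b) (hx0 : x ≠ 0)
    (hy0 : y ≠ 0) : SideCong C b δ x⁻¹ y⁻¹ := by
  have e : algebraMap K F δ⁻¹ * (x⁻¹ - y⁻¹) =
      -(algebraMap K F δ⁻¹ * (x - y) * x⁻¹ * y⁻¹) := by field_simp; ring
  rw [SideCong, e]; exact neg_mem (mul_mem (mul_mem h hx) hy)

theorem red_zpow (C : Core K A F Fs) (b : Bool) {u : F} (hu : u ∈ C.G b) (hr : C.red b u ≠ 0) :
    ∀ k : ℤ, u ^ k ∈ C.G b ∧ C.red b (u ^ k) = C.red b u ^ k
  | (n : ℕ) => by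
    simp only [zpow_natCast]
    exact ⟨pow_mem hu n, C.red_pow b hu n⟩
  | Int.negSucc n => by
    simp only [zpow_negSucc]
    obtain ⟨h1, h2⟩ := C.inv_mem b (pow_mem hu (n + 1))
      (by rw [C.red_pow b hu]; exact pow_ne_zero _ hr)
    exact ⟨h1, by rw [h2, C.red_pow b hu]⟩

end Cong

variable {M p : ℕ} [NeZero M] [NeZero p] {A : ValuationSubring Qb} {C : Ctx A M p}

local notation "κ" => algebraMap Qb (FB (M * p))

theorem mem_of_fixed {L : IntermediateField ℚ Qb} {x : Qb}
    (h : ∀ τ : GalQ, (∀ a ∈ L, τ a = a) → τ x = x) : x ∈ L := by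
  haveI := Common.isGalois_qbar
  rw [← InfiniteGalois.fixedField_fixingSubgroup L, IntermediateField.mem_fixedField_iff]
  exact fun τ hτ => h τ ((IntermediateField.mem_fixingSubgroup_iff L τ).mp hτ)

/-- an automorphism moving the coefficients by little moves a polynomial in a fixed integral
function by little -/
theorem sideCong_aeval (b : Bool) {σ : GalQ} {δ : Qb} {u : FB (M * p)}
    (hu : u ∈ (fibreData C).G b) (hσu : galFn (M * p) σ • u = u) {P : Qb[X]}
    (hP : ∀ i, A.valuation (σ (P.coeff i) - P.coeff i) ≤ A.valuation δ) :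
    SideCong (fibreData C).toCore b δ (galFn (M * p) σ • Polynomial.aeval u P)
      (Polynomial.aeval u P) := by
  have e : galFn (M * p) σ • Polynomial.aeval u P - Polynomial.aeval u P =
      ∑ i ∈ Finset.range (P.natDegree + 1), κ (σ (P.coeff i) - P.coeff i) * u ^ i := by
    rw [Polynomial.aeval_eq_sum_range, Finset.smul_sum, ← Finset.sum_sub_distrib]
    refine Finset.sum_congr rfl fun i _ => ?_
    rw [Algebra.smul_def, smul_mul', SS2.galFn_smul_const, smul_pow', hσu, ← sub_mul, ← map_sub]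
  rw [SideCong, e, Finset.mul_sum]
  refine sum_mem fun i _ => ?_
  rw [← mul_assoc, ← map_mul]
  refine (fibreData C).toCore.const_mul_mem b (mem_of_val_le ?_) (pow_mem hu i)
  rw [map_mul, map_inv₀]
  exact inv_mul_le_one_of_le₀ (hP i) zero_le

namespace CrossFn

variable {s : (fibreData C).ι} (Z : CrossFn C s)

/-- the monic polynomial with given multiplicities at points of the disc -/
def poly (S : Finset (PB (M * p))) (n : PB (M * p) → ℕ) : Qb[X] :=
  ∏ P ∈ S, (Polynomial.X - Polynomial.C (Z.val P)) ^ n P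

/-- the corresponding function -/
def fn (S : Finset (PB (M * p))) (n : PB (M * p) → ℕ) : FB (M * p) :=
  Polynomial.aeval Z.Z (Z.poly S n)

/-- its size on the second side -/
def size (S : Finset (PB (M * p))) (n : PB (M * p) → ℕ) : Qb := (Z.poly S n).coeff 0

variable {S : Finset (PB (M * p))} {n : PB (M * p) → ℕ}

theorem fn_eq : Z.fn S n = ∏ P ∈ S, (Z.Z - κ (Z.val P)) ^ n P := by
  simp [fn, poly]

theorem size_eq : Z.size S n = ∏ P ∈ S, (-Z.val P) ^ n P := by
  rw [size, Polynomial.coeff_zero_eq_eval_zero, poly, Polynomial.eval_prod]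
  simp

theorem fn_ne_zero : Z.fn S n ≠ 0 := by
  rw [fn_eq]
  exact Finset.prod_ne_zero_iff.mpr fun P _ => pow_ne_zero _ (Z.mem_disc_scale _)

variable (hS : ∀ P ∈ S, InDisc C s P)
include hS

theorem val_ne_zero {P : PB (M * p)} (hP : P ∈ S) : Z.val P ≠ 0 :=
  (Valuation.ne_zero_iff _).mp (ne_zero_of_lt (Z.annulus (hS P hP)).1)

theorem size_ne_zero : Z.size S n ≠ 0 := by
  rw [size_eq]
  exact Finset.prod_ne_zero_iff.mpr fun P hP => pow_ne_zero _ (neg_ne_zero.mpr (Z.val_ne_zero hS hP))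

open scoped Classical in
theorem ord_fn {P' : PB (M * p)} (hP' : InDisc C s P') :
    P'.ord (Z.fn S n) = if P' ∈ S then (n P' : ℤ) else 0 := by
  classical
  rw [fn_eq, RR.ord_prod _ _ _ fun P _ => pow_ne_zero _ (Z.mem_disc_scale _)]
  simp only [RR.ord_pow]
  rw [Finset.sum_congr rfl (g := fun P => if P' = P then (n P' : ℤ) else 0) fun P hP => ?_,
    Finset.sum_ite_eq]
  rcases eq_or_ne P P' with rfl | hne
  · rw [if_pos rfl, (Z.annulus (hS _ hP)).2.2.1, mul_one]
  · rw [if_neg hne.symm, (Z.annulus (hS _ hP)).2.2.2 P' hP' hne.symm, mul_zero]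

theorem fn_false : Z.fn S n ∈ (fibreData C).G false ∧
    (fibreData C).red false (Z.fn S n) = (fibreData C).red false Z.Z ^ (∑ P ∈ S, n P) := by
  have h : ∀ P ∈ S, Z.Z - κ (Z.val P) ∈ (fibreData C).G false ∧
      (fibreData C).red false (Z.Z - κ (Z.val P)) = (fibreData C).red false Z.Z := fun P hP => by
    have hlt := (Z.annulus (hS P hP)).2.1
    have hk := (fibreData C).const_mem false ⟨_, mem_of_val_le hlt.le⟩
    refine ⟨sub_mem (Z.mem false) hk, ?_⟩
    rw [(fibreData C).toCore.red_sub false (Z.mem false) hk,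
      (fibreData C).red_const false ⟨_, mem_of_val_le hlt.le⟩,
      residue_eq_zero_of_lt (c := ⟨Z.val P, mem_of_val_le hlt.le⟩) hlt, map_zero, sub_zero]
  rw [fn_eq]
  refine ⟨prod_mem fun P hP => pow_mem (h P hP).1 _, ?_⟩
  rw [(fibreData C).toCore.red_prod false _ _ fun P hP => pow_mem (h P hP).1 _,
    ← Finset.prod_pow_eq_pow_sum]
  exact Finset.prod_congr rfl fun P hP => by
    rw [(fibreData C).toCore.red_pow false (h P hP).1, (h P hP).2]

theorem fn_true : κ (Z.size S n)⁻¹ * Z.fn S n ∈ (fibreData C).G true ∧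
    (fibreData C).red true (κ (Z.size S n)⁻¹ * Z.fn S n) = 1 := by
  have h : ∀ P ∈ S, κ (-Z.val P)⁻¹ * (Z.Z - κ (Z.val P)) ∈ (fibreData C).G true ∧
      (fibreData C).red true (κ (-Z.val P)⁻¹ * (Z.Z - κ (Z.val P))) = 1 := fun P hP => by
    have hc := Z.val_ne_zero hS hP
    have hlt : A.valuation ((p : Qb) / -Z.val P) < 1 := by
      rw [map_div₀, Valuation.map_neg, div_lt_one₀ (zero_lt_iff.mpr ((Valuation.ne_zero_iff _).mpr hc))]
      exact (Z.annulus (hS P hP)).1
    have hp : (p : Qb) ≠ 0 := Nat.cast_ne_zero.mpr C.prime.ne_zero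
    have e : κ (-Z.val P)⁻¹ * (Z.Z - κ (Z.val P)) =
        1 + κ ((p : Qb) / -Z.val P) * (κ (p : Qb)⁻¹ * Z.Z) := by
      rw [mul_sub, ← map_mul, ← mul_assoc (κ ((p : Qb) / -Z.val P)), ← map_mul]
      rw [show (p : Qb) / -Z.val P * (p : Qb)⁻¹ = (-Z.val P)⁻¹ by field_simp,
        show (-Z.val P)⁻¹ * Z.val P = -1 by field_simp, map_neg, map_one]
      ring
    have hm := (fibreData C).toCore.const_mul_mem true (mem_of_val_le hlt.le) Z.div_mem
    refine ⟨e ▸ add_mem (one_mem _) hm, ?_⟩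
    rw [e, (fibreData C).red_add true _ (one_mem _) _ hm, red_const_mul_lt true hlt Z.div_mem,
      (fibreData C).red_one, add_zero]
  have e : κ (Z.size S n)⁻¹ * Z.fn S n = ∏ P ∈ S, (κ (-Z.val P)⁻¹ * (Z.Z - κ (Z.val P))) ^ n P := by
    rw [fn_eq, size_eq, ← Finset.prod_inv_distrib, map_prod, ← Finset.prod_mul_distrib]
    exact Finset.prod_congr rfl fun P _ => by rw [mul_pow, ← inv_pow, map_pow]
  rw [e]
  refine ⟨prod_mem fun P hP => pow_mem (h P hP).1 _, ?_⟩
  rw [(fibreData C).toCore.red_prod true _ _ fun P hP => pow_mem (h P hP).1 _]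
  exact Finset.prod_eq_one fun P hP => by
    rw [(fibreData C).toCore.red_pow true (h P hP).1, (h P hP).2, one_pow]

theorem coeff_mem_A (i : ℕ) : (Z.poly S n).coeff i ∈ A := by
  classical
  have e : Z.poly S n = (∏ P ∈ S.attach, (Polynomial.X -
      Polynomial.C (⟨Z.val P.1, mem_of_val_le (Z.annulus (hS P.1 P.2)).2.1.le⟩ : A)) ^ n P.1).map
        A.subtype := by
    rw [Polynomial.map_prod, poly, ← Finset.prod_attach S]
    simp
  rw [e, Polynomial.coeff_map]
  exact SetLike.coe_mem _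

theorem coeff_scaled_mem_A (i : ℕ) : (Z.poly S n).coeff i * (p : Qb) ^ i / Z.size S n ∈ A := by
  classical
  have hq : ∀ P : S, (p : Qb) / -Z.val P.1 ∈ A := fun P => mem_of_val_le (by
    rw [map_div₀, Valuation.map_neg]
    exact div_le_one_of_le₀ (Z.annulus (hS P.1 P.2)).1.le zero_le)
  have e : Polynomial.C (Z.size S n)⁻¹ * (Z.poly S n).comp (Polynomial.C (p : Qb) * Polynomial.X) =
      (∏ P ∈ S.attach, (1 + Polynomial.C (⟨_, hq P⟩ : A) * Polynomial.X) ^ n P.1).map A.subtype := by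
    rw [Polynomial.map_prod, size_eq, poly, Polynomial.prod_comp, ← Finset.prod_inv_distrib, map_prod,
      ← Finset.prod_mul_distrib, ← Finset.prod_attach S]
    refine Finset.prod_congr rfl fun P _ => ?_
    have hc := Z.val_ne_zero hS P.2
    rw [Polynomial.pow_comp, Polynomial.map_pow, ← inv_pow, map_pow, ← mul_pow]
    congr 1
    simp only [Polynomial.sub_comp, Polynomial.X_comp, Polynomial.C_comp, Polynomial.map_add,
      Polynomial.map_one, Polynomial.map_mul, Polynomial.map_C, Polynomial.map_X,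
      ValuationSubring.coe_subtype, mul_sub, ← mul_assoc, ← map_mul]
    rw [show (-Z.val P.1)⁻¹ * (p : Qb) = (p : Qb) / -Z.val P.1 by ring,
      show (-Z.val P.1)⁻¹ * Z.val P.1 = -1 by field_simp, map_neg, map_one]
    ring
  have h := congrArg (fun R : Qb[X] => R.coeff i) e
  simp only [Polynomial.coeff_C_mul, Polynomial.comp_C_mul_X_coeff, Polynomial.coeff_map] at h
  rw [show (Z.poly S n).coeff i * (p : Qb) ^ i / Z.size S n
    = (Z.size S n)⁻¹ * ((Z.poly S n).coeff i * (p : Qb) ^ i) by ring, h]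
  exact SetLike.coe_mem _

theorem poly_map {τ : GalQ} (hτ : τ ∈ A.inertiaSubgroupIn ℚ)
    (hSτ : ∀ P, galFn (M * p) τ • P ∈ S ↔ P ∈ S) (hn : ∀ P, n (galFn (M * p) τ • P) = n P) :
    (Z.poly S n).map (τ : Qb →+* Qb) = Z.poly S n := by
  rw [poly, Polynomial.map_prod]
  refine Finset.prod_bij (fun P _ => galFn (M * p) τ • P) (fun P hP => (hSτ P).mpr hP)
    (fun P _ Q _ h => smul_left_cancel _ h)
    (fun Q hQ => ⟨(galFn (M * p) τ)⁻¹ • Q, (hSτ _).mp (by rwa [smul_inv_smul]), smul_inv_smul _ _⟩)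
    fun P hP => ?_
  rw [hn, Z.val_smul (hS P hP) hτ, Polynomial.map_pow]
  simp

theorem coeff_mem_L {L : IntermediateField ℚ Qb} (hL : SlopeField A p L)
    (hfix : ∀ τ : GalQ, (∀ a ∈ L, τ a = a) →
      (∀ P, galFn (M * p) τ • P ∈ S ↔ P ∈ S) ∧ ∀ P, n (galFn (M * p) τ • P) = n P) (i : ℕ) :
    (Z.poly S n).coeff i ∈ L :=
  mem_of_fixed fun τ hτ => by
    have h := congrArg (fun R : Qb[X] => R.coeff i)
      (Z.poly_map hS (hL.mem_inertia hτ) (hfix τ hτ).1 (hfix τ hτ).2)
    simpa [Polynomial.coeff_map] using h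

/-- an automorphism moving `L` by `δ` moves the function by a constant on either side -/
theorem sideCong_fn {L : IntermediateField ℚ Qb} {σ : GalQ} {δ : Qb}
    (hM : MoveData A p L σ δ) (hcL : ∀ i, (Z.poly S n).coeff i ∈ L) (b : Bool) :
    SideCong (fibreData C).toCore b δ (galFn (M * p) σ • Z.fn S n / Z.fn S n)
      (κ (if b then σ (Z.size S n) / Z.size S n else 1)) := by
  have hp : (p : Qb) ≠ 0 := Nat.cast_ne_zero.mpr C.prime.ne_zero
  have hσZ : galFn (M * p) σ • Z.Z = Z.Z := Z.rat σ hM.inertia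
  have ha := Z.size_ne_zero (n := n) hS
  have hgne : Z.fn S n ≠ 0 := Z.fn_ne_zero
  cases b
  · obtain ⟨hm, hr⟩ := Z.fn_false (n := n) hS
    obtain ⟨hi, -⟩ := (fibreData C).toCore.inv_mem false hm
      (by rw [hr]; exact pow_ne_zero _ Z.red_false_ne)
    have h := sideCong_aeval false (P := Z.poly S n) (δ := δ) (Z.mem false) hσZ fun i =>
      hM.move _ (hcL i) (Z.coeff_mem_A hS i)
    have h2 : SideCong (fibreData C).toCore false δ (galFn (M * p) σ • Z.fn S n * (Z.fn S n)⁻¹)
        (Z.fn S n * (Z.fn S n)⁻¹) := h.mul (SideCong.refl _) hi hm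
    rw [mul_inv_cancel₀ hgne, ← div_eq_mul_inv] at h2
    simpa using h2
  · obtain ⟨hm, hr⟩ := Z.fn_true (n := n) hS
    obtain ⟨hi, -⟩ := (fibreData C).toCore.inv_mem true hm (by rw [hr]; exact one_ne_zero)
    set a := Z.size S n
    set W := κ (p : Qb)⁻¹ * Z.Z
    set Ψ : Qb[X] := Polynomial.C a⁻¹ * (Z.poly S n).comp (Polynomial.C (p : Qb) * Polynomial.X)
    have hev : κ a⁻¹ * Z.fn S n = Polynomial.aeval W Ψ := by
      have hW : κ (p : Qb) * W = Z.Z := by
        rw [← mul_assoc, ← map_mul, mul_inv_cancel₀ hp, map_one, one_mul]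
      simp only [Ψ, map_mul, Polynomial.aeval_C, Polynomial.aeval_comp, Polynomial.aeval_X, hW]
      rfl
    have hσW : galFn (M * p) σ • W = W := by
      rw [smul_mul', SS2.galFn_smul_const, hσZ, map_inv₀, map_natCast]
    have h := sideCong_aeval true (P := Ψ) (δ := δ) Z.div_mem hσW fun i => by
      have e : Ψ.coeff i = (Z.poly S n).coeff i * (p : Qb) ^ i / a := by
        simp only [Ψ, Polynomial.coeff_C_mul, Polynomial.comp_C_mul_X_coeff]; ring
      rw [e]
      exact hM.move _ (L.div_mem (L.mul_mem (hcL i) (pow_mem (natCast_mem L p) i)) (hcL 0))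
        (Z.coeff_scaled_mem_A hS i)
    rw [← hev] at h
    have h2 := h.mul (SideCong.refl (κ a⁻¹ * Z.fn S n)⁻¹) hi hm
    rw [mul_inv_cancel₀ (mul_ne_zero ((_root_.map_ne_zero _).mpr (inv_ne_zero ha)) hgne)] at h2
    have e : galFn (M * p) σ • (κ a⁻¹ * Z.fn S n) * (κ a⁻¹ * Z.fn S n)⁻¹ =
        κ (a / σ a) * (galFn (M * p) σ • Z.fn S n / Z.fn S n) := by
      have hσa : σ a ≠ 0 := (_root_.map_ne_zero σ).mpr ha
      rw [smul_mul', SS2.galFn_smul_const, map_inv₀ σ, map_div₀, map_inv₀, map_inv₀]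
      field_simp
    rw [e] at h2
    have hcA : σ a / a ∈ A := mem_of_val_le (by
      rw [map_div₀, valuation_inertia_eq C.prime C.lies hM.inertia,
        div_self ((Valuation.ne_zero_iff _).mpr ha)])
    have h3 : SideCong (fibreData C).toCore true δ
        (κ (σ a / a) * (κ (a / σ a) * (galFn (M * p) σ • Z.fn S n / Z.fn S n))) (κ (σ a / a) * 1) := by
      rw [SideCong] at h2 ⊢
      rw [← mul_sub, mul_left_comm]
      exact (fibreData C).toCore.const_mul_mem true hcA h2
    have e2 : σ a / a * (a / σ a) = 1 := by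
      have hσa : σ a ≠ 0 := (_root_.map_ne_zero σ).mpr ha
      field_simp
    rw [← mul_assoc, ← map_mul, e2, map_one, one_mul, mul_one] at h3
    simpa using h3

end CrossFn

/-! ### the part on a disc of a fixed divisor -/

set_option maxHeartbeats 4000000 in
/-- the local equation and the slope -/
theorem exists_local {r : ℕ} (hr : r.Prime) (h11 : r % 12 = 11) (hrM : r ∣ M)
    {L : IntermediateField ℚ Qb} (hL : SlopeField A p L) (s : (fibreData C).ι)
    {E : Divisor Qb (FB (M * p))}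
    (hE : ∀ τ : GalQ, (∀ a ∈ L, τ a = a) → galFn (M * p) τ • E = E)
    {f : FB (M * p)} (hf : f ≠ 0) (hord : ∀ P : PB (M * p), (p : ℤ) * E P = P.ord f)
    {a : Bool → Qb} (ha : ∀ b, a b ≠ 0) (hmem : ∀ b, κ (a b) * f ∈ (fibreData C).G b)
    (hne : ∀ b, (fibreData C).red b (κ (a b) * f) ≠ 0) :
    ∃ (g : FB (M * p)) (Γ : Qb), g ≠ 0 ∧ Γ ≠ 0 ∧ Γ ∈ L ∧
      (∀ P, InDisc C s P → P.ord g = E P) ∧
      (p : ℤ) ∣ ((fibreData C).pt false s).ord ((fibreData C).red false (κ (a false) * f)) +
        ((fibreData C).pt true s).ord ((fibreData C).red true (κ (a true) * f)) ∧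
      A.valuation (a false) = A.valuation (a true) *
        A.valuation (p : Qb) ^
          ((fibreData C).pt false s).ord ((fibreData C).red false (κ (a false) * f)) *
        A.valuation Γ ^ p ∧
      ∀ (σ : GalQ) (δ : Qb), MoveData A p L σ δ → ∀ b,
        SideCong (fibreData C).toCore b δ (galFn (M * p) σ • g / g)
          (κ (if b then σ Γ / Γ else 1)) := by
  classical
  obtain ⟨Z⟩ := exists_crossFn C hr h11 hrM s
  have hp : (p : Qb) ≠ 0 := Nat.cast_ne_zero.mpr C.prime.ne_zero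
  set S := E.support.filter (InDisc C s) with hSdef
  have hS : ∀ P ∈ S, InDisc C s P := fun P hP => (Finset.mem_filter.mp hP).2
  set np : PB (M * p) → ℕ := fun P => (E P).toNat
  set nm : PB (M * p) → ℕ := fun P => (-E P).toNat
  have hEτ : ∀ τ : GalQ, (∀ a ∈ L, τ a = a) → ∀ P, E (galFn (M * p) τ • P) = E P := fun τ hτ P => by
    conv_lhs => rw [← hE τ hτ]
    rw [SemilinearAut.divisor_smul_apply, inv_smul_smul]
  have hSτ : ∀ τ : GalQ, (∀ a ∈ L, τ a = a) → ∀ P, galFn (M * p) τ • P ∈ S ↔ P ∈ S := by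
    intro τ hτ P
    simp only [hSdef, Finset.mem_filter, Finsupp.mem_support_iff, hEτ τ hτ]
    refine and_congr_right fun _ => ⟨fun h => ?_, fun h => h.smul (C := C) (hL.mem_inertia hτ)⟩
    have h' := h.smul (C := C) (inv_mem (hL.mem_inertia hτ))
    rwa [show galFn (M * p) τ⁻¹ = (galFn (M * p) τ)⁻¹ from map_inv _ τ, inv_smul_smul] at h'
  have hpL : ∀ i, (Z.poly S np).coeff i ∈ L := fun i =>
    Z.coeff_mem_L hS hL (fun τ hτ => ⟨hSτ τ hτ, fun P => by simp only [np, hEτ τ hτ]⟩) i
  have hmL : ∀ i, (Z.poly S nm).coeff i ∈ L := fun i =>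
    Z.coeff_mem_L hS hL (fun τ hτ => ⟨hSτ τ hτ, fun P => by simp only [nm, hEτ τ hτ]⟩) i
  set gp := Z.fn S np
  set gm := Z.fn S nm
  set Np : ℕ := ∑ P ∈ S, np P
  set Nm : ℕ := ∑ P ∈ S, nm P
  set ap := Z.size S np
  set am := Z.size S nm
  have hgp : gp ≠ 0 := Z.fn_ne_zero
  have hgm : gm ≠ 0 := Z.fn_ne_zero
  have hap : ap ≠ 0 := Z.size_ne_zero hS
  have ham : am ≠ 0 := Z.size_ne_zero hS
  set Γ := ap / am / (p : Qb) ^ ((Np : ℤ) - Nm) with hΓ
  have hg : ∀ P, InDisc C s P → P.ord (gp / gm) = E P := fun P hP => by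
    rw [div_eq_mul_inv, P.ord_mul hgp (inv_ne_zero hgm), P.ord_inv,
      show P.ord gp = _ from Z.ord_fn hS hP, show P.ord gm = _ from Z.ord_fn hS hP]
    split_ifs with h
    · simp only [np, nm, Int.toNat_eq_max]; omega
    · rw [hSdef, Finset.mem_filter] at h
      have : E P = 0 := by
        by_contra h0
        exact h ⟨Finsupp.mem_support_iff.mpr h0, hP⟩
      omega
  refine ⟨gp / gm, Γ, div_ne_zero hgp hgm, div_ne_zero (div_ne_zero hap ham) (zpow_ne_zero _ hp),
    div_mem (div_mem (hpL 0) (hmL 0)) (zpow_mem (natCast_mem L p) _), hg, ?_⟩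
  -- remove the part on the disc
  set x := f * (gm / gp) ^ p with hxdef
  have hq0 : gm / gp ≠ 0 := div_ne_zero hgm hgp
  have hx : x ≠ 0 := mul_ne_zero hf (pow_ne_zero _ hq0)
  have hxord : ∀ P, InDisc C s P → P.ord x = 0 := fun P hP => by
    have e : P.ord (gm / gp) = -E P := by
      rw [← inv_div, P.ord_inv, hg P hP]
    rw [hxdef, P.ord_mul hf (pow_ne_zero _ hq0), RR.ord_pow, e, ← hord]
    ring
  set γ := ap / am with hγ
  obtain ⟨hmp, hrp⟩ := Z.fn_false (n := np) hS
  obtain ⟨hmm, hrm⟩ := Z.fn_false (n := nm) hS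
  obtain ⟨hmp', hrp'⟩ := Z.fn_true (n := np) hS
  obtain ⟨hmm', hrm'⟩ := Z.fn_true (n := nm) hS
  set z := (fibreData C).red false Z.Z
  set rf := (fibreData C).red false (κ (a false) * f)
  set rt := (fibreData C).red true (κ (a true) * f)
  have hzne : z ≠ 0 := Z.red_false_ne
  obtain ⟨hip, hirp⟩ := (fibreData C).toCore.inv_mem false hmp (by rw [hrp]; exact pow_ne_zero _ hzne)
  obtain ⟨hip', hirp'⟩ := (fibreData C).toCore.inv_mem true hmp' (by rw [hrp']; exact one_ne_zero)
  have mf : κ (a false) * x ∈ (fibreData C).G false := by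
    rw [hxdef, ← mul_assoc, div_eq_mul_inv]
    exact mul_mem (hmem false) (pow_mem (mul_mem hmm hip) p)
  have rfe : (fibreData C).red false (κ (a false) * x) = rf * (z ^ Nm * (z ^ Np)⁻¹) ^ p := by
    rw [hxdef, ← mul_assoc, div_eq_mul_inv,
      (fibreData C).red_mul false _ (hmem false) _ (pow_mem (mul_mem hmm hip) p),
      (fibreData C).toCore.red_pow false (mul_mem hmm hip), (fibreData C).red_mul false _ hmm _ hip,
      hirp, hrm, hrp]
  have et : κ (a true * γ ^ p) * x = κ (a true) * f * (κ am⁻¹ * gm * (κ ap⁻¹ * gp)⁻¹) ^ p := by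
    rw [hxdef, hγ, map_mul, map_pow, map_div₀, map_inv₀, map_inv₀]
    field_simp
    rw [mul_assoc, ← mul_pow, div_mul_div_comm]
  have mt : κ (a true * γ ^ p) * x ∈ (fibreData C).G true :=
    et ▸ mul_mem (hmem true) (pow_mem (mul_mem hmm' hip') p)
  have rte : (fibreData C).red true (κ (a true * γ ^ p) * x) = rt := by
    rw [et, (fibreData C).red_mul true _ (hmem true) _ (pow_mem (mul_mem hmm' hip') p),
      (fibreData C).toCore.red_pow true (mul_mem hmm' hip'), (fibreData C).red_mul true _ hmm' _ hip',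
      hirp', hrm', hrp', inv_one, one_mul, one_pow, mul_one]
  have hγ0 : γ ≠ 0 := div_ne_zero hap ham
  have hzN : (z ^ Nm * (z ^ Np)⁻¹) ^ p ≠ 0 :=
    pow_ne_zero _ (mul_ne_zero (pow_ne_zero _ hzne) (inv_ne_zero (pow_ne_zero _ hzne)))
  set df := ((fibreData C).pt false s).ord rf with hdf
  set dt := ((fibreData C).pt true s).ord rt with hdt
  have hordf : ((fibreData C).pt false s).ord (rf * (z ^ Nm * (z ^ Np)⁻¹) ^ p) =
      df + (p : ℤ) * ((Nm : ℤ) - Np) := by
    rw [Place.ord_mul _ (hne false) hzN, RR.ord_pow,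
      Place.ord_mul _ (pow_ne_zero _ hzne) (inv_ne_zero (pow_ne_zero _ hzne)), Place.ord_inv,
      RR.ord_pow, RR.ord_pow, show ((fibreData C).pt false s).ord z = 1 from Z.ord_false]
    ring
  have hcount := sum_disc C hx (s := s) (a := fun b => if b then a true * γ ^ p else a false)
    (fun b => by cases b <;> simp [ha, hγ0])
    (fun b => by cases b <;> simp only [Bool.false_eq_true, if_false, if_true]; exacts [mf, mt])
    (fun b => by
      cases b <;> simp only [Bool.false_eq_true, if_false, if_true]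
      · rw [rfe]; exact mul_ne_zero (hne false) hzN
      · rw [rte]; exact hne true) ∅ (by simp) (fun P hP h => absurd (hxord P hP) h)
  simp only [Finset.sum_empty, Bool.false_eq_true, if_false, if_true] at hcount
  rw [rfe, rte, hordf] at hcount
  refine ⟨⟨(Np : ℤ) - Nm, by linear_combination (-1 : ℤ) * hcount⟩, ?_, ?_⟩
  · -- equal scales after removing a power of the crossing function
    set m : ℤ := df + (p : ℤ) * ((Nm : ℤ) - Np) with hm
    obtain ⟨hzm, hzr⟩ := red_zpow (fibreData C).toCore false (Z.mem false) hzne (-m)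
    obtain ⟨hwm, hwr⟩ := red_zpow (fibreData C).toCore true Z.div_mem Z.red_div_ne (-m)
    set y := x * Z.Z ^ (-m)
    set a' : Bool → Qb := fun b => if b then a true * γ ^ p * ((p : Qb)⁻¹) ^ (-m) else a false
    have ey : κ (a true * γ ^ p * ((p : Qb)⁻¹) ^ (-m)) * y =
        κ (a true * γ ^ p) * x * (κ (p : Qb)⁻¹ * Z.Z) ^ (-m) := by
      rw [mul_zpow, map_mul, map_zpow₀]; ring
    have ha' : ∀ b, a' b ≠ 0 := fun b => by cases b <;> simp [a', ha, hγ0, hp, zpow_ne_zero]
    have hm' : ∀ b, κ (a' b) * y ∈ (fibreData C).G b := fun b => by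
      cases b <;> simp only [a', Bool.false_eq_true, if_false, if_true]
      · rw [← mul_assoc]; exact mul_mem mf hzm
      · rw [ey]; exact mul_mem mt hwm
    have hreg : ∀ P, InDisc C s P → Bd P y 0 := fun P hP => by
      have hz0 : Z.Z ≠ 0 := Z.ne_zero
      have hZP : P.ord Z.Z = 0 := by
        have hc := (Z.annulus hP).1
        exact ((Z.val_spec hP).ord_eq_zero ((Valuation.ne_zero_iff _).mp (ne_zero_of_lt hc))).2
      rw [RR.bd_iff_ord (mul_ne_zero hx (zpow_ne_zero _ hz0)), P.ord_mul hx (zpow_ne_zero _ hz0),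
        Place.ord_zpow, hZP, hxord P hP]
      simp
    have hrf : (fibreData C).red false (κ (a' false) * y) = rf * (z ^ Nm * (z ^ Np)⁻¹) ^ p * z ^ (-m) := by
      simp only [a', Bool.false_eq_true, if_false]
      rw [← mul_assoc, (fibreData C).red_mul false _ mf _ hzm, rfe, hzr]
    have hrt : (fibreData C).red true (κ (a' true) * y) =
        rt * (fibreData C).red true (κ (p : Qb)⁻¹ * Z.Z) ^ (-m) := by
      simp only [a', if_true]
      rw [ey, (fibreData C).red_mul true _ mt _ hwm, rte, hwr]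
    have nf : rf * (z ^ Nm * (z ^ Np)⁻¹) ^ p * z ^ (-m) ≠ 0 :=
      mul_ne_zero (mul_ne_zero (hne false) hzN) (zpow_ne_zero _ hzne)
    have nt : rt * (fibreData C).red true (κ (p : Qb)⁻¹ * Z.Z) ^ (-m) ≠ 0 :=
      mul_ne_zero (hne true) (zpow_ne_zero _ Z.red_div_ne)
    have of' : ((fibreData C).pt false s).ord (rf * (z ^ Nm * (z ^ Np)⁻¹) ^ p * z ^ (-m)) = 0 := by
      rw [Place.ord_mul _ (mul_ne_zero (hne false) hzN) (zpow_ne_zero _ hzne), hordf, Place.ord_zpow,
        show ((fibreData C).pt false s).ord z = 1 from Z.ord_false]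
      omega
    have ot' : ((fibreData C).pt true s).ord
        (rt * (fibreData C).red true (κ (p : Qb)⁻¹ * Z.Z) ^ (-m)) = 0 := by
      rw [Place.ord_mul _ (hne true) (zpow_ne_zero _ Z.red_div_ne), Place.ord_zpow, Z.ord_true]
      simp only [rt] at hcount ⊢
      omega
    have h1 := glue_le C s hreg ha' hm' (b := false) (hrf ▸ nf) (hrf ▸ of')
    have h2 := glue_le C s hreg ha' hm' (b := true) (hrt ▸ nt) (hrt ▸ ot')
    simp only [Bool.not_false, Bool.not_true] at h1 h2
    have h3 := le_antisymm h2 h1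
    simp only [a', Bool.false_eq_true, if_false, if_true] at h3
    rw [h3, hΓ, map_mul, map_mul, map_pow, map_zpow₀, map_inv₀]
    have hw : A.valuation (p : Qb) ≠ 0 := (Valuation.ne_zero_iff _).mpr hp
    have e : (A.valuation (p : Qb))⁻¹ ^ (-m) = A.valuation (p : Qb) ^ df *
        ((A.valuation (p : Qb) ^ ((Np : ℤ) - Nm)) ^ p)⁻¹ := by
      rw [inv_zpow', neg_neg, ← zpow_natCast (A.valuation (p : Qb) ^ ((Np : ℤ) - Nm)), ← zpow_mul,
        ← zpow_neg, ← zpow_add₀ hw]
      congr 1
      rw [hm]; ring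
    rw [e, map_div₀ A.valuation γ, map_zpow₀, div_pow, div_eq_mul_inv (A.valuation γ ^ p)]
    exact mul_mul_mul_comm _ _ _ _
  · intro σ δ hM b
    have hδ : δ ≠ 0 := fun h => by
      have h1 := hM.level
      rw [h, map_zero, zero_pow (by have := C.prime.two_le; omega)] at h1
      exact hp ((Valuation.zero_iff _).mp (le_zero_iff.mp h1))
    set kp := if b then σ ap / ap else 1
    set km := if b then σ am / am else 1
    have hu : ∀ c : Qb, c ≠ 0 → A.valuation (σ c / c) = 1 := fun c hc => by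
      rw [map_div₀, valuation_inertia_eq C.prime C.lies hM.inertia,
        div_self ((Valuation.ne_zero_iff _).mpr hc)]
    have hk : A.valuation kp = 1 ∧ A.valuation km = 1 := by
      cases b <;> simp [kp, km, hu ap hap, hu am ham]
    have hcp := Z.sideCong_fn hS hM hpL b
    have hcm := Z.sideCong_fn hS hM hmL b
    change SideCong _ b δ (_ / gp) (κ kp) at hcp
    change SideCong _ b δ (_ / gm) (κ km) at hcm
    have hkm : κ km ∈ (fibreData C).G b :=
      (fibreData C).const_mem b ⟨km, mem_of_val_le hk.2.le⟩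
    have hkm0 : km ≠ 0 := fun h => by simp [h] at hk
    have hmem1 : galFn (M * p) σ • gm / gm ∈ (fibreData C).G b ∧
        (fibreData C).red b (galFn (M * p) σ • gm / gm) ≠ 0 := by
      have hlt : A.valuation δ < 1 := hM.lt
      have e : galFn (M * p) σ • gm / gm =
          κ δ * (κ δ⁻¹ * (galFn (M * p) σ • gm / gm - κ km)) + κ km := by
        rw [← mul_assoc, ← map_mul, mul_inv_cancel₀ hδ, map_one, one_mul, sub_add_cancel]
      have hd := (fibreData C).toCore.const_mul_mem b (mem_of_val_le hlt.le) hcm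
      refine ⟨e ▸ add_mem hd hkm, ?_⟩
      rw [e, (fibreData C).red_add b _ hd _ hkm, red_const_mul_lt b hlt hcm, zero_add,
        (fibreData C).red_const b ⟨km, mem_of_val_le hk.2.le⟩]
      exact (_root_.map_ne_zero _).mpr (residue_ne_zero_of_eq hk.2)
    have hinv := hcm.inv ((fibreData C).toCore.inv_mem b hmem1.1 hmem1.2).1
      (by rw [← map_inv₀]; exact (fibreData C).const_mem b ⟨km⁻¹, mem_of_val_le (by
        rw [map_inv₀, hk.2, inv_one])⟩)
      (div_ne_zero ((smul_ne_zero_iff_ne _).mpr hgm) hgm) ((_root_.map_ne_zero _).mpr hkm0)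
    have h := hcp.mul hinv ((fibreData C).toCore.inv_mem b hmem1.1 hmem1.2).1
      ((fibreData C).const_mem b ⟨kp, mem_of_val_le hk.1.le⟩)
    have el : galFn (M * p) σ • gp / gp * (galFn (M * p) σ • gm / gm)⁻¹ =
        galFn (M * p) σ • (gp / gm) / (gp / gm) := by
      rw [div_eq_mul_inv gp gm, smul_mul', smul_inv'']
      field_simp
    have er : κ kp * (κ km)⁻¹ = κ (if b then σ Γ / Γ else 1) := by
      rw [← map_inv₀, ← map_mul]
      congr 1
      cases b
      · simp [kp, km]
      · simp only [kp, km, if_true, hΓ, hγ, map_div₀, map_zpow₀, map_natCast]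
        have : σ am ≠ 0 := (_root_.map_ne_zero σ).mpr ham
        field_simp
    rwa [el, er] at h

end FLTAgent.TOR
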