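import Fermat.Agent.TOR.ToricLevel
import Fermat.Agent.SS2.Inertia

/-!
Finite extensions of the field fixed by inertia have discrete valuations and the full residue field.
-/

set_option autoImplicit false
set_option linter.unusedSectionVars false

noncomputable section

open IsLocalRing Polynomial

namespace FLTAgent.TOR

open FLTAgent.Reduction (Qb)

variable {A : ValuationSubring Qb}

/-- two terms of an equation have the same valuation -/
theorem exists_val_pow_of_root {l : A.ValueGroup} (hl : l ≠ 0) {x : Qb} (hx : x ≠ 0) {P : Qb[X]}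
    (hP : P ≠ 0) (hroot : P.eval x = 0)
    (hc : ∀ i ∈ P.support, ∃ j : ℤ, A.valuation (P.coeff i) = l ^ j) :
    ∃ n : ℕ, 0 < n ∧ n ≤ P.natDegree ∧ ∃ e : ℤ, A.valuation x ^ n = l ^ e := by
  classical
  set v := A.valuation
  have hsum : ∑ i ∈ P.support, P.coeff i * x ^ i = 0 := by
    rw [← hroot, Polynomial.eval_eq_sum, Polynomial.sum_def]
  obtain ⟨i, hi, hmax⟩ := P.support.exists_max_image (fun i => v (P.coeff i * x ^ i))
    (Polynomial.support_nonempty.mpr hP)
  obtain ⟨j, hj, hji, hje⟩ : ∃ j ∈ P.support, j ≠ i ∧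
      v (P.coeff j * x ^ j) = v (P.coeff i * x ^ i) := by
    by_contra hno
    push Not at hno
    have := v.map_sum_eq_of_lt hi (by
      intro j hj
      rw [Finset.mem_sdiff, Finset.mem_singleton] at hj
      exact lt_of_le_of_ne (hmax j hj.1) (hno j hj.1 hj.2))
    rw [hsum, map_zero] at this
    exact (Valuation.ne_zero_iff _).mpr
      (mul_ne_zero (Polynomial.mem_support_iff.mp hi) (pow_ne_zero _ hx)) this.symm
  obtain ⟨ei, hei⟩ := hc i hi
  obtain ⟨ej, hej⟩ := hc j hj
  rw [map_mul, map_mul, map_pow, map_pow, hei, hej] at hje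
  have hvx : v x ≠ 0 := (Valuation.ne_zero_iff _).mpr hx
  have hdi := Polynomial.le_natDegree_of_mem_supp i hi
  have hdj := Polynomial.le_natDegree_of_mem_supp j hj
  rcases Nat.lt_or_gt_of_ne hji with h | h
  · refine ⟨i - j, by omega, by omega, ej - ei, ?_⟩
    rw [pow_sub₀ _ hvx h.le, zpow_sub₀ hl, ← div_eq_mul_inv,
      div_eq_div_iff (pow_ne_zero _ hvx) (zpow_ne_zero _ hl), hje]
    exact mul_comm _ _
  · refine ⟨j - i, by omega, by omega, ei - ej, ?_⟩
    rw [pow_sub₀ _ hvx h.le, zpow_sub₀ hl, ← div_eq_mul_inv,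
      div_eq_div_iff (pow_ne_zero _ hvx) (zpow_ne_zero _ hl), mul_comm, ← hje]

set_option synthInstance.maxHeartbeats 400000 in
set_option maxHeartbeats 800000 in
theorem discreteFields {p : ℕ} (hp : p.Prime) (hA : A.LiesOverPrime p) : DiscreteFields A p := by
  classical
  intro S
  set T₀ := SS2.inertiaFixed A
  set T := IntermediateField.adjoin T₀ (S : Set Qb) with hT
  haveI : FiniteDimensional T₀ T :=
    IntermediateField.finiteDimensional_adjoin fun x _ =>
      ((AlgebraicClosure.isAlgebraic ℚ).isAlgebraic x).isIntegral.tower_top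
  refine ⟨T.toSubfield, (Module.finrank T₀ T).factorial, Nat.factorial_pos _,
    IntermediateField.subset_adjoin _ _, fun a => ?_, fun x hx hx0 => ?_⟩
  · obtain ⟨t, ht, hr⟩ := SS2.exists_residue_T hp hA a
    exact ⟨t, T.algebraMap_mem ⟨t, ht⟩, hr⟩
  · set y : T := ⟨x, hx⟩
    have hdeg : (minpoly T₀ x).natDegree ≤ Module.finrank T₀ T := by
      rw [show minpoly T₀ x = minpoly T₀ y from
        minpoly.algebraMap_eq (algebraMap T Qb).injective y]
      exact minpoly.natDegree_le y
    have hix : IsIntegral T₀ x := ((AlgebraicClosure.isAlgebraic ℚ).isAlgebraic x).isIntegral.tower_top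
    set P := (minpoly T₀ x).map (algebraMap T₀ Qb) with hP
    have hroot : P.eval x = 0 := by
      rw [hP, Polynomial.eval_map, ← Polynomial.aeval_def]
      exact minpoly.aeval T₀ x
    obtain ⟨n, hn, hnd, e, he⟩ := exists_val_pow_of_root (l := A.valuation (p : Qb))
      ((Valuation.ne_zero_iff _).mpr (Nat.cast_ne_zero.mpr hp.ne_zero)) hx0
      (Polynomial.map_ne_zero (minpoly.ne_zero hix)) hroot (fun i hi => by
        rw [Polynomial.coeff_map]
        refine SS2.exists_zpow_valuation_T hp hA ((minpoly T₀ x).coeff i).2 fun h0 => ?_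
        rw [Polynomial.mem_support_iff, Polynomial.coeff_map] at hi
        exact hi (by rw [show (minpoly T₀ x).coeff i = 0 from Subtype.ext h0, map_zero]))
    rw [Polynomial.natDegree_map] at hnd
    obtain ⟨q, hq⟩ := Nat.dvd_factorial hn (hnd.trans hdeg)
    exact ⟨e * q, by rw [hq, pow_mul, he, zpow_mul, zpow_natCast]⟩

end FLTAgent.TOR
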