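import Fermat.Agent.TOR.ToricRoot
import Fermat.Agent.SS.Newton

/-!
Sections of a twist of order `p` whose `p`-th power trivialises it up to `π ^ p`, in residue
characteristic `p`: the residual error is always a `p`-th power, so it can be removed.
-/

set_option autoImplicit false
set_option linter.unusedSectionVars false

noncomputable section

open AlgebraicCurve IsLocalRing
open FLTAgent.RR (Bd Pol)
open FLTAgent.Reduction (Val)

namespace FLTAgent.TOR

open FLTAgent.SS

/-- any finite set of constants lies in a field with discrete valuation and full residue field -/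
def DiscreteFields {K : Type*} [Field K] (A : ValuationSubring K) (p : ℕ) : Prop :=
  ∀ S : Finset K, ∃ (T : Subfield K) (N : ℕ), 0 < N ∧ (S : Set K) ⊆ (T : Set K) ∧
    (∀ a : A, ∃ t : A, (t : K) ∈ T ∧ residue A t = residue A a) ∧
    ∀ x ∈ T, x ≠ 0 → ∃ i : ℤ, A.valuation x ^ N = A.valuation (p : K) ^ i

theorem eval_mem_subfield {K : Type*} [Field K] (T : Subfield K) {σ : Type*} {a : σ → K}
    (ha : ∀ i, a i ∈ T) {P : MvPolynomial σ K} (hP : ∀ d ∈ P.support, P.coeff d ∈ T) :
    MvPolynomial.eval a P ∈ T := by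
  rw [MvPolynomial.eval_eq]
  exact sum_mem fun d hd => mul_mem (hP d hd) (prod_mem fun i _ => pow_mem (ha i) _)

variable {K : Type*} [Field K] [IsAlgClosed K] [CharZero K] {A : ValuationSubring K}
  {F : Type*} [Field F] [Algebra K F] [RR.FnField K F]
  {Fs : Type*} [Field Fs] [Algebra (ResidueField A) Fs]

local notation "𝕜" => ResidueField A
local notation "ι'" => algebraMap K F

section Coordinates

variable {C : Core K A F Fs}

/-- the largest coordinate in a family with independent restrictions to some of the components -/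
theorem exists_max_coord {d : ℕ} (w : Fin d → F) (B : Bool → Prop) (hw : ∀ b, B b → ∀ i, w i ∈ C.G b)
    (hli : ∀ g : Fin d → 𝕜, (∀ b, B b → ∑ i, g i • C.red b (w i) = 0) → ∀ i, g i = 0)
    (c : Fin d → K) (hc : ∃ i, c i ≠ 0) :
    ∃ j, c j ≠ 0 ∧ (∀ i, A.valuation (c i) ≤ A.valuation (c j)) ∧
      ∃ z, (∀ b, B b → z ∈ C.G b) ∧ (∃ b, B b ∧ C.red b z ≠ 0) ∧
        ∑ i, ι' (c i) * w i = ι' (c j) * z := by
  classical
  obtain ⟨i₁, hi₁⟩ := hc
  obtain ⟨j, -, hmax⟩ := Finset.exists_max_image Finset.univ (fun i => A.valuation (c i))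
    ⟨i₁, Finset.mem_univ _⟩
  have hj : c j ≠ 0 := fun h0 => by
    have := hmax i₁ (Finset.mem_univ _)
    rw [h0, map_zero] at this
    exact hi₁ ((Valuation.zero_iff _).mp (le_zero_iff.mp this))
  have hq : ∀ i, c i / c j ∈ A := fun i => mem_of_val_le (by
    rw [map_div₀]; exact div_le_one_of_le₀ (hmax i (Finset.mem_univ _)) zero_le)
  refine ⟨j, hj, fun i => hmax i (Finset.mem_univ _), ∑ i, ι' (c i / c j) * w i,
    fun b hb => sum_mem fun i _ => C.const_mul_mem b (hq i) (hw b hb i), ?_, ?_⟩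
  · by_contra hno
    push Not at hno
    have h1 := hli (fun i => residue A ⟨_, hq i⟩) (fun b hb => by
      refine Eq.trans ?_ (hno b hb)
      rw [C.red_sum b _ _ fun i _ => C.const_mul_mem b (hq i) (hw b hb i)]
      exact Finset.sum_congr rfl fun i _ => (C.red_const_mul b ⟨_, hq i⟩ (hw b hb i)).symm) j
    refine residue_ne_zero_of_eq ?_ h1
    show A.valuation (c j / c j) = 1
    rw [div_self hj, map_one]
  · rw [Finset.mul_sum]
    refine Finset.sum_congr rfl fun i _ => ?_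
    rw [← mul_assoc, ← map_mul, mul_div_cancel₀ _ hj]

/-- functions vanishing on both components have small coordinates -/
theorem coord_lt {d : ℕ} {w : Fin d → F} (hw : ∀ i b, w i ∈ C.G b)
    (hli : LinearIndependent 𝕜 (fun i b => C.red b (w i))) {c : Fin d → K}
    (hx : ∀ b, (∑ i, ι' (c i) * w i) ∈ C.G b) (h0 : ∀ b, C.red b (∑ i, ι' (c i) * w i) = 0)
    (i : Fin d) : A.valuation (c i) < 1 := by
  by_cases hc : ∃ i, c i ≠ 0
  swap
  · push Not at hc; rw [hc i, map_zero]; exact zero_lt_one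
  have hli' : ∀ g : Fin d → 𝕜, (∀ b, True → ∑ i, g i • C.red b (w i) = 0) → ∀ i, g i = 0 :=
    fun g hg => Fintype.linearIndependent_iff.mp hli g (funext fun b => by
      simpa only [Finset.sum_apply, Pi.smul_apply, Pi.zero_apply] using hg b trivial)
  obtain ⟨j, hj, hmax, z, hz, ⟨b, -, hzb⟩, he⟩ :=
    exists_max_coord (C := C) w (fun _ => True) (fun b _ i => hw i b) hli' c hc
  refine (hmax i).trans_lt ?_
  have hA : c j ∈ A := C.mem_of_unit_mul b (hz b trivial) hzb (he ▸ hx b)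
  refine lt_of_le_of_ne ((A.valuation_le_one_iff _).mpr hA) fun h1 => ?_
  refine smul_ne_zero_of_eq b h1 (hz b trivial) hzb ?_
  rw [← he]; exact h0 b

end Coordinates

variable {p : ℕ}

/-- What is used of the two pushforwards of a twist: the functions `(∑ aᵢ vᵢ) ^ p f` close to one
have, on each component, `p`-th roots depending polynomially on `a`, with the same first order
restriction. -/
def PushInput {C : Core K A F Fs} (R : Rep C p) : Prop :=
  ∀ (d : ℕ) (v : Fin d → F) (b : Bool),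
    ∃ (r : ℕ) (e : Fin r → F) (t : Fin r → MvPolynomial (Fin d) K),
      (∀ k, e k ∈ C.G b) ∧ LinearIndependent 𝕜 (fun k => C.red b (e k)) ∧
      ∀ (a : Fin d → K) (c : K) (w : F), c ≠ 0 → A.valuation c < 1 → (∀ b', w ∈ C.G b') →
        (∑ i, ι' (a i) * v i) ^ p * R.f = 1 + ι' c * w →
        ∃ u ∈ C.G b, (1 + ∑ k, ι' (MvPolynomial.eval a (t k)) * e k) ^ p = 1 + ι' c * u ∧
          C.red b u = C.red b w

variable {D : Data K A F Fs}

/-- the error of the `p`-th power as polynomials in the coordinates -/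
theorem exists_error_poly (R : Rep D.toCore p) {m k : ℕ} (hk : k ≤ m) {d : ℕ} (v : Fin d → F)
    (hv : ∀ i, v i ∈ R.L m) :
    ∃ (d2 : ℕ) (w : Fin d2 → F) (P : Fin d2 → MvPolynomial (Fin d) K),
      (∀ j, w j ∈ riemannRochSpace ((p * m) • Pol (K := K) D.J) ∧ ∀ b, w j ∈ D.G b) ∧
      LinearIndependent 𝕜 (fun j b => D.red b (w j)) ∧
      ∀ a : Fin d → K, (∑ i, ι' (a i) * v i) ^ p * R.f - D.J ^ (p * k)
        = ∑ j, ι' (MvPolynomial.eval a (P j)) * w j := by
  classical
  obtain ⟨d2, w, hspan, hint, hli⟩ := D.exists_basis 1 (fun _ => one_ne_zero)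
    (riemannRochSpace ((p * m) • Pol (K := K) D.J)) (RR.finiteDimensional_rr _)
  have hint' : ∀ j b, w j ∈ D.G b := fun j b => by simpa using hint b j
  have hwL : ∀ j, w j ∈ riemannRochSpace ((p * m) • Pol (K := K) D.J) := fun j =>
    hspan ▸ Submodule.subset_span ⟨j, rfl⟩
  have hrep : ∀ y ∈ riemannRochSpace ((p * m) • Pol (K := K) D.J),
      ∃ c : Fin d2 → K, y = ∑ j, ι' (c j) * w j := by
    intro y hy
    rw [← hspan, Submodule.mem_span_range_iff_exists_fun] at hy
    obtain ⟨c, rfl⟩ := hy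
    exact ⟨c, by simp only [Algebra.smul_def]⟩
  have hJ : D.J ^ (p * k) ∈ riemannRochSpace ((p * m) • Pol (K := K) D.J) := fun P => by
    show Bd P (D.J ^ (p * k)) _
    rw [RR.bd_iff_ord (pow_ne_zero _ D.toCore.J_ne_zero), RR.ord_pow, Finsupp.smul_apply,
      RR.Pol_apply, nsmul_eq_mul]
    have h1 : ((p * k : ℕ) : ℤ) ≤ ((p * m : ℕ) : ℤ) := by exact_mod_cast Nat.mul_le_mul_left p hk
    have h2 : (0 : ℤ) ≤ max (-P.ord D.J) 0 := le_max_right _ _
    have h3 := mul_le_mul_of_nonneg_right h1 h2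
    have h4 := mul_le_mul_of_nonneg_left (le_max_left (-P.ord D.J) 0) (Int.natCast_nonneg (p * k))
    rw [mul_neg] at h4
    linarith
  choose cf hcf using fun t : Fin p → Fin d => hrep ((∏ i, v (t i)) * R.f) (fun P => by
    have h1 := rr_prod Finset.univ (fun i => v (t i)) (fun _ => m • Pol (K := K) D.J + R.E)
      (fun i _ => hv (t i))
    refine ((mem_rr.mp h1 P).mul (mem_rr.mp R.f_rr P)).mono (le_of_eq ?_)
    simp [mul_comm, mul_assoc])
  obtain ⟨c1, hc1⟩ := hrep _ hJ
  refine ⟨d2, w, fun j => ∑ t : Fin p → Fin d, MvPolynomial.C (cf t j) * ∏ i, MvPolynomial.X (t i)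
    - MvPolynomial.C (c1 j), fun j => ⟨hwL j, hint' j⟩, by simpa using hli, fun a => ?_⟩
  simp only [map_sub, map_sum, map_mul, map_prod, MvPolynomial.eval_C, MvPolynomial.eval_X,
    sub_mul, Finset.sum_sub_distrib, Finset.sum_mul]
  rw [← hc1, Finset.sum_comm, Fintype.sum_pow, Finset.sum_mul]
  congr 1
  refine Finset.sum_congr rfl fun t _ => ?_
  rw [Finset.prod_mul_distrib, mul_assoc, hcf t, Finset.mul_sum]
  exact Finset.sum_congr rfl fun j _ => by ring

variable [hp : Fact p.Prime] [CharP (ResidueField A) p]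

/-- the residual error is a `p`-th power, with exponent a constant of the field of definition -/
theorem residual_pow (R : Rep D.toCore p) (T : Subfield K) {d : ℕ} {v : Fin d → F} {k : ℕ}
    (b : Bool) {r : ℕ} {e : Fin r → F} {t : Fin r → MvPolynomial (Fin d) K}
    (he : ∀ l, e l ∈ D.G b) (hli : LinearIndependent 𝕜 (fun l => D.red b (e l)))
    (hspec : ∀ (a : Fin d → K) (c : K) (w : F), c ≠ 0 → A.valuation c < 1 → (∀ b', w ∈ D.G b') →
      (∑ i, ι' (a i) * ((D.J ^ k)⁻¹ * v i)) ^ p * R.f = 1 + ι' c * w →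
      ∃ u ∈ D.G b, (1 + ∑ l, ι' (MvPolynomial.eval a (t l)) * e l) ^ p = 1 + ι' c * u ∧
        D.red b u = D.red b w)
    (htT : ∀ l, ∀ n ∈ (t l).support, (t l).coeff n ∈ T)
    {a : Fin d → K} (haT : ∀ i, a i ∈ T) {c : K} (hc : A.valuation c < 1)
    (hpc : A.valuation (p : K) ^ p < A.valuation c ^ (p - 1)) {z : F} (hz : ∀ b', z ∈ D.G b')
    (heq : (∑ i, ι' (a i) * v i) ^ p * R.f - D.J ^ (p * k) = ι' c * z) :
    ∃ x : Fs, x ^ p = D.red b z ∧
      (D.red b z ≠ 0 → ∃ ε ∈ T, A.valuation ε ^ p = A.valuation c) := by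
  classical
  have hp0 := hp.out.ne_zero
  have hc0 : c ≠ 0 := by
    rintro rfl
    rw [map_zero, zero_pow (by have := hp.out.two_le; omega)] at hpc
    exact not_lt_zero hpc
  set w := (D.J ^ (p * k))⁻¹ * z
  have hw : ∀ b', w ∈ D.G b' := fun b' => mul_mem (D.toCore.J_zpow_mem b' _).1 (hz b')
  have hJ : (D.J ^ (p * k)) ≠ 0 := pow_ne_zero _ D.toCore.J_ne_zero
  have heq' : (∑ i, ι' (a i) * ((D.J ^ k)⁻¹ * v i)) ^ p * R.f = 1 + ι' c * w := by
    simp only [mul_left_comm (ι' (a _)), ← Finset.mul_sum, w]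
    rw [mul_left_comm, ← heq, mul_pow, inv_pow, ← pow_mul, mul_comm k p, mul_sub,
      inv_mul_cancel₀ hJ]
    ring
  obtain ⟨u, hu, hpow, hru⟩ := hspec a c w hc0 hc hw heq'
  have hzw : D.red b z = D.Jbar ^ (p * k) * D.red b w := by
    rw [← D.red_J b, ← D.toCore.red_pow b (D.J_mem b), ← D.red_mul b _ (pow_mem (D.J_mem b) _) _ (hw b)]
    simp only [w, mul_inv_cancel_left₀ hJ]
  by_cases h0 : ∃ l, MvPolynomial.eval a (t l) ≠ 0
  swap
  · push Not at h0
    have hu0 : u = 0 := by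
      simp only [h0, map_zero, zero_mul, Finset.sum_const_zero, add_zero, one_pow,
        left_eq_add, mul_eq_zero] at hpow
      exact hpow.resolve_left ((_root_.map_ne_zero _).mpr hc0)
    have hz0 : D.red b z = 0 := by rw [hzw, ← hru, hu0, D.toCore.red_zero, mul_zero]
    exact ⟨0, by rw [hz0, zero_pow hp0], fun h => absurd hz0 h⟩
  obtain ⟨l, -, -, U, hU, ⟨b', rfl, hU0⟩, hsum⟩ := exists_max_coord (C := D.toCore) e (fun b' => b' = b)
    (by rintro _ rfl i; exact he i)
    (fun g hg => Fintype.linearIndependent_iff.mp hli g (hg b rfl))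
    (fun l => MvPolynomial.eval a (t l)) h0
  rw [hsum] at hpow
  obtain ⟨hA, hr⟩ := root_lemma (C := D.toCore) b' (hU b' rfl) hU0 hu hc hpc hpow
  obtain ⟨μ, hμ⟩ := IsAlgClosed.exists_pow_nat_eq (MvPolynomial.eval a (t l) ^ p / c)
    (Nat.pos_of_ne_zero hp0)
  have hμA : μ ∈ A := mem_of_val_le ((pow_le_one_iff hp0).mp (by
    rw [← map_pow, hμ]; exact (A.valuation_le_one_iff _).mpr hA))
  refine ⟨D.Jbar ^ k * (residue A ⟨μ, hμA⟩ • D.red b' U), ?_, fun hne =>
    ⟨_, eval_mem_subfield T haT (htT l), ?_⟩⟩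
  · rw [hzw, ← hru, hr, mul_pow, ← pow_mul, mul_comm k p, smul_pow, ← map_pow]
    exact congrArg (fun x : A => D.Jbar ^ (p * k) * (residue A x • D.red b' U ^ p))
      (Subtype.ext hμ)
  · rw [hzw, ← hru, hr] at hne
    have h1 := (IsLocalRing.residue_ne_zero_iff_isUnit _).mp
      (left_ne_zero_of_smul (right_ne_zero_of_mul hne))
    have h2 := (A.valuation_eq_one_iff _).mp h1
    rw [map_div₀, map_pow, div_eq_one_iff_eq ((Valuation.ne_zero_iff _).mpr hc0)] at h2
    exact h2

/-- lifts of restrictions with coordinates in a field with full residue field -/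
theorem exists_lift_T (R : Rep D.toCore p) (T : Subfield K)
    (hres : ∀ a : A, ∃ t : A, (t : K) ∈ T ∧ residue A t = residue A a) {m d : ℕ} {v : Fin d → F}
    (hv : ∀ i, R.Integ (v i))
    (hrep : ∀ x ∈ R.L m, R.Integ x → ∃ c : Fin d → A, x = ∑ i, ι' (c i : K) * v i)
    {u : Bool → Fs} (hu : u ∈ R.T m) :
    ∃ t : Fin d → A, (∀ i, (t i : K) ∈ T) ∧ R.res (∑ i, ι' (t i : K) * v i) = u := by
  obtain ⟨x, hx, hx', rfl⟩ := hu
  obtain ⟨c, rfl⟩ := hrep x hx hx'
  choose t htT htr using fun i => hres (c i)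
  refine ⟨t, htT, ?_⟩
  rw [R.res_sum _ _ fun i _ => Rep.Integ.const_mul R (t i).2 (hv i),
    R.res_sum _ _ fun i _ => Rep.Integ.const_mul R (c i).2 (hv i)]
  exact Finset.sum_congr rfl fun i _ => by
    rw [R.res_const_mul _ (hv i), R.res_const_mul _ (hv i), htr]

/-- subtracting a small multiple of a lift of the root removes the residual error -/
theorem red_step_error (R : Rep D.toCore p) (b : Bool) {s W : F} (hs : R.Integ s) (hW : R.Integ W)
    {c ε : K} (hc0 : c ≠ 0) (hε : A.valuation ε ^ p = A.valuation c) (hc : A.valuation c < 1)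
    (hpc : A.valuation (p : K) ^ p < A.valuation c ^ (p - 1)) {g z : F}
    (hz : z ∈ D.G b) (he : s ^ p * R.f - g = ι' c * z) (hA : ε ^ p / c ∈ A)
    (hr : residue A ⟨_, hA⟩ • R.res W b ^ p = D.red b z) :
    (ι' c)⁻¹ * ((s - ι' ε * W) ^ p * R.f - g) ∈ D.G b ∧
      D.red b ((ι' c)⁻¹ * ((s - ι' ε * W) ^ p * R.f - g)) = 0 := by
  have hp0 := hp.out.ne_zero
  have hvc : A.valuation c ≠ 0 := (Valuation.ne_zero_iff _).mpr hc0
  have hε1 : A.valuation ε < 1 := (pow_lt_one_iff_of_nonneg zero_le hp0).mp (hε ▸ hc)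
  have h2 : A.valuation (-((p : K) * ε / c)) < 1 := by
    rw [Valuation.map_neg, map_div₀, map_mul, div_lt_one₀ (zero_lt_iff.mpr hvc)]
    refine lt_of_pow_lt_pow_left₀ p zero_le ?_
    rw [mul_pow, hε]
    calc A.valuation (p : K) ^ p * A.valuation c < A.valuation c ^ (p - 1) * A.valuation c :=
          mul_lt_mul_of_pos_right hpc (zero_lt_iff.mpr hvc)
      _ = A.valuation c ^ p := by rw [← pow_succ]; congr 1; have := hp.out.two_le; omega
  set S := ι' (R.α b) * s
  set Y := ι' (R.α b) * W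
  set U := (ι' (R.α b ^ p))⁻¹ * R.f
  have hεY : -(ι' ε * Y) ∈ D.G b :=
    neg_mem (D.toCore.const_mul_mem b (mem_of_val_le hε1.le) (hW b))
  obtain ⟨r, hr', hadd⟩ : ∃ r ∈ D.G b,
      (S + -(ι' ε * Y)) ^ p = S ^ p + (-(ι' ε * Y)) ^ p + p * S * (-(ι' ε * Y)) * r :=
    ⟨_, sum_mem fun i _ => mul_mem (mul_mem (pow_mem (hs b) _) (pow_mem hεY _)) (natCast_mem _ _),
      add_pow_prime_eq hp.out _ _⟩
  have e1 : (ι' c)⁻¹ * ((s - ι' ε * W) ^ p * R.f - g)
      = z + ι' ((-1) ^ p) * (ι' (ε ^ p / c) * (Y ^ p * U)) + ι' (-((p : K) * ε / c)) * (S * Y * r * U) := by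
    have h3 : (s - ι' ε * W) ^ p * R.f = (S + -(ι' ε * Y)) ^ p * U := by
      rw [R.pow_mul_eq b]; congr 2; simp only [S, Y]; ring
    have hk : ι' c ≠ 0 := (_root_.map_ne_zero _).mpr hc0
    rw [R.pow_mul_eq b s] at he
    rw [inv_mul_eq_iff_eq_mul₀ hk, h3, hadd, neg_pow, mul_pow, map_neg, map_div₀, map_div₀,
      map_mul, map_natCast, map_pow ι' (-1 : K) p, map_neg, map_one, map_pow]
    field_simp
    linear_combination he
  have hY : Y ^ p * U ∈ D.G b := mul_mem (pow_mem (hW b) _) (R.mem b)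
  have hSY : S * Y * r * U ∈ D.G b := mul_mem (mul_mem (mul_mem (hs b) (hW b)) hr') (R.mem b)
  have ha := D.toCore.const_mul_mem b hA hY
  have hsgn : ι' (((-1 : A) ^ p : A) : K) = ι' ((-1) ^ p) := by push_cast; rfl
  have ha' : ι' ((-1) ^ p) * (ι' (ε ^ p / c) * (Y ^ p * U)) ∈ D.G b :=
    hsgn ▸ D.toCore.const_mul_mem b ((-1 : A) ^ p).2 ha
  have hb := D.toCore.const_mul_mem b (mem_of_val_le h2.le) hSY
  rw [e1]
  refine ⟨add_mem (add_mem hz ha') hb, ?_⟩
  rw [D.red_add b _ (add_mem hz ha') _ hb, D.red_add b _ hz _ ha', ← hsgn,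
    D.toCore.red_const_mul b ((-1 : A) ^ p) ha, map_pow, map_neg, map_one, neg_one_pow_char,
    neg_one_smul, red_const_mul_lt b h2 hSY, add_zero,
    D.toCore.red_const_mul b ⟨_, hA⟩ hY, D.red_mul b _ (pow_mem (hW b) _) _ (R.mem b),
    D.toCore.red_pow b (hW b), R.red_eq b, ← mul_pow]
  exact add_neg_eq_zero.mpr hr.symm

set_option maxHeartbeats 1600000 in
/-- A section of a large twist whose `p`-th power is `J ^ (p k)` times the inverse of `f`, up to
`π ^ p`. -/
theorem exists_level {π : K} (hp1 : A.valuation (p : K) < 1)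
    (hπ : A.valuation π ^ (p - 1) = A.valuation (p : K))
    (hT : DiscreteFields A p) (R : Rep D.toCore p) (hP : PushInput R) {m : ℕ}
    (hTm : D.W m ≤ R.T m) {k : ℕ} (hk : k ≤ m) (hJ : (fun _ => D.Jbar ^ k) ∈ D.W m) :
    ∃ s ∈ R.L m, R.Integ s ∧ (R.res s = fun _ => D.Jbar ^ k) ∧
      ∃ z, (∀ b, z ∈ D.G b) ∧ s ^ p * R.f = D.J ^ (p * k) + ι' (π ^ p) * z := by
  classical
  have hp2 := hp.out.two_le
  have hp0 := hp.out.ne_zero
  obtain ⟨d, v, hv, -, -, hrep⟩ := R.exists_basis_L m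
  obtain ⟨d2, w, P, hw, hwli, hP'⟩ := exists_error_poly R hk v fun i => (hv i).1
  choose r e t he heli hspec using fun b => hP d (fun i => (D.J ^ k)⁻¹ * v i) b
  obtain ⟨T, N, hN, hS, hres, hdisc⟩ := hT
    ((Finset.univ.biUnion fun j => (P j).support.image (P j).coeff) ∪
      Finset.univ.biUnion fun b : Bool => Finset.univ.biUnion fun l =>
        (t b l).support.image (t b l).coeff)
  have hPT : ∀ j, ∀ n ∈ (P j).support, (P j).coeff n ∈ T := fun j n hn => hS (by
    simp only [Finset.coe_union, Set.mem_union, Finset.coe_biUnion, Finset.coe_image, Set.mem_iUnion,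
      Finset.coe_univ, Set.mem_image]
    exact Or.inl ⟨j, trivial, n, hn, rfl⟩)
  have htT : ∀ b l, ∀ n ∈ (t b l).support, (t b l).coeff n ∈ T := fun b l n hn => hS (by
    simp only [Finset.coe_union, Set.mem_union, Finset.coe_biUnion, Finset.coe_image, Set.mem_iUnion,
      Finset.coe_univ, Set.mem_image]
    exact Or.inr ⟨b, trivial, l, trivial, n, hn, rfl⟩)
  set sec : (Fin d → K) → F := fun a => ∑ i, ι' (a i) * v i with hsec
  set val := A.valuation
  let Good : (Fin d → K) → Prop := fun a =>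
    (∀ i, a i ∈ T) ∧ R.Integ (sec a) ∧ sec a ∈ R.L m ∧ (R.res (sec a) = fun _ => D.Jbar ^ k)
  have hsec' : ∀ c : Fin d → A, R.Integ (sec fun i => c i) ∧ sec (fun i => (c i : K)) ∈ R.L m :=
    fun c => ⟨Rep.Integ.sum R _ _ fun i _ => Rep.Integ.const_mul R (c i).2 (hv i).2,
      sum_mem fun i _ => by rw [← Algebra.smul_def]; exact (R.L m).smul_mem _ (hv i).1⟩
  -- the start
  obtain ⟨a0, ha0, ha0P⟩ : ∃ a, Good a ∧ ∀ j, val (MvPolynomial.eval a (P j)) < 1 := by
    obtain ⟨t0, ht0, ht0r⟩ := exists_lift_T R T hres (fun i => (hv i).2) hrep (hTm hJ)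
    refine ⟨fun i => t0 i, ⟨ht0, (hsec' t0).1, (hsec' t0).2, ht0r⟩, fun j => ?_⟩
    have hmem : ∀ b, sec (fun i => t0 i) ^ p * R.f - D.J ^ (p * k) ∈ D.G b := fun b => by
      rw [R.pow_mul_eq b]
      exact sub_mem (mul_mem (pow_mem ((hsec' t0).1 b) _) (R.mem b)) (pow_mem (D.J_mem b) _)
    refine coord_lt (fun j b => (hw j).2 b) hwli (c := fun j => MvPolynomial.eval _ (P j))
      (fun b => hP' (fun i => t0 i) ▸ hmem b) (fun b => ?_) j
    rw [← hP', R.pow_mul_eq b,
      D.toCore.red_sub b (mul_mem (pow_mem ((hsec' t0).1 b) _) (R.mem b)) (pow_mem (D.J_mem b) _),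
      D.red_mul b _ (pow_mem ((hsec' t0).1 b) _) _ (R.mem b), D.toCore.red_pow b ((hsec' t0).1 b),
      D.toCore.red_pow b (D.J_mem b), R.red_eq, D.red_J, ← mul_pow,
      show D.red b (ι' (R.α b) * sec fun i => t0 i) * R.h b = D.Jbar ^ k from congrFun ht0r b,
      ← pow_mul, mul_comm k p, sub_self]
  -- improving a large error
  have step : ∀ a, Good a → ∀ j0, (∀ j, val (MvPolynomial.eval a (P j)) ≤
      val (MvPolynomial.eval a (P j0))) → val (π ^ p) < val (MvPolynomial.eval a (P j0)) →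
      val (MvPolynomial.eval a (P j0)) < 1 →
      ∃ a', Good a' ∧ ∀ j, val (MvPolynomial.eval a' (P j)) < val (MvPolynomial.eval a (P j0)) := by
    rintro a ⟨haT, haI, haL, har⟩ j0 hmax hbig hlt
    set c := MvPolynomial.eval a (P j0) with hcdef
    have hc0 : c ≠ 0 := (Valuation.ne_zero_iff _).mp (ne_zero_of_lt hbig)
    have hpc : val (p : K) ^ p < val c ^ (p - 1) := by
      rw [← hπ, ← pow_mul, mul_comm (p - 1), pow_mul, ← map_pow]
      exact pow_lt_pow_left₀ hbig zero_le (by omega)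
    have hq : ∀ j, MvPolynomial.eval a (P j) / c ∈ A := fun j => mem_of_val_le (by
      rw [map_div₀]; exact div_le_one_of_le₀ (hmax j) zero_le)
    set z := ∑ j, ι' (MvPolynomial.eval a (P j) / c) * w j with hzdef
    have hz : ∀ b, z ∈ D.G b := fun b =>
      sum_mem fun j _ => D.toCore.const_mul_mem b (hq j) ((hw j).2 b)
    have hzrr : z ∈ riemannRochSpace ((p * m) • Pol (K := K) D.J) := sum_mem fun j _ => by
      rw [← Algebra.smul_def]; exact Submodule.smul_mem _ _ (hw j).1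
    have hez : sec a ^ p * R.f - D.J ^ (p * k) = ι' c * z := by
      rw [hP', hzdef, Finset.mul_sum]
      refine Finset.sum_congr rfl fun j _ => ?_
      rw [← mul_assoc, ← map_mul, mul_div_cancel₀ _ hc0]
    obtain ⟨b0, hb0⟩ : ∃ b, D.red b z ≠ 0 := by
      by_contra hno
      push Not at hno
      have h1 := coord_lt (fun j b => (hw j).2 b) hwli
        (c := fun j => MvPolynomial.eval a (P j) / c) hz hno j0
      rw [← hcdef, div_self hc0, map_one] at h1
      exact lt_irrefl _ h1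
    choose x hx hε using fun b => residual_pow (hp := hp) R T (k := k) b (he b) (heli b) (hspec b)
      (htT b) haT hlt hpc hz hez
    obtain ⟨ε, hεT, hεc⟩ := hε b0 hb0
    have hvc : A.valuation c ≠ 0 := (Valuation.ne_zero_iff _).mpr hc0
    have hunit : A.valuation (ε ^ p / c) = 1 := by rw [map_div₀, map_pow, hεc, div_self hvc]
    have hA : ε ^ p / c ∈ A := mem_of_val_le hunit.le
    obtain ⟨μ, hμ⟩ := IsAlgClosed.exists_pow_nat_eq (c / ε ^ p) (Nat.pos_of_ne_zero hp0)
    have hμA : μ ∈ A := by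
      refine mem_of_val_le ((pow_le_one_iff hp0).mp (le_of_eq ?_))
      rw [← map_pow, hμ, map_div₀, map_pow, hεc, div_self hvc]
    have hμr : residue A ⟨_, hA⟩ * residue A ⟨μ, hμA⟩ ^ p = 1 := by
      rw [← map_pow, ← map_mul, ← map_one (residue A)]
      refine congrArg (residue A) (Subtype.ext ?_)
      show ε ^ p / c * μ ^ p = 1
      have : ε ≠ 0 := by
        rintro rfl
        rw [map_zero, zero_pow hp0] at hεc
        exact hc0 ((Valuation.zero_iff _).mp hεc.symm)
      rw [hμ]; field_simp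
    -- the pair of roots is glued
    have hy : (residue A ⟨μ, hμA⟩ • fun b => x b) ∈ D.W m := by
      refine Submodule.smul_mem _ _ ⟨fun b => mem_target.mpr fun Q => ?_, fun s => ?_⟩
      · refine Core.bd_pow_iff hp0 ?_
        rw [hx b, ← mul_assoc, ← Nat.cast_mul]
        exact mem_target.mp (D.pole_bound _ z hzrr hz b) Q
      · obtain ⟨cz, hcz⟩ := D.glue _ z hzrr hz s
        have hval : ∀ b, ∃ cb, Val (D.pt b s) (x b) cb := fun b => by
          refine Reduction.exists_val (D.hasRes _) (Core.bd_pow_iff hp0 (e := 0) ?_)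
          rw [mul_zero, hx b]
          exact Reduction.Val.bd (hcz b)
        choose cb hcb using hval
        have h1 : ∀ b, cb b ^ p = cz := fun b => by
          have := (hcb b).pow p
          rw [hx b] at this
          exact this.unique (hcz b)
        refine ⟨cb false, fun b => ?_⟩
        rw [eq_of_pow_eq (k := 𝕜) p ((h1 false).trans (h1 b).symm)]
        exact hcb b
    obtain ⟨τ, hτT, hτr⟩ := exists_lift_T R T hres (fun i => (hv i).2) hrep (hTm hy)
    have hεA : ε ∈ A := mem_of_val_le ((pow_le_one_iff hp0).mp (hεc ▸ hlt.le))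
    have hsa : sec (fun i => a i - ε * (τ i : K))
        = sec a - ι' ε * ∑ i, ι' (τ i : K) * v i := by
      simp only [hsec, map_sub, map_mul, sub_mul, Finset.sum_sub_distrib, Finset.mul_sum, mul_assoc]
    have hWI := (hsec' τ).1
    have hεW : R.Integ (ι' ε * sec fun i => (τ i : K)) := Rep.Integ.const_mul R hεA hWI
    refine ⟨fun i => a i - ε * (τ i : K), ⟨fun i => sub_mem (haT i) (mul_mem hεT (hτT i)), ?_, ?_, ?_⟩,
      fun j => ?_⟩
    · rw [hsa]; intro b; rw [mul_sub]; exact sub_mem (haI b) (hεW b)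
    · rw [hsa, ← Algebra.smul_def]; exact sub_mem haL ((R.L m).smul_mem _ (hsec' τ).2)
    · rw [hsa, ← har]
      funext b
      show D.red b (ι' (R.α b) * (sec a - ι' ε * sec fun i => (τ i : K))) * R.h b
        = D.red b (ι' (R.α b) * sec a) * R.h b
      rw [mul_sub, D.toCore.red_sub b (haI b) (hεW b), mul_left_comm _ (ι' ε),
        red_const_mul_lt b ((pow_lt_one_iff_of_nonneg zero_le hp0).mp (hεc ▸ hlt)) (hWI b), sub_zero]
    · have hnew := fun b => red_step_error (hp := hp) R b haI hWI hc0 hεc hlt hpc (hz b) hez hA (by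
        rw [show R.res (sec fun i => (τ i : K)) b = residue A ⟨μ, hμA⟩ • x b from congrFun hτr b,
          smul_pow, smul_smul, hμr, one_smul, hx b])
      have h1 := coord_lt (fun j b => (hw j).2 b) hwli
        (c := fun j => c⁻¹ * MvPolynomial.eval (fun i => a i - ε * (τ i : K)) (P j))
      have h2 : ∑ j, ι' (c⁻¹ * MvPolynomial.eval (fun i => a i - ε * (τ i : K)) (P j)) * w j
          = (ι' c)⁻¹ * ((sec a - ι' ε * sec fun i => (τ i : K)) ^ p * R.f - D.J ^ (p * k)) := by
        rw [show sec a - ι' ε * sec (fun i => (τ i : K)) = sec fun i => a i - ε * (τ i : K) from hsa.symm,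
          hP', Finset.mul_sum]
        simp only [map_mul, map_inv₀, mul_assoc]
      rw [h2] at h1
      have h3 := h1 (fun b => (hnew b).1) (fun b => (hnew b).2) j
      rwa [map_mul, map_inv₀, inv_mul_lt_iff₀ (zero_lt_iff.mpr ((Valuation.ne_zero_iff _).mpr hc0)),
        mul_one] at h3
  -- the loop
  have loop : ∀ n : ℕ, ∃ a, Good a ∧ ∀ j, val (MvPolynomial.eval a (P j)) < 1 ∧
      (val (MvPolynomial.eval a (P j)) ^ N ≤ val (p : K) ^ n ∨
        val (MvPolynomial.eval a (P j)) ≤ val (π ^ p)) := by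
    intro n
    induction n with
    | zero => exact ⟨a0, ha0, fun j => ⟨ha0P j, Or.inl (by
        rw [pow_zero]; exact pow_le_one₀ zero_le (ha0P j).le)⟩⟩
    | succ n ih =>
      obtain ⟨a, ha, hP1⟩ := ih
      by_cases hall : ∀ j, val (MvPolynomial.eval a (P j)) ≤ val (π ^ p)
      · exact ⟨a, ha, fun j => ⟨(hP1 j).1, Or.inr (hall j)⟩⟩
      push Not at hall
      obtain ⟨j1, hj1⟩ := hall
      obtain ⟨j0, -, hmax⟩ := Finset.exists_max_image Finset.univ
        (fun j => val (MvPolynomial.eval a (P j))) ⟨j1, Finset.mem_univ _⟩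
      have hbig := hj1.trans_le (hmax j1 (Finset.mem_univ _))
      obtain ⟨a', ha', hlt'⟩ := step a ha j0 (fun j => hmax j (Finset.mem_univ _)) hbig (hP1 j0).1
      refine ⟨a', ha', fun j => ⟨(hlt' j).trans (hP1 j0).1, Or.inl ?_⟩⟩
      rcases eq_or_ne (MvPolynomial.eval a' (P j)) 0 with h0 | h0
      · rw [h0, map_zero, zero_pow hN.ne']; exact zero_le
      obtain ⟨i, hi⟩ := hdisc _ (eval_mem_subfield T ha'.1 (hPT j)) h0
      have hpK : 0 < val (p : K) := zero_lt_iff.mpr
        ((Valuation.ne_zero_iff _).mpr (Nat.cast_ne_zero.mpr hp0))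
      have h5 := pow_lt_pow_left₀ (hlt' j) zero_le hN.ne'
      have h6 := (hP1 j0).2.resolve_right (not_le.mpr hbig)
      rw [hi] at h5 ⊢
      have h7 := h5.trans_le h6
      rw [← zpow_natCast, zpow_lt_zpow_iff_right_of_lt_one₀ hpK hp1] at h7
      rw [← zpow_natCast, zpow_le_zpow_iff_right_of_lt_one₀ hpK hp1]
      push_cast
      omega
  obtain ⟨a, ⟨-, haI, haL, har⟩, hfin⟩ := loop (2 * N)
  have hπ0 : π ≠ 0 := by
    rintro rfl
    rw [map_zero, zero_pow (by omega)] at hπ
    exact Nat.cast_ne_zero.mpr hp0 ((Valuation.zero_iff _).mp hπ.symm)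
  have hsmall : ∀ j, val (MvPolynomial.eval a (P j)) ≤ val (π ^ p) := fun j => by
    rcases (hfin j).2 with h | h
    swap; · exact h
    rw [mul_comm 2, pow_mul', pow_le_pow_iff_left₀ zero_le zero_le hN.ne', ← hπ, ← pow_mul] at h
    refine h.trans ?_
    rw [map_pow]
    exact pow_le_pow_of_le_one zero_le ((pow_le_one_iff (by omega : p - 1 ≠ 0)).mp (hπ ▸ hp1.le))
      (by omega)
  have hπp : π ^ p ≠ 0 := pow_ne_zero _ hπ0
  refine ⟨sec a, haL, haI, har, ∑ j, ι' (MvPolynomial.eval a (P j) / π ^ p) * w j,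
    fun b => sum_mem fun j _ => D.toCore.const_mul_mem b (mem_of_val_le (by
      rw [map_div₀]; exact div_le_one_of_le₀ (hsmall j) zero_le)) ((hw j).2 b), ?_⟩
  rw [eq_comm, ← eq_sub_iff_add_eq', hP', Finset.mul_sum]
  refine Finset.sum_congr rfl fun j _ => ?_
  rw [← mul_assoc, ← map_mul, mul_div_cancel₀ _ hπp]

end FLTAgent.TOR
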