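import Fermat.Agent.TOR.ToricLevel
import Fermat.Agent.SS.Injective

/-!
Newton iteration for `x ^ p f = 1` modulo more than `π ^ p`, in residue characteristic `p`.
-/

set_option autoImplicit false
set_option linter.unusedSectionVars false

noncomputable section

open AlgebraicCurve IsLocalRing
open FLTAgent.RR (Bd Pol)
open FLTAgent.Reduction (Val)

namespace FLTAgent.TOR

open FLTAgent.SS

variable {K : Type*} [Field K] [IsAlgClosed K] [CharZero K] {A : ValuationSubring K}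
  {F : Type*} [Field F] [Algebra K F] [RR.FnField K F]
  {Fs : Type*} [Field Fs] [Algebra (ResidueField A) Fs]

local notation "𝕜" => ResidueField A
local notation "ι'" => algebraMap K F

section Units

variable {C : Core K A F Fs}

/-- functions congruent to one are units on both components -/
theorem one_add_inv_mem {c : K} (hc : A.valuation c < 1) {z : F} (hz : z ∈ gi C) :
    (1 + ι' c * z) ≠ 0 ∧ (1 + ι' c * z)⁻¹ ∈ gi C ∧
      ∀ b, C.red b (1 + ι' c * z)⁻¹ = 1 := by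
  have hr : ∀ b, C.red b (1 + ι' c * z) = 1 := fun b => by
    rw [C.red_add b _ (one_mem _) _ (C.const_mul_mem b (mem_of_val_le hc.le) (mem_gi.mp hz b)),
      C.red_one, red_const_mul_lt b hc (mem_gi.mp hz b), add_zero]
  have hne : ∀ b, C.red b (1 + ι' c * z) ≠ 0 := fun b => by rw [hr b]; exact one_ne_zero
  have hm : ∀ b, (1 + ι' c * z) ∈ C.G b := fun b =>
    add_mem (one_mem _) (C.const_mul_mem b (mem_of_val_le hc.le) (mem_gi.mp hz b))
  refine ⟨fun h => hne false (by rw [h, C.red_zero]),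
    mem_gi.mpr fun b => (C.inv_mem b (hm b) (hne b)).1, fun b => ?_⟩
  rw [(C.inv_mem b (hm b) (hne b)).2, hr b, inv_one]

variable {n : ℕ} {R : SS.Rep C n}

/-- sections with restriction one divide the integral sections -/
theorem div_mem_gi {x z : F} (hx : R.Integ x) (hxr : R.res x = 1) (hz : R.Integ z) :
    x ≠ 0 ∧ z / x ∈ gi C ∧ ∀ b, C.red b (z / x) = R.res z b := by
  have hu : ∀ b, C.red b (ι' (R.α b) * x) * R.h b = 1 := fun b => congrFun hxr b
  have hne : ∀ b, C.red b (ι' (R.α b) * x) ≠ 0 := fun b h0 => by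
    have := hu b; rw [h0, zero_mul] at this; exact zero_ne_one this
  have hx0 : x ≠ 0 := fun h => hne false (by rw [h, mul_zero, C.red_zero])
  have e : ∀ b, z / x = (ι' (R.α b) * z) * (ι' (R.α b) * x)⁻¹ := fun b => by
    rw [← div_eq_mul_inv, mul_div_mul_left _ _ ((_root_.map_ne_zero _).mpr (R.α_ne b))]
  refine ⟨hx0, mem_gi.mpr fun b => e b ▸ mul_mem (hz b) (C.inv_mem b (hx b) (hne b)).1, fun b => ?_⟩
  rw [e b, C.red_mul b _ (hz b) _ (C.inv_mem b (hx b) (hne b)).1, (C.inv_mem b (hx b) (hne b)).2,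
    inv_eq_of_mul_eq_one_right (hu b)]
  rfl

theorem integ_mul {x g : F} (hx : R.Integ x) (hg : g ∈ gi C) : R.Integ (x * g) := fun b => by
  rw [← mul_assoc]; exact mul_mem (hx b) (mem_gi.mp hg b)

theorem res_mul {x g : F} (hx : R.Integ x) (hg : g ∈ gi C) (b : Bool) :
    R.res (x * g) b = R.res x b * C.red b g := by
  show C.red b (ι' (R.α b) * (x * g)) * R.h b = C.red b (ι' (R.α b) * x) * R.h b * C.red b g
  rw [← mul_assoc, C.red_mul b _ (hx b) _ (mem_gi.mp hg b)]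
  ring

theorem res_mul_one_add {x g : F} {c : K} (hx : R.Integ x) (hc : A.valuation c < 1) (hg : g ∈ gi C) :
    R.Integ (x * (1 + ι' c * g)) ∧ R.res (x * (1 + ι' c * g)) = R.res x := by
  have hm : ι' c * g ∈ gi C := mul_mem (const_mem_gi hc.le) hg
  refine ⟨integ_mul hx (add_mem (one_mem _) hm), funext fun b => ?_⟩
  rw [res_mul hx (add_mem (one_mem _) hm), C.red_add b _ (one_mem _) _ (mem_gi.mp hm b),
    red_const_mul_lt b hc (mem_gi.mp hg b), C.red_one, add_zero, mul_one]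

end Units

variable {p : ℕ} [hp : Fact p.Prime] [CharP (ResidueField A) p]

/-- the valuation of `π` is that of `ζ_p - 1` -/
structure IsPi (A : ValuationSubring K) (p : ℕ) (π : K) : Prop where
  p_lt : A.valuation (p : K) < 1
  ne : π ≠ 0
  eq : A.valuation π ^ (p - 1) = A.valuation (p : K)

theorem IsPi.lt {π : K} (h : IsPi A p π) : A.valuation π < 1 :=
  (pow_lt_one_iff_of_nonneg zero_le (by have := hp.out.two_le; omega)).mp (h.eq ▸ h.p_lt)

theorem IsPi.unit {π : K} (h : IsPi A p π) : A.valuation ((p : K) / π ^ (p - 1)) = 1 := by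
  rw [map_div₀, map_pow, h.eq, div_self]
  exact (Valuation.ne_zero_iff _).mpr (Nat.cast_ne_zero.mpr hp.out.ne_zero)

variable {D : Data K A F Fs} {R : SS.Rep D.toCore p} {π : K}

/-- two roots modulo `π ^ p` differ by a multiple of `π` -/
theorem ratio (hπ : IsPi A p π) {x y z z' : F} (hx : R.Integ x) (hxr : R.res x = 1)
    (hy : R.Integ y) (hyr : R.res y = 1) (hz : z ∈ gi D.toCore) (hz' : z' ∈ gi D.toCore)
    (hxe : x ^ p * R.f = 1 + ι' (π ^ p) * z) (hye : y ^ p * R.f = 1 + ι' (π ^ p) * z') :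
    ∃ g ∈ gi D.toCore, y = x * (1 + ι' π * g) ∧
      ∀ (δ : K) (z₁ z₁' : F), A.valuation δ < 1 → z₁ ∈ gi D.toCore → z₁' ∈ gi D.toCore →
        z = ι' δ * z₁ → z' = ι' δ * z₁' → (∀ b, D.red b g = 0) →
        ∃ g' ∈ gi D.toCore, g = ι' δ * g' := by
  have hπp : A.valuation (π ^ p) < 1 := by
    rw [map_pow]; exact pow_lt_one₀ zero_le hπ.lt hp.out.ne_zero
  have hk : ι' π ≠ 0 := (_root_.map_ne_zero _).mpr hπ.ne
  obtain ⟨hx0, hX, hXr⟩ := div_mem_gi hx hxr hy
  obtain ⟨hu0, hui, -⟩ := one_add_inv_mem hπp hz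
  set X := y / x
  set w := (z' - z) * (1 + ι' (π ^ p) * z)⁻¹
  have hw : w ∈ gi D.toCore := mul_mem (sub_mem hz' hz) hui
  have hXe : X ^ p = 1 + ι' (π ^ p) * w := by
    have h1 : X ^ p * (x ^ p * R.f) = y ^ p * R.f := by
      rw [← mul_assoc, ← mul_pow, div_mul_cancel₀ _ hx0]
    rw [hxe, hye] at h1
    simp only [w]
    field_simp
    linear_combination h1
  have hb := fun b => exists_eq_one_add (C := D.toCore) b hπ.p_lt hπ.ne hπ.eq (mem_gi.mp hX b)
    (mem_gi.mp hw b) (by rw [hXr b]; exact congrFun hyr b) hXe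
  choose g hg hge hgδ using hb
  have heq : ∀ b, g b = (X - 1) / ι' π := fun b => by
    rw [eq_div_iff hk]; linear_combination -(hge b)
  refine ⟨(X - 1) / ι' π, mem_gi.mpr fun b => heq b ▸ hg b, ?_, fun δ z₁ z₁' hδ h₁ h₁' e e' hg0 => ?_⟩
  · rw [mul_div_cancel₀ _ hk, add_sub_cancel, mul_div_cancel₀ _ hx0]
  rcases eq_or_ne δ 0 with rfl | hδ0
  · refine ⟨0, zero_mem _, ?_⟩
    obtain ⟨g', -, h'⟩ := hgδ false 0 0 (by simp) (zero_mem _)
      (by simp [w, e, e']) (by rw [heq]; exact hg0 false)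
    rw [← heq false, h']
    simp
  have hkδ : ι' δ ≠ 0 := (_root_.map_ne_zero _).mpr hδ0
  refine ⟨(X - 1) / ι' π / ι' δ, mem_gi.mpr fun b => ?_, by rw [mul_div_cancel₀ _ hkδ]⟩
  obtain ⟨g', hg', h'⟩ := hgδ b δ ((z₁' - z₁) * (1 + ι' (π ^ p) * z)⁻¹) hδ
    (mem_gi.mp (mul_mem (sub_mem h₁' h₁) hui) b) (by simp only [w, e, e']; ring)
    (by rw [heq]; exact hg0 b)
  rw [← heq b, h', mul_div_cancel_left₀ _ hkδ]
  exact hg'

/-- one Newton step for a single approximate root -/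
theorem newton_one (hπ : IsPi A p π) (hp2 : 2 ≤ p) {δ : K} (hδ : A.valuation δ < 1) {x z : F}
    (hx : R.Integ x) (hz : z ∈ gi D.toCore) (he : x ^ p * R.f = 1 + ι' (π ^ p * δ) * z) :
    R.Integ (x * (1 + ι' (π * δ) * (ι' (-(π ^ (p - 1) / p)) * z))) ∧
      R.res (x * (1 + ι' (π * δ) * (ι' (-(π ^ (p - 1) / p)) * z))) = R.res x ∧
      ∃ z₂ ∈ gi D.toCore, (x * (1 + ι' (π * δ) * (ι' (-(π ^ (p - 1) / p)) * z))) ^ p * R.f
        = 1 + ι' (π ^ p * δ ^ 2) * z₂ := by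
  have hvδ : A.valuation (π * δ) < 1 := by
    rw [map_mul]
    exact lt_of_le_of_lt (mul_le_of_le_one_left' hπ.lt.le) hδ
  set u : K := -(π ^ (p - 1) / p) with hu
  have hu1 : A.valuation u = 1 := by
    rw [hu, Valuation.map_neg, ← inv_div, map_inv₀, hπ.unit, inv_one]
  have huz : ι' u * z ∈ gi D.toCore := mul_mem (const_mem_gi hu1.le) hz
  have ht : ι' (π * δ) * (ι' u * z) ∈ gi D.toCore := mul_mem (const_mem_gi hvδ.le) huz
  obtain ⟨r, hr, hpow⟩ := exists_one_add_pow_prime (gi D.toCore) ht hp.out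
  refine ⟨(res_mul_one_add hx hvδ huz).1, (res_mul_one_add hx hvδ huz).2,
    -(ι' (π ^ p) * z ^ 2) + (1 + ι' (π ^ p * δ) * z) *
      (ι' (u ^ p * δ ^ (p - 2)) * z ^ p - ι' (π * u) * z ^ 2 * r), ?_, ?_⟩
  · have h1 : ∀ a : K, A.valuation a ≤ 1 → ι' a ∈ gi D.toCore := fun a => const_mem_gi
    refine add_mem (neg_mem (mul_mem (h1 _ ?_) (pow_mem hz 2)))
      (mul_mem (add_mem (one_mem _) (mul_mem (h1 _ ?_) hz))
        (sub_mem (mul_mem (h1 _ ?_) (pow_mem hz p)) (mul_mem (mul_mem (h1 _ ?_) (pow_mem hz 2)) hr)))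
    · rw [map_pow]; exact pow_le_one₀ zero_le hπ.lt.le
    · rw [map_mul, map_pow]; exact mul_le_one₀ (pow_le_one₀ zero_le hπ.lt.le) zero_le hδ.le
    · rw [map_mul, map_pow, map_pow, hu1, one_pow, one_mul]; exact pow_le_one₀ zero_le hδ.le
    · rw [map_mul, hu1, mul_one]; exact hπ.lt.le
  · rw [mul_pow, mul_right_comm, he, hpow]
    have e1 : (p : F) * ι' (π * δ) * ι' u = -ι' (π ^ p * δ) := by
      rw [← map_natCast ι', ← map_mul, ← map_mul, ← map_neg]
      congr 1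
      rw [hu, show π ^ p = π ^ (p - 1) * π by rw [← pow_succ]; congr 1; omega]
      have : (p : K) ≠ 0 := Nat.cast_ne_zero.mpr hp.out.ne_zero
      field_simp
    have e2 : δ ^ p = δ ^ 2 * δ ^ (p - 2) := by rw [← pow_add]; congr 1; omega
    simp only [map_mul, map_pow] at e1 ⊢
    rw [mul_pow, mul_pow, ← map_pow ι' δ, e2, map_mul, map_pow, map_pow]
    linear_combination ((1 + ι' π ^ p * ι' δ * z) * z * (1 + ι' π * ι' δ * (ι' u * z) * r)) * e1

/-- approximate solutions on the two charts, agreeing to the same order -/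
def State (R : SS.Rep D.toCore p) (π : K) (m : ℕ) (δ : K) (x y : F) : Prop :=
  x ∈ R.L m ∧ R.Integ x ∧ R.res x = 1 ∧ R.OnInf y ∧ R.Integ y ∧ R.res y = 1 ∧
    (∃ z ∈ gi D.toCore, x ^ p * R.f = 1 + ι' (π ^ p * δ) * z) ∧
    (∃ z ∈ gi D.toCore, y ^ p * R.f = 1 + ι' (π ^ p * δ) * z) ∧
    ∃ g ∈ gi D.toCore, y = x * (1 + ι' (π * δ) * g)

set_option maxHeartbeats 1600000 in
/-- an improved state -/
theorem newton_state (hπ : IsPi A p π) (hp2 : 2 ≤ p) {ζ : D.ι → 𝕜} (hζ : Data.IsJump R ζ) {m : ℕ}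
    (hm : ∀ a ∈ D.toCore.P m, (∀ s c, Val (D.pt false s) (a false) c →
      Val (D.pt true s) (a true) (ζ s * c)) → a ∈ R.T m)
    {δ : K} (hδ : A.valuation δ < 1) {x y : F} (h : State R π m δ x y) :
    ∃ x' y', State R π m (δ ^ 2) x' y' := by
  obtain ⟨hxL, hxI, hxr, hyI', hyI, hyr, ⟨z, hz, hze⟩, ⟨z', hz', hze'⟩, g, hg, hgy⟩ := h
  have hvπδ : A.valuation (π * δ) < 1 := by
    rw [map_mul]; exact lt_of_le_of_lt (mul_le_of_le_one_left' hπ.lt.le) hδ
  have hδ2 : A.valuation (δ ^ 2) < 1 := by rw [map_pow]; exact pow_lt_one₀ zero_le hδ two_ne_zero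
  have hvπδ2 : A.valuation (π * δ ^ 2) < 1 := by
    rw [map_mul]; exact lt_of_le_of_lt (mul_le_of_le_one_left' hπ.lt.le) hδ2
  set u : K := -(π ^ (p - 1) / p) with hu
  have hu1 : A.valuation u = 1 := by
    rw [hu, Valuation.map_neg, ← inv_div, map_inv₀, hπ.unit, inv_one]
  obtain ⟨hXI, hXr, z₂, hz₂, hXe⟩ := newton_one hπ hp2 hδ hxI hz hze
  obtain ⟨hYI, hYr, z₂', hz₂', hYe⟩ := newton_one hπ hp2 hδ hyI hz' hze'
  set X := x * (1 + ι' (π * δ) * (ι' u * z)) with hXd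
  set Y := y * (1 + ι' (π * δ) * (ι' u * z')) with hYd
  rw [hxr] at hXr
  rw [hyr] at hYr
  have huz : ι' u * z ∈ gi D.toCore := mul_mem (const_mem_gi hu1.le) hz
  have huz' : ι' u * z' ∈ gi D.toCore := mul_mem (const_mem_gi hu1.le) hz'
  have hπp : ι' (π ^ p * δ ^ 2) = ι' (π ^ p) * ι' (δ ^ 2) := map_mul _ _ _
  -- the two new roots agree to the same order
  obtain ⟨G, hG, hGe, hGδ⟩ := ratio hπ hXI hXr hYI hYr
    (mul_mem (const_mem_gi hδ2.le) hz₂) (mul_mem (const_mem_gi hδ2.le) hz₂')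
    (by rw [hXe, hπp, mul_assoc]) (by rw [hYe, hπp, mul_assoc])
  have hG0 : ∀ b, D.red b G = 0 := by
    obtain ⟨hd0, hdi, -⟩ := one_add_inv_mem hvπδ huz
    have hw : (g + ι' u * z' * (1 + ι' (π * δ) * g) - ι' u * z) *
        (1 + ι' (π * δ) * (ι' u * z))⁻¹ ∈ gi D.toCore :=
      mul_mem (sub_mem (add_mem hg (mul_mem huz' (add_mem (one_mem _)
        (mul_mem (const_mem_gi hvπδ.le) hg)))) huz) hdi
    intro b
    have : G = ι' δ * ((g + ι' u * z' * (1 + ι' (π * δ) * g) - ι' u * z) *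
        (1 + ι' (π * δ) * (ι' u * z))⁻¹) := by
      obtain ⟨hX0, -, -⟩ := div_mem_gi hXI hXr hXI
      have hk : ι' π ≠ 0 := (_root_.map_ne_zero _).mpr hπ.ne
      have hx0 : x ≠ 0 := (div_mem_gi hxI hxr hxI).1
      refine mul_left_cancel₀ (mul_ne_zero hX0 hk) ?_
      have h1 := hGe
      rw [hYd, hgy] at h1
      rw [hXd] at h1 ⊢
      have hinv := mul_inv_cancel₀ hd0
      simp only [map_mul] at h1 hinv ⊢
      linear_combination -h1 -
        (x * ι' π * ι' δ * (g + ι' u * z' * (1 + ι' π * ι' δ * g) - ι' u * z)) * hinv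
    rw [this, red_const_mul_lt b hδ (mem_gi.mp hw b)]
  obtain ⟨G', hG', rfl⟩ := hGδ (δ ^ 2) z₂ z₂' hδ2 hz₂ hz₂' rfl rfl hG0
  -- saturation
  have hXL : X ∈ R.L (m + p * m) := by
    intro P
    show Bd P X _
    have h1 : x ^ p * R.f ∈ riemannRochSpace ((p * m) • Pol (K := K) D.J) := by
      have := (R.prod_spec (fun _ => x) (fun _ => hxL) fun _ => hxI).1
      simpa using this
    have hone : Bd P (1 : F) ((p * m : ℕ) * max (-P.ord D.J) 0) := by
      have := (RR.Bd.of_algebraMap (v := P) (1 : K)).mono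
        (mul_nonneg (Int.natCast_nonneg (p * m)) (le_max_right (-P.ord D.J) 0))
      rwa [map_one] at this
    have hs : Bd P (1 + ι' (π * δ) * (ι' u * z)) ((p * m : ℕ) * max (-P.ord D.J) 0) := by
      refine hone.add ?_
      have : ι' (π * δ) * (ι' u * z) = (π * δ * u / (π ^ p * δ)) • (x ^ p * R.f - 1) := by
        rcases eq_or_ne δ 0 with h0 | h0
        · simp [h0]
        rw [Algebra.smul_def, hze, add_sub_cancel_left, ← mul_assoc, ← mul_assoc, ← map_mul,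
          ← map_mul, div_mul_cancel₀ _ (mul_ne_zero (pow_ne_zero _ hπ.ne) h0)]
      rw [this]
      refine RR.Bd.smul (RR.Bd.sub ?_ hone) _
      have := mem_rr.mp h1 P
      rwa [Finsupp.smul_apply, RR.Pol_apply, nsmul_eq_mul] at this
    refine ((mem_rr.mp hxL P).mul hs).mono (le_of_eq ?_)
    simp [RR.Pol_apply]
    ring
  have hYI2 : R.OnInf Y := by
    intro P hP
    have hone : Bd P (1 : F) 0 := by
      have := RR.Bd.of_algebraMap (v := P) (1 : K)
      rwa [map_one] at this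
    have h1 : Bd P (y ^ p * R.f) 0 := by
      refine (((hyI' P hP).pow p).mul (mem_rr.mp R.f_rr P)).mono (le_of_eq ?_)
      simp
    have hs : Bd P (1 + ι' (π * δ) * (ι' u * z')) 0 := by
      refine hone.add ?_
      have : ι' (π * δ) * (ι' u * z') = (π * δ * u / (π ^ p * δ)) • (y ^ p * R.f - 1) := by
        rcases eq_or_ne δ 0 with h0 | h0
        · simp [h0]
        rw [Algebra.smul_def, hze', add_sub_cancel_left, ← mul_assoc, ← mul_assoc, ← map_mul,
          ← map_mul, div_mul_cancel₀ _ (mul_ne_zero (pow_ne_zero _ hπ.ne) h0)]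
      rw [this]
      exact RR.Bd.smul (h1.sub hone) _
    have := (hyI' P hP).mul hs
    rwa [add_zero] at this
  set c : A := ⟨π * δ ^ 2, mem_of_val_le hvπδ2.le⟩ with hc
  have hW : R.Integ (-(X * G')) := fun b => by
    rw [mul_neg]; exact neg_mem (integ_mul hXI hG' b)
  have hYJ : R.OnInf ((D.J ^ m)⁻¹ * (X - ι' (c : K) * -(X * G'))) := by
    have e : X - ι' (c : K) * -(X * G') = Y := by
      rw [hGe]; simp only [hc, map_mul]; ring
    rw [e]
    have h := R.pair.symm_pow_Vinf m (x := Y) hYI2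
    rw [R.pair_symm_pow_apply] at h
    exact h
  obtain ⟨V, z3, hV, hVI, -, hz3, hXV⟩ :=
    Data.saturate hp.out.ne_zero hζ (Nat.le_add_right m (p * m)) hm hXL hXI hW hYJ
  obtain ⟨hX0, hh, -⟩ := div_mem_gi hXI hXr hz3
  set h := z3 / X with hhd
  have hVX : V = X * (1 + ι' (π * δ ^ 2) * -h) := by
    rw [hhd, mul_add, mul_one, mul_neg, mul_neg, mul_left_comm, mul_div_cancel₀ _ hX0]
    linear_combination -hXV
  obtain ⟨r, hr, hpow⟩ := exists_one_add_pow_prime (gi D.toCore)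
    (mul_mem (const_mem_gi hvπδ2.le) (neg_mem hh)) hp.out
  set P2 : K := π ^ p * δ ^ 2
  have e1 : (p : F) * ι' (π * δ ^ 2) = ι' P2 * ι' ((p : K) / π ^ (p - 1)) := by
    rw [← map_natCast ι', ← map_mul, ← map_mul]
    congr 1
    simp only [P2]
    rw [show π ^ p = π ^ (p - 1) * π by rw [← pow_succ]; congr 1; omega]
    have := pow_ne_zero (p - 1) hπ.ne
    field_simp
  have e2 : (π * δ ^ 2) ^ p = P2 * (δ ^ 2) ^ (p - 1) := by
    simp only [P2]
    rw [mul_pow, mul_assoc, ← pow_succ' (δ ^ 2), Nat.sub_add_cancel (by omega : 1 ≤ p)]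
  set zV : F := z₂ + (1 + ι' P2 * z₂) *
    (ι' ((δ ^ 2) ^ (p - 1)) * (-h) ^ p + ι' ((p : K) / π ^ (p - 1)) * (-h) *
      (1 + ι' (π * δ ^ 2) * -h * r)) with hzV
  have hP2 : A.valuation P2 ≤ 1 := by
    rw [map_mul, map_pow]; exact mul_le_one₀ (pow_le_one₀ zero_le hπ.lt.le) zero_le hδ2.le
  have hzVg : zV ∈ gi D.toCore := by
    refine add_mem hz₂ (mul_mem (add_mem (one_mem _) (mul_mem (const_mem_gi hP2) hz₂))
      (add_mem (mul_mem (const_mem_gi ?_) (pow_mem (neg_mem hh) _))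
        (mul_mem (mul_mem (const_mem_gi hπ.unit.le) (neg_mem hh))
          (add_mem (one_mem _) (mul_mem (mul_mem (const_mem_gi hvπδ2.le) (neg_mem hh)) hr)))))
    rw [map_pow]; exact pow_le_one₀ zero_le hδ2.le
  obtain ⟨hv0, hvi, -⟩ := one_add_inv_mem hvπδ2 (neg_mem hh)
  refine ⟨V, Y, hV, hVI, ?_, hYI2, hYI, hYr, ⟨zV, hzVg, ?_⟩, ⟨z₂', hz₂', hYe⟩,
    (G' + h) * (1 + ι' (π * δ ^ 2) * -h)⁻¹, mul_mem (add_mem hG' hh) hvi, ?_⟩
  · rw [hVX, (res_mul_one_add hXI hvπδ2 (neg_mem hh)).2, hXr]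
  · rw [hVX, mul_pow, mul_right_comm, hXe, hpow]
    have e3 : (ι' (π * δ ^ 2) * -h) ^ p = ι' P2 * ι' ((δ ^ 2) ^ (p - 1)) * (-h) ^ p := by
      rw [mul_pow, ← map_pow, e2, map_mul]
    rw [e3, show (p : F) * (ι' (π * δ ^ 2) * -h) = ι' P2 * ι' ((p : K) / π ^ (p - 1)) * -h by
      rw [← mul_assoc, e1]]
    simp only [hzV]
    ring
  · have e4 : (1 + ι' (π * δ ^ 2) * -h) *
        (1 + ι' (π * δ ^ 2) * ((G' + h) * (1 + ι' (π * δ ^ 2) * -h)⁻¹))
        = 1 + ι' π * (ι' (δ ^ 2) * G') := by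
      rw [mul_add, mul_one, mul_left_comm, mul_left_comm _ (G' + h), mul_inv_cancel₀ hv0, mul_one]
      simp only [map_mul]
      ring
    rw [hVX, mul_assoc, e4]
    exact hGe

/-- the divisor of a twist with an exact root is principal -/
theorem principal_of_root {x : F} (hx : x ^ p * R.f = 1) :
    ∃ x : F, x ≠ 0 ∧ ∀ P : Place K F, R.E P = P.ord x := by
  have hp0 := hp.out.ne_zero
  have hx0 : x ≠ 0 := by rintro rfl; rw [zero_pow hp0, zero_mul] at hx; exact zero_ne_one hx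
  refine ⟨x⁻¹, inv_ne_zero hx0, fun P => ?_⟩
  have h1 := congrArg P.ord hx
  rw [P.ord_mul (pow_ne_zero _ hx0) R.f_ne, RR.ord_pow, ← R.ord_f,
    show P.ord (1 : F) = 0 by simpa using RR.ord_algebraMap P (1 : K), ← mul_add] at h1
  rw [P.ord_inv]
  rcases mul_eq_zero.mp h1 with h2 | h2
  · exact absurd (Int.natCast_eq_zero.mp h2) hp0
  · omega

/-- a state more precise than `π ^ p` gives a principal divisor -/
theorem principal_of_state (hπ : IsPi A p π) (hp2 : 2 ≤ p) (hA : Arch A) {ζ : D.ι → 𝕜}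
    (hζ : Data.IsJump R ζ) {m : ℕ}
    (hm : ∀ a ∈ D.toCore.P m, (∀ s c, Val (D.pt false s) (a false) c →
      Val (D.pt true s) (a true) (ζ s * c)) → a ∈ R.T m)
    {δ : K} (hδ : A.valuation δ < 1) (hδ0 : δ ≠ 0) {x y : F} (h : State R π m δ x y) :
    ∃ x : F, x ≠ 0 ∧ ∀ P : Place K F, R.E P = P.ord x := by
  set e : A := ⟨δ, mem_of_val_le hδ.le⟩
  set P0 : A := ⟨π ^ p, mem_of_val_le (by rw [map_pow]; exact pow_le_one₀ zero_le hπ.lt.le)⟩
  have iter : ∀ j : ℕ, ∃ x y, State R π m (δ ^ 2 ^ j) x y := by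
    intro j
    induction j with
    | zero => exact ⟨x, y, by rw [pow_zero, pow_one]; exact h⟩
    | succ j ih =>
      obtain ⟨x, y, hxy⟩ := ih
      rw [pow_succ, pow_mul]
      exact newton_state hπ hp2 hζ hm
        (by rw [map_pow]; exact pow_lt_one₀ zero_le hδ (by positivity)) hxy
  obtain ⟨x, -, hx⟩ := Data.exists_root hp.out.ne_zero R (m := m) (e := e)
    ((A.valuation_lt_one_iff _).mpr hδ) (fun h0 => hδ0 (congrArg Subtype.val h0)) fun c hc => by
      obtain ⟨j, hj⟩ := hA c e hc ((A.valuation_lt_one_iff _).mpr hδ)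
      obtain ⟨x, y, hxL, hxI, hxr, -, -, -, ⟨z, hz, hze⟩, -⟩ := iter j
      refine ⟨x, hxL, P0 * e ^ 2 ^ j,
        dvd_mul_of_dvd_right (hj.trans (pow_dvd_pow e Nat.lt_two_pow_self.le)) _,
        hxI, hxr, z, mem_gi.mp hz, ?_⟩
      rw [hze]; rfl
  exact principal_of_root hx

end FLTAgent.TOR
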