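import Fermat.Agent.SS.Basic

/-!
`p`-th roots of functions close to one on a component, in residue characteristic `p`.
-/

set_option autoImplicit false
set_option linter.unusedSectionVars false

noncomputable section

open AlgebraicCurve IsLocalRing

namespace FLTAgent.TOR

open FLTAgent.SS

/-- the binomial theorem for a prime exponent, to second order -/
theorem exists_one_add_pow_prime {R : Type*} [CommRing R] (S : Subring R) {y : R} (hy : y ∈ S)
    {p : ℕ} (hp : p.Prime) :
    ∃ r ∈ S, (1 + y) ^ p = 1 + y ^ p + p * y * (1 + y * r) := by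
  classical
  refine ⟨∑ i ∈ Finset.Ioo 0 (p - 1), y ^ (p - i - 2) * ((p.choose i / p : ℕ) : R),
    sum_mem fun i _ => mul_mem (pow_mem hy _) (natCast_mem S _), ?_⟩
  rw [add_pow_prime_eq hp]
  have h2 := hp.two_le
  have e : Finset.Ioo 0 p = insert (p - 1) (Finset.Ioo 0 (p - 1)) := by
    ext i; simp only [Finset.mem_insert, Finset.mem_Ioo]; omega
  rw [e, Finset.sum_insert (by simp)]
  simp only [one_pow, mul_one, one_mul]
  rw [show p - (p - 1) - 1 = 0 by omega, pow_zero, one_mul,
    show p.choose (p - 1) = p by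
      rw [Nat.choose_symm (by omega : 1 ≤ p), Nat.choose_one_right],
    Nat.div_self hp.pos, Nat.cast_one, Finset.mul_sum]
  refine congrArg (fun t => 1 + y ^ p + (p : R) * y * (1 + t)) (Finset.sum_congr rfl fun i hi => ?_)
  rw [Finset.mem_Ioo] at hi
  rw [show p - i - 1 = (p - i - 2) + 1 by omega, pow_succ]
  ring

/-- the sum of the first order terms of a power -/
theorem exists_one_add_pow {R : Type*} [CommRing R] (S : Subring R) {y : R} (hy : y ∈ S) :
    ∀ n : ℕ, ∃ r ∈ S, (1 + y) ^ n = 1 + n * y + y ^ 2 * r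
  | 0 => ⟨0, zero_mem S, by simp⟩
  | n + 1 => by
    obtain ⟨r, hr, h⟩ := exists_one_add_pow S hy n
    refine ⟨n + r * (1 + y), add_mem (natCast_mem S n) (mul_mem hr (add_mem (one_mem S) hy)), ?_⟩
    rw [pow_succ, h]
    push_cast
    ring

/-- `p`-th roots are unique over a field of characteristic `p` -/
theorem eq_of_pow_eq {k E : Type*} [Field k] [Field E] [Algebra k E] (p : ℕ) [hp : Fact p.Prime]
    [CharP k p] {x y : E} (h : x ^ p = y ^ p) : x = y := by
  haveI : CharP E p := charP_of_injective_algebraMap (algebraMap k E).injective p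
  have h2 : (x - y) ^ p = 0 := by rw [sub_pow_char, h, sub_self]
  exact sub_eq_zero.mp ((pow_eq_zero_iff hp.out.ne_zero).mp h2)

variable {K : Type*} [Field K] [IsAlgClosed K] [CharZero K] {A : ValuationSubring K}
  {F : Type*} [Field F] [Algebra K F] [RR.FnField K F]
  {Fs : Type*} [Field Fs] [Algebra (ResidueField A) Fs]

local notation "𝕜" => ResidueField A
local notation "ι'" => algebraMap K F

theorem mem_of_val_le {c : K} (h : A.valuation c ≤ 1) : c ∈ A := (A.valuation_le_one_iff c).mp h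

theorem residue_eq_zero_of_lt {c : A} (h : A.valuation (c : K) < 1) : residue A c = 0 :=
  Core.residue_eq_zero ((A.valuation_lt_one_iff c).mpr h)

theorem residue_ne_zero_of_eq {c : A} (h : A.valuation (c : K) = 1) : residue A c ≠ 0 := fun h0 =>
  absurd ((A.valuation_lt_one_iff c).mp ((residue_eq_zero_iff c).mp h0)) (by rw [h]; exact lt_irrefl _)

variable (C : Core K A F Fs)

/-- functions integral on both components -/
def gi : Subring F := C.G false ⊓ C.G true

variable {C}

theorem mem_gi {x : F} : x ∈ gi C ↔ ∀ b, x ∈ C.G b :=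
  ⟨fun h b => by cases b; exacts [h.1, h.2], fun h => ⟨h false, h true⟩⟩

theorem const_mem_gi {c : K} (h : A.valuation c ≤ 1) : ι' c ∈ gi C :=
  mem_gi.mpr fun b => C.const_mem b ⟨c, mem_of_val_le h⟩

theorem red_const_mul_lt (b : Bool) {c : K} (h : A.valuation c < 1) {x : F} (hx : x ∈ C.G b) :
    C.red b (ι' c * x) = 0 := by
  rw [C.red_const_mul b ⟨c, mem_of_val_le h.le⟩ hx, residue_eq_zero_of_lt h, zero_smul]

theorem smul_ne_zero_of_eq (b : Bool) {c : K} (h : A.valuation c = 1) {x : F} (hx : x ∈ C.G b)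
    (hr : C.red b x ≠ 0) : C.red b (ι' c * x) ≠ 0 := by
  rw [C.red_const_mul b ⟨c, mem_of_val_le h.le⟩ hx]
  exact smul_ne_zero (residue_ne_zero_of_eq h) hr

/-- functions whose powers are integral are integral -/
theorem mem_of_pow_mem (b : Bool) {x : F} {n : ℕ} (hn : n ≠ 0) (h : x ^ n ∈ C.G b) : x ∈ C.G b := by
  rcases eq_or_ne x 0 with rfl | hx
  · exact zero_mem _
  obtain ⟨d, hd, hu, hr⟩ := C.exists_scale b x hx
  have h1 : ι' (d ^ n)⁻¹ * (ι' d * x) ^ n ∈ C.G b := by
    rwa [mul_pow, ← map_pow, ← mul_assoc, ← map_mul, inv_mul_cancel₀ (pow_ne_zero _ hd), map_one,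
      one_mul]
  have h2 := C.mem_of_unit_mul b (pow_mem hu n) (by rw [C.red_pow b hu]; exact pow_ne_zero _ hr) h1
  have h3 : d⁻¹ ∈ A := by
    refine mem_of_val_le ((pow_le_one_iff hn).mp ?_)
    rw [← map_pow, inv_pow]
    exact (A.valuation_le_one_iff _).mpr h2
  have h4 := C.const_mul_mem b h3 hu
  rwa [← mul_assoc, ← map_mul, inv_mul_cancel₀ hd, map_one, one_mul] at h4

variable {p : ℕ} [hp : Fact p.Prime] [CharP (ResidueField A) p]

omit [CharP (ResidueField A) p] in
theorem natCast_p : A.valuation (p : K) ≤ 1 := by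
  simpa only [SubringClass.coe_natCast] using (A.valuation_le_one (p : A))

/-- A `p`-th root `1 + e U` of `1 + c u` with `U` a unit: `e ^ p` is at most `c`, and the leading
part of `u` is a multiple of the `p`-th power of `U`. -/
theorem root_lemma (b : Bool) {c e : K} {U u : F} (hU : U ∈ C.G b) (hU0 : C.red b U ≠ 0)
    (hu : u ∈ C.G b) (hc : A.valuation c < 1)
    (hpc : A.valuation (p : K) ^ p < A.valuation c ^ (p - 1))
    (h : (1 + ι' e * U) ^ p = 1 + ι' c * u) :
    ∃ he : e ^ p / c ∈ A, C.red b u = residue A ⟨e ^ p / c, he⟩ • C.red b U ^ p := by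
  have hp2 := hp.out.two_le
  have hc0 : c ≠ 0 := by
    rintro rfl
    rw [map_zero, zero_pow (by omega)] at hpc
    exact absurd hpc not_lt_zero
  have hvc : A.valuation c ≠ 0 := (Valuation.ne_zero_iff _).mpr hc0
  have hT : 1 + ι' e * U ∈ C.G b := mem_of_pow_mem b hp.out.ne_zero
    (h ▸ add_mem (one_mem _) (C.const_mul_mem b (mem_of_val_le hc.le) hu))
  have heU : ι' e * U ∈ C.G b := by simpa using sub_mem hT (one_mem (C.G b))
  have heA : e ∈ A := C.mem_of_unit_mul b hU hU0 heU
  obtain ⟨r, hr, hpow⟩ := exists_one_add_pow_prime (C.G b) heU hp.out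
  have key : ι' c * u = ι' (e ^ p) * U ^ p + ι' ((p : K) * e) * (U * (1 + ι' e * U * r)) := by
    have h1 := hpow.symm.trans h
    rw [map_mul, map_natCast, map_pow, ← mul_pow]
    linear_combination -h1
  have hG : U * (1 + ι' e * U * r) ∈ C.G b := mul_mem hU (add_mem (one_mem _) (mul_mem heU hr))
  have hle : A.valuation e ^ p ≤ A.valuation c := by
    by_contra hlt
    push Not at hlt
    have hve : A.valuation e ≠ 0 := fun h0 => by
      rw [h0, zero_pow hp.out.ne_zero] at hlt; exact not_lt_zero hlt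
    have he0 : e ≠ 0 := (Valuation.ne_zero_iff _).mp hve
    have h1 : A.valuation (c / e ^ p) < 1 := by
      rw [map_div₀, map_pow]; exact (div_lt_one₀ (zero_lt_iff.mpr (pow_ne_zero _ hve))).mpr hlt
    have h2 : A.valuation ((p : K) * e / e ^ p) < 1 := by
      rw [map_div₀, map_mul, map_pow, div_lt_one₀ (zero_lt_iff.mpr (pow_ne_zero _ hve))]
      rw [show A.valuation e ^ p = A.valuation e ^ (p - 1) * A.valuation e by
        rw [← pow_succ]; congr 1; omega]
      refine mul_lt_mul_of_pos_right ?_ (zero_lt_iff.mpr hve)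
      refine lt_of_pow_lt_pow_left₀ p zero_le ?_
      refine hpc.trans_le ?_
      rw [← pow_mul, mul_comm, pow_mul]
      exact pow_le_pow_left₀ zero_le hlt.le _
    have e1 : ι' (c / e ^ p) * u = U ^ p + ι' ((p : K) * e / e ^ p) * (U * (1 + ι' e * U * r)) := by
      have hk : ι' (e ^ p) ≠ 0 := (_root_.map_ne_zero _).mpr (pow_ne_zero _ he0)
      rw [map_div₀, map_div₀, div_mul_eq_mul_div, div_mul_eq_mul_div, key, add_div,
        mul_div_cancel_left₀ _ hk]
    have := congrArg (C.red b) e1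
    rw [red_const_mul_lt b h1 hu, C.red_add b _ (pow_mem hU p) _
      (C.const_mul_mem b (mem_of_val_le h2.le) hG), red_const_mul_lt b h2 hG, add_zero,
      C.red_pow b hU] at this
    exact pow_ne_zero _ hU0 this.symm
  have h1 : A.valuation (e ^ p / c) ≤ 1 := by
    rw [map_div₀, map_pow]; exact div_le_one_of_le₀ hle zero_le
  have h2 : A.valuation ((p : K) * e / c) < 1 := by
    rw [map_div₀, map_mul, div_lt_one₀ (zero_lt_iff.mpr hvc)]
    refine lt_of_pow_lt_pow_left₀ p zero_le ?_
    rw [mul_pow]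
    refine lt_of_le_of_lt (mul_le_mul_right hle _) ?_
    calc A.valuation (p : K) ^ p * A.valuation c < A.valuation c ^ (p - 1) * A.valuation c :=
          mul_lt_mul_of_pos_right hpc (zero_lt_iff.mpr hvc)
      _ = A.valuation c ^ p := by rw [← pow_succ]; congr 1; omega
  refine ⟨mem_of_val_le h1, ?_⟩
  have hk : ι' c ≠ 0 := (_root_.map_ne_zero _).mpr hc0
  have e1 : u = ι' (e ^ p / c) * U ^ p + ι' ((p : K) * e / c) * (U * (1 + ι' e * U * r)) := by
    rw [map_div₀, map_div₀, div_mul_eq_mul_div, div_mul_eq_mul_div, ← add_div, ← key,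
      mul_div_cancel_left₀ _ hk]
  conv_lhs => rw [e1]
  rw [C.red_add b _ (C.const_mul_mem b (mem_of_val_le h1) (pow_mem hU p)) _
    (C.const_mul_mem b (mem_of_val_le h2.le) hG), red_const_mul_lt b h2 hG, add_zero,
    C.red_const_mul b ⟨_, mem_of_val_le h1⟩ (pow_mem hU p), C.red_pow b hU]

/-- A function congruent to one whose `p`-th power is one modulo `π ^ p` is one modulo `π`. -/
theorem exists_eq_one_add (b : Bool) {π : K} (hp1 : A.valuation (p : K) < 1) (hπ0 : π ≠ 0)
    (hπ : A.valuation π ^ (p - 1) = A.valuation (p : K)) {x w : F} (hx : x ∈ C.G b)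
    (hw : w ∈ C.G b) (hxr : C.red b x = 1) (h : x ^ p = 1 + ι' (π ^ p) * w) :
    ∃ g ∈ C.G b, x = 1 + ι' π * g ∧ ∀ (δ : K) (w' : F), A.valuation δ < 1 → w' ∈ C.G b →
      w = ι' δ * w' → C.red b g = 0 → ∃ g' ∈ C.G b, g = ι' δ * g' := by
  have hp2 := hp.out.two_le
  have hvπ : A.valuation π ≠ 0 := (Valuation.ne_zero_iff _).mpr hπ0
  have hπ1 : A.valuation π < 1 :=
    (pow_lt_one_iff_of_nonneg zero_le (by omega)).mp (hπ ▸ hp1)
  have hk : ι' π ≠ 0 := (_root_.map_ne_zero _).mpr hπ0
  set g := (x - 1) / ι' π with hgdef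
  have hxg : x = 1 + ι' π * g := by rw [hgdef, mul_div_cancel₀ _ hk]; ring
  have hg : g ∈ C.G b := by
    rcases eq_or_ne (x - 1) 0 with h0 | h0
    · rw [hgdef, h0, zero_div]; exact zero_mem _
    obtain ⟨d, hd, hU, hU0⟩ := C.exists_scale b (x - 1) h0
    set U := ι' d * (x - 1)
    have hxU : x - 1 = ι' d⁻¹ * U := by
      simp only [U, ← mul_assoc, ← map_mul, inv_mul_cancel₀ hd, map_one, one_mul]
    have he : A.valuation d⁻¹ ≤ A.valuation π := by
      by_contra hlt
      push Not at hlt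
      have hd1 : A.valuation d⁻¹ < 1 := by
        have hm : d⁻¹ ∈ A := C.mem_of_unit_mul b hU hU0 (hxU ▸ sub_mem hx (one_mem _))
        refine lt_of_le_of_ne ((A.valuation_le_one_iff _).mpr hm) fun h1 => ?_
        refine smul_ne_zero_of_eq b h1 hU hU0 ?_
        rw [← hxU, C.red_sub b hx (one_mem _), hxr, C.red_one, sub_self]
      have hcU : (1 + ι' d⁻¹ * U) ^ p = 1 + ι' (d⁻¹ ^ p) * (ι' ((π * d) ^ p) * w) := by
        conv_rhs => rw [← mul_assoc, ← map_mul, ← mul_pow, show d⁻¹ * (π * d) = π by field_simp]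
        rw [← hxU, add_sub_cancel, h]
      have hπd : A.valuation (π * d) < 1 := by
        rw [map_inv₀] at hlt
        rw [map_mul]
        calc A.valuation π * A.valuation d < (A.valuation d)⁻¹ * A.valuation d :=
              mul_lt_mul_of_pos_right hlt (zero_lt_iff.mpr ((Valuation.ne_zero_iff _).mpr hd))
          _ = 1 := inv_mul_cancel₀ ((Valuation.ne_zero_iff _).mpr hd)
      have hπdp : A.valuation ((π * d) ^ p) < 1 := by
        rw [map_pow]; exact pow_lt_one₀ zero_le hπd hp.out.ne_zero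
      obtain ⟨_, hr⟩ := root_lemma (p := p) b hU hU0
        (C.const_mul_mem b (mem_of_val_le hπdp.le) hw) (c := d⁻¹ ^ p)
        (by rw [map_pow]; exact pow_lt_one₀ zero_le hd1 hp.out.ne_zero)
        (by
          rw [map_pow, ← pow_mul, mul_comm, pow_mul]
          refine pow_lt_pow_left₀ ?_ zero_le hp.out.ne_zero
          rw [← hπ]
          exact pow_lt_pow_left₀ hlt zero_le (by omega))
        hcU
      rw [red_const_mul_lt b hπdp hw] at hr
      refine smul_ne_zero (residue_ne_zero_of_eq ?_) (pow_ne_zero _ hU0) hr.symm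
      show A.valuation (d⁻¹ ^ p / d⁻¹ ^ p) = 1
      rw [div_self (pow_ne_zero _ (inv_ne_zero hd)), map_one]
    have : g = ι' (d⁻¹ / π) * U := by
      rw [hgdef, hxU, map_div₀, div_mul_eq_mul_div]
    rw [this]
    refine C.const_mul_mem b (mem_of_val_le ?_) hU
    rw [map_div₀]; exact div_le_one_of_le₀ he zero_le
  refine ⟨g, hg, hxg, fun δ w' hδ hw' hwe hg0 => ?_⟩
  have hπg : ι' π * g ∈ C.G b := C.const_mul_mem b (mem_of_val_le hπ1.le) hg
  obtain ⟨r, hr, hpow⟩ := exists_one_add_pow_prime (C.G b) hπg hp.out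
  have hu : A.valuation ((p : K) / π ^ (p - 1)) = 1 := by
    rw [map_div₀, map_pow, hπ, div_self]
    rw [← hπ]
    exact pow_ne_zero _ hvπ
  set u := (p : K) / π ^ (p - 1) with hudef
  have huπ : (p : K) * π = π ^ p * u := by
    rw [hudef, show π ^ p = π ^ (p - 1) * π by rw [← pow_succ]; congr 1; omega]
    field_simp
  set S := g ^ (p - 1) + ι' u * (1 + ι' π * g * r)
  have hS1 : 1 + ι' π * g * r ∈ C.G b := add_mem (one_mem _) (mul_mem hπg hr)
  have hS : S ∈ C.G b :=
    add_mem (pow_mem hg _) (C.const_mul_mem b (mem_of_val_le hu.le) hS1)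
  have hS0 : C.red b S ≠ 0 := by
    rw [C.red_add b _ (pow_mem hg _) _ (C.const_mul_mem b (mem_of_val_le hu.le) hS1),
      C.red_pow b hg, hg0, zero_pow (by omega), zero_add]
    refine smul_ne_zero_of_eq b hu hS1 ?_
    rw [C.red_add b _ (one_mem _) _ (mul_mem hπg hr), C.red_one, C.red_mul b _ hπg _ hr,
      red_const_mul_lt b hπ1 hg, zero_mul, add_zero]
    exact one_ne_zero
  have key : g * S = ι' δ * w' := by
    refine mul_left_cancel₀ (pow_ne_zero p hk) ?_
    have h1 := hpow
    rw [← hxg, h, hwe] at h1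
    have h2 : (p : F) * (ι' π) = ι' π ^ p * ι' u := by
      rw [← map_natCast ι', ← map_mul, huπ, map_mul, map_pow]
    have h3 : g ^ p = g * g ^ (p - 1) := by rw [← pow_succ']; congr 1; omega
    rw [map_pow, mul_pow, h3] at h1
    linear_combination (norm := skip) -h1
    simp only [S]
    linear_combination -(g * (1 + ι' π * g * r)) * h2
  have hS' : S ≠ 0 := fun h0 => hS0 (by rw [h0, C.red_zero])
  refine ⟨w' * S⁻¹, mul_mem hw' (C.inv_mem b hS hS0).1, ?_⟩
  rw [← mul_assoc, ← key, mul_assoc, mul_inv_cancel₀ hS', mul_one]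

end FLTAgent.TOR
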